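import Mathlib
import Fermat.Prelude.Def_ModularCurve_ArithmeticGalois
import Fermat.Agent.S28L.DegBarAux
import Fermat.Agent.X0Count.Index

/-!
# S18, assembly: the auxiliary level `N' = lcm(N, a)` and the degree of `F_{N'}` over `F_N`
-/

set_option autoImplicit false

open ModularCurve

namespace Fermat.Agent.S18L

/-- the auxiliary prime: `2` for `ℓ = 3`, `3` for `ℓ = 2`, `1` otherwise -/
def auxPrime (ℓ : ℕ) : ℕ := if ℓ = 3 then 2 else if ℓ = 2 then 3 else 1

/-- the auxiliary level -/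
def auxLevel (N ℓ : ℕ) : ℕ := Nat.lcm N (auxPrime ℓ)

theorem adeg_auxPrime_ne_zero (ℓ : ℕ) : auxPrime ℓ ≠ 0 := by
  unfold auxPrime; split_ifs <;> norm_num

instance auxLevel_neZero (N ℓ : ℕ) [NeZero N] : NeZero (auxLevel N ℓ) :=
  ⟨Nat.lcm_ne_zero (NeZero.ne N) (adeg_auxPrime_ne_zero ℓ)⟩

theorem dvd_auxLevel (N ℓ : ℕ) : N ∣ auxLevel N ℓ := Nat.dvd_lcm_left _ _

theorem adeg_not_dvd_auxPrime (ℓ : ℕ) (hℓ : ℓ.Prime) : ¬ ℓ ∣ auxPrime ℓ := by
  intro h
  have h2 := hℓ.two_le
  have hle := Nat.le_of_dvd (Nat.pos_of_ne_zero (adeg_auxPrime_ne_zero ℓ)) h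
  by_cases h3 : ℓ = 3
  · have : auxPrime ℓ = 2 := by simp [auxPrime, h3]
    omega
  by_cases h2' : ℓ = 2
  · have : auxPrime ℓ = 3 := by simp [auxPrime, h2']
    rw [this, h2'] at h
    omega
  · have : auxPrime ℓ = 1 := by simp [auxPrime, h3, h2']
    omega

theorem not_dvd_auxLevel {N ℓ : ℕ} [Fact ℓ.Prime] (hℓN : ¬ ℓ ∣ N) : ¬ ℓ ∣ auxLevel N ℓ := by
  intro h
  have hℓ : ℓ.Prime := Fact.out
  have h1 : ℓ ∣ N * auxPrime ℓ := h.trans (Nat.lcm_dvd_mul _ _)
  rcases (hℓ.dvd_mul).mp h1 with h2 | h2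
  · exact hℓN h2
  · exact adeg_not_dvd_auxPrime ℓ hℓ h2

theorem auxLevel_cases (N ℓ : ℕ) [Fact ℓ.Prime] :
    5 ≤ ℓ ∨ (ℓ = 3 ∧ 2 ∣ auxLevel N ℓ) ∨ (ℓ = 2 ∧ 3 ∣ auxLevel N ℓ) := by
  have hℓ : ℓ.Prime := Fact.out
  by_cases h3 : ℓ = 3
  · right; left
    refine ⟨h3, ?_⟩
    have : auxPrime ℓ = 2 := by simp [auxPrime, h3]
    rw [auxLevel, this]
    exact Nat.dvd_lcm_right _ _
  by_cases h2 : ℓ = 2
  · right; right
    refine ⟨h2, ?_⟩
    have : auxPrime ℓ = 3 := by simp [auxPrime, h2]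
    rw [auxLevel, this]
    exact Nat.dvd_lcm_right _ _
  left
  have h4 : ℓ ≠ 4 := by
    rintro rfl
    exact absurd hℓ (by decide)
  have := hℓ.two_le
  omega

/-- monotonicity of the function fields in the level -/
theorem bar_le_bar {N N' : ℕ} [NeZero N] [NeZero N'] (h : N ∣ N') :
    modularFunctionFieldBar N ≤ modularFunctionFieldBar N' := by
  unfold modularFunctionFieldBar laurentBaseChange
  exact IntermediateField.adjoin.mono _ _ _ (Set.image_mono (full_degeneracy_le h))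

theorem adeg_adjoin_le (M : ℕ) [NeZero M] :
    IntermediateField.adjoin (AlgebraicClosure ℚ) {coeffEmb (AlgebraicClosure ℚ) jq}
      ≤ modularFunctionFieldBar M := by
  rw [IntermediateField.adjoin_le_iff]
  rintro x hx
  rw [Set.mem_singleton_iff] at hx
  subst hx
  exact (Fermat.Agent.X0S24.Embed.jbar M).2

theorem adeg_relfinrank_bar (M : ℕ) [NeZero M] :
    IntermediateField.relfinrank
        (IntermediateField.adjoin (AlgebraicClosure ℚ) {coeffEmb (AlgebraicClosure ℚ) jq})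
        (modularFunctionFieldBar M) = dedekindPsi M := by
  rw [← Fermat.Agent.S28L.DegBar.finrank_bar M, ← IntermediateField.relfinrank_top_right,
    ← IntermediateField.relfinrank_map_map _ _ (modularFunctionFieldBar M).val,
    IntermediateField.adjoin_map, ← AlgHom.fieldRange_eq_map, IntermediateField.fieldRange_val,
    Set.image_singleton]
  rfl

theorem adeg_psi_pos (M : ℕ) [NeZero M] : 0 < dedekindPsi M := by
  rw [← Fermat.Agent.S28L.DegBar.finrank_bar M]
  have := Fermat.Agent.S28L.DegBar.finite_bar M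
  exact Module.finrank_pos

theorem adeg_relfinrank_cases (N : ℕ) [NeZero N] (ℓ : ℕ) :
    IntermediateField.relfinrank (modularFunctionFieldBar N)
        (modularFunctionFieldBar (auxLevel N ℓ)) = 1 ∨
    IntermediateField.relfinrank (modularFunctionFieldBar N)
        (modularFunctionFieldBar (auxLevel N ℓ)) = ℓ ∨
    IntermediateField.relfinrank (modularFunctionFieldBar N)
        (modularFunctionFieldBar (auxLevel N ℓ)) = ℓ ^ 2 := by
  have hN : N ≠ 0 := NeZero.ne N
  have htower := IntermediateField.relfinrank_mul_relfinrank (adeg_adjoin_le N)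
    (bar_le_bar (dvd_auxLevel N ℓ))
  rw [adeg_relfinrank_bar, adeg_relfinrank_bar] at htower
  have hpos := adeg_psi_pos N
  by_cases hdvd : auxPrime ℓ ∣ N
  · left
    have h1 : auxLevel N ℓ = N := Nat.lcm_eq_left hdvd
    simp only [h1]
    exact IntermediateField.relfinrank_self _
  · have key : ∀ a : ℕ, a.Prime → auxPrime ℓ = a →
        IntermediateField.relfinrank (modularFunctionFieldBar N)
          (modularFunctionFieldBar (auxLevel N ℓ)) = a + 1 := by
      intro a ha hEq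
      rw [hEq] at hdvd
      have hcop : Nat.Coprime N a := ((Nat.Prime.coprime_iff_not_dvd ha).mpr hdvd).symm
      have h1 : auxLevel N ℓ = a * N := by
        rw [auxLevel, hEq, hcop.lcm_eq_mul, mul_comm]
      rw [h1, Fermat.Agent.X0Count.ix_psi_prime_mul ha hN, if_neg hdvd, mul_comm] at htower
      have := Nat.eq_of_mul_eq_mul_right hpos htower
      rw [← this, h1]
    by_cases h3 : ℓ = 3
    · right; left
      rw [key 2 Nat.prime_two (by simp [auxPrime, h3]), h3]
    by_cases h2 : ℓ = 2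
    · right; right
      rw [key 3 Nat.prime_three (by simp [auxPrime, h2]), h2]
      norm_num
    · exfalso
      apply hdvd
      simp [auxPrime, h3, h2]

/-- the degree of `F_{N'}` over `F_N` is positive and prime to every `m` prime to `ℓ` -/
theorem relfinrank_auxLevel (N : ℕ) [NeZero N] (ℓ : ℕ) [Fact ℓ.Prime] (m : ℕ) (hm : ¬ ℓ ∣ m) :
    0 < IntermediateField.relfinrank (modularFunctionFieldBar N)
        (modularFunctionFieldBar (auxLevel N ℓ)) ∧
      Nat.Coprime (IntermediateField.relfinrank (modularFunctionFieldBar N)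
        (modularFunctionFieldBar (auxLevel N ℓ))) m := by
  have hℓ : ℓ.Prime := Fact.out
  have hc : Nat.Coprime ℓ m := (Nat.Prime.coprime_iff_not_dvd hℓ).mpr hm
  rcases adeg_relfinrank_cases N ℓ with h | h | h <;> rw [h]
  · exact ⟨Nat.one_pos, Nat.coprime_one_left m⟩
  · exact ⟨hℓ.pos, hc⟩
  · exact ⟨pow_pos hℓ.pos 2, hc.pow_left 2⟩

end Fermat.Agent.S18L
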