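import Mathlib
import Fermat.Prelude.Def_ModularCurve_ReductionModL
import Fermat.Agent.X0S24.Embed

/-!
# S18, assembly: the Gauss-type valuation ring of `F = modularFunctionFieldBar M` and its
reduction map to `F_k = modularFunctionFieldFullC k M`  (definitions + elementary properties)

`A` a valuation subring of `ℚ̄`, `k` its residue field.  An integral series `a : A((q))` is
*good* if its image `ι a` in `ℚ̄((q))` lies in `F` and its reduction `ρ a` in `k((q))` lies in
`F_k`.  `asmO` is the set of quotients `ι a / ι b` of good series with `ρ b ≠ 0`, and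
`asmRed (ι a / ι b) = ρ a / ρ b`.
-/

set_option autoImplicit false
set_option synthInstance.maxHeartbeats 400000

open ModularCurve HahnSeries

namespace Fermat.Agent.S18L

open Fermat.Agent.X0S24

variable (A : ValuationSubring (AlgebraicClosure ℚ)) (M : ℕ) [NeZero M]

/-- the inclusion `A((q)) → ℚ̄((q))` -/
noncomputable def asmIota : LaurentSeries A →+* LaurentSeries (AlgebraicClosure ℚ) :=
  coeffMap A.subtype

/-- the reduction `A((q)) → k((q))` -/
noncomputable def asmRho : LaurentSeries A →+* LaurentSeries (IsLocalRing.ResidueField A) :=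
  coeffMap (IsLocalRing.residue A)

/-- good integral series -/
def AsmGood (a : LaurentSeries A) : Prop :=
  asmIota A a ∈ modularFunctionFieldBar M ∧
    asmRho A a ∈ modularFunctionFieldFullC (IsLocalRing.ResidueField A) M

theorem asmIota_injective : Function.Injective (asmIota A) := by
  intro x y h
  ext n
  have h2 := congrArg (fun z => z.coeff n) h
  exact h2

theorem agd_good_zero : AsmGood A M 0 := by
  refine ⟨?_, ?_⟩
  · rw [map_zero]; exact zero_mem _
  · rw [map_zero]; exact zero_mem _

theorem agd_good_one : AsmGood A M 1 := by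
  refine ⟨?_, ?_⟩
  · rw [map_one]; exact one_mem _
  · rw [map_one]; exact one_mem _

theorem agd_good_add {a b : LaurentSeries A} (ha : AsmGood A M a) (hb : AsmGood A M b) :
    AsmGood A M (a + b) := by
  refine ⟨?_, ?_⟩
  · rw [map_add]; exact add_mem ha.1 hb.1
  · rw [map_add]; exact add_mem ha.2 hb.2

theorem agd_good_mul {a b : LaurentSeries A} (ha : AsmGood A M a) (hb : AsmGood A M b) :
    AsmGood A M (a * b) := by
  refine ⟨?_, ?_⟩
  · rw [map_mul]; exact mul_mem ha.1 hb.1
  · rw [map_mul]; exact mul_mem ha.2 hb.2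

theorem agd_good_neg {a : LaurentSeries A} (ha : AsmGood A M a) :
    AsmGood A M (-a) := by
  refine ⟨?_, ?_⟩
  · rw [map_neg]; exact neg_mem ha.1
  · rw [map_neg]; exact neg_mem ha.2

theorem agd_rho_one_ne_zero : asmRho A 1 ≠ 0 := by
  rw [map_one]; exact one_ne_zero

theorem agd_rho_mul_ne_zero {b b' : LaurentSeries A} (hb : asmRho A b ≠ 0)
    (hb' : asmRho A b' ≠ 0) : asmRho A (b * b') ≠ 0 := by
  rw [map_mul]; exact mul_ne_zero hb hb'

/-- well-definedness of the reduction -/
theorem agd_key (f : LaurentSeries (AlgebraicClosure ℚ)) (a b a' b' : LaurentSeries A)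
    (h : f * asmIota A b = asmIota A a) (h' : f * asmIota A b' = asmIota A a') :
    asmRho A a * asmRho A b' = asmRho A a' * asmRho A b := by
  have e : a * b' = a' * b := by
    apply asmIota_injective A
    rw [map_mul, map_mul, ← h, ← h']
    ring
  rw [← map_mul, ← map_mul, e]

/-- the carrier of the ring of integral functions -/
def asmOSet : Set ↥(modularFunctionFieldBar M) :=
  {f | ∃ a b : LaurentSeries A, AsmGood A M a ∧ AsmGood A M b ∧ asmRho A b ≠ 0 ∧
    (f : LaurentSeries (AlgebraicClosure ℚ)) * asmIota A b = asmIota A a}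

theorem agd_mul_mem {f g : ↥(modularFunctionFieldBar M)} (hf : f ∈ asmOSet A M)
    (hg : g ∈ asmOSet A M) : f * g ∈ asmOSet A M := by
  obtain ⟨a, b, ha, hb, hb0, h⟩ := hf
  obtain ⟨a', b', ha', hb', hb0', h'⟩ := hg
  refine ⟨a * a', b * b', agd_good_mul A M ha ha', agd_good_mul A M hb hb',
    agd_rho_mul_ne_zero A hb0 hb0', ?_⟩
  rw [map_mul, map_mul, ← h, ← h']
  push_cast
  ring

theorem agd_add_mem {f g : ↥(modularFunctionFieldBar M)} (hf : f ∈ asmOSet A M)
    (hg : g ∈ asmOSet A M) : f + g ∈ asmOSet A M := by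
  obtain ⟨a, b, ha, hb, hb0, h⟩ := hf
  obtain ⟨a', b', ha', hb', hb0', h'⟩ := hg
  refine ⟨a * b' + a' * b, b * b', agd_good_add A M (agd_good_mul A M ha hb')
    (agd_good_mul A M ha' hb), agd_good_mul A M hb hb', agd_rho_mul_ne_zero A hb0 hb0', ?_⟩
  rw [map_add, map_mul, map_mul, map_mul, ← h, ← h']
  push_cast
  ring

theorem agd_one_mem : (1 : ↥(modularFunctionFieldBar M)) ∈ asmOSet A M := by
  refine ⟨1, 1, agd_good_one A M, agd_good_one A M, agd_rho_one_ne_zero A, ?_⟩
  rw [map_one]
  push_cast
  ring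

theorem agd_zero_mem : (0 : ↥(modularFunctionFieldBar M)) ∈ asmOSet A M := by
  refine ⟨0, 1, agd_good_zero A M, agd_good_one A M, agd_rho_one_ne_zero A, ?_⟩
  rw [map_one, map_zero]
  push_cast
  ring

theorem agd_neg_mem {f : ↥(modularFunctionFieldBar M)} (hf : f ∈ asmOSet A M) :
    -f ∈ asmOSet A M := by
  obtain ⟨a, b, ha, hb, hb0, h⟩ := hf
  refine ⟨-a, b, agd_good_neg A M ha, hb, hb0, ?_⟩
  rw [map_neg, ← h]
  push_cast
  ring

/-- the ring of integral functions -/
def asmO : Subring ↥(modularFunctionFieldBar M) where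
  carrier := asmOSet A M
  mul_mem' := by
    intro f g hf hg
    exact agd_mul_mem A M hf hg
  one_mem' := by
    exact agd_one_mem A M
  add_mem' := by
    intro f g hf hg
    exact agd_add_mem A M hf hg
  zero_mem' := by
    exact agd_zero_mem A M
  neg_mem' := by
    intro f hf
    exact agd_neg_mem A M hf

theorem mem_asmO_iff (f : ↥(modularFunctionFieldBar M)) :
    f ∈ asmO A M ↔ ∃ a b : LaurentSeries A, AsmGood A M a ∧ AsmGood A M b ∧ asmRho A b ≠ 0 ∧
      (f : LaurentSeries (AlgebraicClosure ℚ)) * asmIota A b = asmIota A a := Iff.rfl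

/-- a chosen numerator -/
noncomputable def agd_num (f : asmO A M) : LaurentSeries A :=
  Classical.choose ((mem_asmO_iff A M f.1).1 f.2)

/-- a chosen denominator -/
noncomputable def agd_den (f : asmO A M) : LaurentSeries A :=
  Classical.choose (Classical.choose_spec ((mem_asmO_iff A M f.1).1 f.2))

theorem agd_num_den_spec (f : asmO A M) :
    AsmGood A M (agd_num A M f) ∧ AsmGood A M (agd_den A M f) ∧ asmRho A (agd_den A M f) ≠ 0 ∧
      ((f : ↥(modularFunctionFieldBar M)) : LaurentSeries (AlgebraicClosure ℚ)) *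
        asmIota A (agd_den A M f) = asmIota A (agd_num A M f) :=
  Classical.choose_spec (Classical.choose_spec ((mem_asmO_iff A M f.1).1 f.2))

/-- the underlying function of the reduction map -/
noncomputable def agd_redFun (f : asmO A M) :
    ↥(modularFunctionFieldFullC (IsLocalRing.ResidueField A) M) :=
  (⟨asmRho A (agd_num A M f), (agd_num_den_spec A M f).1.2⟩ :
      ↥(modularFunctionFieldFullC (IsLocalRing.ResidueField A) M)) *
    (⟨asmRho A (agd_den A M f), (agd_num_den_spec A M f).2.1.2⟩ :
      ↥(modularFunctionFieldFullC (IsLocalRing.ResidueField A) M))⁻¹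

/-- uniqueness principle for the reduction -/
theorem agd_redFun_eq (f : asmO A M)
    (x : ↥(modularFunctionFieldFullC (IsLocalRing.ResidueField A) M))
    (a b : LaurentSeries A) (hb0 : asmRho A b ≠ 0)
    (h : ((f : ↥(modularFunctionFieldBar M)) : LaurentSeries (AlgebraicClosure ℚ)) * asmIota A b
      = asmIota A a)
    (hx : (x : LaurentSeries (IsLocalRing.ResidueField A)) * asmRho A b = asmRho A a) :
    agd_redFun A M f = x := by
  obtain ⟨h1, h2, h3, h4⟩ := agd_num_den_spec A M f
  have hk := agd_key A _ _ _ _ _ h4 h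
  have hne : (⟨asmRho A (agd_den A M f), h2.2⟩ :
      ↥(modularFunctionFieldFullC (IsLocalRing.ResidueField A) M)) ≠ 0 := by
    intro h0
    exact h3 (congrArg Subtype.val h0)
  unfold agd_redFun
  rw [mul_inv_eq_iff_eq_mul₀ hne]
  apply Subtype.ext
  push_cast
  apply mul_right_cancel₀ hb0
  rw [hk, ← hx]
  ring

theorem agd_redFun_spec (f : asmO A M) (a b : LaurentSeries A)
    (h : ((f : ↥(modularFunctionFieldBar M)) : LaurentSeries (AlgebraicClosure ℚ)) * asmIota A b
      = asmIota A a) :
    ((agd_redFun A M f : ↥(modularFunctionFieldFullC (IsLocalRing.ResidueField A) M)) :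
        LaurentSeries (IsLocalRing.ResidueField A)) * asmRho A b = asmRho A a := by
  obtain ⟨h1, h2, h3, h4⟩ := agd_num_den_spec A M f
  have hk := agd_key A _ _ _ _ _ h h4
  unfold agd_redFun
  push_cast
  apply mul_right_cancel₀ h3
  rw [hk]
  field_simp

/-- the reduction map -/
noncomputable def asmRed :
    asmO A M →+* ↥(modularFunctionFieldFullC (IsLocalRing.ResidueField A) M) where
  toFun := agd_redFun A M
  map_one' := by
    refine agd_redFun_eq A M 1 1 1 1 (agd_rho_one_ne_zero A) ?_ ?_
    · rw [map_one]; push_cast; ring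
    · rw [map_one]; push_cast; ring
  map_mul' := by
    intro f g
    obtain ⟨h1, h2, h3, h4⟩ := agd_num_den_spec A M f
    obtain ⟨g1, g2, g3, g4⟩ := agd_num_den_spec A M g
    refine agd_redFun_eq A M (f * g) _ (agd_num A M f * agd_num A M g)
      (agd_den A M f * agd_den A M g) (agd_rho_mul_ne_zero A h3 g3) ?_ ?_
    · rw [map_mul, map_mul, ← h4, ← g4]; push_cast; ring
    · rw [map_mul, map_mul, ← agd_redFun_spec A M f _ _ h4, ← agd_redFun_spec A M g _ _ g4]
      push_cast; ring
  map_zero' := by
    refine agd_redFun_eq A M 0 0 0 1 (agd_rho_one_ne_zero A) ?_ ?_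
    · rw [map_one, map_zero]; push_cast; ring
    · rw [map_one, map_zero]; push_cast; ring
  map_add' := by
    intro f g
    obtain ⟨h1, h2, h3, h4⟩ := agd_num_den_spec A M f
    obtain ⟨g1, g2, g3, g4⟩ := agd_num_den_spec A M g
    refine agd_redFun_eq A M (f + g) _
      (agd_num A M f * agd_den A M g + agd_num A M g * agd_den A M f)
      (agd_den A M f * agd_den A M g) (agd_rho_mul_ne_zero A h3 g3) ?_ ?_
    · rw [map_add, map_mul, map_mul, map_mul, ← h4, ← g4]; push_cast; ring
    · rw [map_add, map_mul, map_mul, map_mul, ← agd_redFun_spec A M f _ _ h4,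
        ← agd_redFun_spec A M g _ _ g4]
      push_cast; ring

/-- the defining property of the reduction -/
theorem asmRed_spec (f : asmO A M) (a b : LaurentSeries A) (ha : AsmGood A M a)
    (hb : AsmGood A M b) (hb0 : asmRho A b ≠ 0)
    (h : ((f : ↥(modularFunctionFieldBar M)) : LaurentSeries (AlgebraicClosure ℚ)) * asmIota A b
      = asmIota A a) :
    ((asmRed A M f : ↥(modularFunctionFieldFullC (IsLocalRing.ResidueField A) M)) :
        LaurentSeries (IsLocalRing.ResidueField A)) * asmRho A b = asmRho A a :=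
  agd_redFun_spec A M f a b h

/-- every integral function is a quotient of good series, compatibly with reduction -/
theorem exists_good_of_mem_asmO (u : asmO A M) :
    ∃ a b : LaurentSeries A, AsmGood A M a ∧ AsmGood A M b ∧ asmRho A b ≠ 0 ∧
      ((u : ↥(modularFunctionFieldBar M)) : LaurentSeries (AlgebraicClosure ℚ)) * asmIota A b
        = asmIota A a ∧
      ((asmRed A M u : ↥(modularFunctionFieldFullC (IsLocalRing.ResidueField A) M)) :
        LaurentSeries (IsLocalRing.ResidueField A)) * asmRho A b = asmRho A a := by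
  obtain ⟨h1, h2, h3, h4⟩ := agd_num_den_spec A M u
  exact ⟨_, _, h1, h2, h3, h4, asmRed_spec A M u _ _ h1 h2 h3 h4⟩

/-- good series are integral functions, and their reduction is the coefficientwise one -/
theorem coe_mem_asmO (y : LaurentSeries A) (hy : AsmGood A M y) :
    (⟨asmIota A y, hy.1⟩ : ↥(modularFunctionFieldBar M)) ∈ asmO A M := by
  refine ⟨y, 1, hy, agd_good_one A M, agd_rho_one_ne_zero A, ?_⟩
  rw [map_one, mul_one]

theorem asmRed_coe (y : LaurentSeries A) (hy : AsmGood A M y) :
    asmRed A M ⟨⟨asmIota A y, hy.1⟩, coe_mem_asmO A M y hy⟩ = ⟨asmRho A y, hy.2⟩ := by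
  refine agd_redFun_eq A M _ _ y 1 (agd_rho_one_ne_zero A) ?_ ?_
  · rw [map_one, mul_one]
  · rw [map_one, mul_one]

end Fermat.Agent.S18L
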