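import Mathlib
import Fermat.Agent.S18L.AsmGaussDefs
import Fermat.Agent.S18L.AsmDegree

/-!
# S18, assembly: integral functions of reduction `1` stay so at a higher level
-/

set_option autoImplicit false
set_option synthInstance.maxHeartbeats 400000

open ModularCurve HahnSeries

namespace Fermat.Agent.S18L

variable (A : ValuationSubring (AlgebraicClosure ℚ))

theorem asmGood_of_dvd {N N' : ℕ} [NeZero N] [NeZero N'] (hNN : N ∣ N') {a : LaurentSeries A}
    (ha : AsmGood A N a) : AsmGood A N' a :=
  ⟨bar_le_bar hNN ha.1, full_degeneracyC_le (IsLocalRing.ResidueField A) hNN ha.2⟩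

theorem asm_bridge {N N' : ℕ} [NeZero N] [NeZero N'] (hNN : N ∣ N') (u : asmO A N)
    (hu : asmRed A N u = 1) :
    ∃ hmem : IntermediateField.inclusion (bar_le_bar hNN) (u : ↥(modularFunctionFieldBar N))
        ∈ asmO A N',
      asmRed A N' ⟨_, hmem⟩ = 1 := by
  obtain ⟨a, b, ha, hb, hb0, hab, hred⟩ := exists_good_of_mem_asmO A N u
  rw [hu] at hred
  have hred' : asmRho A b = asmRho A a := by simpa using hred
  have ha' := asmGood_of_dvd A hNN ha
  have hb' := asmGood_of_dvd A hNN hb
  have hmem : IntermediateField.inclusion (bar_le_bar hNN) (u : ↥(modularFunctionFieldBar N))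
      ∈ asmO A N' := (mem_asmO_iff A N' _).mpr ⟨a, b, ha', hb', hb0, hab⟩
  refine ⟨hmem, ?_⟩
  have hspec := asmRed_spec A N' ⟨_, hmem⟩ a b ha' hb' hb0 hab
  rw [← hred'] at hspec
  apply Subtype.ext
  have h1 : ((asmRed A N' ⟨_, hmem⟩ :
      ↥(modularFunctionFieldFullC (IsLocalRing.ResidueField A) N')) :
      LaurentSeries (IsLocalRing.ResidueField A)) * asmRho A b = 1 * asmRho A b := by
    rw [one_mul]; exact hspec
  exact mul_right_cancel₀ hb0 h1

end Fermat.Agent.S18L
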