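import Mathlib
import Fermat.Agent.S18L.AsmGaussDefs

/-!
# S18, assembly: properties of the Gauss-type valuation ring `asmO` and its reduction `asmRed`
-/

set_option autoImplicit false
set_option synthInstance.maxHeartbeats 400000

open ModularCurve HahnSeries

namespace Fermat.Agent.S18L

open Fermat.Agent.X0S24

variable (A : ValuationSubring (AlgebraicClosure ℚ)) (M : ℕ) [NeZero M]

/-! ### auxiliary lemmas -/

theorem agp_iota_single (c : A) :
    asmIota A (HahnSeries.single 0 c)
      = algebraMap (AlgebraicClosure ℚ) (LaurentSeries (AlgebraicClosure ℚ))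
          (c : AlgebraicClosure ℚ) := by
  rw [algebraMap_laurentSeries_eq_single]
  exact coeffMap_single A.subtype 0 c

theorem agp_rho_single (c : A) :
    asmRho A (HahnSeries.single 0 c)
      = algebraMap (IsLocalRing.ResidueField A) (LaurentSeries (IsLocalRing.ResidueField A))
          (IsLocalRing.residue A c) := by
  rw [algebraMap_laurentSeries_eq_single]
  exact coeffMap_single (IsLocalRing.residue A) 0 c

omit [NeZero M] in
theorem agp_good_single (c : A) : AsmGood A M (HahnSeries.single 0 c) := by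
  refine ⟨?_, ?_⟩
  · rw [agp_iota_single]
    exact (modularFunctionFieldBar M).algebraMap_mem _
  · rw [agp_rho_single]
    exact (modularFunctionFieldFullC (IsLocalRing.ResidueField A) M).algebraMap_mem _

theorem agp_iota_jd (d : ℕ) [NeZero d] :
    asmIota A (qExpand A d (jqModC A))
      = coeffEmb (AlgebraicClosure ℚ) (qExpand ℚ d jq) := by
  rw [← jqModC_rat]
  show coeffMap A.subtype (qExpand A d (jqModC A))
    = coeffMap (algebraMap ℚ (AlgebraicClosure ℚ)) (qExpand ℚ d (jqModC ℚ))
  rw [coeffMap_qExpand, coeffMap_jqModC, coeffMap_qExpand, coeffMap_jqModC]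

theorem agp_rho_jd (d : ℕ) [NeZero d] :
    asmRho A (qExpand A d (jqModC A))
      = qExpand (IsLocalRing.ResidueField A) d (jqModC (IsLocalRing.ResidueField A)) := by
  show coeffMap (IsLocalRing.residue A) (qExpand A d (jqModC A)) = _
  rw [coeffMap_qExpand, coeffMap_jqModC]

omit [NeZero M] in
theorem agp_good_jd (d : ℕ) [NeZero d] (hd : d ∣ M) :
    AsmGood A M (qExpand A d (jqModC A)) := by
  refine ⟨?_, ?_⟩
  · rw [agp_iota_jd]
    exact coeffEmb_mem_laurentBaseChange (AlgebraicClosure ℚ) (jqd_mem_full M hd)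
  · rw [agp_rho_jd]
    exact jqModCd_mem_full (IsLocalRing.ResidueField A) M hd

theorem agp_iota_j :
    asmIota A (jqModC A) = coeffEmb (AlgebraicClosure ℚ) jq := by
  rw [← jqModC_rat]
  show coeffMap A.subtype (jqModC A)
    = coeffMap (algebraMap ℚ (AlgebraicClosure ℚ)) (jqModC ℚ)
  rw [coeffMap_jqModC, coeffMap_jqModC]

theorem agp_rho_j :
    asmRho A (jqModC A) = jqModC (IsLocalRing.ResidueField A) := by
  show coeffMap (IsLocalRing.residue A) (jqModC A) = _
  rw [coeffMap_jqModC]

theorem agp_good_j : AsmGood A M (jqModC A) := by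
  refine ⟨?_, ?_⟩
  · rw [agp_iota_j]
    exact (Embed.jbar M).2
  · rw [agp_rho_j]
    exact jqModC_mem_full (IsLocalRing.ResidueField A) M

/-! ### the statements -/

/-- constants: `O ∩ ℚ̄ = A` -/
theorem algebraMap_mem_asmO (c : AlgebraicClosure ℚ) :
    algebraMap (AlgebraicClosure ℚ) ↥(modularFunctionFieldBar M) c ∈ asmO A M ↔ c ∈ A := by
  constructor
  · intro h
    obtain ⟨a, b, ha, hb, hb0, hab⟩ := (mem_asmO_iff A M _).1 h
    by_contra hc
    have hc0 : c ≠ 0 := by
      rintro rfl
      exact hc (zero_mem A)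
    have hci : c⁻¹ ∈ A := (A.mem_or_inv_mem c).resolve_left hc
    have hres : IsLocalRing.residue A ⟨c⁻¹, hci⟩ = 0 := by
      rw [IsLocalRing.residue_eq_zero_iff, IsLocalRing.mem_maximalIdeal, mem_nonunits_iff]
      intro hu
      obtain ⟨e, he⟩ := hu.exists_right_inv
      have he' : c⁻¹ * (e : AlgebraicClosure ℚ) = 1 := by
        have := congrArg (fun x : A => (x : AlgebraicClosure ℚ)) he
        simpa using this
      have : (e : AlgebraicClosure ℚ) = c := by
        field_simp at he'
        exact he'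
      exact hc (this ▸ e.2)
    have hab' : algebraMap (AlgebraicClosure ℚ) (LaurentSeries (AlgebraicClosure ℚ)) c
        * asmIota A b = asmIota A a := hab
    have hb' : asmIota A b = asmIota A (HahnSeries.single 0 ⟨c⁻¹, hci⟩ * a) := by
      rw [map_mul, agp_iota_single, ← hab', ← mul_assoc, ← map_mul]
      simp [inv_mul_cancel₀ hc0]
    have hb'' := asmIota_injective A hb'
    apply hb0
    rw [hb'', map_mul, agp_rho_single, hres, map_zero, zero_mul]
  · intro hc
    have h := coe_mem_asmO A M (HahnSeries.single 0 ⟨c, hc⟩) (agp_good_single A M ⟨c, hc⟩)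
    have e : (⟨asmIota A (HahnSeries.single 0 ⟨c, hc⟩), (agp_good_single A M ⟨c, hc⟩).1⟩ :
        ↥(modularFunctionFieldBar M))
        = algebraMap (AlgebraicClosure ℚ) ↥(modularFunctionFieldBar M) c :=
      Subtype.ext (agp_iota_single A ⟨c, hc⟩)
    rwa [e] at h

theorem asmRed_algebraMap (a : A)
    (h : algebraMap (AlgebraicClosure ℚ) ↥(modularFunctionFieldBar M) (a : AlgebraicClosure ℚ)
      ∈ asmO A M) :
    asmRed A M ⟨algebraMap (AlgebraicClosure ℚ) ↥(modularFunctionFieldBar M)
        (a : AlgebraicClosure ℚ), h⟩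
      = algebraMap (IsLocalRing.ResidueField A)
          ↥(modularFunctionFieldFullC (IsLocalRing.ResidueField A) M) (IsLocalRing.residue A a) := by
  have e : (⟨algebraMap (AlgebraicClosure ℚ) ↥(modularFunctionFieldBar M)
        (a : AlgebraicClosure ℚ), h⟩ : asmO A M)
      = ⟨⟨asmIota A (HahnSeries.single 0 a), (agp_good_single A M a).1⟩,
          coe_mem_asmO A M _ (agp_good_single A M a)⟩ :=
    Subtype.ext (Subtype.ext (agp_iota_single A a).symm)
  rw [e, asmRed_coe A M _ (agp_good_single A M a)]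
  exact Subtype.ext (agp_rho_single A a)

/-- integral functions of nonzero reduction are units of `O` -/
theorem inv_mem_asmO (u : asmO A M) (hu : asmRed A M u ≠ 0) :
    ((u : ↥(modularFunctionFieldBar M)))⁻¹ ∈ asmO A M := by
  obtain ⟨a, b, ha, hb, hb0, hab, hred⟩ := exists_good_of_mem_asmO A M u
  have ha0 : asmRho A a ≠ 0 := by
    rw [← hred]
    refine mul_ne_zero ?_ hb0
    intro h0
    exact hu (Subtype.ext h0)
  have ha0' : asmIota A a ≠ 0 := by
    intro h0
    have : a = 0 := asmIota_injective A (by rw [h0, map_zero])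
    exact ha0 (by rw [this, map_zero])
  have hu0 : ((u : ↥(modularFunctionFieldBar M)) : LaurentSeries (AlgebraicClosure ℚ)) ≠ 0 := by
    intro h0
    rw [h0, zero_mul] at hab
    exact ha0' hab.symm
  rw [mem_asmO_iff]
  refine ⟨b, a, hb, ha, ha0, ?_⟩
  show ((u : ↥(modularFunctionFieldBar M)) : LaurentSeries (AlgebraicClosure ℚ))⁻¹ * asmIota A a
    = asmIota A b
  rw [← hab, ← mul_assoc, inv_mul_cancel₀ hu0, one_mul]

/-- the reduction map is surjective -/
theorem asmRed_surjective : Function.Surjective (asmRed A M) := by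
  rintro ⟨x, hx⟩
  suffices h : ∃ u : asmO A M,
      ((asmRed A M u : ↥(modularFunctionFieldFullC (IsLocalRing.ResidueField A) M)) :
        LaurentSeries (IsLocalRing.ResidueField A)) = x by
    obtain ⟨u, hu⟩ := h
    exact ⟨u, Subtype.ext hu⟩
  unfold modularFunctionFieldFullC at hx
  induction hx using IntermediateField.adjoin_induction with
  | mem y hy =>
      obtain ⟨d, hne, hd, rfl⟩ := hy
      have := hne
      refine ⟨⟨⟨asmIota A (qExpand A d (jqModC A)), (agp_good_jd A M d hd).1⟩,
        coe_mem_asmO A M _ (agp_good_jd A M d hd)⟩, ?_⟩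
      rw [asmRed_coe A M _ (agp_good_jd A M d hd)]
      exact agp_rho_jd A d
  | algebraMap c =>
      obtain ⟨a, rfl⟩ := IsLocalRing.residue_surjective c
      refine ⟨⟨_, (algebraMap_mem_asmO A M (a : AlgebraicClosure ℚ)).2 a.2⟩, ?_⟩
      rw [asmRed_algebraMap]
      rfl
  | add y z _ _ hy hz =>
      obtain ⟨u, rfl⟩ := hy
      obtain ⟨v, rfl⟩ := hz
      exact ⟨u + v, by rw [map_add]; rfl⟩
  | inv y _ hy =>
      obtain ⟨u, rfl⟩ := hy
      by_cases hu : asmRed A M u = 0
      · exact ⟨0, by rw [map_zero, hu]; simp⟩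
      · refine ⟨⟨_, inv_mem_asmO A M u hu⟩, ?_⟩
        have h1 : asmRed A M ⟨_, inv_mem_asmO A M u hu⟩ * asmRed A M u = 1 := by
          rw [← map_mul, ← map_one (asmRed A M)]
          congr 1
          apply Subtype.ext
          show ((u : ↥(modularFunctionFieldBar M)))⁻¹ * (u : ↥(modularFunctionFieldBar M)) = 1
          refine inv_mul_cancel₀ ?_
          intro h0
          apply hu
          have : u = 0 := Subtype.ext h0
          rw [this, map_zero]
        have h2 : asmRed A M ⟨_, inv_mem_asmO A M u hu⟩ = (asmRed A M u)⁻¹ :=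
          eq_inv_of_mul_eq_one_left h1
        rw [h2]
        rfl
  | mul y z _ _ hy hz =>
      obtain ⟨u, rfl⟩ := hy
      obtain ⟨v, rfl⟩ := hz
      exact ⟨u * v, by rw [map_mul]; rfl⟩

/-- `j` is integral -/
theorem jbar_mem_asmO : Embed.jbar M ∈ asmO A M := by
  have h := coe_mem_asmO A M (jqModC A) (agp_good_j A M)
  have e : (⟨asmIota A (jqModC A), (agp_good_j A M).1⟩ : ↥(modularFunctionFieldBar M))
      = Embed.jbar M := Subtype.ext (agp_iota_j A)
  rwa [e] at h

/-- the reduction of `j` is `j̄` -/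
theorem asmRed_jbar :
    asmRed A M ⟨Embed.jbar M, jbar_mem_asmO A M⟩
      = ⟨jqModC (IsLocalRing.ResidueField A), jqModC_mem_full (IsLocalRing.ResidueField A) M⟩ := by
  have e : (⟨Embed.jbar M, jbar_mem_asmO A M⟩ : asmO A M)
      = ⟨⟨asmIota A (jqModC A), (agp_good_j A M).1⟩,
          coe_mem_asmO A M _ (agp_good_j A M)⟩ :=
    Subtype.ext (Subtype.ext (agp_iota_j A).symm)
  rw [e, asmRed_coe A M _ (agp_good_j A M)]
  exact Subtype.ext (agp_rho_j A)

end Fermat.Agent.S18L
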