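import Mathlib
import Fermat.Prelude.Def_FLTPrelim_Ramification

/-!
# S18, assembly: the residue field of a valuation subring of `ℚ̄` lying over `ℓ`
-/

set_option autoImplicit false
set_option synthInstance.maxHeartbeats 400000

namespace Fermat.Agent.S18L

/-- the residue field of a valuation subring of an algebraically closed field is
algebraically closed -/
theorem isAlgClosed_residueField {L : Type*} [Field L] [IsAlgClosed L] (A : ValuationSubring L) :
    IsAlgClosed (IsLocalRing.ResidueField A) := by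
  refine IsAlgClosed.of_exists_root _ fun p hpm hpirr => ?_
  have hlift : p ∈ Polynomial.lifts (IsLocalRing.residue A) :=
    (Polynomial.mem_lifts p).mpr
      (Polynomial.map_surjective _ IsLocalRing.residue_surjective p)
  obtain ⟨P, hPmap, hPdeg, hPmonic⟩ := Polynomial.lifts_and_degree_eq_and_monic hlift hpm
  have hdeg : (P.map (algebraMap A L)).degree ≠ 0 := by
    rw [hPmonic.degree_map (algebraMap A L), hPdeg]
    exact Polynomial.degree_pos_of_irreducible hpirr |>.ne'
  obtain ⟨x, hx⟩ := IsAlgClosed.exists_root _ hdeg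
  have hint : IsIntegral A x := by
    refine ⟨P, hPmonic, ?_⟩
    rw [← Polynomial.eval_map]
    exact hx
  obtain ⟨z, hz⟩ := IsIntegrallyClosed.isIntegral_iff.mp hint
  refine ⟨IsLocalRing.residue A z, ?_⟩
  have hz0 : P.eval z = 0 := by
    apply (FaithfulSMul.algebraMap_injective A L)
    rw [map_zero, ← Polynomial.eval₂_hom, hz, ← Polynomial.eval_map]
    exact hx
  rw [← hPmap, Polynomial.eval_map, Polynomial.eval₂_hom, hz0, map_zero]

/-- the residue map kills exactly the nonunits -/
theorem residue_eq_zero_iff {L : Type*} [Field L] (A : ValuationSubring L) (a : A) :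
    IsLocalRing.residue A a = 0 ↔ ¬ IsUnit a := by
  rw [IsLocalRing.residue_eq_zero_iff, IsLocalRing.mem_maximalIdeal, mem_nonunits_iff]

/-- in the residue field of a valuation subring lying over `ℓ`, a natural number prime to `ℓ`
is nonzero -/
theorem natCast_residueField_ne_zero {L : Type*} [Field L] (A : ValuationSubring L) {ℓ : ℕ}
    [Fact ℓ.Prime] (hA : A.LiesOverPrime ℓ) (m : ℕ) (hm : ¬ ℓ ∣ m) :
    ((m : ℕ) : IsLocalRing.ResidueField A) ≠ 0 := by
  intro hm0
  have hl0 : ((ℓ : ℕ) : IsLocalRing.ResidueField A) = 0 := by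
    have h1 : ((ℓ : A) : L) ∈ A.nonunits := by
      have : ((ℓ : A) : L) = (ℓ : L) := by push_cast; rfl
      rw [this]; exact hA
    have h2 : ¬ IsUnit (ℓ : A) := by
      rw [ValuationSubring.coe_mem_nonunits_iff] at h1
      exact h1
    have h3 := (residue_eq_zero_iff A (ℓ : A)).mpr h2
    rwa [map_natCast] at h3
  have hcop : Nat.Coprime ℓ m := (Nat.Prime.coprime_iff_not_dvd (Fact.out : ℓ.Prime)).mpr hm
  have hb : (Nat.gcd ℓ m : ℤ) = ℓ * Nat.gcdA ℓ m + m * Nat.gcdB ℓ m := Nat.gcd_eq_gcd_ab ℓ m
  rw [hcop.gcd_eq_one] at hb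
  have hc := congrArg (Int.cast : ℤ → IsLocalRing.ResidueField A) hb
  push_cast at hc
  rw [hl0, hm0] at hc
  simp at hc

end Fermat.Agent.S18L
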