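import Mathlib

/-!
# S18, assembly: the scaling property of a Gauss-type valuation ring from a reduced basis

Abstract setting: `A` a valuation subring of `K` with residue map `π : A →+* k` (kernel =
nonunits), `O` a subring of `F ⊇ K` with a ring map `red : O →+* Fb` such that `O ∩ K = A`,
`red` restricts to `π` on constants, and elements of nonzero reduction are invertible in `O`.
If `j ∈ O` has transcendental reduction, `[F : K(j)] = ψ`, and `b₁, …, b_ψ ∈ O` have reductions
linearly independent over `k[red j]`, then every nonzero `f : F` is a constant multiple of an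
element of `O` with nonzero reduction.
-/

set_option autoImplicit false

open scoped IntermediateField

namespace Fermat.Agent.S18L

section gsc

variable {K F k Fb : Type*} [Field K] [Field F] [Algebra K F] [Field k] [Field Fb] [Algebra k Fb]

/-- scaling a finite family of polynomials, not all zero, by a constant so that all the
coefficients are integral and one of them is `1` -/
theorem gsc_scale (A : ValuationSubring K) {ι : Type*} [Fintype ι] (P : ι → Polynomial K)
    (i₀ : ι) (h0 : P i₀ ≠ 0) :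
    ∃ c : K, c ≠ 0 ∧ ∃ P' : ι → Polynomial A,
      (∀ i, (P' i).map A.subtype = c • P i) ∧ ∃ i n, (P' i).coeff n = 1 := by
  classical
  set M := (Finset.univ.sup fun i => (P i).natDegree) + 1 with hMdef
  have hM : ∀ i, (P i).natDegree < M := fun i =>
    Nat.lt_succ_of_le (Finset.le_sup (f := fun i => (P i).natDegree) (Finset.mem_univ i))
  obtain ⟨⟨i₁, n₁⟩, -, hmax⟩ := Finset.exists_max_image (Finset.univ ×ˢ Finset.range M)
    (fun p : ι × ℕ => A.valuation ((P p.1).coeff p.2)) ⟨(i₀, 0), by simp [hMdef]⟩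
  have hmax' : ∀ i n, A.valuation ((P i).coeff n) ≤ A.valuation ((P i₁).coeff n₁) := by
    intro i n
    by_cases hn : n < M
    · exact hmax (i, n) (by simp [hn])
    · rw [Polynomial.coeff_eq_zero_of_natDegree_lt (lt_of_lt_of_le (hM i) (not_lt.1 hn)),
        map_zero]
      exact zero_le
  have hc0 : (P i₁).coeff n₁ ≠ 0 := by
    intro h
    obtain ⟨n, hn⟩ : ∃ n, (P i₀).coeff n ≠ 0 := by
      by_contra hcon
      push Not at hcon
      exact h0 (Polynomial.ext (by simpa using hcon))
    have := hmax' i₀ n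
    rw [h, map_zero] at this
    exact hn ((map_eq_zero _).mp (le_antisymm this zero_le))
  set c₀ := (P i₁).coeff n₁ with hc₀
  have hlift : ∀ i, c₀⁻¹ • P i ∈ Polynomial.lifts A.subtype := by
    intro i
    rw [Polynomial.lifts_iff_coeff_lifts]
    intro n
    rw [Polynomial.coeff_smul, smul_eq_mul]
    have : c₀⁻¹ * (P i).coeff n ∈ A := by
      rw [← ValuationSubring.valuation_le_one_iff, map_mul, map_inv₀]
      have hv0 : A.valuation c₀ ≠ 0 := (map_ne_zero _).mpr hc0
      rw [inv_mul_le_iff₀ (zero_lt_iff.mpr hv0), mul_one]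
      exact hmax' i n
    exact ⟨⟨_, this⟩, rfl⟩
  choose P' hP' using fun i => (Polynomial.mem_lifts _).1 (hlift i)
  refine ⟨c₀⁻¹, inv_ne_zero hc0, P', hP', i₁, n₁, ?_⟩
  apply Subtype.ext
  have h1 := congrArg (fun q => Polynomial.coeff q n₁) (hP' i₁)
  simp only [Polynomial.coeff_map, Polynomial.coeff_smul, smul_eq_mul] at h1
  rw [← hc₀, inv_mul_cancel₀ hc0] at h1
  exact h1

/-- the inclusion of the integral constants in the integral functions -/
noncomputable def gsc_phi (A : ValuationSubring K) (O : Subring F)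
    (hmem : ∀ a : K, algebraMap K F a ∈ O ↔ a ∈ A) : A →+* O :=
  ((algebraMap K F).comp A.subtype).codRestrict O (fun a => (hmem _).2 a.2)

/-- the integral function attached to an integral polynomial -/
noncomputable def gsc_ev (A : ValuationSubring K) (O : Subring F)
    (hmem : ∀ a : K, algebraMap K F a ∈ O ↔ a ∈ A) (j : O) (P : Polynomial A) : O :=
  Polynomial.eval₂ (gsc_phi A O hmem) j P

theorem gsc_ev_coe (A : ValuationSubring K) (O : Subring F)
    (hmem : ∀ a : K, algebraMap K F a ∈ O ↔ a ∈ A) (j : O) (P : Polynomial A) :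
    ((gsc_ev A O hmem j P : O) : F) = Polynomial.aeval (j : F) (P.map A.subtype) := by
  have h1 : ((gsc_ev A O hmem j P : O) : F) = O.subtype (gsc_ev A O hmem j P) := rfl
  rw [h1, gsc_ev, Polynomial.hom_eval₂, Polynomial.aeval_def, Polynomial.eval₂_map]
  rfl

theorem gsc_ev_red (A : ValuationSubring K) (π : A →+* k) (O : Subring F) (red : O →+* Fb)
    (hmem : ∀ a : K, algebraMap K F a ∈ O ↔ a ∈ A)
    (hred : ∀ (a : A) (h : algebraMap K F (a : K) ∈ O),
      red ⟨algebraMap K F (a : K), h⟩ = algebraMap k Fb (π a))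
    (j : O) (P : Polynomial A) :
    red (gsc_ev A O hmem j P) = Polynomial.aeval (red j) (P.map π) := by
  have h2 : red.comp (gsc_phi A O hmem) = (algebraMap k Fb).comp π := by
    ext a
    exact hred a _
  rw [gsc_ev, Polynomial.hom_eval₂, Polynomial.aeval_def, Polynomial.eval₂_map, h2]

/-- elements of `K(j)` are fractions of polynomials in `j` with nonzero denominator -/
theorem gsc_frac (j : F) (f : F) (hf : f ∈ K⟮j⟯) :
    ∃ r s : Polynomial K, Polynomial.aeval j s ≠ 0 ∧
      Polynomial.aeval j s * f = Polynomial.aeval j r := by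
  obtain ⟨r, s, rfl⟩ := (IntermediateField.mem_adjoin_simple_iff K f).1 hf
  by_cases hs : Polynomial.aeval j s = 0
  · refine ⟨0, 1, by simp, ?_⟩
    simp [hs]
  · exact ⟨r, s, hs, by field_simp⟩

/-- a common denominator for a finite family of elements of `K(j)` -/
theorem gsc_common_denom (j : F) {ι : Type*} [Fintype ι] (g : ι → F)
    (hg : ∀ i, g i ∈ K⟮j⟯) :
    ∃ Q : Polynomial K, Polynomial.aeval j Q ≠ 0 ∧ ∃ P : ι → Polynomial K,
      ∀ i, Polynomial.aeval j Q * g i = Polynomial.aeval j (P i) := by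
  classical
  choose r s hs hrs using fun i => gsc_frac j (g i) (hg i)
  refine ⟨∏ i, s i, ?_, fun i => r i * ∏ i' ∈ Finset.univ.erase i, s i', fun i => ?_⟩
  · rw [map_prod]
    exact Finset.prod_ne_zero_iff.2 fun i _ => hs i
  · rw [← Finset.mul_prod_erase Finset.univ s (Finset.mem_univ i), map_mul, map_mul, ← hrs i]
    ring

/-- the `b i` are linearly independent over `K(j)` -/
theorem gsc_linindep (j : F) (ψ : ℕ) (b : Fin ψ → F)
    (H : ∀ P : Fin ψ → Polynomial K, ∑ i, Polynomial.aeval j (P i) * b i = 0 → ∀ i, P i = 0) :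
    LinearIndependent K⟮j⟯ b := by
  classical
  rw [Fintype.linearIndependent_iff]
  intro g hg
  obtain ⟨Q, hQ, P, hP⟩ := gsc_common_denom (K := K) j (fun i => ((g i : K⟮j⟯) : F))
    (fun i => (g i).2)
  have h1 : ∑ i, Polynomial.aeval j (P i) * b i = 0 := by
    have h2 : ∑ i, Polynomial.aeval j (P i) * b i
        = Polynomial.aeval j Q * ∑ i, g i • b i := by
      rw [Finset.mul_sum]
      refine Finset.sum_congr rfl fun i _ => ?_
      rw [← hP i, IntermediateField.smul_def, smul_eq_mul, mul_assoc]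
    rw [h2, hg, mul_zero]
  have h3 := H P h1
  intro i
  have h4 := hP i
  rw [h3 i, map_zero] at h4
  have h5 := (mul_eq_zero.1 h4).resolve_left hQ
  exact Subtype.ext h5

/-- every element of `F` has a polynomial denominator -/
theorem gsc_denom (j : F) (ψ : ℕ) (hfin : Module.Finite K⟮j⟯ F)
    (hψ : Module.finrank K⟮j⟯ F = ψ) (b : Fin ψ → F)
    (H : ∀ P : Fin ψ → Polynomial K, ∑ i, Polynomial.aeval j (P i) * b i = 0 → ∀ i, P i = 0)
    (x : F) :
    ∃ Q : Polynomial K, Polynomial.aeval j Q ≠ 0 ∧ ∃ P : Fin ψ → Polynomial K,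
      Polynomial.aeval j Q * x = ∑ i, Polynomial.aeval j (P i) * b i := by
  classical
  have hli := gsc_linindep j ψ b H
  have hspan : Submodule.span K⟮j⟯ (Set.range b) = ⊤ :=
    hli.span_eq_top_of_card_eq_finrank' (by rw [hψ, Fintype.card_fin])
  obtain ⟨c, hc⟩ : ∃ c : Fin ψ → K⟮j⟯, ∑ i, c i • b i = x :=
    (Submodule.mem_span_range_iff_exists_fun K⟮j⟯).1 (by rw [hspan]; trivial)
  obtain ⟨Q, hQ, P, hP⟩ := gsc_common_denom (K := K) j
    (fun i : Fin ψ => ((c i : K⟮j⟯) : F)) (fun i => (c i).2)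
  refine ⟨Q, hQ, P, ?_⟩
  rw [← hc, Finset.mul_sum]
  refine Finset.sum_congr rfl fun i _ => ?_
  rw [← hP i, IntermediateField.smul_def, smul_eq_mul, mul_assoc]

end gsc

theorem exists_smul_of_basis {K F k Fb : Type*} [Field K] [Field F] [Algebra K F] [Field k]
    [Field Fb] [Algebra k Fb]
    (A : ValuationSubring K) (π : A →+* k) (hπ : ∀ a : A, π a = 0 ↔ ¬ IsUnit a)
    (O : Subring F) (red : O →+* Fb)
    (hmem : ∀ a : K, algebraMap K F a ∈ O ↔ a ∈ A)
    (hred : ∀ (a : A) (h : algebraMap K F (a : K) ∈ O),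
      red ⟨algebraMap K F (a : K), h⟩ = algebraMap k Fb (π a))
    (hinv : ∀ u : O, red u ≠ 0 → ((u : F))⁻¹ ∈ O)
    (j : O) (hj : Transcendental k (red j))
    (ψ : ℕ) (hfin : Module.Finite K⟮(j : F)⟯ F) (hψ : Module.finrank K⟮(j : F)⟯ F = ψ)
    (b : Fin ψ → O)
    (hb : ∀ p : Fin ψ → Polynomial k,
      (∑ i, Polynomial.aeval (red j) (p i) * red (b i)) = 0 → ∀ i, p i = 0) :
    ∀ f : F, f ≠ 0 → ∃ c : K, c ≠ 0 ∧ ∃ h : c • f ∈ O, red ⟨c • f, h⟩ ≠ 0 := by
  classical
  have _ := hπ
  -- the integral combination attached to a family of integral polynomials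
  have hNcoe : ∀ P' : Fin ψ → Polynomial A,
      ((∑ i, gsc_ev A O hmem j (P' i) * b i : O) : F)
        = ∑ i, Polynomial.aeval (j : F) ((P' i).map A.subtype) * ((b i : O) : F) := by
    intro P'
    have h1 : ((∑ i, gsc_ev A O hmem j (P' i) * b i : O) : F)
        = O.subtype (∑ i, gsc_ev A O hmem j (P' i) * b i) := rfl
    rw [h1, map_sum]
    refine Finset.sum_congr rfl fun i _ => ?_
    rw [map_mul, ← gsc_ev_coe]
    rfl
  have hNred : ∀ P' : Fin ψ → Polynomial A,
      red (∑ i, gsc_ev A O hmem j (P' i) * b i)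
        = ∑ i, Polynomial.aeval (red j) ((P' i).map π) * red (b i) := by
    intro P'
    rw [map_sum]
    refine Finset.sum_congr rfl fun i _ => ?_
    rw [map_mul, gsc_ev_red A π O red hmem hred]
  have hNne : ∀ P' : Fin ψ → Polynomial A, (∃ i n, (P' i).coeff n = 1) →
      red (∑ i, gsc_ev A O hmem j (P' i) * b i) ≠ 0 := by
    intro P' ⟨i, n, hin⟩ h0
    rw [hNred] at h0
    have h1 := congrArg (fun q => Polynomial.coeff q n) (hb _ h0 i)
    simp only [Polynomial.coeff_map, Polynomial.coeff_zero, hin, map_one] at h1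
    exact one_ne_zero h1
  -- polynomial independence of the `b i`
  have H : ∀ P : Fin ψ → Polynomial K,
      ∑ i, Polynomial.aeval (j : F) (P i) * ((b i : O) : F) = 0 → ∀ i, P i = 0 := by
    intro P hP
    by_contra hcon
    push Not at hcon
    obtain ⟨i₀, hi₀⟩ := hcon
    obtain ⟨c, -, P', hP', hone⟩ := gsc_scale A P i₀ hi₀
    apply hNne P' hone
    have h1 : (∑ i, gsc_ev A O hmem j (P' i) * b i : O) = 0 := by
      apply Subtype.ext
      rw [hNcoe, Subring.coe_zero]
      have h2 : ∑ i, Polynomial.aeval (j : F) ((P' i).map A.subtype) * ((b i : O) : F)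
          = c • ∑ i, Polynomial.aeval (j : F) (P i) * ((b i : O) : F) := by
        rw [Finset.smul_sum]
        refine Finset.sum_congr rfl fun i _ => ?_
        rw [hP' i, map_smul, smul_mul_assoc]
      rw [h2, hP, smul_zero]
    rw [h1, map_zero]
  intro f hf
  obtain ⟨Q, hQ, P, hP⟩ := gsc_denom (j : F) ψ hfin hψ (fun i => ((b i : O) : F)) H f
  have hQ0 : Q ≠ 0 := by
    rintro rfl
    exact hQ (map_zero _)
  have hPne : ∃ i, P i ≠ 0 := by
    by_contra hcon
    push Not at hcon
    have h1 : Polynomial.aeval (j : F) Q * f = 0 := by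
      rw [hP]
      exact Finset.sum_eq_zero fun i _ => by rw [hcon i, map_zero, zero_mul]
    exact (mul_ne_zero hQ hf) h1
  obtain ⟨i₀, hi₀⟩ := hPne
  obtain ⟨c₁, hc₁, P', hP', hone⟩ := gsc_scale A P i₀ hi₀
  obtain ⟨c₂, hc₂, Q', hQ', u, n, hQone⟩ := gsc_scale A (fun _ : Unit => Q) () hQ0
  set N : O := ∑ i, gsc_ev A O hmem j (P' i) * b i with hN
  set q : O := gsc_ev A O hmem j (Q' u) with hq
  have hNF : (N : F) = c₁ • (Polynomial.aeval (j : F) Q * f) := by
    rw [hN, hNcoe, hP, Finset.smul_sum]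
    refine Finset.sum_congr rfl fun i _ => ?_
    rw [hP' i, map_smul, smul_mul_assoc]
  have hqF : (q : F) = c₂ • Polynomial.aeval (j : F) Q := by
    rw [hq, gsc_ev_coe, hQ' u, map_smul]
  have hqred : red q ≠ 0 := by
    rw [hq, gsc_ev_red A π O red hmem hred]
    intro h0
    have h1 : (Q' u).map π = 0 := by
      by_contra hne
      exact hj ⟨_, hne, h0⟩
    have h2 := congrArg (fun q => Polynomial.coeff q n) h1
    simp only [Polynomial.coeff_map, Polynomial.coeff_zero, hQone, map_one] at h2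
    exact one_ne_zero h2
  have hqinv : ((q : F))⁻¹ ∈ O := hinv q hqred
  have hqq : (⟨((q : F))⁻¹, hqinv⟩ : O) * q = 1 := by
    apply Subtype.ext
    rw [Subring.coe_mul, Subring.coe_one]
    apply inv_mul_cancel₀
    rw [hqF]
    exact smul_ne_zero hc₂ hQ
  have hqinvred : red ⟨((q : F))⁻¹, hqinv⟩ ≠ 0 := by
    intro h0
    have h1 := congrArg red hqq
    rw [map_mul, h0, zero_mul, map_one] at h1
    exact zero_ne_one h1
  have heq : (c₁ * c₂⁻¹) • f = ((N * ⟨((q : F))⁻¹, hqinv⟩ : O) : F) := by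
    have h3 : ((N * ⟨((q : F))⁻¹, hqinv⟩ : O) : F) = (N : F) * ((q : F))⁻¹ := rfl
    rw [h3, hNF, hqF]
    simp only [Algebra.smul_def, map_mul, map_inv₀]
    have hc₂' : algebraMap K F c₂ ≠ 0 := (map_ne_zero _).mpr hc₂
    field_simp
  refine ⟨c₁ * c₂⁻¹, mul_ne_zero hc₁ (inv_ne_zero hc₂), heq ▸ (N * ⟨((q : F))⁻¹, hqinv⟩).2, ?_⟩
  have h1 : (⟨(c₁ * c₂⁻¹) • f, heq ▸ (N * ⟨((q : F))⁻¹, hqinv⟩).2⟩ : O)
      = N * ⟨((q : F))⁻¹, hqinv⟩ := Subtype.ext heq
  rw [h1, map_mul]
  exact mul_ne_zero (hNne P' hone) hqinvred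

end Fermat.Agent.S18L
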