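import Mathlib
import Fermat.Agent.RR.Riemann

/-!
# S18, package INJ: the reduction datum (interface file, owner helper8)

`RedDatum K F k Fb`: a valuation subring `A` of `K` with residue map `π : A →+* k`, and a
"Gauss-type" extension to `F`: a subring `O` of `F` with a reduction map `red : O →+* Fb`
such that `O ∩ K = A`, every nonzero `f : F` can be scaled by a constant into `O` with
nonzero reduction, elements of nonzero reduction are invertible in `O`, and `red` is surjective.

`RedDatum.HasOrth`: every finite-dimensional `K`-subspace `W` of `F` contains `dim W` elements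
of `O` whose reductions are `k`-linearly independent (an "orthonormal basis").
-/

set_option autoImplicit false

namespace Fermat.Agent.S18L

open Fermat.Agent.RRL

/-- A Gauss-type reduction datum. -/
structure RedDatum (K F k Fb : Type*) [Field K] [Field F] [Algebra K F] [Field k] [Field Fb]
    [Algebra k Fb] where
  /-- the valuation ring of the constants -/
  A : ValuationSubring K
  /-- its residue map -/
  π : A →+* k
  π_surj : Function.Surjective π
  π_eq_zero : ∀ a : A, π a = 0 ↔ ¬ IsUnit a
  /-- the integral functions -/
  O : Subring F
  /-- the reduction map -/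
  red : O →+* Fb
  algebraMap_mem : ∀ a : K, algebraMap K F a ∈ O ↔ a ∈ A
  red_algebraMap : ∀ (a : A) (h : algebraMap K F (a : K) ∈ O),
    red ⟨algebraMap K F (a : K), h⟩ = algebraMap k Fb (π a)
  exists_smul : ∀ f : F, f ≠ 0 → ∃ c : K, c ≠ 0 ∧ ∃ h : c • f ∈ O, red ⟨c • f, h⟩ ≠ 0
  inv_mem : ∀ u : O, red u ≠ 0 → ((u : F))⁻¹ ∈ O
  red_surj : Function.Surjective red

namespace RedDatum

variable {K F k Fb : Type*} [Field K] [Field F] [Algebra K F] [Field k] [Field Fb] [Algebra k Fb]

/-- every finite-dimensional subspace has a basis in `O` with linearly independent reductions -/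
def HasOrth (G : RedDatum K F k Fb) : Prop :=
  ∀ W : Submodule K F, Module.Finite K W →
    ∃ w : Fin (Module.finrank K W) → G.O, (∀ i, ((w i : G.O) : F) ∈ W) ∧
      LinearIndependent k (fun i => G.red (w i))

end RedDatum

end Fermat.Agent.S18L
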