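import Mathlib
import Fermat.Agent.S18L.InjDefs

/-!
# S18, package INJ: basic consequences of the defining properties of a reduction datum
-/

set_option autoImplicit false

namespace Fermat.Agent.S18L

open Fermat.Agent.RRL

namespace RedDatum

variable {K F k Fb : Type*} [Field K] [Field F] [Algebra K F] [Field k] [Field Fb] [Algebra k Fb]
variable (G : RedDatum K F k Fb)

/-- `O` is stable under multiplication by elements of `A`. -/
theorem smul_mem (a : G.A) (u : G.O) : ((a : K) • (u : F)) ∈ G.O := by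
  rw [Algebra.smul_def]
  exact G.O.mul_mem ((G.algebraMap_mem _).mpr a.2) u.2

theorem red_smul (a : G.A) (u : G.O) (h : ((a : K) • (u : F)) ∈ G.O) :
    G.red ⟨(a : K) • (u : F), h⟩ = algebraMap k Fb (G.π a) * G.red u := by
  have ha : algebraMap K F (a : K) ∈ G.O := (G.algebraMap_mem _).mpr a.2
  have h1 : (⟨(a : K) • (u : F), h⟩ : G.O) = ⟨algebraMap K F (a : K), ha⟩ * u :=
    Subtype.ext (by simp [Algebra.smul_def])
  rw [h1, map_mul, G.red_algebraMap]

theorem ibas_not_isUnit (a : G.A) (h : ((a : K))⁻¹ ∉ G.A) : ¬ IsUnit a := by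
  intro hu
  obtain ⟨b, hb⟩ := hu.exists_right_inv
  apply h
  have h1 : (a : K) * (b : K) = 1 := by exact_mod_cast congrArg Subtype.val hb
  rw [inv_eq_of_mul_eq_one_right h1]
  exact b.2

/-- an element outside `O` becomes an element of `O` of nonzero reduction after scaling by
a nonzero nonunit of `A`. -/
theorem exists_of_not_mem {f : F} (hf : f ∉ G.O) :
    ∃ μ : G.A, ¬ IsUnit μ ∧ (μ : K) ≠ 0 ∧ ∃ h : ((μ : K) • f) ∈ G.O, G.red ⟨(μ : K) • f, h⟩ ≠ 0 := by
  have hf0 : f ≠ 0 := by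
    rintro rfl
    exact hf G.O.zero_mem
  obtain ⟨c, hc0, hc, hred⟩ := G.exists_smul f hf0
  have hcinv : c⁻¹ ∉ G.A := by
    intro hci
    apply hf
    have := G.smul_mem ⟨c⁻¹, hci⟩ ⟨c • f, hc⟩
    simpa [smul_smul, hc0] using this
  have hcA : c ∈ G.A := (G.A.mem_or_inv_mem c).resolve_right hcinv
  exact ⟨⟨c, hcA⟩, G.ibas_not_isUnit ⟨c, hcA⟩ hcinv, hc0, hc, hred⟩

/-- a nonzero element of `O` of zero reduction is a nonunit of `A` times an element of `O`
of nonzero reduction. -/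
theorem exists_of_red_eq_zero {u : G.O} (hu0 : u ≠ 0) (hu : G.red u = 0) :
    ∃ (ν : G.A) (u' : G.O), ¬ IsUnit ν ∧ (ν : K) ≠ 0 ∧ (u : F) = (ν : K) • (u' : F) ∧
      G.red u' ≠ 0 := by
  have hu0' : (u : F) ≠ 0 := fun h => hu0 (Subtype.ext h)
  obtain ⟨c, hc0, hc, hred⟩ := G.exists_smul (u : F) hu0'
  have hcA : c ∉ G.A := by
    intro hcA
    apply hred
    have := G.red_smul ⟨c, hcA⟩ u hc
    rw [this, hu, mul_zero]
  have hci : c⁻¹ ∈ G.A := (G.A.mem_or_inv_mem c).resolve_left hcA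
  refine ⟨⟨c⁻¹, hci⟩, ⟨c • (u : F), hc⟩, G.ibas_not_isUnit ⟨c⁻¹, hci⟩ (by simpa using hcA),
    by simpa using hc0, ?_, hred⟩
  simp [smul_smul, hc0]

/-- a lift of a nonzero constant: the constants of `Fb` of the form `algebraMap c`, `c ≠ 0`,
are reductions of units of `A`. -/
theorem exists_unit_lift {c : k} (hc : c ≠ 0) :
    ∃ a : G.A, IsUnit a ∧ G.π a = c := by
  obtain ⟨a, ha⟩ := G.π_surj c
  refine ⟨a, ?_, ha⟩
  by_contra h
  exact hc (ha ▸ (G.π_eq_zero a).mpr h)

theorem red_sum {ι : Type*} [Fintype ι] (w : ι → G.O) (c : ι → G.A)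
    (h : (∑ i, ((c i : G.A) : K) • ((w i : G.O) : F)) ∈ G.O) :
    G.red ⟨∑ i, ((c i : G.A) : K) • ((w i : G.O) : F), h⟩
      = ∑ i, algebraMap k Fb (G.π (c i)) * G.red (w i) := by
  have h1 : (⟨∑ i, ((c i : G.A) : K) • ((w i : G.O) : F), h⟩ : G.O)
      = ∑ i, ⟨((c i : G.A) : K) • ((w i : G.O) : F), G.smul_mem (c i) (w i)⟩ :=
    Subtype.ext (by simp)
  rw [h1, map_sum]
  exact Finset.sum_congr rfl fun i _ => G.red_smul (c i) (w i) _

theorem ibas_key {ι : Type*} [Fintype ι] (w : ι → G.O)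
    (hw : LinearIndependent k (fun i => G.red (w i))) (c : ι → K) (i₀ : ι) (h0 : c i₀ ≠ 0)
    (hmax : ∀ i, G.A.valuation (c i) ≤ G.A.valuation (c i₀)) :
    ∃ h : ((c i₀)⁻¹ • ∑ i, c i • ((w i : G.O) : F)) ∈ G.O,
      G.red ⟨(c i₀)⁻¹ • ∑ i, c i • ((w i : G.O) : F), h⟩ ≠ 0 := by
  classical
  have hd : ∀ i, c i / c i₀ ∈ G.A := by
    intro i
    rw [← ValuationSubring.valuation_le_one_iff, map_div₀]
    have hv0 : G.A.valuation (c i₀) ≠ 0 := (map_ne_zero _).mpr h0
    exact (div_le_one₀ (zero_lt_iff.mpr hv0)).mpr (hmax i)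
  let d : ι → G.A := fun i => ⟨c i / c i₀, hd i⟩
  have heq : (c i₀)⁻¹ • ∑ i, c i • ((w i : G.O) : F)
      = ∑ i, ((d i : G.A) : K) • ((w i : G.O) : F) := by
    rw [Finset.smul_sum]
    refine Finset.sum_congr rfl fun i _ => ?_
    rw [smul_smul]
    congr 1
    simp only [d]
    field_simp
  have hmem : (∑ i, ((d i : G.A) : K) • ((w i : G.O) : F)) ∈ G.O :=
    G.O.sum_mem fun i _ => G.smul_mem (d i) (w i)
  refine ⟨heq ▸ hmem, ?_⟩
  have h1 : (⟨(c i₀)⁻¹ • ∑ i, c i • ((w i : G.O) : F), heq ▸ hmem⟩ : G.O)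
      = ⟨∑ i, ((d i : G.A) : K) • ((w i : G.O) : F), hmem⟩ := Subtype.ext heq
  rw [h1, G.red_sum w d hmem]
  intro hsum
  have hsum' : ∑ i, G.π (d i) • G.red (w i) = 0 := by
    rw [← hsum]
    exact Finset.sum_congr rfl fun i _ => Algebra.smul_def _ _
  have := Fintype.linearIndependent_iff.mp hw _ hsum' i₀
  have hd1 : d i₀ = 1 := Subtype.ext (by simp [d, h0])
  rw [hd1, map_one] at this
  exact one_ne_zero this

/-- orthonormality: a `K`-combination of elements with linearly independent reductions lies in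
`O` only if its coefficients lie in `A`. -/
theorem mem_A_of_indep {ι : Type*} [Fintype ι] (w : ι → G.O)
    (hw : LinearIndependent k (fun i => G.red (w i))) (c : ι → K)
    (h : (∑ i, c i • ((w i : G.O) : F)) ∈ G.O) : ∀ i, c i ∈ G.A := by
  classical
  by_contra hcon
  push Not at hcon
  obtain ⟨j, hj⟩ := hcon
  obtain ⟨i₀, -, hmax⟩ := Finset.exists_max_image Finset.univ (fun i => G.A.valuation (c i))
    ⟨j, Finset.mem_univ j⟩
  have hi₀ : c i₀ ∉ G.A := by
    intro hmem
    apply hj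
    rw [← ValuationSubring.valuation_le_one_iff] at hmem ⊢
    exact le_trans (hmax j (Finset.mem_univ j)) hmem
  have h0 : c i₀ ≠ 0 := by
    rintro h0
    exact hi₀ (h0 ▸ G.A.zero_mem)
  obtain ⟨h', hne⟩ := G.ibas_key w hw c i₀ h0 (fun i => hmax i (Finset.mem_univ i))
  have hci : (c i₀)⁻¹ ∈ G.A := (G.A.mem_or_inv_mem _).resolve_left hi₀
  have hnu : ¬ IsUnit (⟨(c i₀)⁻¹, hci⟩ : G.A) := G.ibas_not_isUnit _ (by simpa using hi₀)
  apply hne
  have := G.red_smul ⟨(c i₀)⁻¹, hci⟩ ⟨_, h⟩ h'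
  rw [this, (G.π_eq_zero _).mpr hnu, map_zero, zero_mul]

/-- elements with `k`-linearly independent reductions are `K`-linearly independent. -/
theorem linearIndependent_of_indep {ι : Type*} [Fintype ι] (w : ι → G.O)
    (hw : LinearIndependent k (fun i => G.red (w i))) :
    LinearIndependent K (fun i => ((w i : G.O) : F)) := by
  classical
  rw [Fintype.linearIndependent_iff]
  intro g hg
  by_contra hcon
  push Not at hcon
  obtain ⟨j, hj⟩ := hcon
  obtain ⟨i₀, -, hmax⟩ := Finset.exists_max_image Finset.univ (fun i => G.A.valuation (g i))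
    ⟨j, Finset.mem_univ j⟩
  have h0 : g i₀ ≠ 0 := by
    intro h0
    have := hmax j (Finset.mem_univ j)
    rw [h0, map_zero] at this
    exact hj ((map_eq_zero _).mp (le_antisymm this zero_le))
  obtain ⟨h', hne⟩ := G.ibas_key w hw g i₀ h0 (fun i => hmax i (Finset.mem_univ i))
  apply hne
  have : (⟨(g i₀)⁻¹ • ∑ i, g i • ((w i : G.O) : F), h'⟩ : G.O) = 0 :=
    Subtype.ext (by simp [hg])
  rw [this, map_zero]

/-- **Semicontinuity from orthonormal bases.**  If the reductions of all integral elements of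
`U` lie in the finite-dimensional `k`-subspace `Ub`, then `dim_K U ≤ dim_k Ub`. -/
theorem finrank_le_of_hasOrth (hO : G.HasOrth) (U : Submodule K F) [Module.Finite K U]
    (Ub : Submodule k Fb) [Module.Finite k Ub]
    (h : ∀ u : G.O, (u : F) ∈ U → G.red u ∈ Ub) :
    Module.finrank K U ≤ Module.finrank k Ub := by
  obtain ⟨w, hwU, hw⟩ := hO U inferInstance
  have hv : LinearIndependent k (fun i => (⟨G.red (w i), h _ (hwU i)⟩ : Ub)) := by
    apply LinearIndependent.of_comp Ub.subtype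
    exact hw
  simpa using hv.fintype_card_le_finrank

end RedDatum

section Curves

variable {K F X k Fb Y : Type*} [Field K] [Field F] [Algebra K F] [Field k] [Field Fb]
  [Algebra k Fb]

/-- push-forward of divisors preserves the degree -/
theorem deg_mapDomain (r : X → Y) (E : X →₀ ℤ) :
    PreCurve.deg (Finsupp.mapDomain r E) = PreCurve.deg E := by
  unfold PreCurve.deg
  rw [Finsupp.sum_mapDomain_index (fun _ => rfl) (fun _ _ _ => rfl)]

/-- push-forward of divisors is monotone -/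
theorem mapDomain_nonneg (r : X → Y) {E : X →₀ ℤ} (hE : 0 ≤ E) :
    0 ≤ Finsupp.mapDomain r E := by
  classical
  intro Q
  rw [Finsupp.mapDomain, Finsupp.sum, Finsupp.coe_zero, Pi.zero_apply, Finsupp.finsetSum_apply]
  refine Finset.sum_nonneg fun a _ => ?_
  rw [Finsupp.single_apply]
  split_ifs
  · exact hE a
  · exact le_rfl

/-- a point in the support of a push-forward comes from a point of the support -/
theorem exists_of_mapDomain_ne_zero (r : X → Y) (E : X →₀ ℤ) {Q : Y}
    (h : Finsupp.mapDomain r E Q ≠ 0) : ∃ P : X, r P = Q ∧ E P ≠ 0 := by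
  classical
  have h1 : Q ∈ (Finsupp.mapDomain r E).support := Finsupp.mem_support_iff.mpr h
  have h2 := Finsupp.mapDomain_support h1
  obtain ⟨P, hP, hPQ⟩ := Finset.mem_image.mp h2
  exact ⟨P, hPQ, Finsupp.mem_support_iff.mp hP⟩

/-- `L(A) ∩ L(B) ⊆ L(min(A,B))` -/
theorem L_inf_le (C : PreCurve K F X) (A B : X →₀ ℤ) : C.L A ⊓ C.L B ≤ C.L (A ⊓ B) := by
  rintro x ⟨hA, hB⟩
  rw [SetLike.mem_coe, PreCurve.mem_L] at hA hB
  rw [PreCurve.mem_L]
  by_cases hx : x = 0
  · exact Or.inl hx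
  refine Or.inr fun p => ?_
  have h1 := hA.resolve_left hx p
  have h2 := hB.resolve_left hx p
  rw [Finsupp.inf_apply]
  rcases le_total (A p) (B p) with h | h
  · rw [inf_eq_left.mpr h]; exact h1
  · rw [inf_eq_right.mpr h]; exact h2

/-- functions with poles at most at `P` and at most at `P' ≠ P` are constant -/
theorem L_single_inf_single_le (C : PreCurve K F X) {P P' : X} (hPP : P ≠ P') (a b : ℤ) :
    C.L (Finsupp.single P a) ⊓ C.L (Finsupp.single P' b) ≤ C.L 0 := by
  classical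
  rintro x ⟨hA, hB⟩
  rw [SetLike.mem_coe, PreCurve.mem_L] at hA hB
  rw [PreCurve.mem_L]
  by_cases hx : x = 0
  · exact Or.inl hx
  refine Or.inr fun p => ?_
  have h1 := hA.resolve_left hx p
  have h2 := hB.resolve_left hx p
  rw [Finsupp.single_apply] at h1 h2
  by_cases hp : P = p
  · have hp' : ¬ P' = p := fun h => hPP (hp.trans h.symm)
    rw [if_neg hp'] at h2
    simpa using h2
  · rw [if_neg hp] at h1
    simpa using h1

/-- membership in `L(0)`: constants -/
theorem exists_const_of_mem_L_zero (C : PreCurve K F X) {x : F} (hx : x ∈ C.L 0) :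
    ∃ c : K, x = algebraMap K F c := by
  rw [PreCurve.mem_L] at hx
  by_cases hx0 : x = 0
  · exact ⟨0, by simp [hx0]⟩
  · exact C.const_of_nonneg hx0 (fun p => by simpa using hx.resolve_left hx0 p)

theorem algebraMap_mem_L (C : PreCurve K F X) {E : X →₀ ℤ} (hE : 0 ≤ E) (c : K) :
    algebraMap K F c ∈ C.L E := by
  rw [PreCurve.mem_L]
  by_cases hc : c = 0
  · left; simp [hc]
  · refine Or.inr fun p => ?_
    rw [C.ord_algebraMap p hc]
    have := hE p
    simp only [Finsupp.coe_zero, Pi.zero_apply] at this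
    omega

/-- a nonzero element of `L(D)` with `deg D = 0` shows that `D` is principal -/
theorem eq_div_of_mem_L (C : Curve K F X) {D : X →₀ ℤ} (hD : PreCurve.deg D = 0) {x : F}
    (hx0 : x ≠ 0) (hx : x ∈ C.toPreCurve.L D) : D = C.toPreCurve.div x⁻¹ := by
  classical
  rw [PreCurve.mem_L] at hx
  have hx' := hx.resolve_left hx0
  set T : X →₀ ℤ := D + C.toPreCurve.div x with hT
  have hTnn : ∀ p, 0 ≤ T p := by
    intro p
    rw [hT, Finsupp.add_apply, PreCurve.div_apply _ hx0]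
    have := hx' p
    omega
  have hTdeg : PreCurve.deg T = 0 := by
    rw [hT, PreCurve.deg_add, hD, C.deg_div hx0, add_zero]
  have hT0 : T = 0 := by
    ext p
    by_cases hp : p ∈ T.support
    · unfold PreCurve.deg Finsupp.sum at hTdeg
      exact (Finset.sum_eq_zero_iff_of_nonneg (fun i _ => hTnn i)).mp hTdeg p hp
    · simpa using hp
  rw [PreCurve.div_inv _ hx0]
  rw [hT] at hT0
  exact eq_neg_of_add_eq_zero_left hT0

/-- the reduction maps `L(E) ∩ O` into `L(r_* E)` -/
theorem red_mem_L (G : RedDatum K F k Fb) (C : Curve K F X) (Cb : Curve k Fb Y) (r : X → Y)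
    (hr : ∀ u : G.O, G.red u ≠ 0 →
      Finsupp.mapDomain r (C.toPreCurve.div (u : F)) = Cb.toPreCurve.div (G.red u))
    (E : X →₀ ℤ) (u : G.O) (hu : (u : F) ∈ C.toPreCurve.L E) :
    G.red u ∈ Cb.toPreCurve.L (Finsupp.mapDomain r E) := by
  rw [PreCurve.mem_L]
  by_cases hred : G.red u = 0
  · exact Or.inl hred
  have hu0 : (u : F) ≠ 0 := by
    intro h0
    apply hred
    have : u = 0 := Subtype.ext h0
    rw [this, map_zero]
  rw [PreCurve.mem_L] at hu
  have hu' := hu.resolve_left hu0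
  have h1 : 0 ≤ C.toPreCurve.div (u : F) + E := by
    intro p
    rw [Finsupp.add_apply, PreCurve.div_apply _ hu0]
    have := hu' p
    simp only [Finsupp.coe_zero, Pi.zero_apply]
    omega
  have h2 := mapDomain_nonneg r h1
  rw [Finsupp.mapDomain_add, hr u hred] at h2
  refine Or.inr fun q => ?_
  have h3 := h2 q
  rw [Finsupp.add_apply, PreCurve.div_apply _ hred] at h3
  simp only [Finsupp.coe_zero, Pi.zero_apply] at h3
  omega

end Curves

end Fermat.Agent.S18L
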