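import Mathlib
import Fermat.Agent.S18L.InjBasic

/-!
# S18, package ORTH: coordinates on a function field with a Gauss-type valuation

`j ∈ O` with transcendental reduction, `[F : K(j)] = ψ`, and `b₁, …, b_ψ ∈ O` with reductions
linearly independent over `k[red j]`.  Then

* `orth_ff_indep`: the reductions of the monomials `j ^ a * b_i` are `k`-linearly independent;
* `orth_ff_denom`: for every finite-dimensional `K`-subspace `W` of `F` there are a bound `M`
  and a "denominator" `q ∈ O` of nonzero reduction such that `q * x` is a `K`-combination of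
  the monomials `j ^ a * b_i`, `a < M`, for all `x ∈ W`.
-/

set_option autoImplicit false

open scoped IntermediateField

namespace Fermat.Agent.S18L

open Fermat.Agent.RRL

variable {K F k Fb : Type*} [Field K] [Field F] [Algebra K F] [Field k] [Field Fb] [Algebra k Fb]

theorem orth_ff_indep (G : RedDatum K F k Fb) (j : G.O) (ψ : ℕ) (b : Fin ψ → G.O)
    (hb : ∀ p : Fin ψ → Polynomial k,
      (∑ i, Polynomial.aeval (G.red j) (p i) * G.red (b i)) = 0 → ∀ i, p i = 0) (M : ℕ) :
    LinearIndependent k (fun p : Fin M × Fin ψ => G.red (j ^ (p.1 : ℕ) * b p.2)) := by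
  classical
  rw [Fintype.linearIndependent_iff]
  intro c hc
  have key := hb (fun i => ∑ a : Fin M, Polynomial.monomial (a : ℕ) (c (a, i))) ?_
  · intro p
    obtain ⟨a, i⟩ := p
    have h1 := congrArg (fun q => Polynomial.coeff q (a : ℕ)) (key i)
    simp only [Polynomial.finsetSum_coeff, Polynomial.coeff_monomial, Polynomial.coeff_zero]
      at h1
    rw [Finset.sum_eq_single a] at h1
    · simpa using h1
    · intro a' _ ha'
      rw [if_neg]
      intro h
      exact ha' (Fin.ext h)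
    · intro h
      exact absurd (Finset.mem_univ a) h
  · rw [← hc, Fintype.sum_prod_type, Finset.sum_comm]
    refine Finset.sum_congr rfl fun i _ => ?_
    rw [map_sum, Finset.sum_mul]
    refine Finset.sum_congr rfl fun a _ => ?_
    simp [Polynomial.aeval_monomial, Algebra.smul_def, mul_assoc]

/-- elements of `K(j)` are fractions of polynomials in `j` with nonzero denominator -/
theorem offa_frac (j : F) (f : F) (hf : f ∈ K⟮j⟯) :
    ∃ r s : Polynomial K, Polynomial.aeval j s ≠ 0 ∧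
      Polynomial.aeval j s * f = Polynomial.aeval j r := by
  obtain ⟨r, s, rfl⟩ := (IntermediateField.mem_adjoin_simple_iff K f).1 hf
  by_cases hs : Polynomial.aeval j s = 0
  · refine ⟨0, 1, by simp, ?_⟩
    simp [hs]
  · exact ⟨r, s, hs, by field_simp⟩

/-- a common denominator for a finite family of elements of `K(j)` -/
theorem offa_common_denom (j : F) {ι : Type*} [Fintype ι] (g : ι → F)
    (hg : ∀ i, g i ∈ K⟮j⟯) :
    ∃ Q : Polynomial K, Polynomial.aeval j Q ≠ 0 ∧ ∃ P : ι → Polynomial K,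
      ∀ i, Polynomial.aeval j Q * g i = Polynomial.aeval j (P i) := by
  classical
  choose r s hs hrs using fun i => offa_frac j (g i) (hg i)
  refine ⟨∏ i, s i, ?_, fun i => r i * ∏ i' ∈ Finset.univ.erase i, s i', fun i => ?_⟩
  · rw [map_prod]
    exact Finset.prod_ne_zero_iff.2 fun i _ => hs i
  · rw [← Finset.mul_prod_erase Finset.univ s (Finset.mem_univ i), map_mul, map_mul, ← hrs i]
    ring

/-- expansion of a polynomial combination in monomials -/
theorem offa_expand (j : F) (ψ : ℕ) (b : Fin ψ → F) (P : Fin ψ → Polynomial K) (M : ℕ)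
    (hM : ∀ i, (P i).natDegree < M) :
    ∑ i, Polynomial.aeval j (P i) * b i
      = ∑ p : Fin M × Fin ψ, (P p.2).coeff (p.1 : ℕ) • (j ^ (p.1 : ℕ) * b p.2) := by
  rw [Fintype.sum_prod_type, Finset.sum_comm]
  refine Finset.sum_congr rfl fun i _ => ?_
  rw [Polynomial.aeval_eq_sum_range' (hM i), Finset.sum_mul, Finset.sum_range]
  refine Finset.sum_congr rfl fun a _ => ?_
  rw [smul_mul_assoc]

/-- `K`-independence of the monomials gives independence over polynomials -/
theorem offa_polyindep (j : F) (ψ : ℕ) (b : Fin ψ → F)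
    (H : ∀ M : ℕ, LinearIndependent K (fun p : Fin M × Fin ψ => j ^ (p.1 : ℕ) * b p.2))
    (P : Fin ψ → Polynomial K) (hP : ∑ i, Polynomial.aeval j (P i) * b i = 0) :
    ∀ i, P i = 0 := by
  classical
  set M := (Finset.univ.sup fun i => (P i).natDegree) + 1 with hMdef
  have hM : ∀ i, (P i).natDegree < M := fun i =>
    Nat.lt_succ_of_le (Finset.le_sup (f := fun i => (P i).natDegree) (Finset.mem_univ i))
  rw [offa_expand j ψ b P M hM] at hP
  have h0 := (Fintype.linearIndependent_iff.1 (H M)) (fun p => (P p.2).coeff (p.1 : ℕ)) hP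
  intro i
  ext a
  rw [Polynomial.coeff_zero]
  by_cases ha : a < M
  · exact h0 (⟨a, ha⟩, i)
  · exact Polynomial.coeff_eq_zero_of_natDegree_lt (lt_of_lt_of_le (hM i) (not_lt.1 ha))

/-- the `b i` are linearly independent over `K(j)` -/
theorem offa_linindep (j : F) (ψ : ℕ) (b : Fin ψ → F)
    (H : ∀ M : ℕ, LinearIndependent K (fun p : Fin M × Fin ψ => j ^ (p.1 : ℕ) * b p.2)) :
    LinearIndependent K⟮j⟯ b := by
  classical
  rw [Fintype.linearIndependent_iff]
  intro g hg
  obtain ⟨Q, hQ, P, hP⟩ := offa_common_denom (K := K) j (fun i => ((g i : K⟮j⟯) : F))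
    (fun i => (g i).2)
  have h1 : ∑ i, Polynomial.aeval j (P i) * b i = 0 := by
    have h2 : ∑ i, Polynomial.aeval j (P i) * b i
        = Polynomial.aeval j Q * ∑ i, g i • b i := by
      rw [Finset.mul_sum]
      refine Finset.sum_congr rfl fun i _ => ?_
      rw [← hP i, IntermediateField.smul_def, smul_eq_mul, mul_assoc]
    rw [h2, hg, mul_zero]
  have h3 := offa_polyindep j ψ b H P h1
  intro i
  have h4 := hP i
  rw [h3 i, map_zero] at h4
  have h5 := (mul_eq_zero.1 h4).resolve_left hQ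
  exact Subtype.ext h5

/-- every element of `F` has a polynomial denominator -/
theorem offa_family (j : F) (ψ : ℕ) (hfin : Module.Finite K⟮j⟯ F)
    (hψ : Module.finrank K⟮j⟯ F = ψ) (b : Fin ψ → F)
    (H : ∀ M : ℕ, LinearIndependent K (fun p : Fin M × Fin ψ => j ^ (p.1 : ℕ) * b p.2))
    {d : ℕ} (x : Fin d → F) :
    ∃ Q : Polynomial K, Polynomial.aeval j Q ≠ 0 ∧ ∃ P : Fin d × Fin ψ → Polynomial K,
      ∀ l, Polynomial.aeval j Q * x l = ∑ i, Polynomial.aeval j (P (l, i)) * b i := by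
  classical
  have hli := offa_linindep j ψ b H
  have hspan : Submodule.span K⟮j⟯ (Set.range b) = ⊤ :=
    hli.span_eq_top_of_card_eq_finrank' (by rw [hψ, Fintype.card_fin])
  have hx : ∀ l, ∃ c : Fin ψ → K⟮j⟯, ∑ i, c i • b i = x l := fun l =>
    (Submodule.mem_span_range_iff_exists_fun K⟮j⟯).1 (by rw [hspan]; trivial)
  choose c hc using hx
  obtain ⟨Q, hQ, P, hP⟩ := offa_common_denom (K := K) j
    (fun p : Fin d × Fin ψ => ((c p.1 p.2 : K⟮j⟯) : F)) (fun p => (c p.1 p.2).2)
  refine ⟨Q, hQ, P, fun l => ?_⟩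
  rw [← hc l, Finset.mul_sum]
  refine Finset.sum_congr rfl fun i _ => ?_
  rw [← hP (l, i), IntermediateField.smul_def, smul_eq_mul, mul_assoc]

/-- a common polynomial denominator for a finite-dimensional subspace -/
theorem offa_subspace (j : F) (ψ : ℕ) (hfin : Module.Finite K⟮j⟯ F)
    (hψ : Module.finrank K⟮j⟯ F = ψ) (b : Fin ψ → F)
    (H : ∀ M : ℕ, LinearIndependent K (fun p : Fin M × Fin ψ => j ^ (p.1 : ℕ) * b p.2))
    (W : Submodule K F) (hW : Module.Finite K W) :
    ∃ (M : ℕ) (Q : Polynomial K), Polynomial.aeval j Q ≠ 0 ∧ ∀ x ∈ W,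
      ∃ c : Fin M × Fin ψ → K,
        Polynomial.aeval j Q * x = ∑ p : Fin M × Fin ψ, c p • (j ^ (p.1 : ℕ) * b p.2) := by
  classical
  set d := Module.finrank K W
  let B := Module.finBasis K W
  obtain ⟨Q, hQ, P, hP⟩ := offa_family j ψ hfin hψ b H (fun l : Fin d => ((B l : W) : F))
  set M := (Finset.univ.sup fun p : Fin d × Fin ψ => (P p).natDegree) + 1 with hMdef
  have hM : ∀ p, (P p).natDegree < M := fun p =>
    Nat.lt_succ_of_le (Finset.le_sup (f := fun p => (P p).natDegree) (Finset.mem_univ p))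
  refine ⟨M, Q, hQ, fun x hx => ?_⟩
  obtain ⟨r, hxB⟩ : ∃ r : Fin d → K, x = ∑ l, r l • ((B l : W) : F) := by
    refine ⟨fun l => B.repr ⟨x, hx⟩ l, ?_⟩
    have h0 := congrArg (Subtype.val) (B.sum_repr ⟨x, hx⟩)
    rw [Submodule.coe_sum] at h0
    simp only [Submodule.coe_smul] at h0
    exact h0.symm
  refine ⟨fun p => ∑ l, r l * (P (l, p.2)).coeff (p.1 : ℕ), ?_⟩
  rw [hxB, Finset.mul_sum]
  have h1 : ∀ l, Polynomial.aeval j Q * (r l • ((B l : W) : F))
      = ∑ p : Fin M × Fin ψ,
          (r l * (P (l, p.2)).coeff (p.1 : ℕ)) • (j ^ (p.1 : ℕ) * b p.2) := by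
    intro l
    rw [mul_smul_comm, hP l, offa_expand j ψ b (fun i => P (l, i)) M (fun i => hM (l, i)),
      Finset.smul_sum]
    refine Finset.sum_congr rfl fun p _ => ?_
    rw [mul_smul]
  rw [Finset.sum_congr rfl fun l _ => h1 l, Finset.sum_comm]
  refine Finset.sum_congr rfl fun p _ => ?_
  rw [Finset.sum_smul]

theorem orth_ff_denom (G : RedDatum K F k Fb) (j : G.O) (hj : Transcendental k (G.red j))
    (ψ : ℕ) (hfin : Module.Finite K⟮(j : F)⟯ F) (hψ : Module.finrank K⟮(j : F)⟯ F = ψ)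
    (b : Fin ψ → G.O)
    (hb : ∀ p : Fin ψ → Polynomial k,
      (∑ i, Polynomial.aeval (G.red j) (p i) * G.red (b i)) = 0 → ∀ i, p i = 0)
    (W : Submodule K F) (hW : Module.Finite K W) :
    ∃ (M : ℕ) (q : G.O), G.red q ≠ 0 ∧ ∀ x ∈ W, ∃ c : Fin M × Fin ψ → K,
      (q : F) * x = ∑ p : Fin M × Fin ψ, c p • (((j : G.O) : F) ^ (p.1 : ℕ) * ((b p.2 : G.O) : F)) := by
  classical
  have _ := hj
  have H : ∀ M : ℕ, LinearIndependent K
      (fun p : Fin M × Fin ψ => ((j : G.O) : F) ^ (p.1 : ℕ) * ((b p.2 : G.O) : F)) := by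
    intro M
    have h1 := G.linearIndependent_of_indep (fun p : Fin M × Fin ψ => j ^ (p.1 : ℕ) * b p.2)
      (orth_ff_indep G j ψ b hb M)
    simpa using h1
  obtain ⟨M, Q, hQ, hW'⟩ := offa_subspace (j : F) ψ hfin hψ (fun i => ((b i : G.O) : F)) H W hW
  obtain ⟨c, hc, hmem, hred⟩ := G.exists_smul _ hQ
  refine ⟨M, ⟨_, hmem⟩, hred, fun x hx => ?_⟩
  obtain ⟨e, he⟩ := hW' x hx
  refine ⟨fun p => c * e p, ?_⟩
  show c • Polynomial.aeval (j : F) Q * x = _
  rw [smul_mul_assoc, he, Finset.smul_sum]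
  refine Finset.sum_congr rfl fun p _ => ?_
  rw [mul_smul]

end Fermat.Agent.S18L
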