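import Mathlib

/-!
# S18, package ORTH: valued Gaussian elimination

Every subspace `W` of `ι → K` (`ι` finite, `A` a valuation subring of `K`) has a basis
`w₁, …, w_d` with all coordinates in `A` and with pivots: there are coordinates `σ 1, …, σ d`
with `w_l (σ l') = δ_{l l'}`.  (Consequently `∑ c_l w_l` has coordinates in `A` iff all
`c_l ∈ A`: the basis is orthonormal for the sup-norm.)
-/

set_option autoImplicit false

namespace Fermat.Agent.S18L

theorem omat_aux {K : Type*} [Field K] (A : ValuationSubring K) {ι : Type*} [Fintype ι] :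
    ∀ (d : ℕ) (W : Submodule K (ι → K)), Module.finrank K W = d →
    ∃ (w : Fin d → (ι → K)) (σ : Fin d → ι),
      (∀ l, w l ∈ W) ∧ (∀ l i, w l i ∈ A) ∧ ∀ l l', w l (σ l') = if l = l' then 1 else 0 := by
  classical
  intro d
  induction d with
  | zero =>
    intro W _
    exact ⟨Fin.elim0, Fin.elim0, fun l => l.elim0, fun l => l.elim0, fun l => l.elim0⟩
  | succ d ih =>
    intro W hW
    have hne : W ≠ ⊥ := by
      rintro rfl
      simp at hW
    obtain ⟨v, hvW, hv0⟩ := Submodule.exists_mem_ne_zero_of_ne_bot hne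
    obtain ⟨i₀, hi₀⟩ : ∃ i, v i ≠ 0 := Function.ne_iff.mp hv0
    obtain ⟨j, -, hj⟩ := Finset.exists_max_image Finset.univ (fun j => A.valuation (v j))
      ⟨i₀, Finset.mem_univ _⟩
    have hvj : v j ≠ 0 := by
      intro h
      have h1 := hj i₀ (Finset.mem_univ _)
      simp only [h, map_zero] at h1
      exact hi₀ (by simpa using h1)
    have hv₂W : (v j)⁻¹ • v ∈ W := W.smul_mem _ hvW
    have hv₂A : ∀ i, ((v j)⁻¹ • v) i ∈ A := by
      intro i
      rw [← ValuationSubring.valuation_le_one_iff]
      simp only [Pi.smul_apply, smul_eq_mul, map_mul, map_inv₀]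
      have h1 := hj i (Finset.mem_univ _)
      have h2 : A.valuation (v j) ≠ 0 := by simpa using hvj
      rw [inv_mul_le_iff₀ (zero_lt_iff.mpr h2), mul_one]
      exact h1
    have hv₂j : ((v j)⁻¹ • v) j = 1 := by
      simp [hvj]
    generalize (v j)⁻¹ • v = v₂ at hv₂W hv₂A hv₂j
    let f : W →ₗ[K] K := (LinearMap.proj j).domRestrict W
    have hfsurj : Function.Surjective f := by
      intro c
      refine ⟨c • ⟨v₂, hv₂W⟩, ?_⟩
      simp [f, hv₂j]
    have hker : Module.finrank K (LinearMap.ker f) = d := by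
      have h1 := f.finrank_range_add_finrank_ker
      rw [LinearMap.range_eq_top.mpr hfsurj, finrank_top, Module.finrank_self, hW] at h1
      omega
    have hW' : Module.finrank K ((LinearMap.ker f).map W.subtype) = d := by
      rw [← hker]
      exact (Submodule.equivMapOfInjective W.subtype W.injective_subtype
        (LinearMap.ker f)).finrank_eq.symm
    obtain ⟨w', σ', hw'W, hw'A, hpiv⟩ := ih _ hW'
    have hw'mem : ∀ l, w' l ∈ W ∧ w' l j = 0 := by
      intro l
      obtain ⟨x, hx, hxe⟩ := hw'W l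
      rw [← hxe]
      refine ⟨x.2, ?_⟩
      simpa [f] using hx
    let v₃ : ι → K := v₂ - ∑ l, v₂ (σ' l) • w' l
    have hv₃W : v₃ ∈ W :=
      W.sub_mem hv₂W (W.sum_mem fun l _ => W.smul_mem _ (hw'mem l).1)
    have hv₃A : ∀ i, v₃ i ∈ A := by
      intro i
      simp only [v₃, Pi.sub_apply, Finset.sum_apply, Pi.smul_apply, smul_eq_mul]
      exact A.sub_mem (hv₂A i) (A.toSubring.sum_mem fun l _ => A.mul_mem _ _ (hv₂A _) (hw'A l i))
    have hv₃j : v₃ j = 1 := by
      simp only [v₃, Pi.sub_apply, Finset.sum_apply, Pi.smul_apply, smul_eq_mul,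
        (hw'mem _).2, mul_zero, Finset.sum_const_zero, sub_zero, hv₂j]
    have hv₃σ : ∀ l', v₃ (σ' l') = 0 := by
      intro l'
      simp only [v₃, Pi.sub_apply, Finset.sum_apply, Pi.smul_apply, smul_eq_mul, hpiv]
      simp
    refine ⟨Fin.snoc w' v₃, Fin.snoc σ' j, ?_, ?_, ?_⟩
    · intro l
      refine Fin.lastCases ?_ (fun l => ?_) l
      · simpa using hv₃W
      · simpa using (hw'mem l).1
    · intro l
      refine Fin.lastCases ?_ (fun l => ?_) l
      · simpa using hv₃A
      · simpa using hw'A l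
    · intro l l'
      refine Fin.lastCases ?_ (fun l => ?_) l <;> refine Fin.lastCases ?_ (fun l' => ?_) l'
      · simpa using hv₃j
      · simpa [Fin.castSucc_ne_last, (Fin.castSucc_ne_last _).symm] using hv₃σ l'
      · simpa [Fin.castSucc_ne_last] using (hw'mem l).2
      · simpa using hpiv l l'

theorem orth_mat {K : Type*} [Field K] (A : ValuationSubring K) {ι : Type*} [Fintype ι]
    (W : Submodule K (ι → K)) :
    ∃ (w : Fin (Module.finrank K W) → (ι → K)) (σ : Fin (Module.finrank K W) → ι),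
      (∀ l, w l ∈ W) ∧ (∀ l i, w l i ∈ A) ∧ ∀ l l', w l (σ l') = if l = l' then 1 else 0 :=
  omat_aux A _ W rfl

end Fermat.Agent.S18L
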