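import Mathlib
import Fermat.Agent.S18L.InjBasic
import Fermat.Agent.S18L.OrthMat
import Fermat.Agent.S18L.OrthFFa

/-!
# S18, package ORTH: orthonormal bases for a Gauss-type valuation on a function field

If `j ∈ O` has transcendental reduction, `[F : K(j)] = ψ` and there are `b₁, …, b_ψ ∈ O` whose
reductions are linearly independent over `k[red j]`, then every finite-dimensional `K`-subspace
of `F` has a basis in `O` with `k`-linearly independent reductions.
-/

set_option autoImplicit false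

open scoped IntermediateField

namespace Fermat.Agent.S18L

open Fermat.Agent.RRL

variable {K F k Fb : Type*} [Field K] [Field F] [Algebra K F] [Field k] [Field Fb] [Algebra k Fb]

theorem orth_ff (G : RedDatum K F k Fb) (j : G.O) (hj : Transcendental k (G.red j))
    (ψ : ℕ) (hfin : Module.Finite K⟮(j : F)⟯ F) (hψ : Module.finrank K⟮(j : F)⟯ F = ψ)
    (b : Fin ψ → G.O)
    (hb : ∀ p : Fin ψ → Polynomial k,
      (∑ i, Polynomial.aeval (G.red j) (p i) * G.red (b i)) = 0 → ∀ i, p i = 0) :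
    G.HasOrth := by
  classical
  intro W hW
  obtain ⟨M, q, hq, hdenom⟩ := orth_ff_denom G j hj ψ hfin hψ b hb W hW
  have hind := orth_ff_indep G j ψ b hb M
  have hK : LinearIndependent K
      (fun p : Fin M × Fin ψ => (((j ^ (p.1 : ℕ) * b p.2 : G.O)) : F)) :=
    G.linearIndependent_of_indep (fun p : Fin M × Fin ψ => j ^ (p.1 : ℕ) * b p.2) hind
  have hq0 : (q : F) ≠ 0 := by
    intro h
    apply hq
    have : q = 0 := Subtype.ext h
    rw [this, map_zero]
  have hqinv : G.red ⟨(q : F)⁻¹, G.inv_mem q hq⟩ * G.red q = 1 := by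
    rw [← map_mul, ← map_one G.red]
    congr 1
    apply Subtype.ext
    simp [hq0]
  have hqinv0 : G.red ⟨(q : F)⁻¹, G.inv_mem q hq⟩ ≠ 0 := by
    intro h
    rw [h, zero_mul] at hqinv
    exact zero_ne_one hqinv
  obtain ⟨Φ, hΦ⟩ : ∃ Φ : (Fin M × Fin ψ → K) →ₗ[K] F, ∀ c, Φ c =
      ∑ p : Fin M × Fin ψ, c p • (((j ^ (p.1 : ℕ) * b p.2 : G.O)) : F) :=
    ⟨Fintype.linearCombination K
      (fun p : Fin M × Fin ψ => (((j ^ (p.1 : ℕ) * b p.2 : G.O)) : F)),
      fun c => by rw [Fintype.linearCombination_apply]⟩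
  have hΦinj : Function.Injective Φ := by
    rw [← LinearMap.ker_eq_bot, LinearMap.ker_eq_bot']
    intro c hc
    rw [hΦ] at hc
    funext p
    exact (Fintype.linearIndependent_iff.1 hK) c hc p
  have hmulinj : Function.Injective (LinearMap.mulLeft K (q : F)) := by
    intro x y hxy
    simpa [hq0] using hxy
  obtain ⟨W', hW'⟩ : ∃ W' : Submodule K (Fin M × Fin ψ → K),
      W' = Submodule.comap Φ (W.map (LinearMap.mulLeft K (q : F))) := ⟨_, rfl⟩
  have hle : W.map (LinearMap.mulLeft K (q : F)) ≤ LinearMap.range Φ := by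
    rintro _ ⟨x, hx, rfl⟩
    obtain ⟨c, hc⟩ := hdenom x hx
    refine ⟨c, ?_⟩
    rw [hΦ, LinearMap.mulLeft_apply, hc]
    refine Finset.sum_congr rfl fun p _ => ?_
    push_cast
    rfl
  have hd : Module.finrank K W' = Module.finrank K W := by
    have h1 : Module.finrank K W' = Module.finrank K (W'.map Φ) :=
      (Submodule.equivMapOfInjective Φ hΦinj W').finrank_eq
    have h2 : W'.map Φ = W.map (LinearMap.mulLeft K (q : F)) := by
      rw [hW', Submodule.map_comap_eq, inf_eq_right.2 hle]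
    have h3 : Module.finrank K W = Module.finrank K (W.map (LinearMap.mulLeft K (q : F))) :=
      (Submodule.equivMapOfInjective _ hmulinj W).finrank_eq
    rw [h1, h2, ← h3]
  obtain ⟨w', σ, hw'W, hA, hpiv⟩ := orth_mat G.A W'
  rw [← hd]
  refine ⟨fun l => ⟨(q : F)⁻¹, G.inv_mem q hq⟩ *
    ∑ p : Fin M × Fin ψ, ⟨algebraMap K F (w' l p), (G.algebraMap_mem _).2 (hA l p)⟩ *
      (j ^ (p.1 : ℕ) * b p.2), ?_, ?_⟩
  · intro l
    have h1 := hw'W l
    rw [hW'] at h1
    obtain ⟨x, hx, hxe⟩ := h1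
    rw [LinearMap.mulLeft_apply, hΦ] at hxe
    have : (((⟨(q : F)⁻¹, G.inv_mem q hq⟩ *
      ∑ p : Fin M × Fin ψ, ⟨algebraMap K F (w' l p), (G.algebraMap_mem _).2 (hA l p)⟩ *
        (j ^ (p.1 : ℕ) * b p.2) : G.O)) : F) = x := by
      push_cast
      simp only [← Algebra.smul_def]
      push_cast at hxe
      rw [← hxe, ← mul_assoc, inv_mul_cancel₀ hq0, one_mul]
    rw [this]
    exact hx
  · rw [Fintype.linearIndependent_iff]
    intro c hc l'
    have hpi : ∀ l, G.π ⟨w' l (σ l'), hA l (σ l')⟩ = if l = l' then 1 else 0 := by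
      intro l
      have : (⟨w' l (σ l'), hA l (σ l')⟩ : G.A) = if l = l' then 1 else 0 := by
        apply Subtype.ext
        show w' l (σ l') = _
        rw [hpiv]
        split_ifs <;> simp
      rw [this]
      split_ifs <;> simp
    have hsum : G.red ⟨(q : F)⁻¹, G.inv_mem q hq⟩ *
        ∑ p : Fin M × Fin ψ, (∑ l, c l * G.π ⟨w' l p, hA l p⟩) •
          G.red (j ^ (p.1 : ℕ) * b p.2) = 0 := by
      rw [← hc]
      simp only [map_mul, map_sum, Finset.mul_sum, Finset.smul_sum, Finset.sum_smul]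
      rw [Finset.sum_comm]
      refine Finset.sum_congr rfl fun l _ => Finset.sum_congr rfl fun p _ => ?_
      rw [G.red_algebraMap ⟨w' l p, hA l p⟩]
      simp only [Algebra.smul_def, map_mul]
      ring
    have h0 := (mul_eq_zero.1 hsum).resolve_left hqinv0
    have h1 := (Fintype.linearIndependent_iff.1 hind) _ h0 (σ l')
    simp only [hpi] at h1
    simpa using h1

end Fermat.Agent.S18L
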