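import Mathlib
import Fermat.Agent.S18L.AsmGaussProps
import Fermat.Agent.S18L.GaussScale
import Fermat.Agent.S18L.AsmRes
import Fermat.Agent.S18L.OrthFF
import Fermat.Agent.S28L.Low
import Fermat.Agent.S28L.DegBarAux
import Fermat.Agent.S28L.P4Content
import Fermat.Agent.S28L.P4Basis

/-!
# S18, assembly: the reduction datum of `F = modularFunctionFieldBar M` at a valuation subring
of `ℚ̄` over a prime `ℓ ∤ M`, and its orthonormal-basis property
-/

set_option autoImplicit false
set_option synthInstance.maxHeartbeats 400000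

open ModularCurve HahnSeries
open scoped IntermediateField

namespace Fermat.Agent.S18L

open Fermat.Agent.X0S24

variable (A : ValuationSubring (AlgebraicClosure ℚ)) (M : ℕ) [NeZero M]

/-- an element of an intermediate field is transcendental if its underlying element is -/
theorem agm_transcendental_mk {k L : Type*} [Field k] [Field L] [Algebra k L]
    (E : IntermediateField k L) (x : L) (hx : x ∈ E) (h : Transcendental k x) :
    Transcendental k (⟨x, hx⟩ : E) := by
  intro halg
  apply h
  have := halg.algHom E.val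
  simpa using this

/-- `aeval` commutes with the inclusion of an intermediate field -/
theorem agm_coe_aeval {k L : Type*} [Field k] [Field L] [Algebra k L]
    (E : IntermediateField k L) (x : E) (p : Polynomial k) :
    ((Polynomial.aeval x p : E) : L) = Polynomial.aeval (x : L) p := by
  simp

/-- the reduction of `j` is transcendental over the residue field -/
theorem transcendental_asmRed_jbar :
    Transcendental (IsLocalRing.ResidueField A)
      (asmRed A M ⟨Embed.jbar M, jbar_mem_asmO A M⟩) := by
  rw [asmRed_jbar]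
  exact agm_transcendental_mk _ _ _ (Fermat.Agent.S28L.transcendental_jqModC _)

/-- there are `ψ(M)` integral functions whose reductions are linearly independent over
`k[j̄]` -/
theorem exists_reduced_basis {ℓ : ℕ} [Fact ℓ.Prime] (hA : A.LiesOverPrime ℓ) (hℓM : ¬ ℓ ∣ M) :
    ∃ b : Fin (dedekindPsi M) → asmO A M,
      ∀ p : Fin (dedekindPsi M) → Polynomial (IsLocalRing.ResidueField A),
        (∑ i, Polynomial.aeval (asmRed A M ⟨Embed.jbar M, jbar_mem_asmO A M⟩) (p i)
          * asmRed A M (b i)) = 0 → ∀ i, p i = 0 := by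
  have : IsAlgClosed (IsLocalRing.ResidueField A) := isAlgClosed_residueField A
  have hN : ((M : ℕ) : IsLocalRing.ResidueField A) ≠ 0 :=
    natCast_residueField_ne_zero A hA M hℓM
  have hle : IntermediateField.adjoin (IsLocalRing.ResidueField A)
      {jqModC (IsLocalRing.ResidueField A)} ≤
      modularFunctionFieldFullC (IsLocalRing.ResidueField A) M := by
    rw [IntermediateField.adjoin_le_iff]
    rintro x rfl
    exact jqModC_mem_full (IsLocalRing.ResidueField A) M
  obtain ⟨z, hz, hli⟩ := Fermat.Agent.S28L.exists_linearIndependent_of_le_relrank _ _ hle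
    (dedekindPsi M) (Fermat.Agent.S28L.Low_main (IsLocalRing.ResidueField A) M hN)
  choose b hb using fun i => asmRed_surjective A M ⟨z i, hz i⟩
  refine ⟨b, fun p hp => ?_⟩
  rw [asmRed_jbar] at hp
  have hp' := congrArg (fun x : ↥(modularFunctionFieldFullC (IsLocalRing.ResidueField A) M) =>
    (x : LaurentSeries (IsLocalRing.ResidueField A))) hp
  simp only [AddSubmonoidClass.coe_finsetSum, MulMemClass.coe_mul, agm_coe_aeval, hb,
    ZeroMemClass.coe_zero] at hp'
  have hmem : ∀ i, Polynomial.aeval (jqModC (IsLocalRing.ResidueField A)) (p i) ∈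
      IntermediateField.adjoin (IsLocalRing.ResidueField A)
        {jqModC (IsLocalRing.ResidueField A)} := fun i =>
    IntermediateField.algebra_adjoin_le_adjoin _ _
      (Polynomial.aeval_mem_adjoin_singleton _ _)
  have hsum : ∑ i, (⟨Polynomial.aeval (jqModC (IsLocalRing.ResidueField A)) (p i), hmem i⟩ :
      IntermediateField.adjoin (IsLocalRing.ResidueField A)
        {jqModC (IsLocalRing.ResidueField A)}) • z i = 0 := by
    rw [← hp']
    rfl
  have h0 := Fintype.linearIndependent_iff.1 hli _ hsum
  intro i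
  have hi := congrArg Subtype.val (h0 i)
  exact (transcendental_iff.1 (Fermat.Agent.S28L.transcendental_jqModC _)) (p i) hi

/-- the scaling property of the Gauss-type valuation ring -/
theorem exists_smul_asm {ℓ : ℕ} [Fact ℓ.Prime] (hA : A.LiesOverPrime ℓ) (hℓM : ¬ ℓ ∣ M) :
    ∀ f : ↥(modularFunctionFieldBar M), f ≠ 0 → ∃ c : AlgebraicClosure ℚ, c ≠ 0 ∧
      ∃ h : c • f ∈ asmO A M, asmRed A M ⟨c • f, h⟩ ≠ 0 := by
  obtain ⟨b, hb⟩ := exists_reduced_basis A M hA hℓM
  exact exists_smul_of_basis A (IsLocalRing.residue A) (residue_eq_zero_iff A) (asmO A M)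
    (asmRed A M) (algebraMap_mem_asmO A M) (asmRed_algebraMap A M) (inv_mem_asmO A M)
    ⟨Embed.jbar M, jbar_mem_asmO A M⟩ (transcendental_asmRed_jbar A M) (dedekindPsi M)
    (Fermat.Agent.S28L.DegBar.finite_bar M) (Fermat.Agent.S28L.DegBar.finrank_bar M) b hb

/-- **The reduction datum** of `modularFunctionFieldBar M` at `A`. -/
noncomputable def redDatum {ℓ : ℕ} [Fact ℓ.Prime] (hA : A.LiesOverPrime ℓ) (hℓM : ¬ ℓ ∣ M) :
    RedDatum (AlgebraicClosure ℚ) ↥(modularFunctionFieldBar M) (IsLocalRing.ResidueField A)
      ↥(modularFunctionFieldFullC (IsLocalRing.ResidueField A) M) where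
  A := A
  π := IsLocalRing.residue A
  π_surj := IsLocalRing.residue_surjective
  π_eq_zero := residue_eq_zero_iff A
  O := asmO A M
  red := asmRed A M
  algebraMap_mem := algebraMap_mem_asmO A M
  red_algebraMap := asmRed_algebraMap A M
  exists_smul := exists_smul_asm A M hA hℓM
  inv_mem := inv_mem_asmO A M
  red_surj := asmRed_surjective A M

/-- **Orthonormal bases** for the reduction datum. -/
theorem hasOrth_redDatum {ℓ : ℕ} [Fact ℓ.Prime] (hA : A.LiesOverPrime ℓ) (hℓM : ¬ ℓ ∣ M) :
    (redDatum A M hA hℓM).HasOrth := by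
  obtain ⟨b, hb⟩ := exists_reduced_basis A M hA hℓM
  exact orth_ff (redDatum A M hA hℓM) ⟨Embed.jbar M, jbar_mem_asmO A M⟩
    (transcendental_asmRed_jbar A M) (dedekindPsi M)
    (Fermat.Agent.S28L.DegBar.finite_bar M) (Fermat.Agent.S28L.DegBar.finrank_bar M) b hb

end Fermat.Agent.S18L
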