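import Mathlib
import Fermat.Prelude.Def_AlgebraicCurve_DivisorClassGroup
import Fermat.Agent.X0S24.PlaceRes

/-!
# S18, package CRV (helper6): the dictionary "height-one primes of a Dedekind domain
`B` with fraction field `L`" ↔ "Prelude places of `L / k` whose valuation ring contains `B`"

Generic; no modular input.  `B` is any Dedekind domain with `Frac B = L` which is a `k`-algebra
compatibly with `L`.  This file: the place of a prime (DD1).
-/

set_option autoImplicit false

open AlgebraicCurve IsDedekindDomain

namespace Fermat.Agent.S18L

section DD

variable {k L : Type*} [Field k] [Field L] [Algebra k L]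
variable (B : Type*) [CommRing B] [IsDedekindDomain B] [Algebra B L] [IsFractionRing B L]
  [Algebra k B] [IsScalarTower k B L]

/-- DD1: the Prelude place of a height-one prime: its valuation ring is the valuation ring of the
`v`-adic valuation on `L`. -/
theorem dd_exists_place (v : HeightOneSpectrum B) :
    ∃ Q : Place k L, Q.toValuationSubring = (v.valuation L).valuationSubring := by
  refine ⟨⟨(v.valuation L).valuationSubring, ?_, ?_, ?_⟩, rfl⟩
  · intro a
    rw [IsScalarTower.algebraMap_apply k B L, Valuation.mem_valuationSubring_iff]
    exact v.valuation_le_one _
  · intro htop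
    obtain ⟨π, hπ⟩ := v.valuation_exists_uniformizer L
    have hmem : π⁻¹ ∈ (v.valuation L).valuationSubring := by
      rw [htop]
      exact ValuationSubring.mem_top _
    rw [Valuation.mem_valuationSubring_iff, map_inv₀, hπ, ← WithZero.exp_neg, neg_neg,
      ← WithZero.exp_zero, WithZero.exp_le_exp] at hmem
    exact absurd hmem (by norm_num)
  · exact (v.valuation L).valuationSubring_isPrincipalIdealRing

/-- the Prelude place of a height-one prime -/
noncomputable def ddPlace (v : HeightOneSpectrum B) : Place k L :=
  (dd_exists_place (k := k) B v).choose

theorem ddPlace_toValuationSubring (v : HeightOneSpectrum B) :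
    (ddPlace (k := k) B v).toValuationSubring = (v.valuation L).valuationSubring :=
  (dd_exists_place (k := k) B v).choose_spec

theorem ddPlace_mem (v : HeightOneSpectrum B) (b : B) :
    algebraMap B L b ∈ (ddPlace (k := k) B v).toValuationSubring := by
  rw [ddPlace_toValuationSubring]
  exact v.valuation_le_one b

theorem ddPlace_mem_iff (v : HeightOneSpectrum B) (x : L) :
    x ∈ (ddPlace (k := k) B v).toValuationSubring ↔ v.valuation L x ≤ 1 := by
  rw [ddPlace_toValuationSubring]
  exact Valuation.mem_valuationSubring_iff _ _

end DD

end Fermat.Agent.S18L
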