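import Mathlib
import Fermat.Agent.S18L.CrvDD

/-!
# S18, package CRV (helper6): the coordinate rings of a function field `L / k` with a chosen
transcendental element `t`

`crvR k t = k[t] ⊆ L`, `crvK k t = k(t) ⊆ L`, `crvB k t` = integral closure of `k[t]` in `L`.
The canonical instances (`Algebra (crvR k t) (crvK k t)`, `IsFractionRing`, `IsScalarTower`)
are Mathlib's `IntermediateField.algebraAdjoinAdjoin` scoped instances.
-/

set_option autoImplicit false

open AlgebraicCurve IsDedekindDomain
open scoped IntermediateField.algebraAdjoinAdjoin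

namespace Fermat.Agent.S18L

section Base

variable (k : Type*) {L : Type*} [Field k] [Field L] [Algebra k L] (t : L)

/-- `k[t] ⊆ L` -/
abbrev crvR : Subalgebra k L := Algebra.adjoin k {t}

/-- `k(t) ⊆ L` -/
abbrev crvK : IntermediateField k L := IntermediateField.adjoin k {t}

/-- the integral closure of `k[t]` in `L` -/
abbrev crvB : Subalgebra (crvR k t) L := integralClosure (crvR k t) L

/-- `t` as an element of `k[t]` -/
def crvT : crvR k t := ⟨t, Algebra.self_mem_adjoin_singleton k t⟩

theorem crv_isFractionRing [FiniteDimensional (crvK k t) L] : IsFractionRing (crvB k t) L :=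
  integralClosure.isFractionRing_of_finite_extension (crvK k t) L

/-- B1: `k[t]` is a PID when `t` is transcendental. -/
theorem crv_isPrincipalIdealRing (ht : Transcendental k t) : IsPrincipalIdealRing (crvR k t) := by
  have _ := ht
  have hsurj : Function.Surjective
      (Polynomial.aeval (R := k) (crvT k t) : Polynomial k → crvR k t) := by
    rintro ⟨y, hy⟩
    have hy' : y ∈ (Polynomial.aeval (R := k) t).range := by
      rw [← Algebra.adjoin_singleton_eq_range_aeval]
      exact hy
    obtain ⟨p, hp⟩ := hy'
    refine ⟨p, Subtype.ext ?_⟩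
    rw [Polynomial.aeval_subalgebra_coe]
    exact hp
  exact IsPrincipalIdealRing.of_surjective
    (Polynomial.aeval (R := k) (crvT k t) : Polynomial k →ₐ[k] crvR k t) hsurj

theorem crv_isDedekindDomain_R (ht : Transcendental k t) : IsDedekindDomain (crvR k t) := by
  have := crv_isPrincipalIdealRing k t ht
  infer_instance

theorem crv_isDedekindDomain (ht : Transcendental k t) [FiniteDimensional (crvK k t) L]
    [Algebra.IsSeparable (crvK k t) L] : IsDedekindDomain (crvB k t) := by
  have := crv_isDedekindDomain_R k t ht
  exact integralClosure.isDedekindDomain (crvR k t) (crvK k t) L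

/-- B2: the elements of `crvB k t` lie in the valuation ring of a place as soon as `t` does. -/
theorem crv_mem_place (Q : Place k L) (hQ : t ∈ Q.toValuationSubring) (b : crvB k t) :
    (b : L) ∈ Q.toValuationSubring := by
  have hle : ∀ x : L, x ∈ crvR k t → x ∈ Q.toValuationSubring := by
    intro x hx
    induction hx using Algebra.adjoin_induction with
    | mem x hx =>
      rw [Set.mem_singleton_iff] at hx
      subst hx
      exact hQ
    | algebraMap c => exact Q.algebraMap_mem' c
    | add x y _ _ hx hy => exact add_mem hx hy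
    | mul x y _ _ hx hy => exact mul_mem hx hy
  let f : crvR k t →+* Q.toValuationSubring :=
    { toFun := fun x => ⟨x.1, hle x.1 x.2⟩
      map_one' := rfl
      map_mul' := fun _ _ => rfl
      map_zero' := rfl
      map_add' := fun _ _ => rfl }
  obtain ⟨P, hPm, hP⟩ := b.2
  have hint : IsIntegral Q.toValuationSubring (b : L) := by
    refine ⟨P.map f, hPm.map f, ?_⟩
    rw [Polynomial.eval₂_map]
    exact hP
  obtain ⟨y, hy⟩ := IsIntegrallyClosed.isIntegral_iff.mp hint
  rw [← hy]
  exact y.2

/-- B3: `t⁻¹` is transcendental. -/
theorem crv_transcendental_inv (ht : Transcendental k t) : Transcendental k t⁻¹ := by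
  intro h
  apply ht
  have h2 := h.inv
  rwa [inv_inv] at h2

/-- B4: `k(t⁻¹) = k(t)`. -/
theorem crvK_inv : crvK k t⁻¹ = crvK k t := by
  apply le_antisymm
  · rw [IntermediateField.adjoin_simple_le_iff]
    exact inv_mem (IntermediateField.mem_adjoin_simple_self k t)
  · rw [IntermediateField.adjoin_simple_le_iff]
    have h := inv_mem (IntermediateField.mem_adjoin_simple_self k t⁻¹)
    rwa [inv_inv] at h

theorem crv_finite_inv [FiniteDimensional (crvK k t) L] : FiniteDimensional (crvK k t⁻¹) L := by
  have key : ∀ (E E' : IntermediateField k L), E = E' → FiniteDimensional E L →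
      FiniteDimensional E' L := by
    rintro E _ rfl h
    exact h
  exact key _ _ (crvK_inv k t).symm inferInstance

theorem crv_separable_inv [Algebra.IsSeparable (crvK k t) L] :
    Algebra.IsSeparable (crvK k t⁻¹) L := by
  have key : ∀ (E E' : IntermediateField k L), E = E' → Algebra.IsSeparable E L →
      Algebra.IsSeparable E' L := by
    rintro E _ rfl h
    exact h
  exact key _ _ (crvK_inv k t).symm inferInstance

/-- B5: `k[t] ∩ k[t⁻¹] = k` for transcendental `t`. -/
theorem crv_inf_eq_bot (ht : Transcendental k t) : crvR k t ⊓ crvR k t⁻¹ = ⊥ := by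
  refine le_antisymm ?_ bot_le
  intro y hy
  obtain ⟨hy1, hy2⟩ := Algebra.mem_inf.mp hy
  have hy1' : y ∈ (Polynomial.aeval (R := k) t).range := by
    rw [← Algebra.adjoin_singleton_eq_range_aeval]
    exact hy1
  have hy2' : y ∈ (Polynomial.aeval (R := k) t⁻¹).range := by
    rw [← Algebra.adjoin_singleton_eq_range_aeval]
    exact hy2
  obtain ⟨p, hp⟩ := hy1'
  obtain ⟨q, hq⟩ := hy2'
  change Polynomial.aeval t p = y at hp
  change Polynomial.aeval t⁻¹ q = y at hq
  have ht0 : t ≠ 0 := by
    rintro rfl
    exact ht isAlgebraic_zero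
  by_cases hp0 : p = 0
  · rw [← hp, hp0, map_zero]
    exact zero_mem _
  let _ : Invertible t := invertibleOfNonzero ht0
  have hrev := Polynomial.eval₂_reflect_mul_pow (algebraMap k L) t q.natDegree q.reverse
    q.reverse_natDegree_le
  have hinv : Polynomial.reflect q.natDegree q.reverse = q := by
    rw [Polynomial.reverse, Polynomial.reflect_reflect]
  rw [hinv, invOf_eq_inv] at hrev
  have hEq : Polynomial.aeval t (p * Polynomial.X ^ q.natDegree)
      = Polynomial.aeval t q.reverse := by
    rw [map_mul, map_pow, Polynomial.aeval_X, hp, ← hq]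
    exact hrev
  have hpoly : p * Polynomial.X ^ q.natDegree = q.reverse :=
    (transcendental_iff_injective.mp ht) hEq
  have hdeg : (p * Polynomial.X ^ q.natDegree).natDegree = p.natDegree + q.natDegree :=
    Polynomial.natDegree_mul_X_pow q.natDegree hp0
  have hle := q.reverse_natDegree_le
  rw [← hpoly, hdeg] at hle
  have hp1 : p.natDegree = 0 := by omega
  rw [← hp, Polynomial.eq_C_of_natDegree_eq_zero hp1, Polynomial.aeval_C]
  exact Subalgebra.algebraMap_mem _ _

end Base

end Fermat.Agent.S18L
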