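import Mathlib
import Fermat.Agent.S18L.CrvDD

/-!
# S18, package CRV: the map `ddPlace` is injective, with image the places containing `B`
(DD3, DD4)
-/

set_option autoImplicit false

open AlgebraicCurve IsDedekindDomain

namespace Fermat.Agent.S18L

section DD

variable {k L : Type*} [Field k] [Field L] [Algebra k L]
variable (B : Type*) [CommRing B] [IsDedekindDomain B] [Algebra B L] [IsFractionRing B L]
  [Algebra k B] [IsScalarTower k B L]

omit [Algebra k B] in
/-- the prime is determined by the valuation ring -/
theorem crvdd3_mem_iff (v : HeightOneSpectrum B) (b : B) :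
    b ∈ v.asIdeal ↔ b = 0 ∨ (algebraMap B L b)⁻¹ ∉ (v.valuation L).valuationSubring := by
  rw [← v.valuation_lt_one_iff_mem (K := L), Valuation.mem_valuationSubring_iff]
  by_cases hb : b = 0
  · simp [hb]
  · have hb' : algebraMap B L b ≠ 0 := by
      simpa using (IsFractionRing.injective B L).ne hb
    have hv : 0 < v.valuation L (algebraMap B L b) :=
      zero_lt_iff.mpr ((Valuation.ne_zero_iff _).mpr hb')
    rw [map_inv₀, not_le, one_lt_inv₀ hv]
    simp [hb]

omit [Algebra k B] in
/-- an element of a valuation subring outside the maximal ideal has its inverse in the ring -/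
theorem crvdd3_inv_mem (O : ValuationSubring L) (y : O)
    (hy : y ∉ IsLocalRing.maximalIdeal O) : ((y : L))⁻¹ ∈ O := by
  have hu : IsUnit y := IsLocalRing.notMem_maximalIdeal.mp hy
  obtain ⟨u, rfl⟩ := hu
  have h1 : ((u : O) : L) * ((u⁻¹ : Oˣ) : O) = 1 := by
    have := congrArg (Subtype.val) (Units.mul_inv u)
    exact this
  have h2 : (((u : O) : L))⁻¹ = (((u⁻¹ : Oˣ) : O) : L) := (eq_inv_of_mul_eq_one_right h1).symm
  rw [h2]
  exact ((u⁻¹ : Oˣ) : O).2

/-- DD3 -/
theorem ddPlace_injective : Function.Injective (ddPlace (k := k) (L := L) B) := by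
  intro v w h
  have hO : (v.valuation L).valuationSubring = (w.valuation L).valuationSubring := by
    rw [← ddPlace_toValuationSubring (k := k), ← ddPlace_toValuationSubring (k := k), h]
  apply HeightOneSpectrum.ext
  ext b
  rw [crvdd3_mem_iff (L := L) B v b, crvdd3_mem_iff (L := L) B w b, hO]

/-- DD4: every Prelude place whose valuation ring contains `B` comes from a height-one prime. -/
theorem ddPlace_surj (Q : Place k L) (hQ : ∀ b : B, algebraMap B L b ∈ Q.toValuationSubring) :
    ∃ v : HeightOneSpectrum B, ddPlace (k := k) B v = Q := by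
  let f : B →+* Q.toValuationSubring :=
    (algebraMap B L).codRestrict Q.toValuationSubring.toSubring hQ
  have hf : ∀ b : B, ((f b : Q.toValuationSubring) : L) = algebraMap B L b := fun _ => rfl
  let 𝔭 : Ideal B := (IsLocalRing.maximalIdeal Q.toValuationSubring).comap f
  have hprime : 𝔭.IsPrime := Ideal.comap_isPrime f _
  have hinv : ∀ b : B, b ∉ 𝔭 → (algebraMap B L b)⁻¹ ∈ Q.toValuationSubring := by
    intro b hb
    have := crvdd3_inv_mem Q.toValuationSubring (f b) (fun h => hb (Ideal.mem_comap.mpr h))
    rwa [hf] at this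
  have hne : 𝔭 ≠ ⊥ := by
    intro hbot
    apply Q.ne_top'
    refine SetLike.ext fun x => ⟨fun _ => ValuationSubring.mem_top x, fun _ => ?_⟩
    obtain ⟨a, b, hb, rfl⟩ := IsFractionRing.div_surjective (A := B) x
    have hb0 : b ≠ 0 := nonZeroDivisors.ne_zero hb
    have hbp : b ∉ 𝔭 := by
      rw [hbot, Ideal.mem_bot]
      exact hb0
    rw [div_eq_mul_inv]
    exact mul_mem (hQ a) (hinv b hbp)
  let v : HeightOneSpectrum B := ⟨𝔭, hprime, hne⟩
  have hle : (v.valuation L).valuationSubring ≤ Q.toValuationSubring := by
    intro x hx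
    rw [Valuation.mem_valuationSubring_iff] at hx
    obtain ⟨n, d, hnd⟩ := v.exists_primeCompl_mul_eq_of_integer x hx
    have hd : (d : B) ∉ 𝔭 := d.2
    have hd0 : algebraMap B L (d : B) ≠ 0 := by
      intro h0
      apply hd
      have : (d : B) = 0 := by
        apply IsFractionRing.injective B L
        rw [h0, map_zero]
      rw [this]
      exact zero_mem _
    have hx' : x = algebraMap B L n * (algebraMap B L (d : B))⁻¹ := by
      rw [← hnd, mul_assoc, mul_inv_cancel₀ hd0, mul_one]
    rw [hx']
    exact mul_mem (hQ n) (hinv _ hd)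
  have heq : (v.valuation L).valuationSubring = Q.toValuationSubring := by
    rw [← HeightOneSpectrum.valuationSubringAtPrime_eq_valuationSubring] at hle ⊢
    exact ValuationSubring.eq_of_le_of_ne_top _ hle Q.ne_top'
  refine ⟨v, ?_⟩
  apply Place.ext
  rw [ddPlace_toValuationSubring, heq]

end DD

end Fermat.Agent.S18L
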