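import Mathlib
import Fermat.Agent.S18L.CrvDD

/-!
# S18, package CRV: `Place.ord` of the place of a height-one prime (DD2, DD5)
-/

set_option autoImplicit false

open AlgebraicCurve IsDedekindDomain

namespace Fermat.Agent.S18L

/-- Two normalised discrete valuations with the same valuation ring have the same logarithm. -/
theorem crvdd2_log_eq {L : Type*} [Field L] (w₁ w₂ : Valuation L (WithZero (Multiplicative ℤ)))
    (h : ∀ x, w₁ x ≤ 1 ↔ w₂ x ≤ 1) (h₁ : ∃ π, w₁ π = WithZero.exp (-1 : ℤ))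
    (h₂ : ∃ t, w₂ t = WithZero.exp (-1 : ℤ)) (x : L) :
    WithZero.log (w₁ x) = WithZero.log (w₂ x) := by
  have hle : ∀ (w : Valuation L (WithZero (Multiplicative ℤ))) (y : L), y ≠ 0 →
      (w y ≤ 1 ↔ WithZero.log (w y) ≤ 0) := by
    intro w y hy
    rw [WithZero.log_le_iff_le_exp ((Valuation.ne_zero_iff _).mpr hy), WithZero.exp_zero]
  have H : ∀ y : L, y ≠ 0 → (WithZero.log (w₁ y) ≤ 0 ↔ WithZero.log (w₂ y) ≤ 0) := by
    intro y hy
    rw [← hle w₁ y hy, ← hle w₂ y hy]
    exact h y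
  have hmul : ∀ (w : Valuation L (WithZero (Multiplicative ℤ))) (y z : L), y ≠ 0 → z ≠ 0 →
      WithZero.log (w (y * z)) = WithZero.log (w y) + WithZero.log (w z) := by
    intro w y z hy hz
    rw [map_mul, WithZero.log_mul ((Valuation.ne_zero_iff _).mpr hy)
      ((Valuation.ne_zero_iff _).mpr hz)]
  have hinv : ∀ (w : Valuation L (WithZero (Multiplicative ℤ))) (y : L),
      WithZero.log (w y⁻¹) = -WithZero.log (w y) := by
    intro w y
    rw [map_inv₀, WithZero.log_inv]
  have hzpow : ∀ (w : Valuation L (WithZero (Multiplicative ℤ))) (y : L) (n : ℤ),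
      WithZero.log (w (y ^ n)) = n * WithZero.log (w y) := by
    intro w y n
    rw [map_zpow₀, WithZero.log_zpow, smul_eq_mul]
  obtain ⟨π, hπ⟩ := h₁
  obtain ⟨t, ht⟩ := h₂
  have hπ0 : π ≠ 0 := by
    rintro rfl
    rw [map_zero] at hπ
    exact WithZero.exp_ne_zero hπ.symm
  have ht0 : t ≠ 0 := by
    rintro rfl
    rw [map_zero] at ht
    exact WithZero.exp_ne_zero ht.symm
  have haπ : WithZero.log (w₁ π) = -1 := by rw [hπ, WithZero.log_exp]
  have hbt : WithZero.log (w₂ t) = -1 := by rw [ht, WithZero.log_exp]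
  have key : ∀ y : L, y ≠ 0 →
      WithZero.log (w₂ y) = -(WithZero.log (w₁ y)) * WithZero.log (w₂ π) := by
    intro y hy
    have hpow0 : π ^ (WithZero.log (w₁ y)) ≠ 0 := zpow_ne_zero _ hπ0
    have hz0 : y * π ^ (WithZero.log (w₁ y)) ≠ 0 := mul_ne_zero hy hpow0
    have ha : WithZero.log (w₁ (y * π ^ (WithZero.log (w₁ y)))) = 0 := by
      rw [hmul w₁ _ _ hy hpow0, hzpow, haπ]
      ring
    have hb1 : WithZero.log (w₂ (y * π ^ (WithZero.log (w₁ y)))) ≤ 0 := (H _ hz0).mp ha.le
    have hb2 : WithZero.log (w₂ (y * π ^ (WithZero.log (w₁ y)))⁻¹) ≤ 0 := by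
      refine (H _ (inv_ne_zero hz0)).mp ?_
      rw [hinv, ha, neg_zero]
    rw [hinv] at hb2
    have hb : WithZero.log (w₂ (y * π ^ (WithZero.log (w₁ y)))) = 0 :=
      le_antisymm hb1 (by linarith)
    rw [hmul w₂ _ _ hy hpow0, hzpow] at hb
    linarith
  have hm : WithZero.log (w₂ π) = -1 := by
    have h1 := key t ht0
    rw [hbt] at h1
    have h2 : WithZero.log (w₁ t) * WithZero.log (w₂ π) = 1 := by linarith
    have h3 : WithZero.log (w₂ π) ≤ 0 := (H π hπ0).mp (by rw [haπ]; norm_num)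
    rcases Int.eq_one_or_neg_one_of_mul_eq_one' h2 with ⟨-, h4⟩ | ⟨-, h4⟩
    · omega
    · exact h4
  rcases eq_or_ne x 0 with rfl | hx
  · simp
  · rw [key x hx, hm]
    ring

section DD

variable {k L : Type*} [Field k] [Field L] [Algebra k L]
variable (B : Type*) [CommRing B] [IsDedekindDomain B] [Algebra B L] [IsFractionRing B L]
  [Algebra k B] [IsScalarTower k B L]

/-- DD2: `Place.ord` of the place of `v` is the (additive) `v`-adic valuation. -/
theorem ddPlace_ord (v : HeightOneSpectrum B) (x : L) :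
    (ddPlace (k := k) B v).ord x = -(WithZero.log (v.valuation L x)) := by
  have hiff : ∀ y : L, (ddPlace (k := k) B v).adicValuation y ≤ 1 ↔ v.valuation L y ≤ 1 := by
    intro y
    rw [← ddPlace_mem_iff (k := k) B v y]
    rcases eq_or_ne y 0 with rfl | hy
    · simp [zero_mem]
    · rw [Fermat.Agent.X0S24.PlaceRes.mem_iff_ord_nonneg _ hy]
      unfold Place.ord
      rw [neg_nonneg, WithZero.log_le_iff_le_exp
        ((ddPlace (k := k) B v).adicValuation_ne_zero hy), WithZero.exp_zero]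
  have h := crvdd2_log_eq ((ddPlace (k := k) B v).adicValuation) (v.valuation L) hiff
    ((ddPlace (k := k) B v).heightOneSpectrum.valuation_exists_uniformizer L)
    (v.valuation_exists_uniformizer L) x
  show -(WithZero.log ((ddPlace (k := k) B v).adicValuation x)) = _
  rw [h]

/-- DD5: positivity of `ord` on `B` is membership in the prime. -/
theorem ddPlace_ord_pos_iff (v : HeightOneSpectrum B) (b : B) (hb : b ≠ 0) :
    0 < (ddPlace (k := k) B v).ord (algebraMap B L b) ↔ b ∈ v.asIdeal := by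
  rw [ddPlace_ord, HeightOneSpectrum.valuation_of_algebraMap,
    ← HeightOneSpectrum.intValuation_lt_one_iff_mem, neg_pos,
    WithZero.log_lt_iff_lt_exp (v.intValuation_ne_zero b hb), WithZero.exp_zero]

/-- DD5': `b ∈ P ^ n` in terms of `ord`. -/
theorem ddPlace_le_ord_iff (v : HeightOneSpectrum B) (b : B) (hb : b ≠ 0) (n : ℕ) :
    (n : ℤ) ≤ (ddPlace (k := k) B v).ord (algebraMap B L b) ↔ b ∈ v.asIdeal ^ n := by
  rw [ddPlace_ord, HeightOneSpectrum.valuation_of_algebraMap,
    ← HeightOneSpectrum.intValuation_le_pow_iff_mem, le_neg,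
    WithZero.log_le_iff_le_exp (v.intValuation_ne_zero b hb)]

end DD

end Fermat.Agent.S18L
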