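import Mathlib
import Fermat.Agent.S18L.CrvDD
import Fermat.Agent.S18L.CrvDDOrd

/-!
# S18, package CRV: finite support and the "integral at every prime" criterion (DD6, DD7, DD8)
-/

set_option autoImplicit false

open AlgebraicCurve IsDedekindDomain

namespace Fermat.Agent.S18L

section DD

variable {k L : Type*} [Field k] [Field L] [Algebra k L]
variable (B : Type*) [CommRing B] [IsDedekindDomain B] [Algebra B L] [IsFractionRing B L]
  [Algebra k B] [IsScalarTower k B L]

/-- DD6: finite support. -/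
theorem dd_finite_support (x : L) (hx : x ≠ 0) :
    {v : HeightOneSpectrum B | (ddPlace (k := k) B v).ord x ≠ 0}.Finite := by
  obtain ⟨a, b, hb, rfl⟩ := IsFractionRing.div_surjective (A := B) x
  have hb0 : b ≠ 0 := nonZeroDivisors.ne_zero hb
  have ha0 : a ≠ 0 := by
    rintro rfl
    exact hx (by rw [map_zero, zero_div])
  have hab : (Ideal.span {a * b} : Ideal B) ≠ 0 := by
    rw [Ne, Ideal.zero_eq_bot, Ideal.span_singleton_eq_bot]
    exact mul_ne_zero ha0 hb0
  refine (Ideal.finite_factors hab).subset ?_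
  intro v hv
  show v.asIdeal ∣ Ideal.span {a * b}
  rw [Ideal.dvd_span_singleton]
  by_contra hmem
  have ha : a ∉ v.asIdeal := fun h => hmem (Ideal.mul_mem_right b _ h)
  have hb' : b ∉ v.asIdeal := fun h => hmem (Ideal.mul_mem_left _ a h)
  apply hv
  rw [ddPlace_ord, map_div₀, v.valuation_eq_one_iff_notMem.mpr ha,
    v.valuation_eq_one_iff_notMem.mpr hb', div_one, WithZero.log_one, neg_zero]

/-- DD7: an element which is integral at every prime lies in `B`. -/
theorem dd_mem_of_ord_nonneg (x : L)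
    (h : ∀ v : HeightOneSpectrum B, 0 ≤ (ddPlace (k := k) B v).ord x) :
    ∃ b : B, algebraMap B L b = x := by
  by_cases hx : x = 0
  · exact ⟨0, by rw [map_zero, hx]⟩
  have key : ∀ v : HeightOneSpectrum B, v.valuation L x ≤ 1 := by
    intro v
    have h0 := h v
    rw [ddPlace_ord] at h0
    have hne : v.valuation L x ≠ 0 := (Valuation.ne_zero_iff _).mpr hx
    have h1 : WithZero.log (v.valuation L x) ≤ 0 := by omega
    rw [WithZero.log_le_iff_le_exp hne, WithZero.exp_zero] at h1
    exact h1
  obtain ⟨b, hb⟩ := HeightOneSpectrum.mem_integers_of_valuation_le_one L x key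
  exact ⟨b, hb⟩

/-- DD8: for a nonzero ideal `I` of `B` and `x ∈ L` with `ord_v x ≥ -(multiplicity of v in I)`
for all `v`, we have `x • I ⊆ B`. -/
theorem dd_smul_mem (I : Ideal B) (hI : I ≠ ⊥) (x : L)
    (h : ∀ v : HeightOneSpectrum B,
      -((multiplicity v.asIdeal I : ℕ) : ℤ) ≤ (ddPlace (k := k) B v).ord x)
    (y : B) (hy : y ∈ I) : ∃ b : B, algebraMap B L b = x * algebraMap B L y := by
  have _ := hI
  by_cases hx : x = 0
  · exact ⟨0, by rw [map_zero, hx, zero_mul]⟩
  by_cases hy0 : y = 0
  · exact ⟨0, by rw [map_zero, hy0, map_zero, mul_zero]⟩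
  have hyL : algebraMap B L y ≠ 0 := by
    intro h0
    exact hy0 ((IsFractionRing.injective B L) (by rw [h0, map_zero]))
  refine dd_mem_of_ord_nonneg (k := k) (L := L) B _ ?_
  intro v
  rw [Place.ord_mul _ hx hyL]
  have hdvd : v.asIdeal ^ multiplicity v.asIdeal I ∣ I := pow_multiplicity_dvd _ _
  have hmem : y ∈ v.asIdeal ^ multiplicity v.asIdeal I := Ideal.le_of_dvd hdvd hy
  have h1 :=
    (ddPlace_le_ord_iff (k := k) (L := L) B v y hy0 (multiplicity v.asIdeal I)).mpr hmem
  have h2 := h v
  omega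

end DD

end Fermat.Agent.S18L
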