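import Mathlib
import Fermat.Agent.S18L.CrvDD
import Fermat.Agent.S18L.CrvDDOrd
import Fermat.Agent.S18L.CrvDDBij
import Fermat.Agent.S18L.CrvDDFin
import Fermat.Agent.S18L.CrvBase

/-!
# S18, package CRV (helper6): algebraicity (G0) over `k(u)` for non-constant `u`
-/

set_option autoImplicit false

open AlgebraicCurve IsDedekindDomain
open scoped IntermediateField.algebraAdjoinAdjoin

namespace Fermat.Agent.S18L

section G

variable (k : Type*) {L : Type*} [Field k] [Field L] [Algebra k L] (t : L)

/-- G0: `L` is algebraic over `k(u)` for every non-constant `u`. -/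
theorem crv_G0 (ht : Transcendental k t) [Algebra.IsAlgebraic (crvK k t) L]
    (hk : ∀ x : L, IsAlgebraic k x → ∃ c : k, x = algebraMap k L c)
    (u : L) (hu : ∀ c : k, u ≠ algebraMap k L c) :
    Algebra.IsAlgebraic (IntermediateField.adjoin k {u}) L := by
  have _ht := ht
  have hut : Transcendental k u := by
    intro halg
    obtain ⟨c, hc⟩ := hk u halg
    exact hu c hc
  have halgR : Algebra.IsAlgebraic (Algebra.adjoin k ({t} : Set L)) L :=
    (IsFractionRing.comap_isAlgebraic_iff (A := crvR k t) (K := crvK k t) (C := L)).mpr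
      inferInstance
  have hle : Algebra.trdeg k L ≤ 1 := by
    have h := Algebra.IsAlgebraic.trdeg_le_cardinalMk k ({t} : Set L)
    rwa [Cardinal.mk_singleton] at h
  have hind : AlgebraicIndependent k ((↑) : ({u} : Set L) → L) :=
    (algebraicIndependent_singleton_iff (⟨u, rfl⟩ : ({u} : Set L))).mpr hut
  have hbasis : IsTranscendenceBasis k ((↑) : ({u} : Set L) → L) :=
    hind.isTranscendenceBasis_of_trdeg_le_of_finite (by rwa [Cardinal.mk_singleton])
  have h := hbasis.isAlgebraic_field
  rwa [Subtype.range_coe] at h

end G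

end Fermat.Agent.S18L
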