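import Mathlib
import Fermat.Agent.S18L.CrvDD
import Fermat.Agent.S18L.CrvDDOrd
import Fermat.Agent.S18L.CrvDDBij
import Fermat.Agent.S18L.CrvDDFin
import Fermat.Agent.S18L.CrvBase

/-!
# S18, package CRV (helper6): finite support (G1) for the Prelude places of a function field `L / k`, `L` finite separable over `k(t)`
-/

set_option autoImplicit false

open AlgebraicCurve IsDedekindDomain
open scoped IntermediateField.algebraAdjoinAdjoin

namespace Fermat.Agent.S18L

section G

variable (k : Type*) {L : Type*} [Field k] [Field L] [Algebra k L] (t : L)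

/-- G1a: among the places whose valuation ring contains `t`, only finitely many have
`ord x ≠ 0`. -/
theorem crv_G1_aux (ht : Transcendental k t) [FiniteDimensional (crvK k t) L]
    [Algebra.IsSeparable (crvK k t) L] (x : L) (hx : x ≠ 0) :
    {Q : Place k L | t ∈ Q.toValuationSubring ∧ Q.ord x ≠ 0}.Finite := by
  have : IsDedekindDomain (crvB k t) := crv_isDedekindDomain k t ht
  have : IsFractionRing (crvB k t) L := crv_isFractionRing k t
  have hfin := dd_finite_support (k := k) (L := L) (crvB k t) x hx
  refine (hfin.image (ddPlace (k := k) (crvB k t))).subset ?_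
  rintro Q ⟨hQt, hQx⟩
  obtain ⟨v, rfl⟩ := ddPlace_surj (k := k) (crvB k t) Q (fun b => crv_mem_place k t Q hQt b)
  exact ⟨v, hQx, rfl⟩

/-- G1: finite support. -/
theorem crv_G1 (ht : Transcendental k t) [FiniteDimensional (crvK k t) L]
    [Algebra.IsSeparable (crvK k t) L] (x : L) (hx : x ≠ 0) :
    {Q : Place k L | Q.ord x ≠ 0}.Finite := by
  have ht0 : t ≠ 0 := by
    rintro rfl
    exact ht isAlgebraic_zero
  have : FiniteDimensional (crvK k t⁻¹) L := crv_finite_inv k t
  have : Algebra.IsSeparable (crvK k t⁻¹) L := crv_separable_inv k t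
  have h1 := crv_G1_aux k t ht x hx
  have h2 := crv_G1_aux k t⁻¹ (crv_transcendental_inv k t ht) t⁻¹ (inv_ne_zero ht0)
  refine (h1.union h2).subset ?_
  intro Q hQ
  by_cases hQt : t ∈ Q.toValuationSubring
  · exact Or.inl ⟨hQt, hQ⟩
  · right
    have hinv : t⁻¹ ∈ Q.toValuationSubring :=
      (Q.toValuationSubring.mem_or_inv_mem t).resolve_left hQt
    refine ⟨hinv, fun h0 => hQt ?_⟩
    rw [Fermat.Agent.X0S24.PlaceRes.mem_iff_ord_nonneg Q ht0]
    rw [Q.ord_inv] at h0
    omega

end G

end Fermat.Agent.S18L
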