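import Mathlib
import Fermat.Agent.S18L.CrvDD
import Fermat.Agent.S18L.CrvDDOrd
import Fermat.Agent.S18L.CrvDDBij
import Fermat.Agent.S18L.CrvDDFin
import Fermat.Agent.S18L.CrvBase

/-!
# S18, package CRV (helper6): constants (G2): an element regular at every Prelude place is constant
-/

set_option autoImplicit false

open AlgebraicCurve IsDedekindDomain
open scoped IntermediateField.algebraAdjoinAdjoin

namespace Fermat.Agent.S18L

section G

variable (k : Type*) {L : Type*} [Field k] [Field L] [Algebra k L] (t : L)

/-- G2a: an element with `ord ≥ 0` at all places containing `t` is integral over `k[t]`. -/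
theorem crv_isIntegral_of_ord_nonneg (ht : Transcendental k t) [FiniteDimensional (crvK k t) L]
    [Algebra.IsSeparable (crvK k t) L] (x : L)
    (h : ∀ Q : Place k L, t ∈ Q.toValuationSubring → 0 ≤ Q.ord x) :
    IsIntegral (crvR k t) x := by
  have := crv_isDedekindDomain k t ht
  have := crv_isFractionRing k t
  have htB : t ∈ crvB k t := (crvB k t).algebraMap_mem (crvT k t)
  obtain ⟨b, hb⟩ := dd_mem_of_ord_nonneg (k := k) (crvB k t) x (fun v => h _ (by
    have h1 := ddPlace_mem (k := k) (L := L) (crvB k t) v ⟨t, htB⟩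
    exact h1))
  rw [← hb]
  exact b.2

/-- coefficients of the minimal polynomial over `k(s)` of an element integral over `k[s]`
lie in `k[s]` -/
theorem crvg2_coeff_mem (s : L) (hs : Transcendental k s) (x : L)
    (h : IsIntegral (crvR k s) x) (E : IntermediateField k L) (hE : E = crvK k s) (i : ℕ) :
    (((minpoly E x).coeff i : E) : L) ∈ crvR k s := by
  subst hE
  have := crv_isDedekindDomain_R k s hs
  have h1 := minpoly.isIntegrallyClosed_eq_field_fractions' (crvK k s) h
  rw [h1, Polynomial.coeff_map]
  exact ((minpoly (crvR k s) x).coeff i).2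

/-- G2b: an element integral over both `k[t]` and `k[t⁻¹]` is algebraic over `k`. -/
theorem crv_isAlgebraic_of_isIntegral_both (ht : Transcendental k t)
    [FiniteDimensional (crvK k t) L] (x : L)
    (h1 : IsIntegral (crvR k t) x) (h2 : IsIntegral (crvR k t⁻¹) x) : IsAlgebraic k x := by
  have hc : ∀ i : ℕ,
      (minpoly (crvK k t) x).coeff i ∈ Set.range (algebraMap k (crvK k t)) := by
    intro i
    have ha := crvg2_coeff_mem k t ht x h1 (crvK k t) rfl i
    have hb := crvg2_coeff_mem k t⁻¹ (crv_transcendental_inv k t ht) x h2 (crvK k t)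
      (crvK_inv k t).symm i
    have hab : (((minpoly (crvK k t) x).coeff i : crvK k t) : L) ∈ crvR k t ⊓ crvR k t⁻¹ :=
      ⟨ha, hb⟩
    rw [crv_inf_eq_bot k t ht, Algebra.mem_bot] at hab
    obtain ⟨c, hc⟩ := hab
    exact ⟨c, Subtype.ext hc⟩
  have hl : minpoly (crvK k t) x ∈ Polynomial.lifts (algebraMap k (crvK k t)) :=
    (Polynomial.lifts_iff_coeff_lifts _).2 hc
  obtain ⟨P, hP⟩ := hl
  have hx : IsIntegral (crvK k t) x := h1.tower_top
  refine ⟨P, ?_, ?_⟩
  · intro h0
    rw [h0] at hP
    exact minpoly.ne_zero hx (by rw [← hP]; exact Polynomial.map_zero _)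
  · rw [← Polynomial.aeval_map_algebraMap (crvK k t),
      show P.map (algebraMap k (crvK k t)) = _ from hP]
    exact minpoly.aeval _ _

/-- G2: an element which is regular at every place is a constant. -/
theorem crv_G2 (ht : Transcendental k t) [FiniteDimensional (crvK k t) L]
    [Algebra.IsSeparable (crvK k t) L]
    (hk : ∀ x : L, IsAlgebraic k x → ∃ c : k, x = algebraMap k L c)
    (x : L) (h : ∀ Q : Place k L, 0 ≤ Q.ord x) : ∃ c : k, x = algebraMap k L c := by
  have h1 := crv_isIntegral_of_ord_nonneg k t ht x (fun Q _ => h Q)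
  have := crv_finite_inv k t
  have := crv_separable_inv k t
  have h2 := crv_isIntegral_of_ord_nonneg k t⁻¹ (crv_transcendental_inv k t ht) x
    (fun Q _ => h Q)
  exact hk x (crv_isAlgebraic_of_isIntegral_both k t ht x h1 h2)

end G

end Fermat.Agent.S18L
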