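import Mathlib
import Fermat.Agent.S18L.CrvG0
import Fermat.Agent.S18L.CrvG1
import Fermat.Agent.S18L.CrvG2

/-!
# S18, package CRV (helper6): umbrella for G0, G1, G2 (generic function field `L / k` with a
transcendental `t`, `L` finite separable over `k(t)`).
-/
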