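import Mathlib
import Fermat.Prelude.Def_ModularCurve_X0ModL
import Fermat.Agent.S18L.CrvBase
import Fermat.Agent.S18L.CrvG

/-!
# S18, package CRV (helper6): G0, G1, G2 for the mod-`ℓ` function field
`modularFunctionFieldFullC k N`, `k` algebraically closed.

Finiteness and separability over `k(j̄)` are instance hypotheses here
(they are supplied by package S28X: `s28x_finiteDimensional_fullC` and the separability wrapper).
-/

set_option autoImplicit false

open AlgebraicCurve ModularCurve
open scoped IntermediateField.algebraAdjoinAdjoin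

namespace Fermat.Agent.S18L

section Full

variable (k : Type*) [Field k] (N : ℕ) [NeZero N]

/-- `j̄` as an element of the field `F̄_N`. -/
noncomputable abbrev crvJ : ↥(modularFunctionFieldFullC k N) := ⟨jqModC k, jqModC_mem_full k N⟩

/-- multiplication by a constant on Laurent series, coefficientwise -/
theorem crvf_coeff_algebraMap_mul (c : k) (x : LaurentSeries k) (m : ℤ) :
    (algebraMap k (LaurentSeries k) c * x).coeff m = c * x.coeff m := by
  rw [algebraMap_laurentSeries_eq_single]
  exact HahnSeries.coeff_single_zero_mul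

/-- `j̄` is transcendental as a Laurent series (leading term of `P(j̄)`) -/
theorem crvf_transcendental_jqModC : Transcendental k (jqModC k) := by
  rw [transcendental_iff]
  intro P hP
  by_contra hP0
  have hcoeff : (Polynomial.aeval (jqModC k) P).coeff (-(P.natDegree : ℤ)) =
      P.leadingCoeff := by
    rw [Polynomial.aeval_eq_sum_range, HahnSeries.coeff_sum,
      Finset.sum_eq_single P.natDegree]
    · rw [Algebra.smul_def, crvf_coeff_algebraMap_mul, coeff_jqModC_pow_self, mul_one]
      rfl
    · intro i hi hne
      have hlt : i < P.natDegree :=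
        lt_of_le_of_ne (Nat.lt_succ_iff.1 (Finset.mem_range.1 hi)) hne
      rw [Algebra.smul_def, crvf_coeff_algebraMap_mul,
        coeff_jqModC_pow_of_lt k (by omega), mul_zero]
    · intro h
      exact absurd (Finset.mem_range.2 (Nat.lt_succ_self _)) h
  rw [hP, HahnSeries.coeff_zero] at hcoeff
  exact hP0 (Polynomial.leadingCoeff_eq_zero.1 hcoeff.symm)

/-- F1 -/
theorem crvJ_transcendental : Transcendental k (crvJ k N) := by
  intro h
  apply crvf_transcendental_jqModC k
  have h2 := h.algHom (modularFunctionFieldFullC k N).val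
  exact h2

/-- F2: the constants of `F̄_N` are `k` (`k` algebraically closed). -/
theorem crv_full_const [IsAlgClosed k] (x : ↥(modularFunctionFieldFullC k N))
    (hx : IsAlgebraic k x) :
    ∃ c : k, x = algebraMap k ↥(modularFunctionFieldFullC k N) c := by
  have h2 : IsAlgebraic k (x : LaurentSeries k) := hx.algHom (modularFunctionFieldFullC k N).val
  have h3 : (x : LaurentSeries k) ∈ (algebraMap k (LaurentSeries k)).range :=
    minpoly.mem_range_of_degree_eq_one k _
      (IsAlgClosed.degree_eq_one_of_irreducible k (minpoly.irreducible h2.isIntegral))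
  obtain ⟨c, hc⟩ := h3
  exact ⟨c, Subtype.ext hc.symm⟩

/-- G0 for `F̄_N`. -/
theorem crv_full_G0 [IsAlgClosed k]
    [FiniteDimensional (crvK k (crvJ k N)) ↥(modularFunctionFieldFullC k N)]
    (u : ↥(modularFunctionFieldFullC k N))
    (hu : ∀ c : k, u ≠ algebraMap k ↥(modularFunctionFieldFullC k N) c) :
    Algebra.IsAlgebraic (IntermediateField.adjoin k {u}) ↥(modularFunctionFieldFullC k N) := by
  have halg : Algebra.IsAlgebraic (crvK k (crvJ k N)) ↥(modularFunctionFieldFullC k N) :=
    Algebra.IsAlgebraic.of_finite _ _
  exact crv_G0 k (crvJ k N) (crvJ_transcendental k N) (crv_full_const k N) u hu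

/-- G1 for `F̄_N`. -/
theorem crv_full_G1
    [FiniteDimensional (crvK k (crvJ k N)) ↥(modularFunctionFieldFullC k N)]
    [Algebra.IsSeparable (crvK k (crvJ k N)) ↥(modularFunctionFieldFullC k N)]
    (x : ↥(modularFunctionFieldFullC k N)) (hx : x ≠ 0) :
    {Q : Place k ↥(modularFunctionFieldFullC k N) | Q.ord x ≠ 0}.Finite :=
  crv_G1 k (crvJ k N) (crvJ_transcendental k N) x hx

/-- G2 for `F̄_N`. -/
theorem crv_full_G2 [IsAlgClosed k]
    [FiniteDimensional (crvK k (crvJ k N)) ↥(modularFunctionFieldFullC k N)]
    [Algebra.IsSeparable (crvK k (crvJ k N)) ↥(modularFunctionFieldFullC k N)]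
    (x : ↥(modularFunctionFieldFullC k N))
    (h : ∀ Q : Place k ↥(modularFunctionFieldFullC k N), 0 ≤ Q.ord x) :
    ∃ c : k, x = algebraMap k ↥(modularFunctionFieldFullC k N) c :=
  crv_G2 k (crvJ k N) (crvJ_transcendental k N) (crv_full_const k N) x h

end Full

end Fermat.Agent.S18L
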