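import Mathlib
import Fermat.Prelude.Def_AlgebraicCurve_DivisorClassGroup
import Fermat.Agent.RR.Riemann
import Fermat.Agent.X0S24.PlaceRes
import Fermat.Agent.X0S24.PlacePoint

/-!
# S18, assembly: the abstract curve on the set of all (Prelude) places

For an algebraically closed field `K` and a function field `F / K` of one variable
(`halg`) in which nonzero functions have finitely many zeros and poles (`hfin`) and functions
without poles are constant (`hconst`), the Prelude places of `F` form an abstract curve
`curveOfPlaces` in the sense of the Riemann–Roch library, with `ord Q x = Q.ord x`.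
-/

set_option autoImplicit false

open scoped IntermediateField

namespace Fermat.Agent.S18L

open Fermat.Agent.RRL AlgebraicCurve Fermat.Agent.X0S24

variable {K F : Type*} [Field K] [Field F] [Algebra K F]

/-- the curve of all places -/
noncomputable def curveOfPlaces [IsAlgClosed K]
    (halg : ∀ u : F, (∀ c : K, u ≠ algebraMap K F c) → Algebra.IsAlgebraic K⟮u⟯ F)
    (hfin : ∀ x : F, x ≠ 0 → {Q : Place K F | Q.ord x ≠ 0}.Finite)
    (hconst : ∀ x : F, x ≠ 0 → (∀ Q : Place K F, 0 ≤ Q.ord x) → ∃ c : K, x = algebraMap K F c) :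
    Curve K F (Place K F) where
  ord := fun Q x => Q.ord x
  ord_mul := fun Q _ _ hx hy => Q.ord_mul hx hy
  ord_add := fun Q _ _ hx hy hxy => PlaceRes.ord_add Q hx hy hxy
  ord_algebraMap := fun Q _ hc => PlaceRes.ord_algebraMap Q hc
  exists_residue := fun Q _ hx h0 => PlaceRes.exists_residue halg Q hx h0
  finite_support := fun {x} hx => hfin x hx
  const_of_nonneg := fun {x} hx h => hconst x hx h
  exists_uniformizer := fun Q => PlaceRes.exists_ord_eq_one Q
  separated := by
    intro p q hpq
    obtain ⟨u, hup, huq⟩ := PlacePoint.exists_mem_not_mem hpq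
    have hu0 : u ≠ 0 := by
      rintro rfl
      exact huq (zero_mem _)
    refine ⟨u, hu0, (PlaceRes.mem_iff_ord_nonneg p hu0).mp hup, ?_⟩
    have := (PlaceRes.mem_iff_ord_nonneg q hu0).not.mp huq
    omega

section

variable [IsAlgClosed K]
    (halg : ∀ u : F, (∀ c : K, u ≠ algebraMap K F c) → Algebra.IsAlgebraic K⟮u⟯ F)
    (hfin : ∀ x : F, x ≠ 0 → {Q : Place K F | Q.ord x ≠ 0}.Finite)
    (hconst : ∀ x : F, x ≠ 0 → (∀ Q : Place K F, 0 ≤ Q.ord x) → ∃ c : K, x = algebraMap K F c)

@[simp] theorem curveOfPlaces_ord (Q : Place K F) (x : F) :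
    (curveOfPlaces halg hfin hconst).ord Q x = Q.ord x := rfl

/-- the divisor of a nonzero function, pointwise -/
theorem curveOfPlaces_div_apply {x : F} (hx : x ≠ 0) (Q : Place K F) :
    (curveOfPlaces halg hfin hconst).toPreCurve.div x Q = Q.ord x :=
  PreCurve.div_apply _ hx Q

/-- Prelude principal divisors are the divisors of functions -/
theorem isPrincipal_iff_curveOfPlaces (D : Divisor K F) :
    Divisor.IsPrincipal D ↔
      ∃ x : F, x ≠ 0 ∧ D = (curveOfPlaces halg hfin hconst).toPreCurve.div x := by
  constructor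
  · rintro ⟨f, hf, hD⟩
    refine ⟨f, hf, ?_⟩
    ext Q
    rw [hD Q, curveOfPlaces_div_apply halg hfin hconst hf]
  · rintro ⟨f, hf, rfl⟩
    exact ⟨f, hf, fun Q => curveOfPlaces_div_apply halg hfin hconst hf Q⟩

include halg in
/-- the Prelude degree is the naive degree (all places have degree one) -/
theorem degree_eq_deg (D : Divisor K F) : Divisor.degree D = PreCurve.deg D := by
  unfold PreCurve.deg Divisor.degree
  rw [Finsupp.liftAddHom_apply]
  refine Finsupp.sum_congr fun v _ => ?_
  rw [AddMonoidHom.mulRight_apply, PlaceRes.deg_eq_one halg v]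
  simp

end

end Fermat.Agent.S18L
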