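import Mathlib
import Fermat.Prelude.Def_AlgebraicCurve_DivisorClassGroup
import Fermat.Agent.X0S24.Final
import Fermat.Agent.X0S24.PlacePoint
import Fermat.Agent.X0S24.PlaceRes

/-!
# S18, package C0: ramification of `j` on the function field of `X₀(M)` over `ℚ̄`

Characteristic-zero input, at an arbitrary level `M`, in the language of the Prelude places of
`F = modularFunctionFieldBar M` and `j = X0S24.Embed.jbar M`:

* `c0_j_generic` : a place over a finite value `c ≠ 0, 1728` of `j` is unramified;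
* `c0_j_zero`    : over `j = 0` the ramification index is `1` or `3`;
* `c0_j_1728`    : over `j = 1728` the ramification index is `1` or `2`;
* `c0_j_pole`    : at a cusp the ramification index divides `M`.
-/

set_option autoImplicit false

open ModularCurve AlgebraicCurve

namespace Fermat.Agent.S18L

open Fermat.Agent.X0S24

section aux

open Fermat.Agent.X0Fld Fermat.Agent.CoverL Fermat.Agent.RRL
open scoped IntermediateField

variable (M : ℕ) [NeZero M]

/-- every place of `F̄` is the place of a point of the curve over `ℚ̄`, and its order function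
is the order function of the complex curve at that point -/
theorem c0_exists_point (P : Place (AlgebraicClosure ℚ) ↥(modularFunctionFieldBar M)) :
    ∃ p : (Final.setup M).Pt, ∀ x : ↥(modularFunctionFieldBar M), x ≠ 0 →
      P.ord x = (datum M).ordAt p.1 (Embed.iota M x) := by
  obtain ⟨C₀, hC₀⟩ := Final.exists_curve M
  have halg : ∀ u : ↥(modularFunctionFieldBar M),
      (∀ c : AlgebraicClosure ℚ,
        u ≠ algebraMap (AlgebraicClosure ℚ) ↥(modularFunctionFieldBar M) c) →
      Algebra.IsAlgebraic (AlgebraicClosure ℚ)⟮u⟯ ↥(modularFunctionFieldBar M) := by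
    intro u hu
    have := C₀.finite_adjoin_of_nonconst hu
    exact Algebra.IsAlgebraic.of_finite _ _
  obtain ⟨p, rfl⟩ := PlacePoint.place_surjective C₀ (fun x hx => C₀.finsum_ord_eq_zero hx)
    (fun C' x hx => C'.finsum_ord_eq_zero hx) halg P
  refine ⟨p, fun x hx => ?_⟩
  rw [PlacePoint.place_ord C₀ p hx, ← Final.setup_ord, ← hC₀]

/-- the ramification index divides the local degree of `j` -/
theorem c0_e_dvd_d (p : (datum M).Pt) : (datum M).e p ∣ (datum M).d p.1 := by
  obtain ⟨P₀, q⟩ := p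
  have h := (datum M).e_mul_card P₀ q.out
  rw [DoubleCoset.out_eq'] at h
  exact Dvd.intro _ h

/-- the order of `j - c` at a place where it is positive is a ramification index dividing
`dFin c` -/
theorem c0_ord_sub_dvd (P : Place (AlgebraicClosure ℚ) ↥(modularFunctionFieldBar M))
    (c : AlgebraicClosure ℚ)
    (h : 0 < P.ord (Embed.jbar M
      - algebraMap (AlgebraicClosure ℚ) ↥(modularFunctionFieldBar M) c)) :
    ∃ e : ℕ, P.ord (Embed.jbar M
        - algebraMap (AlgebraicClosure ℚ) ↥(modularFunctionFieldBar M) c) = (e : ℤ) ∧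
      e ∣ dFin (algebraMap (AlgebraicClosure ℚ) ℂ c) := by
  obtain ⟨⟨⟨P₀, q⟩, hp⟩, hord⟩ := c0_exists_point M P
  have hne : Embed.jbar M - algebraMap (AlgebraicClosure ℚ) ↥(modularFunctionFieldBar M) c ≠ 0 :=
    sub_ne_zero.mpr (Embed.jbar_ne_algebraMap M c)
  have h1 := hord _ hne
  rw [Final.iota_jbar_sub] at h1
  simp only at h1
  rw [h1] at h ⊢
  induction P₀ using OnePoint.rec with
  | infty =>
    rw [(datum M).ordAt_jF_sub_infty _ q] at h
    have := (datum M).e_pos ⟨OnePoint.infty, q⟩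
    omega
  | coe c' =>
    by_cases hc : c' = algebraMap (AlgebraicClosure ℚ) ℂ c
    · subst hc
      refine ⟨(datum M).e ⟨_, q⟩, (datum M).ordAt_jF_sub_coe _ q, ?_⟩
      have := c0_e_dvd_d M ⟨_, q⟩
      rwa [datum_d_coe] at this
    · rw [(datum M).ordAt_jF_sub_coe_of_ne _ c' hc q] at h
      exact absurd h (lt_irrefl 0)

end aux

variable (M : ℕ) [NeZero M]

/-- a place over a finite value `c ≠ 0, 1728` of `j` is unramified over the `j`-line -/
theorem c0_j_generic (P : Place (AlgebraicClosure ℚ) ↥(modularFunctionFieldBar M))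
    (c : AlgebraicClosure ℚ) (hc0 : c ≠ 0) (hc1 : c ≠ 1728)
    (h : 0 < P.ord (Embed.jbar M
      - algebraMap (AlgebraicClosure ℚ) ↥(modularFunctionFieldBar M) c)) :
    P.ord (Embed.jbar M
      - algebraMap (AlgebraicClosure ℚ) ↥(modularFunctionFieldBar M) c) = 1 := by
  obtain ⟨e, he, hdvd⟩ := c0_ord_sub_dvd M P c h
  have h0 : algebraMap (AlgebraicClosure ℚ) ℂ c ≠ 0 := by
    rwa [Ne, map_eq_zero]
  have h1 : algebraMap (AlgebraicClosure ℚ) ℂ c ≠ 1728 := by
    intro h1
    apply hc1
    apply (algebraMap (AlgebraicClosure ℚ) ℂ).injective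
    rw [h1, map_ofNat]
  have hd : Fermat.Agent.X0Fld.dFin (algebraMap (AlgebraicClosure ℚ) ℂ c) = 1 := by
    simp [Fermat.Agent.X0Fld.dFin, h0, h1]
  rw [hd, Nat.dvd_one] at hdvd
  rw [he, hdvd]
  rfl

/-- over `j = 0` the ramification index is `1` or `3` -/
theorem c0_j_zero (P : Place (AlgebraicClosure ℚ) ↥(modularFunctionFieldBar M))
    (h : 0 < P.ord (Embed.jbar M)) :
    P.ord (Embed.jbar M) = 1 ∨ P.ord (Embed.jbar M) = 3 := by
  have h' : 0 < P.ord (Embed.jbar M
      - algebraMap (AlgebraicClosure ℚ) ↥(modularFunctionFieldBar M) 0) := by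
    rwa [map_zero, sub_zero]
  obtain ⟨e, he, hdvd⟩ := c0_ord_sub_dvd M P 0 h'
  rw [map_zero, sub_zero] at he
  have hd : Fermat.Agent.X0Fld.dFin (algebraMap (AlgebraicClosure ℚ) ℂ 0) = 3 := by
    simp [Fermat.Agent.X0Fld.dFin]
  rw [hd, Nat.dvd_prime Nat.prime_three] at hdvd
  rcases hdvd with rfl | rfl
  · left; rw [he]; rfl
  · right; rw [he]; rfl

/-- over `j = 1728` the ramification index is `1` or `2` -/
theorem c0_j_1728 (P : Place (AlgebraicClosure ℚ) ↥(modularFunctionFieldBar M))
    (h : 0 < P.ord (Embed.jbar M - 1728)) :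
    P.ord (Embed.jbar M - 1728) = 1 ∨ P.ord (Embed.jbar M - 1728) = 2 := by
  have hcast : algebraMap (AlgebraicClosure ℚ) ↥(modularFunctionFieldBar M) 1728 = 1728 :=
    map_ofNat _ 1728
  have h' : 0 < P.ord (Embed.jbar M
      - algebraMap (AlgebraicClosure ℚ) ↥(modularFunctionFieldBar M) 1728) := by
    rwa [hcast]
  obtain ⟨e, he, hdvd⟩ := c0_ord_sub_dvd M P 1728 h'
  rw [hcast] at he
  have hd : Fermat.Agent.X0Fld.dFin (algebraMap (AlgebraicClosure ℚ) ℂ 1728) = 2 := by
    rw [map_ofNat]
    simp [Fermat.Agent.X0Fld.dFin]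
  rw [hd, Nat.dvd_prime Nat.prime_two] at hdvd
  rcases hdvd with rfl | rfl
  · left; rw [he]; rfl
  · right; rw [he]; rfl

/-- at a cusp the ramification index divides the level -/
theorem c0_j_pole (P : Place (AlgebraicClosure ℚ) ↥(modularFunctionFieldBar M))
    (h : P.ord (Embed.jbar M) < 0) :
    P.ord (Embed.jbar M) ∣ (M : ℤ) := by
  obtain ⟨⟨⟨P₀, q⟩, hp⟩, hord⟩ := c0_exists_point M P
  have hne : Embed.jbar M ≠ 0 := by
    have := Embed.jbar_ne_algebraMap M 0
    rwa [map_zero] at this
  have h1 := hord _ hne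
  rw [Embed.iota_jbar] at h1
  simp only at h1
  rw [h1] at h ⊢
  induction P₀ using OnePoint.rec with
  | infty =>
    rw [(Fermat.Agent.X0Fld.datum M).ordAt_jF_infty q]
    have := c0_e_dvd_d M ⟨OnePoint.infty, q⟩
    rw [Fermat.Agent.X0Fld.datum_d_infty] at this
    rw [Int.neg_dvd]
    exact_mod_cast this
  | coe c' =>
    have := (Fermat.Agent.X0Fld.datum M).ordAt_jF_coe_nonneg c' q
    omega

end Fermat.Agent.S18L
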