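import Mathlib
import Fermat.Agent.S18L.C0Ram

/-!
# S18, package C0: ramification over the `t`-line of level 2

`t` is any element of `F = modularFunctionFieldBar M` with `j * t ^ 2 = (t + 256) ^ 3`
(the Hauptmodul `h₂` of `Γ₀(2)` when `2 ∣ M`).  Then `F / ℚ̄(t)` is unramified outside
`t ∈ {0, ∞, -64}`, the ramification index over `t = -64` is `1` or `2`, and at the places over
`t = 0, ∞` (cusps) it divides `M`.
-/

set_option autoImplicit false

open ModularCurve AlgebraicCurve

namespace Fermat.Agent.S18L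

open Fermat.Agent.X0S24

section c0l2_general

variable {K F : Type*} [Field K] [Field F] [Algebra K F] (v : AlgebraicCurve.Place K F)

/-- the strict ultrametric property: the sum is nonzero -/
theorem c0l2_add_ne_zero {x y : F} (hx : x ≠ 0) (hy : y ≠ 0) (h : v.ord x < v.ord y) :
    x + y ≠ 0 := by
  have h1 : v.adicValuation y < v.adicValuation x := by
    rw [← not_le, PlaceRes.adicValuation_le_iff v hx hy]
    omega
  have h2 := Valuation.map_add_eq_of_lt_left v.adicValuation h1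
  intro h0
  rw [h0, map_zero] at h2
  exact v.adicValuation_ne_zero hx h2.symm

/-- the strict ultrametric property: `ord x < ord y → ord (x + y) = ord x` -/
theorem c0l2_ord_add_eq {x y : F} (hx : x ≠ 0) (hy : y ≠ 0) (h : v.ord x < v.ord y) :
    v.ord (x + y) = v.ord x := by
  have h1 : v.adicValuation y < v.adicValuation x := by
    rw [← not_le, PlaceRes.adicValuation_le_iff v hx hy]
    omega
  unfold AlgebraicCurve.Place.ord
  rw [Valuation.map_add_eq_of_lt_left v.adicValuation h1]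

theorem c0l2_ord_pow (f : F) (n : ℕ) : v.ord (f ^ n) = n * v.ord f := by
  rw [← zpow_natCast, v.ord_zpow]

theorem c0l2_ord_nonneg {x : F} (hx : x ∈ v.toValuationSubring) : 0 ≤ v.ord x := by
  rcases eq_or_ne x 0 with rfl | h0
  · simp
  · exact (PlaceRes.mem_iff_ord_nonneg v h0).1 hx

theorem c0l2_mem {x : F} (hx : 0 ≤ v.ord x) : x ∈ v.toValuationSubring := by
  rcases eq_or_ne x 0 with rfl | h0
  · exact zero_mem _
  · exact (PlaceRes.mem_iff_ord_nonneg v h0).2 hx

/-- a nonzero constant plus an element of positive order is a unit at `v` -/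
theorem c0l2_const_add {c : K} (hc : c ≠ 0) {y : F} (hy : 0 < v.ord y) :
    algebraMap K F c + y ≠ 0 ∧ v.ord (algebraMap K F c + y) = 0 := by
  have hc' : algebraMap K F c ≠ 0 := (map_ne_zero _).2 hc
  have hy0 : y ≠ 0 := by
    rintro rfl
    simp at hy
  have h0 := PlaceRes.ord_algebraMap v hc
  exact ⟨c0l2_add_ne_zero v hc' hy0 (by omega),
    by rw [c0l2_ord_add_eq v hc' hy0 (by omega), h0]⟩

variable [CharZero K] (j t : F) (hj : ∀ c : K, j ≠ algebraMap K F c)
  (hrel : j * t ^ 2 = (t + 256) ^ 3)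

include hj hrel

/-- at a pole of `t`: `ord j = ord t` -/
theorem c0l2_pole_aux (h : v.ord t < 0) : v.ord j = v.ord t := by
  have ht0 : t ≠ 0 := by
    rintro rfl
    simp at h
  have hj0 : j ≠ 0 := by simpa using hj 0
  have e256 : (256 : F) = algebraMap K F 256 := (map_ofNat _ 256).symm
  have h256 : (256 : F) ≠ 0 := by
    rw [e256]
    exact (map_ne_zero _).2 (by norm_num)
  have o256 : v.ord (256 : F) = 0 := by
    rw [e256]
    exact PlaceRes.ord_algebraMap v (by norm_num)
  have h1 : v.ord (t + 256) = v.ord t := c0l2_ord_add_eq v ht0 h256 (by omega)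
  have h3 := congrArg v.ord hrel
  rw [v.ord_mul hj0 (pow_ne_zero 2 ht0), c0l2_ord_pow, c0l2_ord_pow, h1] at h3
  push_cast at h3
  omega

/-- at a zero of `t`: `ord j = - 2 ord t` -/
theorem c0l2_zero_aux (h : 0 < v.ord t) : v.ord j = -(2 * v.ord t) := by
  have ht0 : t ≠ 0 := by
    rintro rfl
    simp at h
  have hj0 : j ≠ 0 := by simpa using hj 0
  have h1 : t + 256 ≠ 0 ∧ v.ord (t + 256) = 0 := by
    rw [add_comm, ← map_ofNat (algebraMap K F) 256]
    exact c0l2_const_add v (by norm_num) h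
  have h3 := congrArg v.ord hrel
  rw [v.ord_mul hj0 (pow_ne_zero 2 ht0), c0l2_ord_pow, c0l2_ord_pow, h1.2] at h3
  push_cast at h3
  omega

/-- at a zero of `t + 64`: `ord (j - 1728) = ord (t + 64)` -/
theorem c0l2_ell_aux (h : 0 < v.ord (t + 64)) : v.ord (j - 1728) = v.ord (t + 64) := by
  have hrel2 : (j - 1728) * t ^ 2 = (t + 64) * (t - 512) ^ 2 := by
    linear_combination hrel
  have h64 : t + 64 ≠ 0 := by
    intro h0
    rw [h0] at h
    simp at h
  have h1 : t ≠ 0 ∧ v.ord t = 0 := by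
    have := c0l2_const_add v (c := -64) (by norm_num) h
    have e : algebraMap K F (-64) + (t + 64) = t := by
      rw [map_neg, map_ofNat]; ring
    rwa [e] at this
  have h2 : t - 512 ≠ 0 ∧ v.ord (t - 512) = 0 := by
    have := c0l2_const_add v (c := -576) (by norm_num) h
    have e : algebraMap K F (-576) + (t + 64) = t - 512 := by
      rw [map_neg, map_ofNat]; ring
    rwa [e] at this
  have hj1 : j - 1728 ≠ 0 := by
    have := hj 1728
    rw [map_ofNat] at this
    exact sub_ne_zero.2 this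
  have h3 := congrArg v.ord hrel2
  rw [v.ord_mul hj1 (pow_ne_zero 2 h1.1), v.ord_mul h64 (pow_ne_zero 2 h2.1), c0l2_ord_pow,
    c0l2_ord_pow, h1.2, h2.2] at h3
  push_cast at h3
  omega

/-- unramified over `ρ ≠ 0, -64`, given the behaviour of `j` -/
theorem c0l2_generic_aux
    (Hgen : ∀ c : K, c ≠ 0 → c ≠ 1728 → 0 < v.ord (j - algebraMap K F c) →
      v.ord (j - algebraMap K F c) = 1)
    (Hzero : 0 < v.ord j → v.ord j = 1 ∨ v.ord j = 3)
    (H1728 : 0 < v.ord (j - 1728) → v.ord (j - 1728) = 1 ∨ v.ord (j - 1728) = 2)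
    (ρ : K) (hρ0 : ρ ≠ 0) (hρ1 : ρ ≠ -64)
    (h : 0 < v.ord (t - algebraMap K F ρ)) : v.ord (t - algebraMap K F ρ) = 1 := by
  set r : F := algebraMap K F ρ with hr
  have hr0 : r ≠ 0 := (map_ne_zero _).2 hρ0
  have or0 : v.ord r = 0 := PlaceRes.ord_algebraMap v hρ0
  have hu0 : t - r ≠ 0 := by
    intro h0
    rw [h0] at h
    simp at h
  have ht : t ≠ 0 ∧ v.ord t = 0 := by
    have := c0l2_const_add v hρ0 h
    have e : algebraMap K F ρ + (t - r) = t := by
      rw [hr]; ring
    rwa [e] at this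
  have hj0 : j ≠ 0 := by simpa using hj 0
  have hj1 : j - 1728 ≠ 0 := by
    have := hj 1728
    rw [map_ofNat] at this
    exact sub_ne_zero.2 this
  by_cases hρ2 : ρ = -256
  · -- `j` vanishes to order `3 e`
    have e : t + 256 = t - r := by
      rw [hr, hρ2, map_neg, map_ofNat]; ring
    rw [e] at hrel
    have h3 := congrArg v.ord hrel
    rw [v.ord_mul hj0 (pow_ne_zero 2 ht.1), c0l2_ord_pow, c0l2_ord_pow, ht.2] at h3
    push_cast at h3
    rcases Hzero (by omega) with h4 | h4 <;> omega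
  by_cases hρ3 : ρ = 512
  · -- `j - 1728` vanishes to order `2 e`
    have hrel2 : (j - 1728) * t ^ 2 = (t + 64) * (t - 512) ^ 2 := by
      linear_combination hrel
    have e : t - 512 = t - r := by
      rw [hr, hρ3, map_ofNat]
    rw [e] at hrel2
    have h64 : t + 64 ≠ 0 ∧ v.ord (t + 64) = 0 := by
      have := c0l2_const_add v (c := 576) (by norm_num) h
      have e' : algebraMap K F 576 + (t - r) = t + 64 := by
        rw [hr, hρ3, map_ofNat, map_ofNat]; ring
      rwa [e'] at this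
    have h3 := congrArg v.ord hrel2
    rw [v.ord_mul hj1 (pow_ne_zero 2 ht.1), v.ord_mul h64.1 (pow_ne_zero 2 hu0), c0l2_ord_pow,
      c0l2_ord_pow, ht.2, h64.2] at h3
    push_cast at h3
    rcases H1728 (by omega) with h4 | h4 <;> omega
  -- the generic case
  have hρ256 : ρ + 256 ≠ 0 := fun h0 => hρ2 (by linear_combination h0)
  set c : K := (ρ + 256) ^ 3 / ρ ^ 2 with hc
  have hc0 : c ≠ 0 := div_ne_zero (pow_ne_zero 3 hρ256) (pow_ne_zero 2 hρ0)
  have hc1 : c ≠ 1728 := by
    intro h0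
    rw [hc, div_eq_iff (pow_ne_zero 2 hρ0)] at h0
    have h1 : (ρ + 64) * (ρ - 512) ^ 2 = 0 := by linear_combination h0
    rcases mul_eq_zero.1 h1 with h2 | h2
    · exact hρ1 (by linear_combination h2)
    · exact hρ3 (by linear_combination pow_eq_zero_iff (two_ne_zero) |>.1 h2)
  have hcF : algebraMap K F c * r ^ 2 = (r + 256) ^ 3 := by
    rw [hr, ← map_pow, ← map_mul, hc, div_mul_cancel₀ _ (pow_ne_zero 2 hρ0), map_pow, map_add,
      map_ofNat]
  have key : t ^ 2 * r ^ 2 * (j - algebraMap K F c)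
      = (t - r) * (r ^ 2 * t ^ 2 - 196608 * r * t - 16777216 * (t + r)) := by
    linear_combination r ^ 2 * hrel - t ^ 2 * hcF
  have hjc : j - algebraMap K F c ≠ 0 := sub_ne_zero.2 (hj c)
  have hL : t ^ 2 * r ^ 2 * (j - algebraMap K F c) ≠ 0 :=
    mul_ne_zero (mul_ne_zero (pow_ne_zero 2 ht.1) (pow_ne_zero 2 hr0)) hjc
  have hB0 : r ^ 2 * t ^ 2 - 196608 * r * t - 16777216 * (t + r) ≠ 0 := by
    rw [key] at hL
    exact right_ne_zero_of_mul hL
  have htm : t ∈ v.toValuationSubring := c0l2_mem v (by omega)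
  have hrm : r ∈ v.toValuationSubring := v.algebraMap_mem' ρ
  have hBm : r ^ 2 * t ^ 2 - 196608 * r * t - 16777216 * (t + r) ∈ v.toValuationSubring :=
    sub_mem (sub_mem (mul_mem (pow_mem hrm 2) (pow_mem htm 2))
      (mul_mem (mul_mem (ofNat_mem _ 196608) hrm) htm))
      (mul_mem (ofNat_mem _ 16777216) (add_mem htm hrm))
  have oB := c0l2_ord_nonneg v hBm
  have h3 := congrArg v.ord key
  rw [v.ord_mul (mul_ne_zero (pow_ne_zero 2 ht.1) (pow_ne_zero 2 hr0)) hjc,
    v.ord_mul (pow_ne_zero 2 ht.1) (pow_ne_zero 2 hr0), v.ord_mul hu0 hB0, c0l2_ord_pow,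
    c0l2_ord_pow, ht.2, or0] at h3
  push_cast at h3
  have h4 := Hgen c hc0 hc1 (by omega)
  omega

end c0l2_general

variable (M : ℕ) [NeZero M]

/-- unramified over every finite `ρ ≠ 0, -64` of the `t`-line -/
theorem c0_l2_generic (t : ↥(modularFunctionFieldBar M))
    (hrel : Embed.jbar M * t ^ 2 = (t + 256) ^ 3)
    (P : Place (AlgebraicClosure ℚ) ↥(modularFunctionFieldBar M))
    (ρ : AlgebraicClosure ℚ) (hρ0 : ρ ≠ 0) (hρ1 : ρ ≠ -64)
    (h : 0 < P.ord (t - algebraMap (AlgebraicClosure ℚ) ↥(modularFunctionFieldBar M) ρ)) :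
    P.ord (t - algebraMap (AlgebraicClosure ℚ) ↥(modularFunctionFieldBar M) ρ) = 1 := by
  exact c0l2_generic_aux P (Embed.jbar M) t (Embed.jbar_ne_algebraMap M) hrel
    (fun c hc0 hc1 hc => c0_j_generic M P c hc0 hc1 hc) (c0_j_zero M P) (c0_j_1728 M P)
    ρ hρ0 hρ1 h

/-- over `t = -64` the ramification index is `1` or `2` -/
theorem c0_l2_ell (t : ↥(modularFunctionFieldBar M))
    (hrel : Embed.jbar M * t ^ 2 = (t + 256) ^ 3)
    (P : Place (AlgebraicClosure ℚ) ↥(modularFunctionFieldBar M))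
    (h : 0 < P.ord (t + 64)) :
    P.ord (t + 64) = 1 ∨ P.ord (t + 64) = 2 := by
  have h1 := c0l2_ell_aux P (Embed.jbar M) t (Embed.jbar_ne_algebraMap M) hrel h
  rw [← h1] at h ⊢
  exact c0_j_1728 M P h

/-- over `t = 0` (a cusp) twice the ramification index divides the level -/
theorem c0_l2_zero (t : ↥(modularFunctionFieldBar M))
    (hrel : Embed.jbar M * t ^ 2 = (t + 256) ^ 3)
    (P : Place (AlgebraicClosure ℚ) ↥(modularFunctionFieldBar M))
    (h : 0 < P.ord t) :
    2 * P.ord t ∣ (M : ℤ) := by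
  have h1 := c0l2_zero_aux P (Embed.jbar M) t (Embed.jbar_ne_algebraMap M) hrel h
  have h2 := c0_j_pole M P (by omega)
  rwa [h1, neg_dvd] at h2

/-- over `t = ∞` (a cusp) the ramification index divides the level -/
theorem c0_l2_pole (t : ↥(modularFunctionFieldBar M))
    (hrel : Embed.jbar M * t ^ 2 = (t + 256) ^ 3)
    (P : Place (AlgebraicClosure ℚ) ↥(modularFunctionFieldBar M))
    (h : P.ord t < 0) :
    P.ord t ∣ (M : ℤ) := by
  have h1 := c0l2_pole_aux P (Embed.jbar M) t (Embed.jbar_ne_algebraMap M) hrel h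
  rw [← h1] at h ⊢
  exact c0_j_pole M P h

end Fermat.Agent.S18L
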