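import Mathlib
import Fermat.Agent.S18L.C0Ram

/-!
# S18, package C0: ramification over the `t`-line of level 3

`t` is any element of `F = modularFunctionFieldBar M` with
`j * t ^ 3 = (t + 27) * (t + 243) ^ 3` (the Hauptmodul `h₃` of `Γ₀(3)` when `3 ∣ M`).  Then
`F / ℚ̄(t)` is unramified outside `t ∈ {0, ∞, -27}`, the ramification index over `t = -27` is
`1` or `3`, and at the places over `t = 0, ∞` (cusps) it divides `M`.
-/

set_option autoImplicit false

open ModularCurve AlgebraicCurve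

namespace Fermat.Agent.S18L

open Fermat.Agent.X0S24

section c0l3_aux

variable {K F : Type*} [Field K] [Field F] [Algebra K F] (v : Place K F)

theorem c0l3_ord_pow (x : F) (n : ℕ) : v.ord (x ^ n) = n * v.ord x := by
  rw [← zpow_natCast, v.ord_zpow]

theorem c0l3_ord_neg (x : F) : v.ord (-x) = v.ord x := by
  rcases eq_or_ne x 0 with rfl | hx
  · rw [neg_zero]
  · have h1 : v.ord (-1 : F) = 0 := by
      have h := PlaceRes.ord_algebraMap v (c := (-1 : K)) (neg_ne_zero.mpr one_ne_zero)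
      rwa [map_neg, map_one] at h
    rw [neg_eq_neg_one_mul, v.ord_mul (neg_ne_zero.mpr one_ne_zero) hx, h1, zero_add]

/-- the strict ultrametric property -/
theorem c0l3_ord_add_of_lt {x y : F} (hx : x ≠ 0) (h : v.ord x < v.ord y) :
    x + y ≠ 0 ∧ v.ord (x + y) = v.ord x := by
  rcases eq_or_ne y 0 with rfl | hy
  · rw [add_zero]
    exact ⟨hx, rfl⟩
  have hxy : x + y ≠ 0 := by
    intro h0
    have hx' : x = -y := eq_neg_of_add_eq_zero_left h0
    rw [hx', c0l3_ord_neg] at h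
    exact lt_irrefl _ h
  refine ⟨hxy, le_antisymm ?_ ?_⟩
  · by_contra hlt
    rw [not_le] at hlt
    have h1 := PlaceRes.ord_add v hxy (neg_ne_zero.mpr hy)
      (by rw [add_neg_cancel_right]; exact hx)
    rw [add_neg_cancel_right, c0l3_ord_neg] at h1
    have h2 := lt_min hlt h
    omega
  · have h1 := PlaceRes.ord_add v hx hy hxy
    rwa [min_eq_left h.le] at h1

/-- adding a constant to a function with a pole -/
theorem c0l3_add_const_of_neg {t : F} (ht : v.ord t < 0) (c : K) :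
    t + algebraMap K F c ≠ 0 ∧ v.ord (t + algebraMap K F c) = v.ord t := by
  have ht0 : t ≠ 0 := by
    rintro rfl
    simp at ht
  rcases eq_or_ne c 0 with rfl | hc
  · rw [map_zero, add_zero]
    exact ⟨ht0, rfl⟩
  · exact c0l3_ord_add_of_lt v ht0 (by rw [PlaceRes.ord_algebraMap v hc]; exact ht)

/-- adding a nonzero constant to a function with a zero -/
theorem c0l3_add_const_of_pos {s : F} (hs : 0 < v.ord s) {c : K} (hc : c ≠ 0) :
    s + algebraMap K F c ≠ 0 ∧ v.ord (s + algebraMap K F c) = 0 := by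
  have hc' : algebraMap K F c ≠ 0 := by simpa using hc
  have h := c0l3_ord_add_of_lt v (x := algebraMap K F c) (y := s) hc'
    (by rw [PlaceRes.ord_algebraMap v hc]; exact hs)
  rw [add_comm, PlaceRes.ord_algebraMap v hc] at h
  exact h

/-- the orders in the relation `j * t ^ 3 = (t + 27) * (t + 243) ^ 3` -/
theorem c0l3_ord_rel {j t : F} (hrel : j * t ^ 3 = (t + 27) * (t + 243) ^ 3) (hj : j ≠ 0)
    (ht : t ≠ 0) (h1 : t + 27 ≠ 0) (h2 : t + 243 ≠ 0) :
    v.ord j + 3 * v.ord t = v.ord (t + 27) + 3 * v.ord (t + 243) := by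
  have h := congrArg v.ord hrel
  rw [v.ord_mul hj (pow_ne_zero 3 ht), c0l3_ord_pow, v.ord_mul h1 (pow_ne_zero 3 h2),
    c0l3_ord_pow] at h
  exact_mod_cast h

end c0l3_aux

variable (M : ℕ) [NeZero M]

theorem c0l3_jbar_ne_zero : Embed.jbar M ≠ 0 := by
  have h := Embed.jbar_ne_algebraMap M 0
  rwa [map_zero] at h

/-- unramified over every finite `ρ ≠ 0, -27` of the `t`-line -/
theorem c0_l3_generic (t : ↥(modularFunctionFieldBar M))
    (hrel : Embed.jbar M * t ^ 3 = (t + 27) * (t + 243) ^ 3)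
    (P : Place (AlgebraicClosure ℚ) ↥(modularFunctionFieldBar M))
    (ρ : AlgebraicClosure ℚ) (hρ0 : ρ ≠ 0) (hρ1 : ρ ≠ -27)
    (h : 0 < P.ord (t - algebraMap (AlgebraicClosure ℚ) ↥(modularFunctionFieldBar M) ρ)) :
    P.ord (t - algebraMap (AlgebraicClosure ℚ) ↥(modularFunctionFieldBar M) ρ) = 1 := by
  have hj := c0l3_jbar_ne_zero M
  have hr0 : algebraMap (AlgebraicClosure ℚ) ↥(modularFunctionFieldBar M) ρ ≠ 0 := by
    simpa using hρ0
  have hr' := PlaceRes.ord_algebraMap P hρ0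
  obtain ⟨ht, ht'⟩ := c0l3_add_const_of_pos P h hρ0
  rw [sub_add_cancel] at ht ht'
  have htr : t - algebraMap (AlgebraicClosure ℚ) ↥(modularFunctionFieldBar M) ρ ≠ 0 := by
    intro h0
    rw [h0] at h
    simp at h
  generalize hr_def : algebraMap (AlgebraicClosure ℚ) ↥(modularFunctionFieldBar M) ρ = r at *
  by_cases hA : ρ = -243
  · have e0 : t - r = t + 243 := by
      rw [← hr_def, hA, map_neg, map_ofNat]
      ring
    rw [e0] at h htr ⊢
    obtain ⟨h1, h1'⟩ := c0l3_add_const_of_pos P h (c := (-216 : AlgebraicClosure ℚ))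
      (by norm_num)
    have e1 : t + 243 + algebraMap (AlgebraicClosure ℚ) ↥(modularFunctionFieldBar M) (-216)
        = t + 27 := by
      rw [map_neg, map_ofNat]
      ring
    rw [e1] at h1 h1'
    have hr := c0l3_ord_rel P hrel hj ht h1 htr
    rw [ht', h1'] at hr
    have hjt : P.ord (Embed.jbar M) = 3 * P.ord (t + 243) := by omega
    rcases c0_j_zero M P (by rw [hjt]; omega) with h3 | h3 <;> omega
  by_cases hB : ρ ^ 2 - 486 * ρ - 19683 = 0
  · have hq : r ^ 2 - 486 * r - 19683 = 0 := by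
      have h0 := congrArg (algebraMap (AlgebraicClosure ℚ) ↥(modularFunctionFieldBar M)) hB
      simpa only [map_sub, map_mul, map_pow, map_ofNat, map_zero, hr_def] using h0
    have hc : (2 * ρ - 486 : AlgebraicClosure ℚ) ≠ 0 := by
      intro h0
      have h243 : ρ = 243 := by linear_combination (1 / 2 : AlgebraicClosure ℚ) * h0
      rw [h243] at hB
      norm_num at hB
    obtain ⟨h3, h3'⟩ := c0l3_add_const_of_pos P h hc
    have e3 : t - r + algebraMap (AlgebraicClosure ℚ) ↥(modularFunctionFieldBar M) (2 * ρ - 486)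
        = t + r - 486 := by
      rw [map_sub, map_mul, map_ofNat, map_ofNat, hr_def]
      ring
    rw [e3] at h3 h3'
    have hj1 : Embed.jbar M - 1728 ≠ 0 := by
      have h0 := Embed.jbar_ne_algebraMap M 1728
      rw [map_ofNat] at h0
      exact sub_ne_zero.mpr h0
    have hfac : t ^ 2 - 486 * t - 19683 = (t - r) * (t + r - 486) := by
      linear_combination hq
    have key : (Embed.jbar M - 1728) * t ^ 3 = ((t - r) * (t + r - 486)) ^ 2 := by
      rw [← hfac]
      linear_combination hrel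
    have hord := congrArg P.ord key
    rw [P.ord_mul hj1 (pow_ne_zero 3 ht), c0l3_ord_pow, c0l3_ord_pow, P.ord_mul htr h3, ht',
      h3'] at hord
    push_cast at hord
    rcases c0_j_1728 M P (by omega) with h4 | h4 <;> omega
  · have hρ243 : ρ + 243 ≠ 0 := fun h0 => hA (eq_neg_of_add_eq_zero_left h0)
    have hρ27 : ρ + 27 ≠ 0 := fun h0 => hρ1 (eq_neg_of_add_eq_zero_left h0)
    have hc0 : (ρ + 27) * (ρ + 243) ^ 3 / ρ ^ 3 ≠ 0 :=
      div_ne_zero (mul_ne_zero hρ27 (pow_ne_zero 3 hρ243)) (pow_ne_zero 3 hρ0)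
    have hc1 : (ρ + 27) * (ρ + 243) ^ 3 / ρ ^ 3 ≠ 1728 := by
      intro h0
      apply hB
      rw [div_eq_iff (pow_ne_zero 3 hρ0)] at h0
      have h2 : (ρ ^ 2 - 486 * ρ - 19683) ^ 2 = 0 := by linear_combination h0
      exact pow_eq_zero_iff two_ne_zero |>.mp h2
    have hcρ : (ρ + 27) * (ρ + 243) ^ 3 / ρ ^ 3 * ρ ^ 3 = (ρ + 27) * (ρ + 243) ^ 3 :=
      div_mul_cancel₀ _ (pow_ne_zero 3 hρ0)
    have hjC := sub_ne_zero.mpr (Embed.jbar_ne_algebraMap M ((ρ + 27) * (ρ + 243) ^ 3 / ρ ^ 3))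
    have hC : algebraMap (AlgebraicClosure ℚ) ↥(modularFunctionFieldBar M)
        ((ρ + 27) * (ρ + 243) ^ 3 / ρ ^ 3) * r ^ 3 = (r + 27) * (r + 243) ^ 3 := by
      have h0 := congrArg (algebraMap (AlgebraicClosure ℚ) ↥(modularFunctionFieldBar M)) hcρ
      rw [map_mul, map_pow, hr_def] at h0
      rw [h0, map_mul, map_pow, map_add, map_add, map_ofNat, map_ofNat, hr_def]
    have hgen := c0_j_generic M P ((ρ + 27) * (ρ + 243) ^ 3 / ρ ^ 3) hc0 hc1
    generalize algebraMap (AlgebraicClosure ℚ) ↥(modularFunctionFieldBar M)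
      ((ρ + 27) * (ρ + 243) ^ 3 / ρ ^ 3) = C at hjC hC hgen
    have key : t ^ 3 * r ^ 3 * (Embed.jbar M - C) = (t - r) * (r ^ 3 * t ^ 3
        - 196830 * r ^ 2 * t ^ 2 - 19131876 * r * t * (t + r)
        - 387420489 * (t ^ 2 + t * r + r ^ 2)) := by
      linear_combination r ^ 3 * hrel - t ^ 3 * hC
    have hr3 : r ^ 3 ≠ 0 := pow_ne_zero 3 hr0
    have ht3 : t ^ 3 ≠ 0 := pow_ne_zero 3 ht
    have htm : t ∈ P.toValuationSubring := (PlaceRes.mem_iff_ord_nonneg P ht).mpr ht'.ge
    have hrm : r ∈ P.toValuationSubring := by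
      rw [← hr_def]
      exact P.algebraMap_mem' ρ
    have hBm : r ^ 3 * t ^ 3 - 196830 * r ^ 2 * t ^ 2 - 19131876 * r * t * (t + r)
        - 387420489 * (t ^ 2 + t * r + r ^ 2) ∈ P.toValuationSubring :=
      sub_mem (sub_mem (sub_mem (mul_mem (pow_mem hrm 3) (pow_mem htm 3))
        (mul_mem (mul_mem (ofNat_mem _ _) (pow_mem hrm 2)) (pow_mem htm 2)))
        (mul_mem (mul_mem (mul_mem (ofNat_mem _ _) hrm) htm) (add_mem htm hrm)))
        (mul_mem (ofNat_mem _ _) (add_mem (add_mem (pow_mem htm 2) (mul_mem htm hrm))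
          (pow_mem hrm 2)))
    generalize r ^ 3 * t ^ 3 - 196830 * r ^ 2 * t ^ 2 - 19131876 * r * t * (t + r)
        - 387420489 * (t ^ 2 + t * r + r ^ 2) = B at key hBm
    have hB0 : B ≠ 0 := by
      rintro rfl
      rw [mul_zero] at key
      exact mul_ne_zero (mul_ne_zero ht3 hr3) hjC key
    have hBord := (PlaceRes.mem_iff_ord_nonneg P hB0).mp hBm
    have hord := congrArg P.ord key
    rw [P.ord_mul (mul_ne_zero ht3 hr3) hjC, P.ord_mul ht3 hr3, c0l3_ord_pow, c0l3_ord_pow, ht',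
      hr', P.ord_mul htr hB0] at hord
    push_cast at hord
    have h5 := hgen (by omega)
    omega

/-- over `t = -27` the ramification index is `1` or `3` -/
theorem c0_l3_ell (t : ↥(modularFunctionFieldBar M))
    (hrel : Embed.jbar M * t ^ 3 = (t + 27) * (t + 243) ^ 3)
    (P : Place (AlgebraicClosure ℚ) ↥(modularFunctionFieldBar M))
    (h : 0 < P.ord (t + 27)) :
    P.ord (t + 27) = 1 ∨ P.ord (t + 27) = 3 := by
  have hj := c0l3_jbar_ne_zero M
  have h1 : t + 27 ≠ 0 := by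
    intro h0
    rw [h0] at h
    simp at h
  obtain ⟨ht, ht'⟩ := c0l3_add_const_of_pos P h (c := (-27 : AlgebraicClosure ℚ)) (by norm_num)
  obtain ⟨h2, h2'⟩ := c0l3_add_const_of_pos P h (c := (216 : AlgebraicClosure ℚ)) (by norm_num)
  have e1 : t + 27 + algebraMap (AlgebraicClosure ℚ) ↥(modularFunctionFieldBar M) (-27) = t := by
    rw [map_neg, map_ofNat]
    ring
  have e2 : t + 27 + algebraMap (AlgebraicClosure ℚ) ↥(modularFunctionFieldBar M) 216
      = t + 243 := by
    rw [map_ofNat]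
    ring
  rw [e1] at ht ht'
  rw [e2] at h2 h2'
  have hr := c0l3_ord_rel P hrel hj ht h1 h2
  rw [ht', h2'] at hr
  have hjt : P.ord (Embed.jbar M) = P.ord (t + 27) := by omega
  have h3 := c0_j_zero M P (by rw [hjt]; exact h)
  rwa [hjt] at h3

/-- over `t = 0` (a cusp) three times the ramification index divides the level -/
theorem c0_l3_zero (t : ↥(modularFunctionFieldBar M))
    (hrel : Embed.jbar M * t ^ 3 = (t + 27) * (t + 243) ^ 3)
    (P : Place (AlgebraicClosure ℚ) ↥(modularFunctionFieldBar M))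
    (h : 0 < P.ord t) :
    3 * P.ord t ∣ (M : ℤ) := by
  have hj := c0l3_jbar_ne_zero M
  have ht : t ≠ 0 := by
    rintro rfl
    simp at h
  obtain ⟨h1, h1'⟩ := c0l3_add_const_of_pos P h (c := (27 : AlgebraicClosure ℚ)) (by norm_num)
  obtain ⟨h2, h2'⟩ := c0l3_add_const_of_pos P h (c := (243 : AlgebraicClosure ℚ)) (by norm_num)
  rw [map_ofNat] at h1 h1' h2 h2'
  have hr := c0l3_ord_rel P hrel hj ht h1 h2
  rw [h1', h2'] at hr
  have hjt : P.ord (Embed.jbar M) = -(3 * P.ord t) := by omega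
  have h3 := c0_j_pole M P (by rw [hjt]; omega)
  rw [hjt] at h3
  exact neg_dvd.mp h3

/-- over `t = ∞` (a cusp) the ramification index divides the level -/
theorem c0_l3_pole (t : ↥(modularFunctionFieldBar M))
    (hrel : Embed.jbar M * t ^ 3 = (t + 27) * (t + 243) ^ 3)
    (P : Place (AlgebraicClosure ℚ) ↥(modularFunctionFieldBar M))
    (h : P.ord t < 0) :
    P.ord t ∣ (M : ℤ) := by
  have hj := c0l3_jbar_ne_zero M
  have ht : t ≠ 0 := by
    rintro rfl
    simp at h
  obtain ⟨h1, h1'⟩ := c0l3_add_const_of_neg P h (27 : AlgebraicClosure ℚ)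
  obtain ⟨h2, h2'⟩ := c0l3_add_const_of_neg P h (243 : AlgebraicClosure ℚ)
  rw [map_ofNat] at h1 h1' h2 h2'
  have hr := c0l3_ord_rel P hrel hj ht h1 h2
  rw [h1', h2'] at hr
  have hjt : P.ord (Embed.jbar M) = P.ord t := by omega
  have h3 := c0_j_pole M P (by rw [hjt]; exact h)
  rwa [hjt] at h3

end Fermat.Agent.S18L
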