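import Mathlib
import Fermat.Prelude.Def_AlgebraicCurve_DivisorClassGroup
import Fermat.Agent.S18L.InjDefs

/-!
# S18, package NM (B-core: NORMAL and GE): definitions (interface file, owner helper2)

* `NmFin κ θ y`        : `y` is integral over `κ[θ]`
* `nmL κ θ s`          : `{y | y integral over κ[θ], y θ⁻ˢ integral over κ[θ⁻¹]}` (as a subspace)
* `NmUnr K θ ρ`        : `θ - ρ` has only simple zeros (at all Prelude places of `F / K`)
* `NmHyp G t n`        : the standing hypotheses for the chart `t`
* `NmBasis G t n x`    : `x` is a lifted integral basis for the chart `t`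
* `nmW N m`            : polynomial vectors `c` with `deg (c ⬝ adj N)_j ≤ m`
-/

set_option autoImplicit false

open scoped IntermediateField

namespace Fermat.Agent.S18L

open Fermat.Agent.RRL

/-- `y` is integral over `κ[θ]`. -/
def NmFin (κ : Type*) {Φ : Type*} [Field κ] [Field Φ] [Algebra κ Φ] (θ y : Φ) : Prop :=
  IsIntegral (Algebra.adjoin κ {θ}) y

/-- `{y | y integral over κ[θ], y θ⁻ˢ integral over κ[θ⁻¹]}` as a `κ`-subspace. -/
def nmL (κ : Type*) {Φ : Type*} [Field κ] [Field Φ] [Algebra κ Φ] (θ : Φ) (s : ℕ) :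
    Submodule κ Φ :=
  Subalgebra.toSubmodule ((integralClosure (Algebra.adjoin κ {θ}) Φ).restrictScalars κ) ⊓
    Submodule.comap (LinearMap.mulRight κ (θ⁻¹ ^ s))
      (Subalgebra.toSubmodule ((integralClosure (Algebra.adjoin κ {θ⁻¹}) Φ).restrictScalars κ))

theorem mem_nmL (κ : Type*) {Φ : Type*} [Field κ] [Field Φ] [Algebra κ Φ] (θ : Φ) (s : ℕ)
    (y : Φ) : y ∈ nmL κ θ s ↔ NmFin κ θ y ∧ NmFin κ θ⁻¹ (y * θ⁻¹ ^ s) :=
  Iff.rfl

section

variable {K F k Fb : Type*} [Field K] [Field F] [Algebra K F] [Field k] [Field Fb]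
  [Algebra k Fb]

/-- `θ - ρ` has only simple zeros (at all places of `F / K`). -/
def NmUnr (K : Type*) {F : Type*} [Field K] [Field F] [Algebra K F] (θ : F) (ρ : K) : Prop :=
  ∀ P : AlgebraicCurve.Place K F, 0 < P.ord (θ - algebraMap K F ρ) →
    P.ord (θ - algebraMap K F ρ) = 1

/-- The standing hypotheses for the chart `t`: the reduction of `t` is transcendental, the
degrees of `F / K(t)` and `Fb / k(red t)` are both `n`, the latter extension is separable, and
every residue disc of the `t`-line contains at most one branch point. -/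
structure NmHyp (G : RedDatum K F k Fb) (t : G.O) (n : ℕ) : Prop where
  tr : Transcendental k (G.red t)
  fin : Module.Finite K⟮(t : F)⟯ F
  rank : Module.finrank K⟮(t : F)⟯ F = n
  finb : Module.Finite k⟮G.red t⟯ Fb
  rankb : Module.finrank k⟮G.red t⟯ Fb = n
  sep : Algebra.IsSeparable k⟮G.red t⟯ Fb
  br : ∀ a b : G.A, a ≠ b → G.π a = G.π b →
    NmUnr K (t : F) (a : K) ∨ NmUnr K (t : F) (b : K)

/-- `x` is a lifted integral basis for the chart `t`: the `x i` are integral functions, integral
over `K[t]`, their reductions are `k[red t]`-linearly independent and span the reduction of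
`{y ∈ O | y integral over K[t]}` over `k[red t]`. -/
structure NmBasis (G : RedDatum K F k Fb) (t : G.O) (n : ℕ) (x : Fin n → G.O) : Prop where
  fin : ∀ i, NmFin K (t : F) ((x i : G.O) : F)
  indep : ∀ p : Fin n → Polynomial k,
    (∑ i, Polynomial.aeval (G.red t) (p i) * G.red (x i)) = 0 → ∀ i, p i = 0
  span : ∀ y : G.O, NmFin K (t : F) (y : F) → ∃ p : Fin n → Polynomial k,
    G.red y = ∑ i, Polynomial.aeval (G.red t) (p i) * G.red (x i)

end

/-- The space of polynomial vectors `c` such that all entries of `c ⬝ adj N` have degree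
at most `m`. -/
def nmW {κ : Type*} [Field κ] {n : ℕ} (N : Matrix (Fin n) (Fin n) (Polynomial κ)) (m : ℕ) :
    Submodule κ (Fin n → Polynomial κ) where
  carrier := {c | ∀ j, (Matrix.vecMul c N.adjugate j).degree ≤ (m : WithBot ℕ)}
  zero_mem' := by
    intro j
    simp
  add_mem' := by
    intro c c' hc hc' j
    rw [Matrix.add_vecMul, Pi.add_apply]
    exact le_trans (Polynomial.degree_add_le _ _) (max_le (hc j) (hc' j))
  smul_mem' := by
    intro a c hc j
    rw [Matrix.smul_vecMul, Pi.smul_apply]
    exact le_trans (Polynomial.degree_smul_le _ _) (hc j)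

end Fermat.Agent.S18L
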