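import Mathlib
import Fermat.Agent.S18L.NmDefs
import Fermat.Agent.S18L.C0Line2
import Fermat.Agent.S18L.C0Line3

/-!
# S18, package C0: the branch hypothesis `NmHyp.br` of the B-core for `t ∈ {j, h₂, h₃}`

In the language of `NmUnr` (package NM): for `F = modularFunctionFieldBar M` over `ℚ̄` the
element `t - ρ` has only simple zeros for every finite `ρ ∉ {0, c}` (`c = 1728, -64, -27` for
`t = j`, a Hauptmodul of level `2`, of level `3`), hence every residue disc of the `t`-line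
(and of the `t⁻¹`-line) contains at most one branch point as soon as `c` is a unit.
-/

set_option autoImplicit false

open ModularCurve AlgebraicCurve

namespace Fermat.Agent.S18L

open Fermat.Agent.X0S24

section generic

variable {K F k Fb : Type*} [Field K] [Field F] [Algebra K F] [Field k] [Field Fb] [Algebra k Fb]

/-- simple zeros of `θ⁻¹ - σ` from simple zeros of `θ - σ⁻¹` -/
theorem c0_unr_inv (θ : F) (σ : K) (hσ : σ ≠ 0) (h : NmUnr K θ σ⁻¹) : NmUnr K θ⁻¹ σ := by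
  intro P hP
  have hσF : algebraMap K F σ ≠ 0 := by simpa using hσ
  -- `θ ≠ 0`, otherwise `θ⁻¹ - σ = -σ` has order `0`
  have hθ : θ ≠ 0 := by
    rintro rfl
    rw [inv_zero, zero_sub] at hP
    have h0 : P.ord (-algebraMap K F σ) = 0 := by
      rw [← map_neg]
      exact Fermat.Agent.X0S24.PlaceRes.ord_algebraMap P (neg_ne_zero.mpr hσ)
    omega
  have hne : θ⁻¹ - algebraMap K F σ ≠ 0 := by
    intro h0
    rw [h0, Place.ord_zero] at hP
    exact lt_irrefl 0 hP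
  -- `θ⁻¹ - σ = (-σ) * θ⁻¹ * (θ - σ⁻¹)`
  have hkey : θ⁻¹ - algebraMap K F σ
      = algebraMap K F (-σ) * (θ⁻¹ * (θ - algebraMap K F σ⁻¹)) := by
    rw [map_neg, map_inv₀]
    field_simp
    ring
  have hne2 : θ - algebraMap K F σ⁻¹ ≠ 0 := by
    intro h0
    rw [hkey, h0, mul_zero, mul_zero] at hne
    exact hne rfl
  have hnσ : algebraMap K F (-σ) ≠ 0 := by
    simpa using hσ
  have hord : P.ord (θ⁻¹ - algebraMap K F σ) = -P.ord θ + P.ord (θ - algebraMap K F σ⁻¹) := by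
    rw [hkey, P.ord_mul hnσ (mul_ne_zero (inv_ne_zero hθ) hne2),
      P.ord_mul (inv_ne_zero hθ) hne2, P.ord_inv,
      Fermat.Agent.X0S24.PlaceRes.ord_algebraMap P (neg_ne_zero.mpr hσ), zero_add]
  -- `ord θ = 0`: `θ⁻¹ = (θ⁻¹ - σ) + σ` and `σ = θ⁻¹ - (θ⁻¹ - σ)`
  have hθ0 : P.ord θ = 0 := by
    have h1 := Fermat.Agent.X0S24.PlaceRes.ord_add P hne hσF
      (by rw [sub_add_cancel]; exact inv_ne_zero hθ)
    rw [sub_add_cancel, P.ord_inv, Fermat.Agent.X0S24.PlaceRes.ord_algebraMap P hσ] at h1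
    have hneg : P.ord (-(θ⁻¹ - algebraMap K F σ)) = P.ord (θ⁻¹ - algebraMap K F σ) := by
      have hm1 : (-1 : F) ≠ 0 := neg_ne_zero.mpr one_ne_zero
      have h11 : P.ord (-1 : F) = 0 := by
        have := Fermat.Agent.X0S24.PlaceRes.ord_algebraMap P (K := K) (F := F)
          (c := -1) (neg_ne_zero.mpr one_ne_zero)
        rwa [map_neg, map_one] at this
      rw [neg_eq_neg_one_mul, P.ord_mul hm1 hne, h11, zero_add]
    have h3 := Fermat.Agent.X0S24.PlaceRes.ord_add P (inv_ne_zero hθ) (neg_ne_zero.mpr hne)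
      (by rw [← sub_eq_add_neg, sub_sub_cancel]; exact hσF)
    rw [← sub_eq_add_neg, sub_sub_cancel, P.ord_inv, hneg,
      Fermat.Agent.X0S24.PlaceRes.ord_algebraMap P hσ] at h3
    have h5 : (0 : ℤ) ≤ -P.ord θ := by
      rw [min_eq_right hP.le] at h1
      exact h1
    by_contra hcon
    have hlt : 0 < -P.ord θ := by omega
    have : (0 : ℤ) < min (-P.ord θ) (P.ord (θ⁻¹ - algebraMap K F σ)) := lt_min hlt hP
    omega
  rw [hord, hθ0, neg_zero, zero_add] at hP ⊢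
  exact h P hP

/-- at most one branch point in every residue disc of the `θ`-line, if the branch points are
among `0` and a unit `c` -/
theorem c0_br (G : RedDatum K F k Fb) (θ : F) (c : G.A) (hc : G.π c ≠ 0)
    (h : ∀ ρ : K, ρ ≠ 0 → ρ ≠ (c : K) → NmUnr K θ ρ) :
    ∀ a b : G.A, a ≠ b → G.π a = G.π b → NmUnr K θ (a : K) ∨ NmUnr K θ (b : K) := by
  intro a b hab hπ
  by_cases ha : (a : K) ≠ 0 ∧ (a : K) ≠ (c : K)
  · exact Or.inl (h _ ha.1 ha.2)
  by_cases hb : (b : K) ≠ 0 ∧ (b : K) ≠ (c : K)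
  · exact Or.inr (h _ hb.1 hb.2)
  exfalso
  have ha' : a = 0 ∨ a = c := by
    by_contra hcon
    push Not at hcon
    exact ha ⟨fun h0 => hcon.1 (Subtype.ext h0), fun h0 => hcon.2 (Subtype.ext h0)⟩
  have hb' : b = 0 ∨ b = c := by
    by_contra hcon
    push Not at hcon
    exact hb ⟨fun h0 => hcon.1 (Subtype.ext h0), fun h0 => hcon.2 (Subtype.ext h0)⟩
  rcases ha' with rfl | rfl <;> rcases hb' with rfl | rfl
  · exact hab rfl
  · rw [map_zero] at hπ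
    exact hc hπ.symm
  · rw [map_zero] at hπ
    exact hc hπ
  · exact hab rfl

/-- the same for the chart `θ⁻¹` -/
theorem c0_br_inv (G : RedDatum K F k Fb) (θ : F) (c : G.A) (hc : G.π c ≠ 0)
    (h : ∀ ρ : K, ρ ≠ 0 → ρ ≠ (c : K) → NmUnr K θ ρ) :
    ∀ a b : G.A, a ≠ b → G.π a = G.π b → NmUnr K θ⁻¹ (a : K) ∨ NmUnr K θ⁻¹ (b : K) := by
  -- the inverse of the unit `c`
  have hcu : IsUnit c := by
    by_contra hcon
    exact hc ((G.π_eq_zero c).mpr hcon)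
  obtain ⟨u, rfl⟩ := hcu
  have huv : (((u⁻¹ : G.Aˣ) : G.A) : K) = (((u : G.A) : K))⁻¹ := by
    have h1 : (((u⁻¹ : G.Aˣ) : G.A) : K) * ((u : G.A) : K) = 1 := by
      have := congrArg (Subtype.val) (Units.inv_mul u)
      simpa only [MulMemClass.coe_mul, OneMemClass.coe_one] using this
    exact eq_inv_of_mul_eq_one_left h1
  have hu0 : ((u : G.A) : K) ≠ 0 := by
    intro h0
    have : (u : G.A) = 0 := Subtype.ext h0
    exact u.ne_zero this
  have hπu : G.π ((u⁻¹ : G.Aˣ) : G.A) ≠ 0 := by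
    intro h0
    exact ((G.π_eq_zero _).mp h0) (u⁻¹).isUnit
  refine c0_br G θ⁻¹ ((u⁻¹ : G.Aˣ) : G.A) hπu ?_
  intro σ hσ0 hσ1
  refine c0_unr_inv θ σ hσ0 (h σ⁻¹ (inv_ne_zero hσ0) ?_)
  intro h1
  apply hσ1
  rw [huv, ← h1, inv_inv]

end generic

section modular

variable (M : ℕ) [NeZero M]

/-- `j - ρ` has only simple zeros for `ρ ≠ 0, 1728` -/
theorem c0_unr_j (ρ : AlgebraicClosure ℚ) (hρ0 : ρ ≠ 0) (hρ1 : ρ ≠ 1728) :
    NmUnr (AlgebraicClosure ℚ) (Embed.jbar M) ρ :=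
  fun P hP => c0_j_generic M P ρ hρ0 hρ1 hP

/-- level 2: `t - ρ` has only simple zeros for `ρ ≠ 0, -64` -/
theorem c0_unr_l2 (t : ↥(modularFunctionFieldBar M))
    (hrel : Embed.jbar M * t ^ 2 = (t + 256) ^ 3)
    (ρ : AlgebraicClosure ℚ) (hρ0 : ρ ≠ 0) (hρ1 : ρ ≠ -64) :
    NmUnr (AlgebraicClosure ℚ) t ρ :=
  fun P hP => c0_l2_generic M t hrel P ρ hρ0 hρ1 hP

/-- level 3: `t - ρ` has only simple zeros for `ρ ≠ 0, -27` -/
theorem c0_unr_l3 (t : ↥(modularFunctionFieldBar M))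
    (hrel : Embed.jbar M * t ^ 3 = (t + 27) * (t + 243) ^ 3)
    (ρ : AlgebraicClosure ℚ) (hρ0 : ρ ≠ 0) (hρ1 : ρ ≠ -27) :
    NmUnr (AlgebraicClosure ℚ) t ρ :=
  fun P hP => c0_l3_generic M t hrel P ρ hρ0 hρ1 hP

variable {k Fb : Type*} [Field k] [Field Fb] [Algebra k Fb]

/-- the branch hypotheses (both charts) for `t = j`, when `1728` is a unit -/
theorem c0_br_j (G : RedDatum (AlgebraicClosure ℚ) ↥(modularFunctionFieldBar M) k Fb)
    (c : G.A) (hcv : (c : AlgebraicClosure ℚ) = 1728) (hc : G.π c ≠ 0) :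
    (∀ a b : G.A, a ≠ b → G.π a = G.π b →
        NmUnr (AlgebraicClosure ℚ) (Embed.jbar M) (a : AlgebraicClosure ℚ) ∨
          NmUnr (AlgebraicClosure ℚ) (Embed.jbar M) (b : AlgebraicClosure ℚ)) ∧
      (∀ a b : G.A, a ≠ b → G.π a = G.π b →
        NmUnr (AlgebraicClosure ℚ) (Embed.jbar M)⁻¹ (a : AlgebraicClosure ℚ) ∨
          NmUnr (AlgebraicClosure ℚ) (Embed.jbar M)⁻¹ (b : AlgebraicClosure ℚ)) := by
  have h : ∀ ρ : AlgebraicClosure ℚ, ρ ≠ 0 → ρ ≠ (c : AlgebraicClosure ℚ) →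
      NmUnr (AlgebraicClosure ℚ) (Embed.jbar M) ρ := by
    intro ρ h0 h1
    rw [hcv] at h1
    exact c0_unr_j M ρ h0 h1
  exact ⟨c0_br G _ c hc h, c0_br_inv G _ c hc h⟩

/-- the branch hypotheses (both charts) for a Hauptmodul of level 2, when `-64` is a unit -/
theorem c0_br_l2 (G : RedDatum (AlgebraicClosure ℚ) ↥(modularFunctionFieldBar M) k Fb)
    (t : ↥(modularFunctionFieldBar M)) (hrel : Embed.jbar M * t ^ 2 = (t + 256) ^ 3)
    (c : G.A) (hcv : (c : AlgebraicClosure ℚ) = -64) (hc : G.π c ≠ 0) :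
    (∀ a b : G.A, a ≠ b → G.π a = G.π b →
        NmUnr (AlgebraicClosure ℚ) t (a : AlgebraicClosure ℚ) ∨
          NmUnr (AlgebraicClosure ℚ) t (b : AlgebraicClosure ℚ)) ∧
      (∀ a b : G.A, a ≠ b → G.π a = G.π b →
        NmUnr (AlgebraicClosure ℚ) t⁻¹ (a : AlgebraicClosure ℚ) ∨
          NmUnr (AlgebraicClosure ℚ) t⁻¹ (b : AlgebraicClosure ℚ)) := by
  have h : ∀ ρ : AlgebraicClosure ℚ, ρ ≠ 0 → ρ ≠ (c : AlgebraicClosure ℚ) →
      NmUnr (AlgebraicClosure ℚ) t ρ := by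
    intro ρ h0 h1
    rw [hcv] at h1
    exact c0_unr_l2 M t hrel ρ h0 h1
  exact ⟨c0_br G _ c hc h, c0_br_inv G _ c hc h⟩

/-- the branch hypotheses (both charts) for a Hauptmodul of level 3, when `-27` is a unit -/
theorem c0_br_l3 (G : RedDatum (AlgebraicClosure ℚ) ↥(modularFunctionFieldBar M) k Fb)
    (t : ↥(modularFunctionFieldBar M))
    (hrel : Embed.jbar M * t ^ 3 = (t + 27) * (t + 243) ^ 3)
    (c : G.A) (hcv : (c : AlgebraicClosure ℚ) = -27) (hc : G.π c ≠ 0) :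
    (∀ a b : G.A, a ≠ b → G.π a = G.π b →
        NmUnr (AlgebraicClosure ℚ) t (a : AlgebraicClosure ℚ) ∨
          NmUnr (AlgebraicClosure ℚ) t (b : AlgebraicClosure ℚ)) ∧
      (∀ a b : G.A, a ≠ b → G.π a = G.π b →
        NmUnr (AlgebraicClosure ℚ) t⁻¹ (a : AlgebraicClosure ℚ) ∨
          NmUnr (AlgebraicClosure ℚ) t⁻¹ (b : AlgebraicClosure ℚ)) := by
  have h : ∀ ρ : AlgebraicClosure ℚ, ρ ≠ 0 → ρ ≠ (c : AlgebraicClosure ℚ) →
      NmUnr (AlgebraicClosure ℚ) t ρ := by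
    intro ρ h0 h1
    rw [hcv] at h1
    exact c0_unr_l3 M t hrel ρ h0 h1
  exact ⟨c0_br G _ c hc h, c0_br_inv G _ c hc h⟩

end modular

end Fermat.Agent.S18L
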