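import Mathlib
import Fermat.Agent.S18L.NmDefs
import Fermat.Agent.S18L.CrvBase

/-!
# S18, package NM (B-core): the chart `t⁻¹` (owner helper2)
-/

set_option autoImplicit false

open scoped IntermediateField

namespace Fermat.Agent.S18L

open Fermat.Agent.RRL

variable {K F k Fb : Type*} [Field K] [Field F] [Algebra K F] [Field k] [Field Fb] [Algebra k Fb]

/-- `ord` is invariant under negation. -/
theorem nmx72_ord_neg (P : AlgebraicCurve.Place K F) (x : F) : P.ord (-x) = P.ord x := by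
  unfold AlgebraicCurve.Place.ord
  rw [Valuation.map_neg]

/-- simple zeros of `t⁻¹ - ρ` from simple zeros of `t - ρ⁻¹` -/
theorem nm_unr_inv (θ : F) (ρ : K) (hρ : ρ ≠ 0) (h : NmUnr K θ ρ⁻¹) : NmUnr K θ⁻¹ ρ := by
  intro P hpos
  set c : F := algebraMap K F ρ with hc
  have hc0 : c ≠ 0 := (map_ne_zero (algebraMap K F)).mpr hρ
  have hordc : P.ord c = 0 := Fermat.Agent.X0S24.PlaceRes.ord_algebraMap P hρ
  have hd0 : θ⁻¹ - c ≠ 0 := by
    intro h0
    rw [h0, AlgebraicCurve.Place.ord_zero] at hpos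
    exact lt_irrefl _ hpos
  have hθ : θ ≠ 0 := by
    rintro rfl
    rw [inv_zero, zero_sub, nmx72_ord_neg, hordc] at hpos
    exact lt_irrefl _ hpos
  have hθi : θ⁻¹ ≠ 0 := inv_ne_zero hθ
  have hfac : θ⁻¹ - c = -c * θ⁻¹ * (θ - c⁻¹) := by
    field_simp
    ring
  have he0 : θ - c⁻¹ ≠ 0 := by
    intro h0
    rw [h0, mul_zero] at hfac
    exact hd0 hfac
  -- `ord θ = 0`
  have h1 : 0 ≤ P.ord θ⁻¹ := by
    have := Fermat.Agent.X0S24.PlaceRes.ord_add P hd0 hc0 (by rwa [sub_add_cancel])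
    rw [sub_add_cancel, hordc] at this
    exact le_trans (le_min hpos.le le_rfl) this
  have h2 : P.ord θ⁻¹ ≤ 0 := by
    by_contra hlt
    rw [not_le] at hlt
    have hnd : -(θ⁻¹ - c) ≠ 0 := neg_ne_zero.mpr hd0
    have hsum : θ⁻¹ + -(θ⁻¹ - c) = c := by ring
    have := Fermat.Agent.X0S24.PlaceRes.ord_add P hθi hnd (by rw [hsum]; exact hc0)
    rw [hsum, hordc, nmx72_ord_neg] at this
    exact absurd this (not_le.mpr (lt_min hlt hpos))
  have hθi0 : P.ord θ⁻¹ = 0 := le_antisymm h2 h1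
  have hord : P.ord (θ⁻¹ - c) = P.ord (θ - c⁻¹) := by
    rw [hfac, P.ord_mul (mul_ne_zero (neg_ne_zero.mpr hc0) hθi) he0,
      P.ord_mul (neg_ne_zero.mpr hc0) hθi, nmx72_ord_neg, hordc, hθi0]
    ring
  have hP := h P
  rw [map_inv₀, ← hc] at hP
  rw [hord] at hpos ⊢
  exact hP hpos


/-- transfer of finiteness, degree and separability along an equality of intermediate fields -/
theorem nmx73_transfer {κ Φ : Type*} [Field κ] [Field Φ] [Algebra κ Φ]
    {E E' : IntermediateField κ Φ} (h : E = E') :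
    (Module.Finite E Φ → Module.Finite E' Φ) ∧ Module.finrank E Φ = Module.finrank E' Φ ∧
      (Algebra.IsSeparable E Φ → Algebra.IsSeparable E' Φ) := by
  subst h
  exact ⟨id, rfl, id⟩

/-- the standing hypotheses for the chart `t' = t⁻¹` follow from those for `t` and the branch
hypothesis for `t'`. -/
theorem nm_hyp_inv (G : RedDatum K F k Fb) (t t' : G.O) (htt' : (t' : F) * (t : F) = 1) (n : ℕ)
    (h : NmHyp G t n)
    (hbr : ∀ a b : G.A, a ≠ b → G.π a = G.π b →
      NmUnr K (t' : F) (a : K) ∨ NmUnr K (t' : F) (b : K)) :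
    NmHyp G t' n := by
  have hF : (t' : F) = ((t : G.O) : F)⁻¹ := eq_inv_of_mul_eq_one_left htt'
  have hO : t' * t = 1 := Subtype.ext htt'
  have hred : G.red t' = (G.red t)⁻¹ := by
    apply eq_inv_of_mul_eq_one_left
    rw [← map_mul, hO, map_one]
  have hE : K⟮(t' : F)⟯ = K⟮(t : F)⟯ := by
    rw [hF]
    exact crvK_inv K (t : F)
  have hEb : k⟮G.red t'⟯ = k⟮G.red t⟯ := by
    rw [hred]
    exact crvK_inv k (G.red t)
  obtain ⟨h1, h2, -⟩ := nmx73_transfer hE.symm
  obtain ⟨h1b, h2b, h3b⟩ := nmx73_transfer hEb.symm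
  refine ⟨?_, h1 h.fin, h2.symm.trans h.rank, h1b h.finb, h2b.symm.trans h.rankb, h3b h.sep, hbr⟩
  rw [hred]
  exact crv_transcendental_inv k (G.red t) h.tr

end Fermat.Agent.S18L
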