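import Mathlib
import Fermat.Agent.S18L.InjDefs

/-!
# S18, plan B, package NMO (owner helper1): orthonormal bases for a reduction datum — definitions

Abstract setting: `G : RedDatum K F k Fb` (valuation ring `G.A ⊆ K`, Gauss-type ring `G.O ⊆ F`,
reduction `G.red : G.O →+* Fb`), and `t : G.O` whose reduction `G.red t` is transcendental over
`k`.  We write `K(t) = IntermediateField.adjoin K {(t : F)}`, `K[t] = Algebra.adjoin K {(t : F)}`
and similarly `k(t̄)`, `k[t̄]` on the reduced side.

* `nmoEval G t P` : the value `P(t) ∈ F` of a polynomial `P` with coefficients in `G.A`;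
* `NmoOrth G t y` : the family `y` of elements of `G.O` is *orthonormal* over `K(t)`, i.e. its
  reductions are linearly independent over `k(t̄)`.
-/

set_option autoImplicit false

namespace Fermat.Agent.S18L

variable {K F k Fb : Type*} [Field K] [Field F] [Algebra K F] [Field k] [Field Fb] [Algebra k Fb]

/-- the value at `t` of a polynomial with coefficients in the valuation ring `G.A` -/
noncomputable def nmoEval (G : RedDatum K F k Fb) (t : F) (P : Polynomial G.A) : F :=
  Polynomial.aeval t (P.map (algebraMap G.A K))

/-- a family of elements of `G.O` is orthonormal over `K(t)`: the reductions are linearly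
independent over `k(t̄)` -/
def NmoOrth (G : RedDatum K F k Fb) (t : G.O) {ι : Type*} (y : ι → G.O) : Prop :=
  LinearIndependent ↥(IntermediateField.adjoin k {G.red t}) (fun i => G.red (y i))

end Fermat.Agent.S18L
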