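import Mathlib
import Fermat.Agent.S18L.NmoDefs

/-!
# S18, plan B, package NMO: the Gauss layer on `K(t)` inside a reduction datum

Consequences of the axioms of `RedDatum` for the subfield `K(t) ⊆ F`, when `t ∈ G.O` has a
reduction transcendental over `k`:

* polynomials in `t` with coefficients in `G.A` lie in `G.O` and reduce coefficientwise;
* every nonzero `p ∈ K[X]` is a constant times a primitive polynomial over `G.A`;
* `t` is transcendental over `K`; a polynomial in `t` lying in `G.O` has coefficients in `G.A`.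
-/

set_option autoImplicit false

namespace Fermat.Agent.S18L

open Polynomial

variable {K F k Fb : Type*} [Field K] [Field F] [Algebra K F] [Field k] [Field Fb] [Algebra k Fb]

/-- the inclusion of the constants `G.A` into the integral functions `G.O`, as a ring hom -/
noncomputable def nmoga_incl (G : RedDatum K F k Fb) : G.A →+* G.O where
  toFun a := ⟨algebraMap K F (a : K), (G.algebraMap_mem (a : K)).2 a.2⟩
  map_one' := Subtype.ext (map_one (algebraMap K F))
  map_mul' a b := Subtype.ext (map_mul (algebraMap K F) (a : K) (b : K))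
  map_zero' := Subtype.ext (map_zero (algebraMap K F))
  map_add' a b := Subtype.ext (map_add (algebraMap K F) (a : K) (b : K))

theorem nmoga_incl_coe (G : RedDatum K F k Fb) (a : G.A) :
    ((nmoga_incl G a : G.O) : F) = algebraMap K F (a : K) := rfl

theorem nmoga_subtype_comp_incl (G : RedDatum K F k Fb) :
    (G.O.subtype).comp (nmoga_incl G) = (algebraMap K F).comp (algebraMap G.A K) :=
  RingHom.ext fun _ => rfl

theorem nmoga_red_comp_incl (G : RedDatum K F k Fb) :
    G.red.comp (nmoga_incl G) = (algebraMap k Fb).comp G.π :=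
  RingHom.ext fun a => G.red_algebraMap a ((G.algebraMap_mem (a : K)).2 a.2)

/-- `P(t)`, computed inside `G.O`. -/
theorem nmoga_eval_eq (G : RedDatum K F k Fb) (t : G.O) (P : Polynomial G.A) :
    nmoEval G (t : F) P = ((P.eval₂ (nmoga_incl G) t : G.O) : F) := by
  have h := Polynomial.hom_eval₂ P (nmoga_incl G) G.O.subtype t
  rw [nmoga_subtype_comp_incl] at h
  unfold nmoEval
  rw [Polynomial.aeval_def, Polynomial.eval₂_map]
  exact h.symm

/-- `P(t) ∈ O` for `P ∈ A[X]`. -/
theorem nmo_eval_mem (G : RedDatum K F k Fb) (t : G.O) (P : Polynomial G.A) :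
    nmoEval G (t : F) P ∈ G.O := by
  rw [nmoga_eval_eq]
  exact (P.eval₂ (nmoga_incl G) t).2

/-- `red (P(t)) = P̄(t̄)`. -/
theorem nmo_red_eval (G : RedDatum K F k Fb) (t : G.O) (P : Polynomial G.A) :
    G.red ⟨nmoEval G (t : F) P, nmo_eval_mem G t P⟩ = Polynomial.aeval (G.red t) (P.map G.π) := by
  have h1 : (⟨nmoEval G (t : F) P, nmo_eval_mem G t P⟩ : G.O) = P.eval₂ (nmoga_incl G) t :=
    Subtype.ext (nmoga_eval_eq G t P)
  rw [h1, Polynomial.hom_eval₂, nmoga_red_comp_incl, Polynomial.aeval_def, Polynomial.eval₂_map]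

/-- every nonzero polynomial over `K` is a nonzero constant times a polynomial over `G.A` with
nonzero reduction. -/
theorem nmo_exists_primitive (G : RedDatum K F k Fb) (p : K[X]) (hp : p ≠ 0) :
    ∃ (a : K) (P : Polynomial G.A), a ≠ 0 ∧ p = C a * P.map (algebraMap G.A K) ∧
      P.map G.π ≠ 0 := by
  classical
  have hsupp : p.support.Nonempty := Polynomial.support_nonempty.2 hp
  obtain ⟨i₀, hi₀, hmax⟩ :=
    Finset.exists_max_image p.support (fun i => G.A.valuation (p.coeff i)) hsupp
  have ha : p.coeff i₀ ≠ 0 := Polynomial.mem_support_iff.1 hi₀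
  have hva : G.A.valuation (p.coeff i₀) ≠ 0 := (Valuation.ne_zero_iff _).2 ha
  have hmem : ∀ i, (p.coeff i₀)⁻¹ * p.coeff i ∈ G.A := by
    intro i
    by_cases hi : i ∈ p.support
    · rw [← G.A.valuation_le_one_iff, map_mul, map_inv₀]
      have h1 : G.A.valuation (p.coeff i) ≤ G.A.valuation (p.coeff i₀) := hmax i hi
      calc (G.A.valuation (p.coeff i₀))⁻¹ * G.A.valuation (p.coeff i)
          ≤ (G.A.valuation (p.coeff i₀))⁻¹ * G.A.valuation (p.coeff i₀) :=
            mul_le_mul_right h1 _
        _ = 1 := inv_mul_cancel₀ hva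
    · rw [Polynomial.notMem_support_iff.1 hi, mul_zero]
      exact G.A.zero_mem
  have hlift : C (p.coeff i₀)⁻¹ * p ∈ Polynomial.lifts (algebraMap G.A K) := by
    rw [Polynomial.lifts_iff_coeff_lifts]
    intro i
    rw [Polynomial.coeff_C_mul]
    exact ⟨⟨_, hmem i⟩, rfl⟩
  obtain ⟨P, hP⟩ := (Polynomial.mem_lifts _).1 hlift
  refine ⟨p.coeff i₀, P, ha, ?_, ?_⟩
  · rw [hP, ← mul_assoc, ← C_mul, mul_inv_cancel₀ ha, C_1, one_mul]
  · intro h0
    have hc : (P.map (algebraMap G.A K)).coeff i₀ = 1 := by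
      rw [hP, coeff_C_mul, inv_mul_cancel₀ ha]
    rw [coeff_map] at hc
    have hc' : P.coeff i₀ = 1 := Subtype.ext hc
    have h1 : (P.map G.π).coeff i₀ = 1 := by rw [coeff_map, hc', map_one]
    rw [h0, coeff_zero] at h1
    exact zero_ne_one h1

/-- `t` is transcendental over `K`. -/
theorem nmo_transcendental (G : RedDatum K F k Fb) (t : G.O)
    (ht : Transcendental k (G.red t)) : Transcendental K (t : F) := by
  rw [transcendental_iff]
  intro p hp
  by_contra hp0
  obtain ⟨a, P, ha, hpP, hP⟩ := nmo_exists_primitive G p hp0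
  have h0 : aeval (t : F) p = algebraMap K F a * nmoEval G (t : F) P := by
    rw [hpP, map_mul, aeval_C]
    rfl
  have h1 : nmoEval G (t : F) P = 0 := by
    rw [hp] at h0
    have ha' : algebraMap K F a ≠ 0 := (map_ne_zero (algebraMap K F)).2 ha
    exact (mul_eq_zero.1 h0.symm).resolve_left ha'
  have h2 := nmo_red_eval G t P
  have h3 : (⟨nmoEval G (t : F) P, nmo_eval_mem G t P⟩ : G.O) = 0 := Subtype.ext h1
  rw [h3, map_zero] at h2
  exact hP (transcendental_iff.1 ht _ h2.symm)

/-- a polynomial in `t` which lies in `O` has coefficients in `A`. -/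
theorem nmo_exists_lift_of_aeval_mem (G : RedDatum K F k Fb) (t : G.O)
    (ht : Transcendental k (G.red t)) (p : K[X]) (h : Polynomial.aeval (t : F) p ∈ G.O) :
    ∃ P : Polynomial G.A, p = P.map (algebraMap G.A K) := by
  by_cases hp0 : p = 0
  · exact ⟨0, by rw [hp0, Polynomial.map_zero]⟩
  obtain ⟨a, P, ha, hpP, hP⟩ := nmo_exists_primitive G p hp0
  have hru : G.red ⟨nmoEval G (t : F) P, nmo_eval_mem G t P⟩ ≠ 0 := by
    rw [nmo_red_eval]
    intro h0
    exact hP (transcendental_iff.1 ht _ h0)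
  have hinv : (nmoEval G (t : F) P)⁻¹ ∈ G.O := G.inv_mem _ hru
  have hu0 : nmoEval G (t : F) P ≠ 0 := by
    intro h0
    apply hru
    have h3 : (⟨nmoEval G (t : F) P, nmo_eval_mem G t P⟩ : G.O) = 0 := Subtype.ext h0
    rw [h3, map_zero]
  have heq : aeval (t : F) p = algebraMap K F a * nmoEval G (t : F) P := by
    rw [hpP, map_mul, aeval_C]
    rfl
  have ha_mem : algebraMap K F a ∈ G.O := by
    have h4 : algebraMap K F a = aeval (t : F) p * (nmoEval G (t : F) P)⁻¹ := by
      rw [heq, mul_assoc, mul_inv_cancel₀ hu0, mul_one]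
    rw [h4]
    exact G.O.mul_mem h hinv
  have haA : a ∈ G.A := (G.algebraMap_mem a).1 ha_mem
  refine ⟨C ⟨a, haA⟩ * P, ?_⟩
  rw [Polynomial.map_mul, Polynomial.map_C, hpP]
  rfl

end Fermat.Agent.S18L
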