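import Mathlib
import Fermat.Agent.S18L.NmoGauss

/-!
# S18, plan B, package NMO: the Gauss layer on `K(t)`, second part

* an element of `K(t) ∩ G.O` is `P(t)/Q(t)` with `P, Q` over `G.A`, `Q` primitive, and its
  reduction lies in `k(t̄)`;
* finitely many elements of `F`, not all zero, can be scaled simultaneously into `G.O` with one
  nonzero reduction.
-/

set_option autoImplicit false

namespace Fermat.Agent.S18L

open Polynomial

variable {K F k Fb : Type*} [Field K] [Field F] [Algebra K F] [Field k] [Field Fb] [Algebra k Fb]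

/-- an element of `K(t) ∩ O` is `P(t)/Q(t)` with `P, Q ∈ A[X]`, `Q̄ ≠ 0`. -/
theorem nmo_exists_repr (G : RedDatum K F k Fb) (t : G.O)
    (ht : Transcendental k (G.red t)) (f : F)
    (hf : f ∈ IntermediateField.adjoin K {(t : F)}) (hfO : f ∈ G.O) :
    ∃ P Q : Polynomial G.A, Q.map G.π ≠ 0 ∧ f * nmoEval G (t : F) Q = nmoEval G (t : F) P := by
  classical
  obtain ⟨r, s, hrs⟩ := (IntermediateField.mem_adjoin_simple_iff K f).1 hf
  by_cases hs : aeval (t : F) s = 0
  · refine ⟨0, 1, ?_, ?_⟩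
    · rw [Polynomial.map_one]
      exact one_ne_zero
    · rw [hrs, hs, div_zero, zero_mul]
      simp [nmoEval]
  · have hs0 : s ≠ 0 := by
      rintro rfl
      exact hs (map_zero _)
    obtain ⟨a, Q, ha, hsQ, hQ⟩ := nmo_exists_primitive G s hs0
    have hQt : nmoEval G (t : F) Q ∈ G.O := nmo_eval_mem G t Q
    have h1 : aeval (t : F) s = algebraMap K F a * nmoEval G (t : F) Q := by
      rw [hsQ, map_mul, aeval_C]
      rfl
    have ha' : algebraMap K F a ≠ 0 := by
      rw [Ne, map_eq_zero]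
      exact ha
    have hQ0 : nmoEval G (t : F) Q ≠ 0 := by
      intro h
      apply hs
      rw [h1, h, mul_zero]
    have key : f * nmoEval G (t : F) Q = aeval (t : F) (C a⁻¹ * r) := by
      rw [hrs, h1, map_mul, aeval_C, map_inv₀]
      field_simp
    have hmem : aeval (t : F) (C a⁻¹ * r) ∈ G.O := by
      rw [← key]
      exact G.O.mul_mem hfO hQt
    obtain ⟨P, hP⟩ := nmo_exists_lift_of_aeval_mem G t ht _ hmem
    refine ⟨P, Q, hQ, ?_⟩
    rw [key, hP]
    rfl

/-- the reduction of an element of `K(t) ∩ O` lies in `k(t̄)`. -/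
theorem nmo_red_mem_adjoin (G : RedDatum K F k Fb) (t : G.O)
    (ht : Transcendental k (G.red t)) (f : G.O)
    (hf : (f : F) ∈ IntermediateField.adjoin K {(t : F)}) :
    G.red f ∈ IntermediateField.adjoin k {G.red t} := by
  obtain ⟨P, Q, hQ, hPQ⟩ := nmo_exists_repr G t ht (f : F) hf f.2
  have h1 : f * (⟨nmoEval G (t : F) Q, nmo_eval_mem G t Q⟩ : G.O)
      = (⟨nmoEval G (t : F) P, nmo_eval_mem G t P⟩ : G.O) := Subtype.ext hPQ
  have h2 := congrArg G.red h1
  rw [map_mul, nmo_red_eval, nmo_red_eval] at h2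
  have hQ0 : aeval (G.red t) (Q.map G.π) ≠ 0 := fun h => hQ ((transcendental_iff.1 ht) _ h)
  rw [IntermediateField.mem_adjoin_simple_iff]
  exact ⟨P.map G.π, Q.map G.π, eq_div_of_mul_eq hQ0 h2⟩

/-- simultaneous scaling: finitely many elements of `F`, not all zero, can be multiplied by one
nonzero constant so that all of them lie in `O` and one of them has nonzero reduction. -/
theorem nmo_exists_scale (G : RedDatum K F k Fb) {n : ℕ} (c : Fin n → F) (hc : c ≠ 0) :
    ∃ a : K, a ≠ 0 ∧ ∃ h : ∀ i, a • c i ∈ G.O, ∃ i, G.red ⟨a • c i, h i⟩ ≠ 0 := by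
  classical
  have hex : ∀ i, ∃ b : K, b ≠ 0 ∧
      (c i ≠ 0 → ∃ h : b • c i ∈ G.O, G.red ⟨b • c i, h⟩ ≠ 0) := by
    intro i
    by_cases hi : c i = 0
    · exact ⟨1, one_ne_zero, fun h => absurd hi h⟩
    · obtain ⟨b, hb, h⟩ := G.exists_smul (c i) hi
      exact ⟨b, hb, fun _ => h⟩
  choose b hb hbc using hex
  have hSne : (Finset.univ.filter (fun i => c i ≠ 0)).Nonempty := by
    by_contra h
    rw [Finset.not_nonempty_iff_eq_empty] at h
    apply hc
    funext i
    by_contra hi
    have hmem : i ∈ Finset.univ.filter (fun i => c i ≠ 0) :=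
      Finset.mem_filter.2 ⟨Finset.mem_univ i, hi⟩
    rw [h] at hmem
    exact absurd hmem (Finset.notMem_empty i)
  obtain ⟨i₀, hi₀, hmin⟩ :=
    Finset.exists_min_image _ (fun i => G.A.valuation (b i)) hSne
  have hci₀ : c i₀ ≠ 0 := (Finset.mem_filter.1 hi₀).2
  refine ⟨b i₀, hb i₀, ?_, i₀, ?_⟩
  · intro i
    by_cases hi : c i = 0
    · rw [hi, smul_zero]
      exact G.O.zero_mem
    · obtain ⟨h, -⟩ := hbc i hi
      have hle := hmin i (Finset.mem_filter.2 ⟨Finset.mem_univ i, hi⟩)
      have hvne : G.A.valuation (b i) ≠ 0 := by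
        rw [Ne, map_eq_zero]
        exact hb i
      have hmem : b i₀ / b i ∈ G.A := by
        rw [← G.A.valuation_le_one_iff, map_div₀]
        exact (div_le_one₀ (zero_lt_iff.2 hvne)).2 hle
      have hrw : b i₀ • c i = algebraMap K F (b i₀ / b i) * (b i • c i) := by
        rw [Algebra.smul_def, Algebra.smul_def, ← mul_assoc, ← map_mul,
          div_mul_cancel₀ _ (hb i)]
      rw [hrw]
      exact G.O.mul_mem ((G.algebraMap_mem _).2 hmem) h
  · obtain ⟨h, hne⟩ := hbc i₀ hci₀
    exact hne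

end Fermat.Agent.S18L
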