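import Mathlib
import Fermat.Agent.S18L.NmoGaussB

/-!
# S18, plan B, package NMO: orthonormal families

`y : Fin n → G.O` is orthonormal (`NmoOrth G t y`) when the reductions are linearly independent
over `k(t̄)`.  Then

* `nmo_coeff_mem` : if `Σ cᵢ yᵢ ∈ O` with `cᵢ ∈ K(t)`, then every `cᵢ ∈ O`;
* `nmo_linearIndependent` : `y` is linearly independent over `K(t)`;
* `nmo_exists_coeff` : if `n = [F : K(t)]`, every element of `F` is a `K(t)`-combination of `y`;
* `nmo_exists_orth` : orthonormal families of size `[F̄ : k(t̄)]` exist.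
-/

set_option autoImplicit false

namespace Fermat.Agent.S18L

open Polynomial

variable {K F k Fb : Type*} [Field K] [Field F] [Algebra K F] [Field k] [Field Fb] [Algebra k Fb]

/-- core step: if a combination of an orthonormal family with coefficients in `K(t) ∩ O`
reduces to zero, then all coefficients reduce to zero. -/
theorem nmoor_red_eq_zero (G : RedDatum K F k Fb) (t : G.O) (ht : Transcendental k (G.red t))
    {n : ℕ} (y : Fin n → G.O) (hy : NmoOrth G t y) (d : Fin n → G.O)
    (hd : ∀ i, ((d i : G.O) : F) ∈ IntermediateField.adjoin K {(t : F)})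
    (h : G.red (∑ i, d i * y i) = 0) : ∀ i, G.red (d i) = 0 := by
  have hy' : LinearIndependent ↥(IntermediateField.adjoin k {G.red t})
      (fun i => G.red (y i)) := hy
  rw [Fintype.linearIndependent_iff] at hy'
  have key := hy' (fun i => ⟨G.red (d i), nmo_red_mem_adjoin G t ht (d i) (hd i)⟩) (by
    rw [map_sum] at h
    rw [← h]
    refine Finset.sum_congr rfl (fun i _ => ?_)
    rw [map_mul, IntermediateField.smul_def, smul_eq_mul])
  intro i
  have := key i
  exact congrArg Subtype.val this

/-- scaled coefficients stay in `K(t)`. -/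
theorem nmoor_smul_mem_adjoin (t : F) (a : K) (f : F)
    (hf : f ∈ IntermediateField.adjoin K {t}) :
    a • f ∈ IntermediateField.adjoin K {t} :=
  IntermediateField.smul_mem _ hf

/-- the scaled combination, as an identity in `F`. -/
theorem nmoor_sum_smul {n : ℕ} (a : K) (c : Fin n → F) (y : Fin n → F) :
    ∑ i, (a • c i) * y i = algebraMap K F a * ∑ i, c i * y i := by
  rw [Finset.mul_sum]
  refine Finset.sum_congr rfl (fun i _ => ?_)
  rw [Algebra.smul_def, mul_assoc]

/-- coefficients (in `K(t)`) of an element of `O` with respect to an orthonormal family lie in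
`O`. -/
theorem nmo_coeff_mem (G : RedDatum K F k Fb) (t : G.O) (ht : Transcendental k (G.red t))
    {n : ℕ} (y : Fin n → G.O) (hy : NmoOrth G t y) (c : Fin n → F)
    (hc : ∀ i, c i ∈ IntermediateField.adjoin K {(t : F)})
    (h : ∑ i, c i * (y i : F) ∈ G.O) : ∀ i, c i ∈ G.O := by
  intro j
  by_contra hj
  have hc0 : c ≠ 0 := by
    intro h0
    apply hj
    rw [h0]
    exact G.O.zero_mem
  obtain ⟨a, ha0, h', i₀, hi₀⟩ := nmo_exists_scale G c hc0
  rcases G.A.mem_or_inv_mem a with haA | haA
  · -- `a ∈ A`, and `a` is not a unit of `A`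
    have hnu : ¬ IsUnit (⟨a, haA⟩ : G.A) := by
      intro hu
      obtain ⟨b, hb⟩ := hu.exists_right_inv
      have hb' : a * (b : K) = 1 := by
        have := congrArg (Subtype.val : G.A → K) hb
        simpa using this
      have hinv : a⁻¹ = (b : K) := by
        rw [inv_eq_iff_eq_inv]
        exact eq_inv_of_mul_eq_one_left hb'
      apply hj
      have hmem : algebraMap K F a⁻¹ ∈ G.O := by
        rw [G.algebraMap_mem, hinv]
        exact b.2
      have hcj : c j = algebraMap K F a⁻¹ * (a • c j) := by
        rw [Algebra.smul_def, ← mul_assoc, ← map_mul, inv_mul_cancel₀ ha0, map_one, one_mul]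
      rw [hcj]
      exact G.O.mul_mem hmem (h' j)
    have hπ : G.π ⟨a, haA⟩ = 0 := (G.π_eq_zero _).2 hnu
    have hmemA : algebraMap K F a ∈ G.O := (G.algebraMap_mem a).2 haA
    have hredA : G.red ⟨algebraMap K F a, hmemA⟩ = 0 := by
      have := G.red_algebraMap ⟨a, haA⟩ hmemA
      rw [this, hπ, map_zero]
    have hsum : (∑ i, (⟨a • c i, h' i⟩ : G.O) * y i)
        = (⟨algebraMap K F a, hmemA⟩ : G.O) * ⟨∑ i, c i * (y i : F), h⟩ := by
      apply Subtype.ext
      push_cast
      exact nmoor_sum_smul a c (fun i => (y i : F))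
    have hred : G.red (∑ i, (⟨a • c i, h' i⟩ : G.O) * y i) = 0 := by
      rw [hsum, map_mul, hredA, zero_mul]
    exact hi₀ (nmoor_red_eq_zero G t ht y hy (fun i => ⟨a • c i, h' i⟩)
      (fun i => nmoor_smul_mem_adjoin (t : F) a (c i) (hc i)) hred i₀)
  · -- `a⁻¹ ∈ A`
    apply hj
    have hmem : algebraMap K F a⁻¹ ∈ G.O := (G.algebraMap_mem a⁻¹).2 haA
    have hcj : c j = algebraMap K F a⁻¹ * (a • c j) := by
      rw [Algebra.smul_def, ← mul_assoc, ← map_mul, inv_mul_cancel₀ ha0, map_one, one_mul]
    rw [hcj]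
    exact G.O.mul_mem hmem (h' j)

/-- an orthonormal family is linearly independent over `K(t)`. -/
theorem nmo_linearIndependent (G : RedDatum K F k Fb) (t : G.O)
    (ht : Transcendental k (G.red t)) {n : ℕ} (y : Fin n → G.O) (hy : NmoOrth G t y) :
    LinearIndependent ↥(IntermediateField.adjoin K {(t : F)}) (fun i => (y i : F)) := by
  rw [Fintype.linearIndependent_iff]
  intro g hg j
  by_contra hj
  have hc0 : (fun i => ((g i : ↥(IntermediateField.adjoin K {(t : F)})) : F)) ≠ 0 := by
    intro h0
    apply hj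
    have := congrFun h0 j
    exact Subtype.ext this
  obtain ⟨a, ha0, h', i₀, hi₀⟩ := nmo_exists_scale G _ hc0
  have hg' : ∑ i, ((g i : ↥(IntermediateField.adjoin K {(t : F)})) : F) * (y i : F) = 0 := by
    rw [← hg]
    refine Finset.sum_congr rfl (fun i _ => ?_)
    rw [IntermediateField.smul_def, smul_eq_mul]
  have hsum : (∑ i, (⟨a • ((g i : ↥(IntermediateField.adjoin K {(t : F)})) : F), h' i⟩ : G.O)
      * y i) = 0 := by
    apply Subtype.ext
    push_cast
    rw [nmoor_sum_smul a (fun i => ((g i : ↥(IntermediateField.adjoin K {(t : F)})) : F))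
      (fun i => (y i : F)), hg', mul_zero]
  have hred : G.red (∑ i, (⟨a • ((g i : ↥(IntermediateField.adjoin K {(t : F)})) : F), h' i⟩
      : G.O) * y i) = 0 := by
    rw [hsum, map_zero]
  exact hi₀ (nmoor_red_eq_zero G t ht y hy
    (fun i => ⟨a • ((g i : ↥(IntermediateField.adjoin K {(t : F)})) : F), h' i⟩)
    (fun i => nmoor_smul_mem_adjoin (t : F) a _ (g i).2) hred i₀)

/-- an orthonormal family of size `[F : K(t)]` spans `F` over `K(t)`. -/
theorem nmo_exists_coeff (G : RedDatum K F k Fb) (t : G.O) (ht : Transcendental k (G.red t))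
    [FiniteDimensional ↥(IntermediateField.adjoin K {(t : F)}) F]
    {n : ℕ} (hn : Module.finrank ↥(IntermediateField.adjoin K {(t : F)}) F = n)
    (y : Fin n → G.O) (hy : NmoOrth G t y) (w : F) :
    ∃ c : Fin n → ↥(IntermediateField.adjoin K {(t : F)}), w = ∑ i, (c i : F) * (y i : F) := by
  have hli := nmo_linearIndependent G t ht y hy
  have hcard : Fintype.card (Fin n)
      = Module.finrank ↥(IntermediateField.adjoin K {(t : F)}) F := by
    rw [Fintype.card_fin, hn]
  let b := basisOfLinearIndependentOfCardEqFinrank' (fun i => (y i : F)) hli hcard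
  have hb : ∀ i, b i = (y i : F) := fun i => by
    simp only [b, coe_basisOfLinearIndependentOfCardEqFinrank']
  refine ⟨fun i => b.repr w i, ?_⟩
  conv_lhs => rw [← b.sum_repr w]
  refine Finset.sum_congr rfl (fun i _ => ?_)
  rw [hb i, IntermediateField.smul_def, smul_eq_mul]

/-- orthonormal families of size `[F̄ : k(t̄)]` exist. -/
theorem nmo_exists_orth (G : RedDatum K F k Fb) (t : G.O)
    [FiniteDimensional ↥(IntermediateField.adjoin k {G.red t}) Fb]
    {n : ℕ} (hnb : Module.finrank ↥(IntermediateField.adjoin k {G.red t}) Fb = n) :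
    ∃ y : Fin n → G.O, NmoOrth G t y := by
  let b := Module.finBasisOfFinrankEq ↥(IntermediateField.adjoin k {G.red t}) Fb hnb
  have hex : ∀ i, ∃ u : G.O, G.red u = b i := fun i => G.red_surj (b i)
  choose y hy using hex
  refine ⟨y, ?_⟩
  have hfun : (fun i => G.red (y i)) = b := funext hy
  unfold NmoOrth
  rw [hfun]
  exact b.linearIndependent

end Fermat.Agent.S18L
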