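import Mathlib
import Fermat.Agent.S18L.NmoOrth

/-!
# S18, plan B, package NMO, leaf (N5): reduction commutes with trace and discriminant

If `[F : K(t)] = [F̄ : k(t̄)] = n` then for `w ∈ O` the trace `Tr_{F/K(t)} w` lies in `O` and
reduces to `Tr_{F̄/k(t̄)} (red w)`; likewise for the discriminant (Gram determinant of the trace
form) of any `n`-tuple in `O`.  For an orthonormal tuple and `F̄/k(t̄)` separable the reduced
discriminant is nonzero.
-/

set_option autoImplicit false

namespace Fermat.Agent.S18L

open Polynomial

variable {K F k Fb : Type*} [Field K] [Field F] [Algebra K F] [Field k] [Field Fb] [Algebra k Fb]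

/-- the trace is the sum of the diagonal coefficients of the multiplication table with respect
to any basis. -/
theorem nmotr_trace_eq_sum {R S : Type*} [CommRing R] [CommRing S] [Algebra R S] {n : ℕ}
    (b : Module.Basis (Fin n) R S) (s : S) (c : Fin n → Fin n → R)
    (h : ∀ j, s * b j = ∑ i, c i j • b i) : Algebra.trace R S s = ∑ j, c j j := by
  classical
  rw [Algebra.trace_eq_matrix_trace b s, Matrix.trace]
  refine Finset.sum_congr rfl fun j _ => ?_
  rw [Matrix.diag_apply, Algebra.leftMulMatrix_eq_repr_mul, h j, Module.Basis.repr_sum_self]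

/-- **reduction of the trace is the trace of the reduction.** -/
theorem nmo_trace_mem (G : RedDatum K F k Fb) (t : G.O) (ht : Transcendental k (G.red t))
    [FiniteDimensional ↥(IntermediateField.adjoin K {(t : F)}) F]
    [FiniteDimensional ↥(IntermediateField.adjoin k {G.red t}) Fb]
    {n : ℕ} (hn : Module.finrank ↥(IntermediateField.adjoin K {(t : F)}) F = n)
    (hnb : Module.finrank ↥(IntermediateField.adjoin k {G.red t}) Fb = n) (w : G.O) :
    ∃ h : ((Algebra.trace ↥(IntermediateField.adjoin K {(t : F)}) F (w : F) :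
        ↥(IntermediateField.adjoin K {(t : F)})) : F) ∈ G.O,
      G.red ⟨_, h⟩ = ((Algebra.trace ↥(IntermediateField.adjoin k {G.red t}) Fb (G.red w) :
        ↥(IntermediateField.adjoin k {G.red t})) : Fb) := by
  classical
  obtain ⟨y, hy⟩ := nmo_exists_orth G t hnb
  have hli := nmo_linearIndependent G t ht y hy
  have hy' : LinearIndependent ↥(IntermediateField.adjoin k {G.red t})
      (fun i => G.red (y i)) := hy
  -- the two bases
  let bK : Module.Basis (Fin n) ↥(IntermediateField.adjoin K {(t : F)}) F :=
    basisOfLinearIndependentOfCardEqFinrank' (K := ↥(IntermediateField.adjoin K {(t : F)}))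
      (fun i => (y i : F)) hli (by rw [Fintype.card_fin, hn])
  let bk : Module.Basis (Fin n) ↥(IntermediateField.adjoin k {G.red t}) Fb :=
    basisOfLinearIndependentOfCardEqFinrank' (K := ↥(IntermediateField.adjoin k {G.red t}))
      (fun i => G.red (y i)) hy' (by rw [Fintype.card_fin, hnb])
  have hbK : ∀ i, bK i = (y i : F) := fun i => by
    simp only [bK, coe_basisOfLinearIndependentOfCardEqFinrank']
  have hbk : ∀ i, bk i = G.red (y i) := fun i => by
    simp only [bk, coe_basisOfLinearIndependentOfCardEqFinrank']
  -- the multiplication table of `w` in the basis `y`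
  have hsum : ∀ j, ∑ i, ((bK.repr ((w : F) * bK j) i :
      ↥(IntermediateField.adjoin K {(t : F)})) : F) * (y i : F) = (w : F) * (y j : F) := by
    intro j
    rw [← hbK j]
    refine Eq.trans (Finset.sum_congr rfl fun i _ => ?_) (bK.sum_repr ((w : F) * bK j))
    rw [hbK i, IntermediateField.smul_def, smul_eq_mul]
  have hcO : ∀ i j, ((bK.repr ((w : F) * bK j) i :
      ↥(IntermediateField.adjoin K {(t : F)})) : F) ∈ G.O := by
    intro i j
    refine nmo_coeff_mem G t ht y hy
      (fun i => ((bK.repr ((w : F) * bK j) i : ↥(IntermediateField.adjoin K {(t : F)})) : F))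
      (fun i => (bK.repr ((w : F) * bK j) i).2) ?_ i
    rw [hsum j]
    exact (w * y j).2
  let C : Fin n → Fin n → G.O := fun i j => ⟨_, hcO i j⟩
  have hredC : ∀ i j, G.red (C i j) ∈ IntermediateField.adjoin k {G.red t} := fun i j =>
    nmo_red_mem_adjoin G t ht (C i j) (bK.repr ((w : F) * bK j) i).2
  have hsumO : ∀ j, w * y j = ∑ i, C i j * y i := by
    intro j
    apply Subtype.ext
    rw [Subring.coe_mul, ← hsum j]
    push_cast
    rfl
  -- the trace upstairs
  have htrK : Algebra.trace ↥(IntermediateField.adjoin K {(t : F)}) F (w : F)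
      = ∑ j, bK.repr ((w : F) * bK j) j :=
    nmotr_trace_eq_sum bK (w : F) (fun i j => bK.repr ((w : F) * bK j) i)
      (fun j => (bK.sum_repr _).symm)
  -- the trace downstairs
  have htrk : Algebra.trace ↥(IntermediateField.adjoin k {G.red t}) Fb (G.red w)
      = ∑ j, (⟨G.red (C j j), hredC j j⟩ : ↥(IntermediateField.adjoin k {G.red t})) := by
    refine nmotr_trace_eq_sum bk (G.red w)
      (fun i j => (⟨G.red (C i j), hredC i j⟩ : ↥(IntermediateField.adjoin k {G.red t}))) ?_
    intro j
    have h1 := congrArg G.red (hsumO j)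
    rw [map_mul, map_sum] at h1
    rw [hbk j, h1]
    refine Finset.sum_congr rfl fun i _ => ?_
    rw [hbk i, IntermediateField.smul_def, smul_eq_mul, map_mul]
  have hval : ((Algebra.trace ↥(IntermediateField.adjoin K {(t : F)}) F (w : F) :
      ↥(IntermediateField.adjoin K {(t : F)})) : F) = ((∑ j, C j j : G.O) : F) := by
    rw [htrK]
    push_cast
    rfl
  have hmem : ((Algebra.trace ↥(IntermediateField.adjoin K {(t : F)}) F (w : F) :
      ↥(IntermediateField.adjoin K {(t : F)})) : F) ∈ G.O := by
    rw [hval]
    exact (∑ j, C j j).2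
  refine ⟨hmem, ?_⟩
  have hE : (⟨_, hmem⟩ : G.O) = ∑ j, C j j := Subtype.ext hval
  rw [hE, htrk, map_sum]
  push_cast
  rfl

/-- **reduction of the discriminant (Gram determinant) is the discriminant of the
reductions.** -/
theorem nmo_discr_mem (G : RedDatum K F k Fb) (t : G.O) (ht : Transcendental k (G.red t))
    [FiniteDimensional ↥(IntermediateField.adjoin K {(t : F)}) F]
    [FiniteDimensional ↥(IntermediateField.adjoin k {G.red t}) Fb]
    {n : ℕ} (hn : Module.finrank ↥(IntermediateField.adjoin K {(t : F)}) F = n)
    (hnb : Module.finrank ↥(IntermediateField.adjoin k {G.red t}) Fb = n)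
    {m : ℕ} (x : Fin m → G.O) :
    ∃ h : ((Algebra.discr ↥(IntermediateField.adjoin K {(t : F)}) (fun i => (x i : F)) :
        ↥(IntermediateField.adjoin K {(t : F)})) : F) ∈ G.O,
      G.red ⟨_, h⟩ = ((Algebra.discr ↥(IntermediateField.adjoin k {G.red t})
        (fun i => G.red (x i)) : ↥(IntermediateField.adjoin k {G.red t})) : Fb) := by
  classical
  -- entries of the trace matrix
  have hT : ∀ i j, ∃ T : G.O,
      (T : F) = ((Algebra.trace ↥(IntermediateField.adjoin K {(t : F)}) F ((x i : F) * (x j : F)) :
        ↥(IntermediateField.adjoin K {(t : F)})) : F) ∧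
      G.red T = ((Algebra.trace ↥(IntermediateField.adjoin k {G.red t}) Fb
        (G.red (x i) * G.red (x j)) : ↥(IntermediateField.adjoin k {G.red t})) : Fb) := by
    intro i j
    obtain ⟨h, hr⟩ := nmo_trace_mem G t ht hn hnb (x i * x j)
    refine ⟨⟨_, h⟩, rfl, ?_⟩
    rw [hr, map_mul]
  choose T hT1 hT2 using hT
  have hval : ((Algebra.discr ↥(IntermediateField.adjoin K {(t : F)}) (fun i => (x i : F)) :
      ↥(IntermediateField.adjoin K {(t : F)})) : F) = (((Matrix.of T).det : G.O) : F) := by
    have h1 : ((Algebra.discr ↥(IntermediateField.adjoin K {(t : F)}) (fun i => (x i : F)) :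
        ↥(IntermediateField.adjoin K {(t : F)})) : F)
        = algebraMap ↥(IntermediateField.adjoin K {(t : F)}) F
          (Algebra.traceMatrix ↥(IntermediateField.adjoin K {(t : F)})
            (fun i => (x i : F))).det := rfl
    have h2 : (((Matrix.of T).det : G.O) : F) = G.O.subtype (Matrix.of T).det := rfl
    rw [h1, h2, RingHom.map_det, RingHom.map_det]
    congr 1
    ext i j
    simp only [RingHom.mapMatrix_apply, Matrix.map_apply, Matrix.of_apply,
      Algebra.traceMatrix_apply, Algebra.traceForm_apply, Subring.coe_subtype, hT1]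
    rfl
  have hmem : ((Algebra.discr ↥(IntermediateField.adjoin K {(t : F)}) (fun i => (x i : F)) :
      ↥(IntermediateField.adjoin K {(t : F)})) : F) ∈ G.O := by
    rw [hval]
    exact ((Matrix.of T).det).2
  refine ⟨hmem, ?_⟩
  have hE : (⟨_, hmem⟩ : G.O) = (Matrix.of T).det := Subtype.ext hval
  have h3 : ((Algebra.discr ↥(IntermediateField.adjoin k {G.red t})
        (fun i => G.red (x i)) : ↥(IntermediateField.adjoin k {G.red t})) : Fb)
      = algebraMap ↥(IntermediateField.adjoin k {G.red t}) Fb
          (Algebra.traceMatrix ↥(IntermediateField.adjoin k {G.red t})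
            (fun i => G.red (x i))).det := rfl
  rw [hE, h3, RingHom.map_det, RingHom.map_det]
  congr 1
  ext i j
  simp only [RingHom.mapMatrix_apply, Matrix.map_apply, Matrix.of_apply,
    Algebra.traceMatrix_apply, Algebra.traceForm_apply, hT2]
  rfl

/-- the reduced discriminant of an orthonormal `n`-tuple is nonzero when `F̄/k(t̄)` is
separable of degree `n`. -/
theorem nmo_discr_red_ne_zero (G : RedDatum K F k Fb) (t : G.O)
    [FiniteDimensional ↥(IntermediateField.adjoin k {G.red t}) Fb]
    [Algebra.IsSeparable ↥(IntermediateField.adjoin k {G.red t}) Fb]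
    {n : ℕ} (hnb : Module.finrank ↥(IntermediateField.adjoin k {G.red t}) Fb = n)
    (x : Fin n → G.O) (hx : NmoOrth G t x) :
    Algebra.discr ↥(IntermediateField.adjoin k {G.red t}) (fun i => G.red (x i)) ≠ 0 := by
  classical
  have hx' : LinearIndependent ↥(IntermediateField.adjoin k {G.red t})
      (fun i => G.red (x i)) := hx
  have h := Algebra.discr_not_zero_of_basis ↥(IntermediateField.adjoin k {G.red t})
    (basisOfLinearIndependentOfCardEqFinrank' (K := ↥(IntermediateField.adjoin k {G.red t}))
      (fun i => G.red (x i)) hx' (by rw [Fintype.card_fin, hnb]))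
  rwa [coe_basisOfLinearIndependentOfCardEqFinrank'] at h

end Fermat.Agent.S18L
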