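import Mathlib
import Fermat.Agent.S18L.NmoTrace

/-!
# S18, plan B, package NMO, leaf (N1), first half: a common denominator

There is an orthonormal `K(t)`-basis `y` of `F` inside `B ∩ O` (`B` = elements integral over
`K[t]`) and a polynomial `d ∈ A[X]` with `d̄ ≠ 0` such that `d(t) · (B ∩ O) ⊆ ⊕ A[t] yᵢ`.

Proof idea: the Gram matrix `Γ = (Tr (yᵢ yⱼ))` has entries in `A[t]` (traces of integral elements
are in `K[t]`, traces of elements of `O` are in `O`), its determinant `d(t)` reduces to the
discriminant of `ȳ`, which is nonzero by separability; for `x ∈ B ∩ O` the vector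
`(Tr (x yⱼ))ⱼ` has entries in `A[t]` and `d · (coordinates of x) = adj(Γ) · (Tr (x yⱼ))ⱼ`.
-/

set_option autoImplicit false

namespace Fermat.Agent.S18L

open Polynomial

variable {K F k Fb : Type*} [Field K] [Field F] [Algebra K F] [Field k] [Field Fb] [Algebra k Fb]

/-- the ring hom `P ↦ P(t)`. -/
noncomputable def nmoia_evalHom (G : RedDatum K F k Fb) (t : F) : Polynomial G.A →+* F :=
  ((Polynomial.aeval t : K[X] →ₐ[K] F) : K[X] →+* F).comp
    (Polynomial.mapRingHom (algebraMap G.A K))

theorem nmoia_evalHom_apply (G : RedDatum K F k Fb) (t : F) (P : Polynomial G.A) :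
    nmoia_evalHom G t P = nmoEval G t P := rfl

theorem nmoia_isIntegrallyClosed_adjoin {K₀ F₀ : Type*} [Field K₀] [Field F₀] [Algebra K₀ F₀]
    (t : F₀) (ht : Transcendental K₀ t) : IsIntegrallyClosed ↥(Algebra.adjoin K₀ {t}) := by
  have hinj : Function.Injective (aeval t : K₀[X] →ₐ[K₀] F₀) :=
    transcendental_iff_injective.mp ht
  have e1 : K₀[X] ≃ₐ[K₀] ↥(aeval t : K₀[X] →ₐ[K₀] F₀).range := AlgEquiv.ofInjective _ hinj
  have e2 : ↥(aeval t : K₀[X] →ₐ[K₀] F₀).range ≃ₐ[K₀] ↥(Algebra.adjoin K₀ {t}) :=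
    Subalgebra.equivOfEq _ _ (Algebra.adjoin_singleton_eq_range_aeval K₀ t).symm
  exact IsIntegrallyClosed.of_equiv (e1.trans e2).toRingEquiv

open scoped IntermediateField.algebraAdjoinAdjoin in
/-- an element of `K(t)` integral over `K[t]` is a polynomial in `t` (for `t` transcendental). -/
theorem nmoia_integral_mem_range {K₀ F₀ : Type*} [Field K₀] [Field F₀] [Algebra K₀ F₀] (t : F₀)
    (ht : Transcendental K₀ t) (z : ↥(IntermediateField.adjoin K₀ {t}))
    (hz : IsIntegral ↥(Algebra.adjoin K₀ {t}) z) : ∃ p : K₀[X], (z : F₀) = aeval t p := by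
  have : IsIntegrallyClosed ↥(Algebra.adjoin K₀ {t}) := nmoia_isIntegrallyClosed_adjoin t ht
  obtain ⟨r, hr⟩ := IsIntegrallyClosed.isIntegral_iff.mp hz
  have hr' : (r : F₀) ∈ (aeval t : K₀[X] →ₐ[K₀] F₀).range := by
    rw [← Algebra.adjoin_singleton_eq_range_aeval]; exact r.2
  obtain ⟨p, hp⟩ := hr'
  exact ⟨p, by rw [← hr]; exact hp.symm⟩

open scoped IntermediateField.algebraAdjoinAdjoin in
/-- the trace of an element integral over `K[t]` is a polynomial in `t`. -/
theorem nmoia_trace_mem_range {K₀ F₀ : Type*} [Field K₀] [Field F₀] [Algebra K₀ F₀] (t : F₀)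
    (ht : Transcendental K₀ t) [FiniteDimensional ↥(IntermediateField.adjoin K₀ {t}) F₀]
    (x : F₀) (hx : IsIntegral ↥(Algebra.adjoin K₀ {t}) x) :
    ∃ p : K₀[X], ((Algebra.trace ↥(IntermediateField.adjoin K₀ {t}) F₀ x :
      ↥(IntermediateField.adjoin K₀ {t})) : F₀) = aeval t p :=
  nmoia_integral_mem_range t ht _ (Algebra.isIntegral_trace hx)

open scoped IntermediateField.algebraAdjoinAdjoin in
/-- every element of `F` has a multiple by a nonzero polynomial in `t` integral over `K[t]`. -/
theorem nmoia_exists_integral_multiple {K₀ F₀ : Type*} [Field K₀] [Field F₀] [Algebra K₀ F₀]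
    (t : F₀) [FiniteDimensional ↥(IntermediateField.adjoin K₀ {t}) F₀] (z : F₀) :
    ∃ s : K₀[X], s ≠ 0 ∧ IsIntegral ↥(Algebra.adjoin K₀ {t}) (aeval t s * z) := by
  have h1 : IsAlgebraic ↥(IntermediateField.adjoin K₀ {t}) z := IsAlgebraic.of_finite _ z
  have h2 : IsAlgebraic ↥(Algebra.adjoin K₀ {t}) z :=
    (IsFractionRing.isAlgebraic_iff ↥(Algebra.adjoin K₀ {t})
      ↥(IntermediateField.adjoin K₀ {t}) F₀).mpr h1
  obtain ⟨r, hr0, hr⟩ := h2.exists_integral_multiple
  have hr' : (r : F₀) ∈ (aeval t : K₀[X] →ₐ[K₀] F₀).range := by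
    rw [← Algebra.adjoin_singleton_eq_range_aeval]; exact r.2
  obtain ⟨s, hs⟩ := hr'
  refine ⟨s, ?_, ?_⟩
  · rintro rfl
    apply hr0
    apply Subtype.ext
    rw [← hs]
    simp
  · have : aeval t s * z = r • z := by
      rw [show aeval t s = (r : F₀) from hs]; rfl
    rw [this]; exact hr

/-- every element of `F` has a multiple by a primitive polynomial in `t` integral over `K[t]`. -/
theorem nmoia_exists_primitive_multiple (G : RedDatum K F k Fb) (t : F)
    [FiniteDimensional ↥(IntermediateField.adjoin K {t}) F] (z : F) :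
    ∃ S : Polynomial G.A, S.map G.π ≠ 0 ∧
      IsIntegral ↥(Algebra.adjoin K {t}) (nmoEval G t S * z) := by
  obtain ⟨s, hs0, hs⟩ := nmoia_exists_integral_multiple (K₀ := K) t z
  obtain ⟨a, S, ha, hsS, hS⟩ := nmo_exists_primitive G s hs0
  refine ⟨S, hS, ?_⟩
  have h1 : nmoEval G t S * z = algebraMap ↥(Algebra.adjoin K {t}) F
      (algebraMap K ↥(Algebra.adjoin K {t}) a⁻¹) * (aeval t s * z) := by
    rw [hsS, map_mul, aeval_C, ← IsScalarTower.algebraMap_apply, ← mul_assoc, ← mul_assoc,
      ← map_mul, inv_mul_cancel₀ ha, map_one, one_mul]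
    rfl
  rw [h1]
  exact isIntegral_algebraMap.mul hs

/-- scaling an orthonormal family by primitive polynomials in `t` keeps it orthonormal. -/
theorem nmoia_orth_smul (G : RedDatum K F k Fb) (t : G.O) (ht : Transcendental k (G.red t))
    {n : ℕ} (y : Fin n → G.O) (hy : NmoOrth G t y) (S : Fin n → Polynomial G.A)
    (hS : ∀ i, (S i).map G.π ≠ 0) :
    NmoOrth G t (fun i => ⟨nmoEval G (t : F) (S i), nmo_eval_mem G t (S i)⟩ * y i) := by
  have hmem : ∀ i, aeval (G.red t) ((S i).map G.π) ∈ IntermediateField.adjoin k {G.red t} :=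
    fun i => IntermediateField.algebra_adjoin_le_adjoin k _
      (Polynomial.aeval_mem_adjoin_singleton k _)
  have hne : ∀ i, (⟨aeval (G.red t) ((S i).map G.π), hmem i⟩ :
      ↥(IntermediateField.adjoin k {G.red t})) ≠ 0 := by
    intro i h
    exact hS i (transcendental_iff.mp ht _ (congrArg Subtype.val h))
  have := LinearIndependent.units_smul hy (fun i => Units.mk0 _ (hne i))
  unfold NmoOrth
  convert this using 1
  funext i
  rw [map_mul, nmo_red_eval]
  rfl

/-- Cramer's rule for the trace form. -/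
theorem nmoia_cramer {A₀ B₀ : Type*} [CommRing A₀] [CommRing B₀] [Algebra A₀ B₀] {n : ℕ}
    (y : Fin n → B₀) (c : Fin n → A₀) (x : B₀) (hx : x = ∑ i, c i • y i) (i : Fin n) :
    (Algebra.traceMatrix A₀ y).det * c i =
      ∑ j, Algebra.trace A₀ B₀ (x * y j) * (Algebra.traceMatrix A₀ y).adjugate j i := by
  have hβ : (fun j => Algebra.trace A₀ B₀ (x * y j)) =
      Matrix.vecMul c (Algebra.traceMatrix A₀ y) := by
    funext j
    rw [hx, Finset.sum_mul, map_sum]
    simp only [Matrix.vecMul, dotProduct, Algebra.traceMatrix_apply, Algebra.traceForm_apply,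
      smul_mul_assoc, map_smul, smul_eq_mul]
  have h2 := congrArg (fun v => Matrix.vecMul v (Algebra.traceMatrix A₀ y).adjugate i) hβ
  simp only [Matrix.vecMul_vecMul, Matrix.mul_adjugate, Matrix.vecMul_smul, Matrix.vecMul_one,
    Pi.smul_apply, smul_eq_mul] at h2
  rw [← h2]
  rfl

/-- the trace of an element of `O` integral over `K[t]` is a polynomial in `t` with coefficients
in `A`. -/
theorem nmo_trace_eq_eval (G : RedDatum K F k Fb) (t : G.O) (ht : Transcendental k (G.red t))
    [FiniteDimensional ↥(IntermediateField.adjoin K {(t : F)}) F]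
    [FiniteDimensional ↥(IntermediateField.adjoin k {G.red t}) Fb]
    {n : ℕ} (hn : Module.finrank ↥(IntermediateField.adjoin K {(t : F)}) F = n)
    (hnb : Module.finrank ↥(IntermediateField.adjoin k {G.red t}) Fb = n)
    (x : G.O) (hx : IsIntegral ↥(Algebra.adjoin K {(t : F)}) (x : F)) :
    ∃ P : Polynomial G.A,
      ((Algebra.trace ↥(IntermediateField.adjoin K {(t : F)}) F (x : F) :
        ↥(IntermediateField.adjoin K {(t : F)})) : F) = nmoEval G (t : F) P := by
  have htK : Transcendental K (t : F) := nmo_transcendental G t ht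
  obtain ⟨p, hp⟩ := nmoia_trace_mem_range (t : F) htK (x : F) hx
  obtain ⟨h, -⟩ := nmo_trace_mem G t ht hn hnb x
  rw [hp] at h
  obtain ⟨P, hP⟩ := nmo_exists_lift_of_aeval_mem G t ht p h
  exact ⟨P, by rw [hp, hP]; rfl⟩

/-- an orthonormal basis inside `B ∩ O` together with a common denominator for `B ∩ O`. -/
theorem nmo_exists_denominator (G : RedDatum K F k Fb) (t : G.O)
    (ht : Transcendental k (G.red t))
    [FiniteDimensional ↥(IntermediateField.adjoin K {(t : F)}) F]
    [FiniteDimensional ↥(IntermediateField.adjoin k {G.red t}) Fb]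
    [Algebra.IsSeparable ↥(IntermediateField.adjoin k {G.red t}) Fb]
    {n : ℕ} (hn : Module.finrank ↥(IntermediateField.adjoin K {(t : F)}) F = n)
    (hnb : Module.finrank ↥(IntermediateField.adjoin k {G.red t}) Fb = n) :
    ∃ (y : Fin n → G.O) (d : Polynomial G.A),
      (∀ i, IsIntegral ↥(Algebra.adjoin K {(t : F)}) (y i : F)) ∧ NmoOrth G t y ∧
      d.map G.π ≠ 0 ∧
      ∀ x : G.O, IsIntegral ↥(Algebra.adjoin K {(t : F)}) (x : F) →
        ∃ e : Fin n → Polynomial G.A,
          nmoEval G (t : F) d * (x : F) = ∑ i, nmoEval G (t : F) (e i) * (y i : F) := by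
  classical
  obtain ⟨y0, hy0⟩ := nmo_exists_orth G t hnb
  choose S hS1 hS2 using fun i => nmoia_exists_primitive_multiple G (t : F) (y0 i : F)
  obtain ⟨y, hydef⟩ : ∃ y : Fin n → G.O, y = fun i =>
      ⟨nmoEval G (t : F) (S i), nmo_eval_mem G t (S i)⟩ * y0 i := ⟨_, rfl⟩
  have hyint : ∀ i, IsIntegral ↥(Algebra.adjoin K {(t : F)}) (y i : F) := by
    intro i
    rw [hydef]
    exact hS2 i
  have hy : NmoOrth G t y := by
    rw [hydef]
    exact nmoia_orth_smul G t ht y0 hy0 S hS1
  -- the Gram matrix has entries in `A[t]`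
  choose g hg using fun i j => nmo_trace_eq_eval G t ht hn hnb (y i * y j) (by
    rw [Subring.coe_mul]; exact (hyint i).mul (hyint j))
  obtain ⟨M, hMdef⟩ : ∃ M : Matrix (Fin n) (Fin n) (Polynomial G.A), M = Matrix.of g := ⟨_, rfl⟩
  have hM : (nmoia_evalHom G (t : F)).mapMatrix M =
      (algebraMap ↥(IntermediateField.adjoin K {(t : F)}) F).mapMatrix
        (Algebra.traceMatrix ↥(IntermediateField.adjoin K {(t : F)}) (fun i => (y i : F))) := by
    ext i j
    rw [hMdef]
    simp only [RingHom.mapMatrix_apply, Matrix.map_apply, Matrix.of_apply,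
      Algebra.traceMatrix_apply, Algebra.traceForm_apply]
    exact (hg i j).symm
  have hdet : nmoEval G (t : F) M.det =
      ((Algebra.discr ↥(IntermediateField.adjoin K {(t : F)}) (fun i => (y i : F)) :
        ↥(IntermediateField.adjoin K {(t : F)})) : F) := by
    rw [← nmoia_evalHom_apply, RingHom.map_det, hM, ← RingHom.map_det, Algebra.discr_def]
    rfl
  refine ⟨y, M.det, hyint, hy, ?_, ?_⟩
  · intro hd0
    obtain ⟨h, hred⟩ := nmo_discr_mem G t ht hn hnb y
    have hne := nmo_discr_red_ne_zero G t hnb y hy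
    have e1 := nmo_red_eval G t M.det
    rw [hd0, map_zero] at e1
    have e2 : (⟨nmoEval G (t : F) M.det, nmo_eval_mem G t M.det⟩ : G.O) = ⟨_, h⟩ :=
      Subtype.ext hdet
    rw [e2, hred] at e1
    exact hne (Subtype.ext e1)
  · intro x hx
    obtain ⟨c, hc⟩ := nmo_exists_coeff G t ht hn y hy (x : F)
    choose b hb using fun j => nmo_trace_eq_eval G t ht hn hnb (x * y j) (by
      rw [Subring.coe_mul]; exact hx.mul (hyint j))
    refine ⟨fun i => ∑ j, b j * M.adjugate j i, ?_⟩
    have hcr : ∀ i, nmoEval G (t : F) M.det * (c i : F) =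
        nmoEval G (t : F) (∑ j, b j * M.adjugate j i) := by
      intro i
      have h1 := nmoia_cramer (A₀ := ↥(IntermediateField.adjoin K {(t : F)}))
        (fun i => (y i : F)) c (x : F) hc i
      have h2 := congrArg (algebraMap ↥(IntermediateField.adjoin K {(t : F)}) F) h1
      rw [map_mul, map_sum, ← Algebra.discr_def] at h2
      rw [hdet, ← nmoia_evalHom_apply, map_sum]
      refine h2.trans (Finset.sum_congr rfl fun j _ => ?_)
      rw [map_mul (algebraMap ↥(IntermediateField.adjoin K {(t : F)}) F),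
        map_mul (nmoia_evalHom G (t : F)), nmoia_evalHom_apply]
      have h3 : nmoia_evalHom G (t : F) (M.adjugate j i) =
          algebraMap ↥(IntermediateField.adjoin K {(t : F)}) F
            ((Algebra.traceMatrix ↥(IntermediateField.adjoin K {(t : F)})
              (fun i => (y i : F))).adjugate j i) := by
        have h4 := congrFun (congrFun (congrArg Matrix.adjugate hM) j) i
        rw [← RingHom.map_adjugate, ← RingHom.map_adjugate] at h4
        exact h4
      rw [h3]
      congr 1
      exact hb j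
    rw [Finset.sum_congr rfl fun i _ => by rw [← hcr i, mul_assoc]]
    rw [← Finset.mul_sum, ← hc]

end Fermat.Agent.S18L
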