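import Mathlib
import Fermat.Agent.S18L.NmoIntAux

/-!
# S18, plan B, package NMO, leaf (N1): integrality of reductions, the lifted basis

`B := ` elements of `F` integral over `K[t]`, `B̄ := ` elements of `F̄` integral over `k[t̄]`,
`M̄ := red (B ∩ O)`.  Assume `[F : K(t)] = [F̄ : k(t̄)] = n` and `F̄/k(t̄)` separable.

* `nmo_isIntegral_red` : `M̄ ⊆ B̄`;
* `nmo_exists_basis` : there are `x₁, …, xₙ ∈ B ∩ O`, orthonormal, whose reductions span `M̄`
  over `k[t̄]` (so `M̄` is free of rank `n` with basis `x̄`).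
-/

set_option autoImplicit false

namespace Fermat.Agent.S18L

open Polynomial

variable {K F k Fb : Type*} [Field K] [Field F] [Algebra K F] [Field k] [Field Fb] [Algebra k Fb]

/-- the `k[X]`-algebra structure on `Fb` through `aeval t̄` -/
@[reducible] noncomputable def nmoio_alg (G : RedDatum K F k Fb) (t : G.O) : Algebra k[X] Fb :=
  (Polynomial.aeval (G.red t)).toRingHom.toAlgebra

theorem nmoio_smul_def (G : RedDatum K F k Fb) (t : G.O) (p : k[X]) (z : Fb) :
    letI := nmoio_alg G t
    p • z = Polynomial.aeval (G.red t) p * z := rfl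

theorem nmoio_algebraMap_def (G : RedDatum K F k Fb) (t : G.O) (p : k[X]) :
    letI := nmoio_alg G t
    algebraMap k[X] Fb p = Polynomial.aeval (G.red t) p := rfl

theorem nmoio_isIntegral_eval (G : RedDatum K F k Fb) (t : G.O) (P : Polynomial G.A) :
    IsIntegral ↥(Algebra.adjoin K {(t : F)}) (nmoEval G (t : F) P) := by
  have h : nmoEval G (t : F) P ∈ Algebra.adjoin K {(t : F)} :=
    Polynomial.aeval_mem_adjoin_singleton K (t : F)
  exact (isIntegral_algebraMap (x := (⟨_, h⟩ : ↥(Algebra.adjoin K {(t : F)}))))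

/-- `M̄ = red (B ∩ O)` as a `k[X]`-submodule of `Fb` -/
noncomputable def nmoio_M (G : RedDatum K F k Fb) (t : G.O) :
    letI := nmoio_alg G t
    Submodule k[X] Fb :=
  letI := nmoio_alg G t
  { carrier := {z | ∃ x : G.O, IsIntegral ↥(Algebra.adjoin K {(t : F)}) (x : F) ∧ G.red x = z}
    zero_mem' := ⟨0, isIntegral_zero, map_zero _⟩
    add_mem' := by
      rintro _ _ ⟨x, hx, rfl⟩ ⟨y, hy, rfl⟩
      exact ⟨x + y, hx.add hy, map_add _ _ _⟩
    smul_mem' := by
      rintro p _ ⟨x, hx, rfl⟩
      obtain ⟨P, rfl⟩ := Polynomial.map_surjective G.π G.π_surj p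
      refine ⟨⟨nmoEval G (t : F) P, nmo_eval_mem G t P⟩ * x, ?_, ?_⟩
      · exact (nmoio_isIntegral_eval G t P).mul hx
      · rw [map_mul, nmo_red_eval]; rfl }

theorem nmoio_mem_M (G : RedDatum K F k Fb) (t : G.O) (z : Fb) :
    letI := nmoio_alg G t
    z ∈ nmoio_M G t ↔
      ∃ x : G.O, IsIntegral ↥(Algebra.adjoin K {(t : F)}) (x : F) ∧ G.red x = z := Iff.rfl

theorem nmoio_M_fg (G : RedDatum K F k Fb) (t : G.O) (ht : Transcendental k (G.red t))
    [FiniteDimensional ↥(IntermediateField.adjoin K {(t : F)}) F]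
    [FiniteDimensional ↥(IntermediateField.adjoin k {G.red t}) Fb]
    [Algebra.IsSeparable ↥(IntermediateField.adjoin k {G.red t}) Fb]
    {n : ℕ} (hn : Module.finrank ↥(IntermediateField.adjoin K {(t : F)}) F = n)
    (hnb : Module.finrank ↥(IntermediateField.adjoin k {G.red t}) Fb = n) :
    letI := nmoio_alg G t
    (nmoio_M G t).FG := by
  let := nmoio_alg G t
  obtain ⟨y, d, hy, hyo, hd, hspan⟩ := nmo_exists_denominator G t ht hn hnb
  have hδ0 : Polynomial.aeval (G.red t) (d.map G.π) ≠ 0 :=
    fun h => hd ((transcendental_iff.1 ht) _ h)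
  have hle : nmoio_M G t ≤ Submodule.span k[X]
      (Set.range fun i => (Polynomial.aeval (G.red t) (d.map G.π))⁻¹ * G.red (y i)) := by
    rintro _ ⟨x, hx, rfl⟩
    obtain ⟨e, he⟩ := hspan x hx
    have h1 : (⟨nmoEval G (t : F) d, nmo_eval_mem G t d⟩ : G.O) * x
        = ∑ i, (⟨nmoEval G (t : F) (e i), nmo_eval_mem G t (e i)⟩ : G.O) * y i := by
      apply G.O.subtype_injective
      rw [map_mul, map_sum]
      simp only [map_mul]
      exact he
    have h2 := congrArg G.red h1
    rw [map_mul, map_sum, nmo_red_eval] at h2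
    simp only [map_mul, nmo_red_eval] at h2
    have h3 : G.red x = ∑ i, ((e i).map G.π) •
        ((Polynomial.aeval (G.red t) (d.map G.π))⁻¹ * G.red (y i)) := by
      simp only [nmoio_smul_def]
      rw [eq_comm, ← mul_right_inj' hδ0, h2, Finset.mul_sum]
      refine Finset.sum_congr rfl fun i _ => ?_
      rw [mul_left_comm, mul_inv_cancel_left₀ hδ0]
    rw [h3]
    exact Submodule.sum_mem _ fun i _ => Submodule.smul_mem _ _ (Submodule.subset_span ⟨i, rfl⟩)
  have hN : (Submodule.span k[X]
      (Set.range fun i => (Polynomial.aeval (G.red t) (d.map G.π))⁻¹ * G.red (y i))).FG :=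
    Submodule.fg_span (Set.finite_range _)
  have := isNoetherian_of_fg_of_noetherian _ hN
  exact isNoetherian_submodule.1 this _ hle


/-- **(N1)** the reduction of an element of `O` integral over `K[t]` is integral over `k[t̄]`. -/
theorem nmo_isIntegral_red (G : RedDatum K F k Fb) (t : G.O) (ht : Transcendental k (G.red t))
    [FiniteDimensional ↥(IntermediateField.adjoin K {(t : F)}) F]
    [FiniteDimensional ↥(IntermediateField.adjoin k {G.red t}) Fb]
    [Algebra.IsSeparable ↥(IntermediateField.adjoin k {G.red t}) Fb]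
    {n : ℕ} (hn : Module.finrank ↥(IntermediateField.adjoin K {(t : F)}) F = n)
    (hnb : Module.finrank ↥(IntermediateField.adjoin k {G.red t}) Fb = n)
    (x : G.O) (hx : IsIntegral ↥(Algebra.adjoin K {(t : F)}) (x : F)) :
    IsIntegral ↥(Algebra.adjoin k {G.red t}) (G.red x) := by
  let := nmoio_alg G t
  have hfg := nmoio_M_fg G t ht hn hnb
  have h1 : IsIntegral k[X] (G.red x) := by
    refine isIntegral_of_smul_mem_submodule (nmoio_M G t) ?_ hfg (G.red x) ?_
    · intro h
      have h1 : (1 : Fb) ∈ nmoio_M G t := ⟨1, isIntegral_one, map_one _⟩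
      rw [h] at h1
      exact one_ne_zero ((Submodule.mem_bot _).1 h1)
    · rintro _ ⟨w, hw, rfl⟩
      exact ⟨x * w, hx.mul hw, map_mul _ _ _⟩
  have h2 := IsIntegral.map_of_comp_eq
    (((Polynomial.aeval (G.red t)).codRestrict (Algebra.adjoin k {G.red t})
      (fun p => Polynomial.aeval_mem_adjoin_singleton k (G.red t))).toRingHom)
    (RingHom.id Fb) (RingHom.ext fun p => rfl) h1
  exact h2

/-- **(N1)** a basis of `M̄ = red (B ∩ O)` over `k[t̄]`, lifted to `B ∩ O`. -/
theorem nmo_exists_basis (G : RedDatum K F k Fb) (t : G.O) (ht : Transcendental k (G.red t))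
    [FiniteDimensional ↥(IntermediateField.adjoin K {(t : F)}) F]
    [FiniteDimensional ↥(IntermediateField.adjoin k {G.red t}) Fb]
    [Algebra.IsSeparable ↥(IntermediateField.adjoin k {G.red t}) Fb]
    {n : ℕ} (hn : Module.finrank ↥(IntermediateField.adjoin K {(t : F)}) F = n)
    (hnb : Module.finrank ↥(IntermediateField.adjoin k {G.red t}) Fb = n) :
    ∃ x : Fin n → G.O,
      (∀ i, IsIntegral ↥(Algebra.adjoin K {(t : F)}) (x i : F)) ∧ NmoOrth G t x ∧
      ∀ w : G.O, IsIntegral ↥(Algebra.adjoin K {(t : F)}) (w : F) →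
        ∃ c : Fin n → k[X], G.red w = ∑ i, Polynomial.aeval (G.red t) (c i) * G.red (x i) := by
  let := nmoio_alg G t
  have hfg := nmoio_M_fg G t ht hn hnb
  have hinj : Function.Injective (algebraMap k[X] Fb) := transcendental_iff_injective.1 ht
  have : Module.IsTorsionFree k[X] Fb := Module.isTorsionFree_iff_algebraMap_injective.2 hinj
  have : Module.Finite k[X] (nmoio_M G t) := Module.Finite.iff_fg.2 hfg
  obtain ⟨m, b⟩ := Module.basisOfFiniteTypeTorsionFree' (R := k[X]) (M := nmoio_M G t)
  -- the fraction field structure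
  let : Algebra k[X] ↥(IntermediateField.adjoin k {G.red t}) :=
    (((Polynomial.aeval (G.red t)).codRestrict (IntermediateField.adjoin k {G.red t}).toSubalgebra
      (fun p => IntermediateField.algebra_adjoin_le_adjoin k _
        (Polynomial.aeval_mem_adjoin_singleton k (G.red t)))).toRingHom).toAlgebra
  have : IsScalarTower k[X] ↥(IntermediateField.adjoin k {G.red t}) Fb :=
    IsScalarTower.of_algebraMap_eq (fun p => rfl)
  have : FaithfulSMul k[X] ↥(IntermediateField.adjoin k {G.red t}) :=
    (faithfulSMul_iff_algebraMap_injective _ _).2 (fun p q h => hinj (congrArg Subtype.val h))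
  have : IsFractionRing k[X] ↥(IntermediateField.adjoin k {G.red t}) :=
    IsFractionRing.of_field _ _ (fun z => by
      obtain ⟨r, s, h⟩ := (IntermediateField.mem_adjoin_simple_iff k z.1).1 z.2
      exact ⟨r, s, Subtype.ext h⟩)
  have hiff : ∀ {ι : Type} (v : ι → Fb), LinearIndependent k[X] v ↔
      LinearIndependent ↥(IntermediateField.adjoin k {G.red t}) v := fun v =>
    LinearIndependent.iff_fractionRing k[X] ↥(IntermediateField.adjoin k {G.red t})
  -- rank ≤
  have hb_li : LinearIndependent k[X] (fun i => ((b i : nmoio_M G t) : Fb)) :=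
    b.linearIndependent.map' (nmoio_M G t).subtype (Submodule.ker_subtype _)
  have hb_li' := (hiff _).1 hb_li
  have hle : m ≤ n := by
    have := hb_li'.fintype_card_le_finrank
    rwa [Fintype.card_fin, hnb] at this
  -- rank ≥
  obtain ⟨y, d, hy, hyo, -, -⟩ := nmo_exists_denominator G t ht hn hnb
  have hge : n ≤ m := by
    have h1 : LinearIndependent k[X] (fun i => G.red (y i)) := (hiff _).2 hyo
    have h2 : LinearIndependent k[X]
        (fun i => (⟨G.red (y i), ⟨y i, hy i, rfl⟩⟩ : nmoio_M G t)) :=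
      LinearIndependent.of_comp (nmoio_M G t).subtype h1
    simpa only [Fintype.card_fin] using b.card_le_card_of_linearIndependent h2
  obtain rfl : m = n := le_antisymm hle hge
  choose x hx hxb using fun i => (b i).2
  refine ⟨x, hx, ?_, ?_⟩
  · have : (fun i => G.red (x i)) = (fun i => ((b i : nmoio_M G t) : Fb)) := funext hxb
    unfold NmoOrth
    rw [this]
    exact hb_li'
  · intro w hw
    refine ⟨fun i => b.repr ⟨G.red w, ⟨w, hw, rfl⟩⟩ i, ?_⟩
    have h1 := congrArg Subtype.val (b.sum_repr ⟨G.red w, ⟨w, hw, rfl⟩⟩)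
    simp only [Submodule.coe_sum, Submodule.coe_smul, nmoio_smul_def] at h1
    exact h1.symm.trans (Finset.sum_congr rfl fun i _ => by rw [hxb])

end Fermat.Agent.S18L
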