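import Mathlib
import Fermat.Agent.S18L.NmoInt

/-!
# S18, plan B, package NMO, leaf (N3): the lifted basis is a local basis at every `ρ ∈ A`

Let `x₁, …, xₙ ∈ B ∩ O` be orthonormal with `red (B ∩ O) = ⊕ k[t̄] x̄ᵢ` (as produced by
`nmo_exists_basis`) and `Λ := ⊕ K[t] xᵢ ⊆ B`.  For every `ρ ∈ G.A`:

* `nmo_local_step` : `w ∈ B`, `(t - ρ) w ∈ Λ` imply `w ∈ Λ`;
* `nmo_local_basis` : for `w ∈ B` there is `q ∈ K[X]` with `q(ρ) ≠ 0` and `q(t) w ∈ Λ`, i.e.
  `x` is a basis of the localisation of `B` at `t = ρ` over `K[t]_(t-ρ)`.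
-/

set_option autoImplicit false

namespace Fermat.Agent.S18L

open Polynomial

variable {K F k Fb : Type*} [Field K] [Field F] [Algebra K F] [Field k] [Field Fb] [Algebra k Fb]

/-- a polynomial in `t` is integral over `K[t]`. -/
theorem nmolo_isIntegral_aeval (t : F) (q : K[X]) :
    IsIntegral ↥(Algebra.adjoin K {t}) (Polynomial.aeval t q) := by
  have hmem : Polynomial.aeval t q ∈ Algebra.adjoin K {t} :=
    Polynomial.aeval_mem_adjoin_singleton K t
  have h := isIntegral_algebraMap (R := ↥(Algebra.adjoin K {t})) (A := F)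
    (x := ⟨Polynomial.aeval t q, hmem⟩)
  exact h

/-- a constant is integral over `K[t]`. -/
theorem nmolo_isIntegral_const (t : F) (a : K) :
    IsIntegral ↥(Algebra.adjoin K {t}) (algebraMap K F a) := by
  have h := nmolo_isIntegral_aeval t (Polynomial.C a)
  rwa [Polynomial.aeval_C] at h

/-- a polynomial in `t̄` lies in `k(t̄)`. -/
theorem nmolo_aeval_mem_adjoin (s : Fb) (q : k[X]) :
    Polynomial.aeval s q ∈ IntermediateField.adjoin k {s} :=
  IntermediateField.algebra_adjoin_le_adjoin k {s} (Polynomial.aeval_mem_adjoin_singleton k s)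

/-- division by `X - C ρ` after evaluation at `t`. -/
theorem nmolo_aeval_divByMonic (t : F) (ρ : K) (p : K[X]) :
    Polynomial.aeval t p = (t - algebraMap K F ρ) * Polynomial.aeval t (p /ₘ (X - C ρ)) +
      algebraMap K F (p.eval ρ) := by
  have h := Polynomial.modByMonic_add_div p (X - C ρ)
  rw [Polynomial.modByMonic_X_sub_C_eq_C_eval] at h
  conv_lhs => rw [← h]
  rw [map_add, map_mul, map_sub, Polynomial.aeval_X, Polynomial.aeval_C, Polynomial.aeval_C,
    add_comm]

/-- the key computation on the reduced side: if `(t̄ - ρ̄) * Σ dᵢ(t̄) x̄ᵢ = Σ γ̄ᵢ x̄ᵢ` with `x̄`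
linearly independent over `k(t̄)` and `t̄` transcendental, then all `γ̄ᵢ = 0`. -/
theorem nmolo_red_key (s : Fb) (hs : Transcendental k s) {n : ℕ} (xb : Fin n → Fb)
    (hxb : LinearIndependent ↥(IntermediateField.adjoin k {s}) xb) (r : k)
    (d : Fin n → k[X]) (g : Fin n → k)
    (h : (s - algebraMap k Fb r) * ∑ i, Polynomial.aeval s (d i) * xb i =
      ∑ i, algebraMap k Fb (g i) * xb i) : ∀ i, g i = 0 := by
  classical
  intro i
  set P : Fin n → k[X] := fun i => (X - C r) * d i - C (g i) with hP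
  have hPval : ∀ j, Polynomial.aeval s (P j) =
      (s - algebraMap k Fb r) * Polynomial.aeval s (d j) - algebraMap k Fb (g j) := by
    intro j
    simp only [hP, map_sub, map_mul, Polynomial.aeval_X, Polynomial.aeval_C]
  have hsum : ∑ j, (⟨Polynomial.aeval s (P j), nmolo_aeval_mem_adjoin s (P j)⟩ :
      ↥(IntermediateField.adjoin k {s})) • xb j = 0 := by
    have h1 : ∀ j, (⟨Polynomial.aeval s (P j), nmolo_aeval_mem_adjoin s (P j)⟩ :
        ↥(IntermediateField.adjoin k {s})) • xb j =
        (s - algebraMap k Fb r) * (Polynomial.aeval s (d j) * xb j) -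
          algebraMap k Fb (g j) * xb j := by
      intro j
      rw [Algebra.smul_def]
      change Polynomial.aeval s (P j) * xb j = _
      rw [hPval j]; ring
    rw [Finset.sum_congr rfl fun j _ => h1 j, Finset.sum_sub_distrib, ← Finset.mul_sum, h,
      sub_self]
  have h0 := Fintype.linearIndependent_iff.1 hxb _ hsum i
  have h1 : Polynomial.aeval s (P i) = 0 := congrArg Subtype.val h0
  have h2 : P i = 0 := transcendental_iff.1 hs _ h1
  have h3 := congrArg (Polynomial.eval r) h2
  simp only [hP, Polynomial.eval_sub, Polynomial.eval_mul, Polynomial.eval_X, Polynomial.eval_C,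
    sub_self, zero_mul, zero_sub, Polynomial.eval_zero, neg_eq_zero] at h3
  exact h3

/-- **(N3), one step.** -/
theorem nmo_local_step (G : RedDatum K F k Fb) (t : G.O) (ht : Transcendental k (G.red t))
    {n : ℕ} (x : Fin n → G.O)
    (hxint : ∀ i, IsIntegral ↥(Algebra.adjoin K {(t : F)}) (x i : F)) (hxorth : NmoOrth G t x)
    (hxspan : ∀ w : G.O, IsIntegral ↥(Algebra.adjoin K {(t : F)}) (w : F) →
      ∃ c : Fin n → k[X], G.red w = ∑ i, Polynomial.aeval (G.red t) (c i) * G.red (x i))
    (ρ : G.A) (w : F) (hw : IsIntegral ↥(Algebra.adjoin K {(t : F)}) w)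
    (p : Fin n → K[X])
    (h : ((t : F) - algebraMap K F (ρ : K)) * w = ∑ i, Polynomial.aeval (t : F) (p i) * (x i : F)) :
    ∃ q : Fin n → K[X], w = ∑ i, Polynomial.aeval (t : F) (q i) * (x i : F) := by
  classical
  -- Euclidean division of the coefficients by `X - ρ`
  set q : Fin n → K[X] := fun i => p i /ₘ (X - C (ρ : K)) with hq
  set c : Fin n → K := fun i => (p i).eval (ρ : K) with hc
  have hpq : ∀ i, Polynomial.aeval (t : F) (p i) =
      ((t : F) - algebraMap K F (ρ : K)) * Polynomial.aeval (t : F) (q i) +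
        algebraMap K F (c i) := fun i => nmolo_aeval_divByMonic (t : F) (ρ : K) (p i)
  set w' : F := w - ∑ i, Polynomial.aeval (t : F) (q i) * (x i : F) with hw'
  have hw'int : IsIntegral ↥(Algebra.adjoin K {(t : F)}) w' :=
    hw.sub (IsIntegral.sum _ fun i _ => (nmolo_isIntegral_aeval (t : F) (q i)).mul (hxint i))
  have hw'eq : ((t : F) - algebraMap K F (ρ : K)) * w' =
      ∑ i, algebraMap K F (c i) * (x i : F) := by
    rw [hw', mul_sub, h, Finset.mul_sum, ← Finset.sum_sub_distrib]
    refine Finset.sum_congr rfl fun i _ => ?_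
    rw [hpq i]; ring
  -- the unit `u = t - ρ` of `O`
  have hρO : algebraMap K F (ρ : K) ∈ G.O := (G.algebraMap_mem _).2 ρ.2
  set u : G.O := t - ⟨algebraMap K F (ρ : K), hρO⟩ with hu
  have hured : G.red u ≠ 0 := by
    rw [hu, map_sub, G.red_algebraMap ρ hρO]
    intro h0
    have h1 : G.red t = algebraMap k Fb (G.π ρ) := sub_eq_zero.1 h0
    apply ht
    rw [h1]
    exact isAlgebraic_algebraMap _
  have hucoe : (u : F) = (t : F) - algebraMap K F (ρ : K) := rfl
  have hune : (u : F) ≠ 0 := by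
    intro h0
    apply hured
    have h1 : u = 0 := Subtype.ext h0
    rw [h1, map_zero]
  by_cases hc0 : (fun i => algebraMap K F (c i)) = 0
  · refine ⟨q, ?_⟩
    have h1 : ((t : F) - algebraMap K F (ρ : K)) * w' = 0 := by
      rw [hw'eq]
      refine Finset.sum_eq_zero fun i _ => ?_
      have h2 : algebraMap K F (c i) = 0 := congrFun hc0 i
      rw [h2, zero_mul]
    have hw'0 : w' = 0 := by
      rcases mul_eq_zero.1 h1 with h2 | h2
      · exact absurd h2 hune
      · exact h2
    exact sub_eq_zero.1 hw'0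
  · exfalso
    obtain ⟨a, -, hmem, i₀, hi₀⟩ := nmo_exists_scale G (fun i => algebraMap K F (c i)) hc0
    have hsm : ∀ i, a • algebraMap K F (c i) = algebraMap K F (a * c i) := by
      intro i
      rw [Algebra.smul_def, map_mul]
    have hmem' : ∀ i, a * c i ∈ G.A := by
      intro i
      have h1 := hmem i
      rw [hsm i] at h1
      exact (G.algebraMap_mem _).1 h1
    set γ : Fin n → G.A := fun i => ⟨a * c i, hmem' i⟩ with hγ
    have hγO : ∀ i, algebraMap K F ((γ i : G.A) : K) ∈ G.O :=
      fun i => (G.algebraMap_mem _).2 (γ i).2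
    set w'' : F := algebraMap K F a * w' with hw''
    have hw''int : IsIntegral ↥(Algebra.adjoin K {(t : F)}) w'' :=
      (nmolo_isIntegral_const (t : F) a).mul hw'int
    have hw''eq : (u : F) * w'' = ∑ i, algebraMap K F ((γ i : G.A) : K) * (x i : F) := by
      rw [hw'', hucoe, mul_left_comm, hw'eq, Finset.mul_sum]
      refine Finset.sum_congr rfl fun i _ => ?_
      change algebraMap K F a * (algebraMap K F (c i) * (x i : F)) =
        algebraMap K F (a * c i) * (x i : F)
      rw [map_mul]; ring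
    have hsumO : (∑ i, algebraMap K F ((γ i : G.A) : K) * (x i : F)) ∈ G.O :=
      G.O.sum_mem fun i _ => G.O.mul_mem (hγO i) (x i).2
    have hw''O : w'' ∈ G.O := by
      have h1 : w'' = (u : F)⁻¹ * ((u : F) * w'') := by
        rw [← mul_assoc, inv_mul_cancel₀ hune, one_mul]
      rw [h1, hw''eq]
      exact G.O.mul_mem (G.inv_mem u hured) hsumO
    obtain ⟨d, hd⟩ := hxspan ⟨w'', hw''O⟩ hw''int
    -- the equation `u * w'' = Σ γᵢ xᵢ` inside `O`
    have heqO : u * ⟨w'', hw''O⟩ =
        ∑ i, (⟨algebraMap K F ((γ i : G.A) : K), hγO i⟩ : G.O) * x i := by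
      apply Subtype.ext
      rw [Subring.coe_mul, hw''eq]
      rw [AddSubmonoidClass.coe_finsetSum]
      rfl
    have hred := congrArg G.red heqO
    rw [map_mul, map_sum, hd] at hred
    have hred' : (G.red t - algebraMap k Fb (G.π ρ)) *
        ∑ i, Polynomial.aeval (G.red t) (d i) * G.red (x i) =
        ∑ i, algebraMap k Fb (G.π (γ i)) * G.red (x i) := by
      have hu' : G.red u = G.red t - algebraMap k Fb (G.π ρ) := by
        rw [hu, map_sub, G.red_algebraMap ρ hρO]
      rw [← hu', hred]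
      refine Finset.sum_congr rfl fun i _ => ?_
      rw [map_mul, G.red_algebraMap (γ i) (hγO i)]
    have hγ0 := nmolo_red_key (G.red t) ht (fun i => G.red (x i)) hxorth (G.π ρ) d
      (fun i => G.π (γ i)) hred'
    apply hi₀
    have h1 : (⟨a • algebraMap K F (c i₀), hmem i₀⟩ : G.O) =
        ⟨algebraMap K F ((γ i₀ : G.A) : K), hγO i₀⟩ := Subtype.ext (hsm i₀)
    rw [h1, G.red_algebraMap (γ i₀) (hγO i₀), hγ0 i₀, map_zero]

/-- iterating `nmo_local_step`: `(t - ρ)^m w ∈ Λ` implies `w ∈ Λ` for `w` integral. -/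
theorem nmolo_local_pow (G : RedDatum K F k Fb) (t : G.O) (ht : Transcendental k (G.red t))
    {n : ℕ} (x : Fin n → G.O)
    (hxint : ∀ i, IsIntegral ↥(Algebra.adjoin K {(t : F)}) (x i : F)) (hxorth : NmoOrth G t x)
    (hxspan : ∀ w : G.O, IsIntegral ↥(Algebra.adjoin K {(t : F)}) (w : F) →
      ∃ c : Fin n → k[X], G.red w = ∑ i, Polynomial.aeval (G.red t) (c i) * G.red (x i))
    (ρ : G.A) (m : ℕ) : ∀ (w : F), IsIntegral ↥(Algebra.adjoin K {(t : F)}) w →
      ∀ p : Fin n → K[X],
        ((t : F) - algebraMap K F (ρ : K)) ^ m * w =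
          ∑ i, Polynomial.aeval (t : F) (p i) * (x i : F) →
        ∃ q : Fin n → K[X], w = ∑ i, Polynomial.aeval (t : F) (q i) * (x i : F) := by
  induction m with
  | zero =>
    intro w _ p h
    exact ⟨p, by rw [← h, pow_zero, one_mul]⟩
  | succ m ih =>
    intro w hw p h
    have hint : IsIntegral ↥(Algebra.adjoin K {(t : F)})
        (((t : F) - algebraMap K F (ρ : K)) ^ m * w) := by
      have h1 : IsIntegral ↥(Algebra.adjoin K {(t : F)}) ((t : F) - algebraMap K F (ρ : K)) := by
        have h2 := nmolo_isIntegral_aeval (t : F) (X - C (ρ : K))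
        rwa [map_sub, Polynomial.aeval_X, Polynomial.aeval_C] at h2
      exact (h1.pow m).mul hw
    have h' : ((t : F) - algebraMap K F (ρ : K)) *
        (((t : F) - algebraMap K F (ρ : K)) ^ m * w) =
        ∑ i, Polynomial.aeval (t : F) (p i) * (x i : F) := by
      rw [← h, pow_succ]; ring
    obtain ⟨q, hq⟩ := nmo_local_step G t ht x hxint hxorth hxspan ρ _ hint p h'
    exact ih w hw q hq

/-- **(N3)** `x` is a local basis of `B` at every `ρ ∈ A`. -/
theorem nmo_local_basis (G : RedDatum K F k Fb) (t : G.O) (ht : Transcendental k (G.red t))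
    [FiniteDimensional ↥(IntermediateField.adjoin K {(t : F)}) F]
    {n : ℕ} (hn : Module.finrank ↥(IntermediateField.adjoin K {(t : F)}) F = n)
    (x : Fin n → G.O)
    (hxint : ∀ i, IsIntegral ↥(Algebra.adjoin K {(t : F)}) (x i : F)) (hxorth : NmoOrth G t x)
    (hxspan : ∀ w : G.O, IsIntegral ↥(Algebra.adjoin K {(t : F)}) (w : F) →
      ∃ c : Fin n → k[X], G.red w = ∑ i, Polynomial.aeval (G.red t) (c i) * G.red (x i))
    (ρ : G.A) (w : F) (hw : IsIntegral ↥(Algebra.adjoin K {(t : F)}) w) :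
    ∃ (q : K[X]) (c : Fin n → K[X]), q.eval (ρ : K) ≠ 0 ∧
      Polynomial.aeval (t : F) q * w = ∑ i, Polynomial.aeval (t : F) (c i) * (x i : F) := by
  classical
  obtain ⟨c, hc⟩ := nmo_exists_coeff G t ht hn x hxorth w
  -- write every coefficient as a quotient of polynomials in `t`
  have hrs : ∀ i, ∃ r s : K[X], Polynomial.aeval (t : F) s ≠ 0 ∧
      (c i : F) * Polynomial.aeval (t : F) s = Polynomial.aeval (t : F) r := by
    intro i
    obtain ⟨r, s, hrs⟩ := (IntermediateField.mem_adjoin_simple_iff K (c i : F)).1 (c i).2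
    by_cases hs : Polynomial.aeval (t : F) s = 0
    · refine ⟨0, 1, ?_, ?_⟩
      · rw [map_one]; exact one_ne_zero
      · rw [hrs, hs, div_zero, zero_mul, map_zero]
    · exact ⟨r, s, hs, by rw [hrs, div_mul_cancel₀ _ hs]⟩
  choose r s hs hrs using hrs
  set Q : K[X] := ∏ i, s i with hQ
  have hQne : Polynomial.aeval (t : F) Q ≠ 0 := by
    rw [hQ, map_prod]
    exact Finset.prod_ne_zero_iff.2 fun i _ => hs i
  have hQ0 : Q ≠ 0 := by
    intro h0
    apply hQne
    rw [h0, map_zero]
  have hQw : Polynomial.aeval (t : F) Q * w =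
      ∑ i, Polynomial.aeval (t : F) (r i * ∏ j ∈ Finset.univ.erase i, s j) * (x i : F) := by
    rw [hc, Finset.mul_sum]
    refine Finset.sum_congr rfl fun i _ => ?_
    rw [hQ, ← Finset.mul_prod_erase Finset.univ s (Finset.mem_univ i), map_mul, map_mul, ← hrs i]
    ring
  -- split off the power of `X - ρ` from the common denominator
  obtain ⟨q, hqQ, hqdvd⟩ :=
    Polynomial.exists_eq_pow_rootMultiplicity_mul_and_not_dvd Q hQ0 (ρ : K)
  have hqint : IsIntegral ↥(Algebra.adjoin K {(t : F)}) (Polynomial.aeval (t : F) q * w) :=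
    (nmolo_isIntegral_aeval (t : F) q).mul hw
  have hpow : ((t : F) - algebraMap K F (ρ : K)) ^ (Q.rootMultiplicity (ρ : K)) *
      (Polynomial.aeval (t : F) q * w) =
      ∑ i, Polynomial.aeval (t : F) (r i * ∏ j ∈ Finset.univ.erase i, s j) * (x i : F) := by
    rw [← hQw]
    conv_rhs => rw [hqQ]
    rw [map_mul, map_pow, map_sub, Polynomial.aeval_X, Polynomial.aeval_C, mul_assoc]
  obtain ⟨c', hc'⟩ := nmolo_local_pow G t ht x hxint hxorth hxspan ρ _ _ hqint _ hpow
  refine ⟨q, c', ?_, hc'⟩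
  intro h0
  exact hqdvd (Polynomial.dvd_iff_isRoot.2 h0)

end Fermat.Agent.S18L
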