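import Mathlib
import Fermat.Agent.S18L.NmoLocal

/-!
# S18, plan B, package NMO: a global denominator without roots in `A`

Let `x₁, …, xₙ ∈ B ∩ O` be orthonormal with `red (B ∩ O) = ⊕ k[t̄] x̄ᵢ`.  For every `w ∈ B` there
is ONE denominator `Q ∈ K[X]` without roots in `G.A` such that `Q(t) w ∈ ⊕ K[t] xᵢ`
(take a denominator of minimal degree and use `nmo_local_basis` at a hypothetical root).
-/

set_option autoImplicit false

namespace Fermat.Agent.S18L

open Polynomial

variable {K F k Fb : Type*} [Field K] [Field F] [Algebra K F] [Field k] [Field Fb] [Algebra k Fb]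

/-- the ideal of all denominators `q ∈ K[X]` with `q(t) w ∈ ⊕ K[t] xᵢ`. -/
def nmoco_ideal (K : Type*) {F : Type*} [Field K] [Field F] [Algebra K F] (t : F) {n : ℕ}
    (x : Fin n → F) (w : F) : Ideal K[X] where
  carrier := {q | ∃ c : Fin n → K[X],
    Polynomial.aeval t q * w = ∑ i, Polynomial.aeval t (c i) * x i}
  zero_mem' := ⟨0, by simp⟩
  add_mem' := by
    rintro a b ⟨ca, ha⟩ ⟨cb, hb⟩
    refine ⟨ca + cb, ?_⟩
    simp only [map_add, add_mul, Pi.add_apply, Finset.sum_add_distrib, ha, hb]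
  smul_mem' := by
    rintro p q ⟨c, hc⟩
    refine ⟨fun i => p * c i, ?_⟩
    simp only [smul_eq_mul, map_mul, mul_assoc, hc, Finset.mul_sum]

theorem nmoco_mem_ideal (K : Type*) {F : Type*} [Field K] [Field F] [Algebra K F] (t : F) {n : ℕ}
    (x : Fin n → F) (w : F) (q : K[X]) :
    q ∈ nmoco_ideal K t x w ↔ ∃ c : Fin n → K[X],
      Polynomial.aeval t q * w = ∑ i, Polynomial.aeval t (c i) * x i :=
  Iff.rfl

/-- **(N3), global form**: a denominator with no roots in `A`. -/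
theorem nmo_global_basis (G : RedDatum K F k Fb) (t : G.O) (ht : Transcendental k (G.red t))
    [FiniteDimensional ↥(IntermediateField.adjoin K {(t : F)}) F]
    {n : ℕ} (hn : Module.finrank ↥(IntermediateField.adjoin K {(t : F)}) F = n)
    (x : Fin n → G.O)
    (hxint : ∀ i, IsIntegral ↥(Algebra.adjoin K {(t : F)}) (x i : F)) (hxorth : NmoOrth G t x)
    (hxspan : ∀ w : G.O, IsIntegral ↥(Algebra.adjoin K {(t : F)}) (w : F) →
      ∃ c : Fin n → k[X], G.red w = ∑ i, Polynomial.aeval (G.red t) (c i) * G.red (x i))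
    (w : F) (hw : IsIntegral ↥(Algebra.adjoin K {(t : F)}) w) :
    ∃ (Q : K[X]) (P : Fin n → K[X]), (∀ a : G.A, Q.eval (a : K) ≠ 0) ∧
      Polynomial.aeval (t : F) Q * w = ∑ i, Polynomial.aeval (t : F) (P i) * (x i : F) := by
  have hloc : ∀ ρ : G.A, ∃ q ∈ nmoco_ideal K (t : F) (fun i => (x i : F)) w,
      q.eval (ρ : K) ≠ 0 := by
    intro ρ
    obtain ⟨q, c, hq, h⟩ := nmo_local_basis G t ht hn x hxint hxorth hxspan ρ w hw
    exact ⟨q, ⟨c, h⟩, hq⟩
  obtain ⟨g, hg⟩ :=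
    (IsPrincipalIdealRing.principal (nmoco_ideal K (t : F) (fun i => (x i : F)) w)).principal
  have hgdvd : ∀ q : K[X], q ∈ nmoco_ideal K (t : F) (fun i => (x i : F)) w ↔ g ∣ q := by
    intro q
    rw [hg]
    exact Ideal.mem_span_singleton
  obtain ⟨P, hP⟩ := (hgdvd g).2 dvd_rfl
  refine ⟨g, P, ?_, hP⟩
  intro ρ hρ
  obtain ⟨q, hqI, hq⟩ := hloc ρ
  obtain ⟨h, rfl⟩ := (hgdvd q).1 hqI
  exact hq (by rw [Polynomial.eval_mul, hρ, zero_mul])

end Fermat.Agent.S18L
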