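import Mathlib
import Fermat.Agent.S18L.NmoGlobal
import Fermat.Agent.S18L.NmDefs

/-!
# S18, package NM, block A: bridge lemmas between the NMO package and helper2's interface

* `nmoEval` is multiplicative and agrees with `aeval t (P.map G.A.subtype)`;
* `k[t̄]`-independence with polynomial coefficients is the same as orthonormality `NmoOrth`.
-/

set_option autoImplicit false

open scoped IntermediateField

namespace Fermat.Agent.S18L

open Polynomial

variable {K F k Fb : Type*} [Field K] [Field F] [Algebra K F] [Field k] [Field Fb] [Algebra k Fb]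

theorem nma_eval_eq (G : RedDatum K F k Fb) (t : F) (P : Polynomial G.A) :
    nmoEval G t P = Polynomial.aeval t (P.map G.A.subtype) := rfl

theorem nma_eval_mul (G : RedDatum K F k Fb) (t : F) (P Q : Polynomial G.A) :
    nmoEval G t (P * Q) = nmoEval G t P * nmoEval G t Q := by
  simp [nmoEval, Polynomial.map_mul]

theorem nma_eval_prod (G : RedDatum K F k Fb) (t : F) {ι : Type*} (s : Finset ι)
    (P : ι → Polynomial G.A) :
    nmoEval G t (∏ i ∈ s, P i) = ∏ i ∈ s, nmoEval G t (P i) := by
  simp [nmoEval, Polynomial.map_prod]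

/-- `k[t̄]`-independence (polynomial coefficients) implies `k(t̄)`-independence. -/
theorem nma_orth_of_indep (G : RedDatum K F k Fb) (t : G.O) {n : ℕ} (b : Fin n → G.O)
    (hb : ∀ p : Fin n → Polynomial k,
      (∑ i, Polynomial.aeval (G.red t) (p i) * G.red (b i)) = 0 → ∀ i, p i = 0) :
    NmoOrth G t b := by
  unfold NmoOrth
  rw [Fintype.linearIndependent_iff]
  intro g hg i
  -- write each coefficient as a fraction of polynomials
  have hfrac : ∀ j, ∃ r s : k[X], aeval (G.red t) s ≠ 0 ∧
      ((g j : ↥(IntermediateField.adjoin k {G.red t})) : Fb) * aeval (G.red t) s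
        = aeval (G.red t) r := by
    intro j
    obtain ⟨r, s, hrs⟩ := (IntermediateField.mem_adjoin_simple_iff k _).1 (g j).2
    by_cases hs : aeval (G.red t) s = 0
    · refine ⟨0, 1, by simp, ?_⟩
      rw [hrs, hs]; simp
    · refine ⟨r, s, hs, ?_⟩
      rw [hrs, div_mul_cancel₀ _ hs]
  choose r s hs hrs using hfrac
  -- multiply the relation by the product of all denominators
  have hrel : ∑ j, aeval (G.red t) (r j * ∏ l ∈ Finset.univ.erase j, s l) * G.red (b j) = 0 := by
    have h1 : (∏ l, aeval (G.red t) (s l)) * ∑ j, (g j : Fb) * G.red (b j) = 0 := by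
      have : ∑ j, (g j : Fb) * G.red (b j) = 0 := by
        have := hg
        simpa [Algebra.smul_def] using this
      rw [this, mul_zero]
    rw [Finset.mul_sum] at h1
    rw [← h1]
    refine Finset.sum_congr rfl fun j _ => ?_
    rw [map_mul, ← hrs j, map_prod, ← Finset.mul_prod_erase Finset.univ _ (Finset.mem_univ j)]
    ring
  have h0 := hb _ hrel i
  have hprod : (∏ l ∈ Finset.univ.erase i, s l) ≠ 0 := by
    rw [Finset.prod_ne_zero_iff]
    intro l _ hl
    exact hs l (by rw [hl, map_zero])
  have hri : r i = 0 := by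
    rcases mul_eq_zero.1 h0 with h | h
    · exact h
    · exact absurd h hprod
  have : ((g i : ↥(IntermediateField.adjoin k {G.red t})) : Fb) = 0 := by
    have h2 := hrs i
    rw [hri, map_zero] at h2
    exact (mul_eq_zero.1 h2).resolve_right (hs i)
  exact_mod_cast this

/-- `k(t̄)`-independence implies `k[t̄]`-independence (polynomial coefficients). -/
theorem nma_indep_of_orth (G : RedDatum K F k Fb) (t : G.O) (ht : Transcendental k (G.red t))
    {n : ℕ} (b : Fin n → G.O) (hb : NmoOrth G t b) (p : Fin n → Polynomial k)
    (hp : (∑ i, Polynomial.aeval (G.red t) (p i) * G.red (b i)) = 0) : ∀ i, p i = 0 := by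
  unfold NmoOrth at hb
  rw [Fintype.linearIndependent_iff] at hb
  have hmem : ∀ i, aeval (G.red t) (p i) ∈ IntermediateField.adjoin k {G.red t} := by
    intro i
    rw [IntermediateField.mem_adjoin_simple_iff]
    exact ⟨p i, 1, by simp⟩
  intro i
  have h := hb (fun i => ⟨aeval (G.red t) (p i), hmem i⟩) (by simpa [Algebra.smul_def] using hp) i
  have h' : aeval (G.red t) (p i) = 0 := by
    have := congrArg Subtype.val h
    simpa using this
  exact (transcendental_iff.1 ht) _ h'

end Fermat.Agent.S18L
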