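import Mathlib
import Fermat.Agent.S18L.NmDefs
import Fermat.Agent.S18L.NmAAux

/-!
# S18, package NM, block A (owner helper1): the Gauss / orthonormal layer over the `t`-line

Interface statements (frozen by helper2).  Setting: `G : RedDatum K F k Fb`, `t : G.O`,
`h : NmHyp G t n`.
-/

set_option autoImplicit false

open scoped IntermediateField

namespace Fermat.Agent.S18L

open Fermat.Agent.RRL

variable {K F k Fb : Type*} [Field K] [Field F] [Algebra K F] [Field k] [Field Fb] [Algebra k Fb]

/-- (A0) polynomials in `t` with coefficients in `A` lie in `O` and reduce coefficientwise. -/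
theorem nm_red_aeval (G : RedDatum K F k Fb) (t : G.O) (p : Polynomial G.A) :
    ∃ h : Polynomial.aeval (t : F) (p.map G.A.subtype) ∈ G.O,
      G.red ⟨Polynomial.aeval (t : F) (p.map G.A.subtype), h⟩
        = Polynomial.aeval (G.red t) (p.map G.π) :=
  ⟨nmo_eval_mem G t p, nmo_red_eval G t p⟩

/-- (A1) Gauss-integral coordinates: every element of `O` has, with respect to a family `b`
in `O` with `k[red t]`-independent reductions (`n = [F : K(t)]` members), coordinates which are
fractions of polynomials over `A` with denominator of nonzero reduction. -/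
theorem nm_coords [IsAlgClosed K] [CharZero K] [IsAlgClosed k]
    (G : RedDatum K F k Fb) (t : G.O) (n : ℕ) (h : NmHyp G t n) (b : Fin n → G.O)
    (hb : ∀ p : Fin n → Polynomial k,
      (∑ i, Polynomial.aeval (G.red t) (p i) * G.red (b i)) = 0 → ∀ i, p i = 0)
    (x : G.O) :
    ∃ (E : Polynomial G.A) (P : Fin n → Polynomial G.A), E.map G.π ≠ 0 ∧
      Polynomial.aeval (t : F) (E.map G.A.subtype) * (x : F)
        = ∑ i, Polynomial.aeval (t : F) ((P i).map G.A.subtype) * ((b i : G.O) : F) := by
  have := h.fin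
  have horth : NmoOrth G t b := nma_orth_of_indep G t b hb
  obtain ⟨c, hc⟩ := nmo_exists_coeff G t h.tr h.rank b horth (x : F)
  have hcO : ∀ i, ((c i : ↥(IntermediateField.adjoin K {(t : F)})) : F) ∈ G.O :=
    nmo_coeff_mem G t h.tr b horth (fun i => (c i : F)) (fun i => (c i).2) (by rw [← hc]; exact x.2)
  have hrepr : ∀ i, ∃ P Q : Polynomial G.A, Q.map G.π ≠ 0 ∧
      ((c i : ↥(IntermediateField.adjoin K {(t : F)})) : F) * nmoEval G (t : F) Q
        = nmoEval G (t : F) P :=
    fun i => nmo_exists_repr G t h.tr _ (c i).2 (hcO i)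
  choose P Q hQ hPQ using hrepr
  refine ⟨∏ i, Q i, fun i => P i * ∏ l ∈ Finset.univ.erase i, Q l, ?_, ?_⟩
  · rw [Polynomial.map_prod, Finset.prod_ne_zero_iff]
    exact fun i _ => hQ i
  · change nmoEval G (t : F) (∏ i, Q i) * (x : F)
      = ∑ i, nmoEval G (t : F) (P i * ∏ l ∈ Finset.univ.erase i, Q l) * ((b i : G.O) : F)
    rw [hc, Finset.mul_sum]
    refine Finset.sum_congr rfl fun i _ => ?_
    rw [nma_eval_mul, ← hPQ i, ← Finset.mul_prod_erase Finset.univ _ (Finset.mem_univ i),
      nma_eval_mul]
    ring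

/-- (A2) an element of `O` integral over `K[t]` has reduction integral over `k[red t]`. -/
theorem nm_red_fin [IsAlgClosed K] [CharZero K] [IsAlgClosed k]
    (G : RedDatum K F k Fb) (t : G.O) (n : ℕ) (h : NmHyp G t n) (x : G.O)
    (hx : NmFin K (t : F) (x : F)) : NmFin k (G.red t) (G.red x) := by
  have := h.fin
  have := h.finb
  have := h.sep
  exact nmo_isIntegral_red G t h.tr h.rank h.rankb x hx

/-- (A3) the trace of an element of `O` integral over `K[t]` is a polynomial in `t` with
coefficients in `A`, and it reduces to the trace of the reduction. -/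
theorem nm_trace_red [IsAlgClosed K] [CharZero K] [IsAlgClosed k]
    (G : RedDatum K F k Fb) (t : G.O) (n : ℕ) (h : NmHyp G t n) (x : G.O)
    (hx : NmFin K (t : F) (x : F)) :
    ∃ T : Polynomial G.A,
      algebraMap K⟮(t : F)⟯ F (Algebra.trace K⟮(t : F)⟯ F (x : F))
        = Polynomial.aeval (t : F) (T.map G.A.subtype) ∧
      algebraMap k⟮G.red t⟯ Fb (Algebra.trace k⟮G.red t⟯ Fb (G.red x))
        = Polynomial.aeval (G.red t) (T.map G.π) := by
  have := h.fin
  have := h.finb
  obtain ⟨T, hT⟩ := nmo_trace_eq_eval G t h.tr h.rank h.rankb x hx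
  obtain ⟨hmem, hred⟩ := nmo_trace_mem G t h.tr h.rank h.rankb x
  refine ⟨T, hT, ?_⟩
  have h1 : (⟨_, hmem⟩ : G.O) = ⟨nmoEval G (t : F) T, nmo_eval_mem G t T⟩ := Subtype.ext hT
  rw [h1, nmo_red_eval] at hred
  exact hred.symm

/-- (A4) existence of a lifted integral basis. -/
theorem nm_exists_basis [IsAlgClosed K] [CharZero K] [IsAlgClosed k]
    (G : RedDatum K F k Fb) (t : G.O) (n : ℕ) (h : NmHyp G t n) :
    ∃ x : Fin n → G.O, NmBasis G t n x := by
  have := h.fin
  have := h.finb
  have := h.sep
  obtain ⟨x, hint, horth, hspan⟩ := nmo_exists_basis G t h.tr h.rank h.rankb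
  exact ⟨x, ⟨hint, fun p hp => nma_indep_of_orth G t h.tr x horth p hp, hspan⟩⟩

/-- (A5) a lifted integral basis is a basis of the integral closure of `K[t]` locally at every
point of the closed unit disc: denominators have no roots in `A`. -/
theorem nm_local_basis [IsAlgClosed K] [CharZero K] [IsAlgClosed k]
    (G : RedDatum K F k Fb) (t : G.O) (n : ℕ) (h : NmHyp G t n) (x : Fin n → G.O)
    (hx : NmBasis G t n x) (y : F) (hy : NmFin K (t : F) y) :
    ∃ (Q : Polynomial K) (P : Fin n → Polynomial K), (∀ a : G.A, Q.eval (a : K) ≠ 0) ∧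
      Polynomial.aeval (t : F) Q * y
        = ∑ i, Polynomial.aeval (t : F) (P i) * ((x i : G.O) : F) := by
  have := h.fin
  exact nmo_global_basis G t h.tr h.rank x hx.fin (nma_orth_of_indep G t x hx.indep) hx.span y hy

end Fermat.Agent.S18L
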