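import Mathlib
import Fermat.Agent.S18L.NmDefs

/-!
# S18, package NM, block C (helper3): three elementary lemmas

* `nmc_int`       : `y` integral over `κ[θ⁻¹]` ⇒ `θ ^ e * y` integral over `κ[θ]` for some `e`
* `nmc_indep_inv` : independence over polynomials in `θ⁻¹` ⇒ independence over polynomials in `θ`
* `nmc_scale`     : a finite family of polynomials over `K`, not all zero, can be scaled by a
                    nonzero constant into `A[X]` with not all reductions zero
-/

set_option autoImplicit false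

namespace Fermat.Agent.S18L

/-- `q(θ') * θ ^ N ∈ κ[θ]` when `deg q ≤ N` and `θ' * θ = 1`. -/
theorem nmca_aeval_mul_pow_mem {κ Φ : Type*} [Field κ] [Field Φ] [Algebra κ Φ] (θ θ' : Φ)
    (h : θ' * θ = 1) (q : Polynomial κ) (N : ℕ) (hN : q.natDegree ≤ N) :
    Polynomial.aeval θ' q * θ ^ N ∈ Algebra.adjoin κ {θ} := by
  rw [Polynomial.aeval_eq_sum_range, Finset.sum_mul]
  refine Subalgebra.sum_mem _ fun j hj => ?_
  have hjN : j ≤ N := le_trans (Nat.lt_succ_iff.mp (Finset.mem_range.mp hj)) hN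
  have e : θ' ^ j * θ ^ N = θ ^ (N - j) := by
    calc θ' ^ j * θ ^ N = θ' ^ j * (θ ^ j * θ ^ (N - j)) := by
          rw [← pow_add, Nat.add_sub_cancel' hjN]
      _ = (θ' * θ) ^ j * θ ^ (N - j) := by rw [mul_pow, mul_assoc]
      _ = θ ^ (N - j) := by rw [h, one_pow, one_mul]
  rw [smul_mul_assoc, e]
  exact Subalgebra.smul_mem _
    (Subalgebra.pow_mem _ (Algebra.self_mem_adjoin_singleton κ θ) _) _

/-- (INT) -/
theorem nmc_int {κ Φ : Type*} [Field κ] [Field Φ] [Algebra κ Φ] (θ θ' y : Φ) (h : θ' * θ = 1)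
    (hy : NmFin κ θ' y) : ∃ e : ℕ, NmFin κ θ (θ ^ e * y) := by
  obtain ⟨f, hfm, hfy⟩ := hy
  have hgm : (f.map (algebraMap (Algebra.adjoin κ {θ'}) Φ)).Monic := hfm.map _
  have hgy : (f.map (algebraMap (Algebra.adjoin κ {θ'}) Φ)).eval y = 0 := by
    rw [Polynomial.eval_map]
    exact hfy
  have hq : ∀ i : ℕ, ∃ q : Polynomial κ,
      Polynomial.aeval θ' q = (f.map (algebraMap (Algebra.adjoin κ {θ'}) Φ)).coeff i := by
    intro i
    obtain ⟨q, hq⟩ := (Algebra.adjoin_singleton_eq_range_aeval κ θ').le (f.coeff i).2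
    exact ⟨q, by rw [Polynomial.coeff_map]; exact hq⟩
  generalize f.map (algebraMap (Algebra.adjoin κ {θ'}) Φ) = g at hgm hgy hq
  choose q hq using hq
  refine ⟨(Finset.range g.natDegree).sup (fun i => (q i).natDegree), ?_⟩
  generalize he : (Finset.range g.natDegree).sup (fun i => (q i).natDegree) = e
  have hcoeff : ∀ i : ℕ, (g.scaleRoots (θ ^ e)).coeff i ∈ Algebra.adjoin κ {θ} := by
    intro i
    rw [Polynomial.coeff_scaleRoots]
    rcases lt_trichotomy i g.natDegree with hi | hi | hi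
    · have h1 : (θ ^ e) ^ (g.natDegree - i) = θ ^ e * (θ ^ e) ^ (g.natDegree - i - 1) := by
        rw [← pow_succ', Nat.sub_add_cancel (Nat.sub_pos_of_lt hi)]
      rw [h1, ← mul_assoc, ← hq i]
      refine Subalgebra.mul_mem _ (nmca_aeval_mul_pow_mem θ θ' h (q i) e ?_)
        (Subalgebra.pow_mem _ (Subalgebra.pow_mem _ (Algebra.self_mem_adjoin_singleton κ θ) _) _)
      rw [← he]
      exact Finset.le_sup (f := fun i => (q i).natDegree) (Finset.mem_range.mpr hi)
    · rw [hi, Nat.sub_self, pow_zero, mul_one, hgm.coeff_natDegree]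
      exact Subalgebra.one_mem _
    · rw [Polynomial.coeff_eq_zero_of_natDegree_lt hi, zero_mul]
      exact Subalgebra.zero_mem _
  have hlift : g.scaleRoots (θ ^ e) ∈ Polynomial.lifts (algebraMap (Algebra.adjoin κ {θ}) Φ) := by
    rw [Polynomial.lifts_iff_coeff_lifts]
    intro i
    exact ⟨⟨_, hcoeff i⟩, rfl⟩
  obtain ⟨p, hp1, -, hp2⟩ := Polynomial.lifts_and_natDegree_eq_and_monic hlift
    ((Polynomial.monic_scaleRoots_iff _).mpr hgm)
  refine ⟨p, hp2, ?_⟩
  rw [Polynomial.eval₂_eq_eval_map, hp1]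
  have h3 := Polynomial.scaleRoots_eval₂_mul (p := g) (RingHom.id Φ) y (θ ^ e)
  rw [Polynomial.eval₂_id, Polynomial.eval₂_id, RingHom.id_apply, hgy, mul_zero] at h3
  exact h3

/-- (RV) -/
theorem nmc_indep_inv {κ Φ : Type*} [Field κ] [Field Φ] [Algebra κ Φ] (θ θ' : Φ)
    (h : θ' * θ = 1) {n : ℕ} (x : Fin n → Φ)
    (hx : ∀ p : Fin n → Polynomial κ,
      (∑ i, Polynomial.aeval θ' (p i) * x i) = 0 → ∀ i, p i = 0) :
    ∀ p : Fin n → Polynomial κ, (∑ i, Polynomial.aeval θ (p i) * x i) = 0 → ∀ i, p i = 0 := by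
  intro p hp
  have hdeg : ∀ i, (p i).natDegree ≤ Finset.univ.sup fun j => (p j).natDegree := fun i =>
    Finset.le_sup (f := fun j => (p j).natDegree) (Finset.mem_univ i)
  have hθ : θ ≠ 0 := by
    rintro rfl
    rw [mul_zero] at h
    exact zero_ne_one h
  have key : ∀ i, Polynomial.aeval θ'
      (Polynomial.reflect (Finset.univ.sup fun j => (p j).natDegree) (p i))
        * θ ^ (Finset.univ.sup fun j => (p j).natDegree) = Polynomial.aeval θ (p i) := by
    intro i
    let _ : Invertible θ := ⟨θ', h, by rw [mul_comm]; exact h⟩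
    have h1 := Polynomial.eval₂_reflect_mul_pow (algebraMap κ Φ) θ
      (Finset.univ.sup fun j => (p j).natDegree) (p i) (hdeg i)
    rw [Polynomial.aeval_def, Polynomial.aeval_def]
    exact h1
  have hsum : ∑ i, Polynomial.aeval θ'
      (Polynomial.reflect (Finset.univ.sup fun j => (p j).natDegree) (p i)) * x i = 0 := by
    have h1 : (∑ i, Polynomial.aeval θ'
        (Polynomial.reflect (Finset.univ.sup fun j => (p j).natDegree) (p i)) * x i)
          * θ ^ (Finset.univ.sup fun j => (p j).natDegree) = 0 := by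
      rw [Finset.sum_mul, ← hp]
      refine Finset.sum_congr rfl fun i _ => ?_
      rw [← key i]
      ring
    exact (mul_eq_zero.mp h1).resolve_right (pow_ne_zero _ hθ)
  intro i
  exact Polynomial.reflect_eq_zero_iff.mp
    (hx (fun i => Polynomial.reflect (Finset.univ.sup fun j => (p j).natDegree) (p i)) hsum i)

/-- (SC) -/
theorem nmc_scale {K k : Type*} [Field K] [Field k] (A : ValuationSubring K) (π : A →+* k)
    (hπ : ∀ a : A, π a = 0 ↔ ¬ IsUnit a) {n : ℕ} (c : Fin n → Polynomial K)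
    (hc : ∃ i, c i ≠ 0) :
    ∃ (a : K) (c' : Fin n → Polynomial A), a ≠ 0 ∧
      (∀ i, (c' i).map A.subtype = Polynomial.C a * c i) ∧ ∃ i, (c' i).map π ≠ 0 := by
  classical
  have _ := hπ
  obtain ⟨i₁, hi₁⟩ := hc
  -- the finite set of positions of the nonzero coefficients
  have hT : (Finset.univ.sigma (fun i : Fin n => (c i).support)).Nonempty := by
    obtain ⟨j, hj⟩ := Polynomial.support_nonempty.mpr hi₁
    exact ⟨⟨i₁, j⟩, Finset.mem_sigma.mpr ⟨Finset.mem_univ _, hj⟩⟩
  -- a coefficient of maximal valuation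
  obtain ⟨⟨i₀, j₀⟩, h₀, hmax⟩ := Finset.exists_max_image
    (Finset.univ.sigma (fun i : Fin n => (c i).support))
    (fun x => A.valuation ((c x.1).coeff x.2)) hT
  have hm : (c i₀).coeff j₀ ≠ 0 := Polynomial.mem_support_iff.mp (Finset.mem_sigma.mp h₀).2
  have hvm : A.valuation ((c i₀).coeff j₀) ≠ 0 := (Valuation.ne_zero_iff _).mpr hm
  have hle : ∀ i j, A.valuation ((c i).coeff j) ≤ A.valuation ((c i₀).coeff j₀) := by
    intro i j
    by_cases h0 : (c i).coeff j = 0
    · rw [h0, map_zero]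
      exact zero_le
    · exact hmax ⟨i, j⟩
        (Finset.mem_sigma.mpr ⟨Finset.mem_univ _, Polynomial.mem_support_iff.mpr h0⟩)
  have hmem : ∀ i j, ((c i₀).coeff j₀)⁻¹ * (c i).coeff j ∈ A := by
    intro i j
    rw [← A.valuation_le_one_iff, map_mul, map_inv₀]
    calc (A.valuation ((c i₀).coeff j₀))⁻¹ * A.valuation ((c i).coeff j)
        ≤ (A.valuation ((c i₀).coeff j₀))⁻¹ * A.valuation ((c i₀).coeff j₀) :=
          mul_le_mul_right (hle i j) _
      _ = 1 := inv_mul_cancel₀ hvm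
  have hlift : ∀ i, ∃ q : Polynomial A,
      q.map A.subtype = Polynomial.C ((c i₀).coeff j₀)⁻¹ * c i := by
    intro i
    rw [← Polynomial.mem_lifts, Polynomial.lifts_iff_coeff_lifts]
    intro j
    rw [Polynomial.coeff_C_mul]
    exact ⟨⟨_, hmem i j⟩, rfl⟩
  choose c' hc' using hlift
  refine ⟨((c i₀).coeff j₀)⁻¹, c', inv_ne_zero hm, hc', i₀, ?_⟩
  intro h0
  have h1 : ((c' i₀).map π).coeff j₀ = 0 := by rw [h0, Polynomial.coeff_zero]
  rw [Polynomial.coeff_map] at h1
  have h2 : (c' i₀).coeff j₀ = 1 := by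
    apply Subtype.ext
    have h3 := congrArg (fun q => q.coeff j₀) (hc' i₀)
    simp only [Polynomial.coeff_map, Polynomial.coeff_C_mul] at h3
    have h4 : ((c' i₀).coeff j₀ : K) = ((c i₀).coeff j₀)⁻¹ * (c i₀).coeff j₀ := h3
    rw [h4, inv_mul_cancel₀ hm]
    rfl
  rw [h2, map_one] at h1
  exact one_ne_zero h1

end Fermat.Agent.S18L
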