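import Mathlib
import Fermat.Agent.S18L.NmDefs
import Fermat.Agent.S18L.NmA
import Fermat.Agent.S18L.NmCAux

/-!
# S18, package NM, block C (helper3): reduction of polynomial relations

* `nmc_red_rel`        : a relation `E(t) y = Σ P_i(t) b_i` with `E, P_i ∈ A[X]`, `y, b_i ∈ O`
                         reduces coefficientwise
* `nmc_transcendental` : `t` is transcendental over `K` if `red t` is transcendental over `k`
* `nmc_indep_lift`     : a family in `O` with `k[red t]`-independent reductions is
                         `K[t]`-independent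
-/

set_option autoImplicit false

namespace Fermat.Agent.S18L

open Fermat.Agent.RRL

variable {K F k Fb : Type*} [Field K] [Field F] [Algebra K F] [Field k] [Field Fb] [Algebra k Fb]

theorem nmc_red_rel (G : RedDatum K F k Fb) (t : G.O) {n : ℕ} (E : Polynomial G.A)
    (P : Fin n → Polynomial G.A) (y : G.O) (b : Fin n → G.O)
    (h : Polynomial.aeval (t : F) (E.map G.A.subtype) * (y : F)
      = ∑ i, Polynomial.aeval (t : F) ((P i).map G.A.subtype) * ((b i : G.O) : F)) :
    Polynomial.aeval (G.red t) (E.map G.π) * G.red y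
      = ∑ i, Polynomial.aeval (G.red t) ((P i).map G.π) * G.red (b i) := by
  obtain ⟨hE, hEr⟩ := nm_red_aeval G t E
  choose hP hPr using fun i => nm_red_aeval G t (P i)
  have hO : (⟨_, hE⟩ : G.O) * y = ∑ i, (⟨_, hP i⟩ : G.O) * b i := by
    apply Subtype.ext
    rw [Subring.coe_mul, AddSubmonoidClass.coe_finsetSum]
    simp only [Subring.coe_mul]
    exact h
  have h2 := congrArg G.red hO
  rw [map_mul, map_sum] at h2
  simp only [map_mul] at h2
  rw [hEr] at h2
  simp only [hPr] at h2
  exact h2

theorem nmc_transcendental (G : RedDatum K F k Fb) (t : G.O)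
    (ht : Transcendental k (G.red t)) : Transcendental K (t : F) := by
  rw [transcendental_iff]
  intro Q hQ
  by_contra hQ0
  obtain ⟨a, c', -, hc', i, hi⟩ :=
    nmc_scale G.A G.π G.π_eq_zero (fun _ : Fin 1 => Q) ⟨0, hQ0⟩
  obtain ⟨hmem, hred⟩ := nm_red_aeval G t (c' i)
  have h0 : Polynomial.aeval (t : F) ((c' i).map G.A.subtype) = 0 := by
    rw [hc' i, map_mul, hQ, mul_zero]
  have h1 : Polynomial.aeval (G.red t) ((c' i).map G.π) = 0 := by
    rw [← hred]
    have hz : (⟨_, hmem⟩ : G.O) = 0 := Subtype.ext h0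
    rw [hz, map_zero]
  exact hi ((transcendental_iff.mp ht) _ h1)

theorem nmc_indep_lift (G : RedDatum K F k Fb) (t : G.O) {n : ℕ} (b : Fin n → G.O)
    (hb : ∀ p : Fin n → Polynomial k,
      (∑ i, Polynomial.aeval (G.red t) (p i) * G.red (b i)) = 0 → ∀ i, p i = 0) :
    ∀ p : Fin n → Polynomial K,
      (∑ i, Polynomial.aeval (t : F) (p i) * ((b i : G.O) : F)) = 0 → ∀ i, p i = 0 := by
  intro p hp
  by_contra hne
  rw [not_forall] at hne
  obtain ⟨a, c', -, hc', i, hi⟩ := nmc_scale G.A G.π G.π_eq_zero p hne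
  have h0 : Polynomial.aeval (t : F) ((0 : Polynomial G.A).map G.A.subtype) * ((0 : G.O) : F)
      = ∑ i, Polynomial.aeval (t : F) ((c' i).map G.A.subtype) * ((b i : G.O) : F) := by
    have e : ∀ i, Polynomial.aeval (t : F) ((c' i).map G.A.subtype) * ((b i : G.O) : F)
        = Polynomial.aeval (t : F) (Polynomial.C a) *
          (Polynomial.aeval (t : F) (p i) * ((b i : G.O) : F)) := by
      intro i
      rw [hc' i, map_mul, mul_assoc]
    rw [Finset.sum_congr rfl fun i _ => e i, ← Finset.mul_sum, hp, mul_zero, Subring.coe_zero,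
      mul_zero]
  have h1 := nmc_red_rel G t 0 c' 0 b h0
  have h2 : ∑ i, Polynomial.aeval (G.red t) ((c' i).map G.π) * G.red (b i) = 0 := by
    rw [← h1, map_zero, mul_zero]
  exact hi (hb (fun i => (c' i).map G.π) h2 i)

end Fermat.Agent.S18L
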