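import Mathlib
import Fermat.Agent.S18L.NmDefs
import Fermat.Agent.S18L.NmA
import Fermat.Agent.S18L.NmCAux
import Fermat.Agent.S18L.NmCRed

/-!
# S18, package NM, block C (helper3): the transition from `x` to `x'` with Gauss-integral
coefficients and nonzero reduced determinant
-/

set_option autoImplicit false

namespace Fermat.Agent.S18L

open Fermat.Agent.RRL

variable {K F k Fb : Type*} [Field K] [Field F] [Algebra K F] [Field k] [Field Fb] [Algebra k Fb]

/-- common denominator: from relations `E_j(t) y_j = Σ_i P_ji(t) b_i` to relations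
`E₀(t) y_j = Σ_i N₀_ji(t) b_i` with `E₀ = ∏ E_j`, `N₀_ji = P_ji ∏_{l ≠ j} E_l`. -/
theorem nmcb_common_den {R Φ : Type*} [CommRing R] [Field Φ] (φ : Polynomial R →+* Φ) {n : ℕ}
    (E : Fin n → Polynomial R) (P : Fin n → Fin n → Polynomial R) (y b : Fin n → Φ)
    (hrel : ∀ j, φ (E j) * y j = ∑ i, φ (P j i) * b i) (j : Fin n) :
    φ (∏ l, E l) * y j = ∑ i, φ (P j i * ∏ l ∈ Finset.univ.erase j, E l) * b i := by
  have hsplit : ∏ l, E l = E j * ∏ l ∈ Finset.univ.erase j, E l :=
    (Finset.mul_prod_erase Finset.univ E (Finset.mem_univ j)).symm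
  rw [hsplit, map_mul, mul_comm (φ (E j)) _, mul_assoc, hrel j, Finset.mul_sum]
  refine Finset.sum_congr rfl fun i _ => ?_
  rw [map_mul]
  ring

/-- a matrix relation `Eb(τ) y_j = Σ_i Nb_ji(τ) b_i` together with a left kernel vector `v`
of `Nb` gives the relation `Σ_j (v_j Eb)(τ) y_j = 0`. -/
theorem nmcb_kernel_rel {κ Φ : Type*} [Field κ] [Field Φ] [Algebra κ Φ] (τ : Φ) {n : ℕ}
    (Eb : Polynomial κ) (Nb : Matrix (Fin n) (Fin n) (Polynomial κ)) (y b : Fin n → Φ)
    (hred : ∀ j, Polynomial.aeval τ Eb * y j = ∑ i, Polynomial.aeval τ (Nb j i) * b i)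
    (v : Fin n → Polynomial κ) (hv : Matrix.vecMul v Nb = 0) :
    ∑ j, Polynomial.aeval τ (v j * Eb) * y j = 0 := by
  have h1 : ∀ j, Polynomial.aeval τ (v j * Eb) * y j
      = ∑ i, Polynomial.aeval τ (v j * Nb j i) * b i := by
    intro j
    rw [map_mul, mul_assoc, hred j, Finset.mul_sum]
    refine Finset.sum_congr rfl fun i _ => ?_
    rw [map_mul, mul_assoc]
  rw [Finset.sum_congr rfl fun j _ => h1 j, Finset.sum_comm]
  refine Finset.sum_eq_zero fun i _ => ?_
  rw [← Finset.sum_mul, ← map_sum]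
  have h2 : ∑ j, v j * Nb j i = Matrix.vecMul v Nb i := rfl
  rw [h2, hv, Pi.zero_apply, map_zero, zero_mul]

/-- There are `E₀ ∈ A[X]` with nonzero reduction and a matrix `N₀` over `A[X]` with
`E₀(t) x'_j = Σ_i N₀_ji(t) x_i`, and the reduction of `N₀` has nonzero determinant. -/
theorem nmc_trans_bar [IsAlgClosed K] [CharZero K] [IsAlgClosed k]
    (G : RedDatum K F k Fb) (t t' : G.O) (htt' : (t' : F) * (t : F) = 1) (n : ℕ)
    (h : NmHyp G t n) (x : Fin n → G.O) (hx : NmBasis G t n x)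
    (x' : Fin n → G.O) (hx' : NmBasis G t' n x') :
    ∃ (E₀ : Polynomial G.A) (N₀ : Matrix (Fin n) (Fin n) (Polynomial G.A)),
      E₀.map G.π ≠ 0 ∧ (N₀.map (Polynomial.map G.π)).det ≠ 0 ∧
      ∀ j, Polynomial.aeval (t : F) (E₀.map G.A.subtype) * ((x' j : G.O) : F)
        = ∑ i, Polynomial.aeval (t : F) ((N₀ j i).map G.A.subtype) * ((x i : G.O) : F) := by
  classical
  have hc := fun j => nm_coords G t n h x hx.indep (x' j)
  choose E P hE hrel using hc
  have hE₀ : (∏ l, E l).map G.π ≠ 0 := by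
    rw [Polynomial.map_prod]
    exact Finset.prod_ne_zero_iff.mpr fun j _ => hE j
  have hrel₀ : ∀ j, Polynomial.aeval (t : F) ((∏ l, E l).map G.A.subtype) * ((x' j : G.O) : F)
      = ∑ i, Polynomial.aeval (t : F)
          ((P j i * ∏ l ∈ Finset.univ.erase j, E l).map G.A.subtype) * ((x i : G.O) : F) :=
    fun j => nmcb_common_den
      ((Polynomial.aeval (t : F)).toRingHom.comp (Polynomial.mapRingHom G.A.subtype)) E P
      (fun j => ((x' j : G.O) : F)) (fun i => ((x i : G.O) : F)) hrel j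
  refine ⟨∏ l, E l, Matrix.of fun j i => P j i * ∏ l ∈ Finset.univ.erase j, E l, hE₀, ?_, hrel₀⟩
  intro hdet
  have hred : ∀ j, Polynomial.aeval (G.red t) ((∏ l, E l).map G.π) * G.red (x' j)
      = ∑ i, Polynomial.aeval (G.red t)
          (((Matrix.of fun j i => P j i * ∏ l ∈ Finset.univ.erase j, E l).map
            (Polynomial.map G.π)) j i) * G.red (x i) :=
    fun j => nmc_red_rel G t (∏ l, E l)
      (fun i => P j i * ∏ l ∈ Finset.univ.erase j, E l) (x' j) x (hrel₀ j)
  obtain ⟨v, hv0, hv⟩ := Matrix.exists_vecMul_eq_zero_iff.mpr hdet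
  have hττ : G.red t' * G.red t = 1 := by
    have h1 : t' * t = 1 := Subtype.ext (by simpa using htt')
    rw [← map_mul, h1, map_one]
  have hindep := nmc_indep_inv (G.red t) (G.red t') hττ (fun j => G.red (x' j)) hx'.indep
  have hzero := nmcb_kernel_rel (G.red t) ((∏ l, E l).map G.π) _ (fun j => G.red (x' j))
    (fun i => G.red (x i)) hred v hv
  have hall := hindep (fun j => v j * (∏ l, E l).map G.π) hzero
  apply hv0
  funext j
  exact (mul_eq_zero.mp (hall j)).resolve_right hE₀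

end Fermat.Agent.S18L
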