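import Mathlib

/-!
# S18, package NM, block C (helper3): Gauss count

For a polynomial `p` over the valuation ring `A` of an algebraically closed field `K` with
nonzero reduction, the degree of the reduction is the number of roots of `p` in `A`.
`nmcOut A f` is the number of roots of `f ∈ K[X]` outside `A`.
-/

set_option autoImplicit false

namespace Fermat.Agent.S18L

/-- `∏ (X - ρ)` over `ρ ∈ A` lifts to a monic polynomial over `A` of the same degree. -/
theorem nmcg_lift_in {K : Type*} [Field K] (A : ValuationSubring K) (r : Multiset K)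
    (hr : ∀ ρ ∈ r, ρ ∈ A) :
    ∃ g : Polynomial A, g.Monic ∧ g.natDegree = Multiset.card r ∧
      g.map A.subtype = (r.map fun ρ => Polynomial.X - Polynomial.C ρ).prod := by
  induction r using Multiset.induction_on with
  | empty => exact ⟨1, Polynomial.monic_one, by simp, by simp⟩
  | cons ρ r ih =>
    obtain ⟨g, hg1, hg2, hg3⟩ := ih (fun x hx => hr x (Multiset.mem_cons_of_mem hx))
    have hρ : ρ ∈ A := hr ρ (Multiset.mem_cons_self ρ r)
    refine ⟨(Polynomial.X - Polynomial.C ⟨ρ, hρ⟩) * g,
      (Polynomial.monic_X_sub_C _).mul hg1, ?_, ?_⟩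
    · rw [Polynomial.Monic.natDegree_mul (Polynomial.monic_X_sub_C _) hg1,
        Polynomial.natDegree_X_sub_C, hg2, Multiset.card_cons, add_comm]
    · rw [Polynomial.map_mul, hg3, Multiset.map_cons, Multiset.prod_cons, Polynomial.map_sub,
        Polynomial.map_X, Polynomial.map_C]
      rfl

/-- `∏ (X - ρ)` over `ρ ∉ A` is a constant times a polynomial over `A` which reduces to `1`:
`X - ρ = -ρ (1 - ρ⁻¹ X)` and `ρ⁻¹` is a non-unit of `A`. -/
theorem nmcg_lift_out {K k : Type*} [Field K] [Field k] (A : ValuationSubring K)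
    (π : A →+* k) (hπ : ∀ a : A, π a = 0 ↔ ¬ IsUnit a) (s : Multiset K)
    (hs : ∀ ρ ∈ s, ρ ∉ A) :
    ∃ (g : Polynomial A) (c : K), g.map π = 1 ∧
      (s.map fun ρ => Polynomial.X - Polynomial.C ρ).prod
        = Polynomial.C c * g.map A.subtype := by
  induction s using Multiset.induction_on with
  | empty => exact ⟨1, 1, by simp, by simp⟩
  | cons ρ s ih =>
    obtain ⟨g, c, hg1, hg2⟩ := ih (fun x hx => hs x (Multiset.mem_cons_of_mem hx))
    have hρ : ρ ∉ A := hs ρ (Multiset.mem_cons_self ρ s)
    have hρ0 : ρ ≠ 0 := fun h => hρ (h ▸ A.zero_mem)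
    have hσ : ρ⁻¹ ∈ A := (A.mem_or_inv_mem ρ).resolve_left hρ
    have hπσ : π ⟨ρ⁻¹, hσ⟩ = 0 := by
      rw [hπ]
      intro hu
      obtain ⟨b, hb⟩ := hu.exists_right_inv
      apply hρ
      have h1 : ρ⁻¹ * (b : K) = 1 := congrArg Subtype.val hb
      have h2 : ρ = (b : K) := by
        rw [← mul_one ρ, ← h1, ← mul_assoc, mul_inv_cancel₀ hρ0, one_mul]
      rw [h2]
      exact b.2
    refine ⟨(1 - Polynomial.C ⟨ρ⁻¹, hσ⟩ * Polynomial.X) * g, -ρ * c, ?_, ?_⟩
    · rw [Polynomial.map_mul, hg1, Polynomial.map_sub, Polynomial.map_mul, Polynomial.map_C,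
        hπσ, map_zero, zero_mul, sub_zero, Polynomial.map_one, mul_one]
    · rw [Multiset.map_cons, Multiset.prod_cons, hg2, Polynomial.map_mul, Polynomial.map_sub,
        Polynomial.map_one, Polynomial.map_mul, Polynomial.map_C, Polynomial.map_X]
      have h1 : (Polynomial.X - Polynomial.C ρ : Polynomial K)
          = Polynomial.C (-ρ) * (1 - Polynomial.C ρ⁻¹ * Polynomial.X) := by
        rw [mul_sub, mul_one, ← mul_assoc, ← Polynomial.C_mul, neg_mul, mul_inv_cancel₀ hρ0,
          Polynomial.C_neg, Polynomial.C_neg, Polynomial.C_1]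
        ring
      have h2 : A.subtype ⟨ρ⁻¹, hσ⟩ = ρ⁻¹ := rfl
      rw [h1, h2, Polynomial.C_mul]
      ring

/-- core of the Gauss count: for any factorization of `p` over `K` into roots inside `A`
and roots outside `A`, the number of roots inside `A` is the degree of the reduction. -/
theorem nmcg_core {K k : Type*} [Field K] [Field k] (A : ValuationSubring K)
    (π : A →+* k) (hπ : ∀ a : A, π a = 0 ↔ ¬ IsUnit a) (p : Polynomial A) (hp : p.map π ≠ 0)
    (u : K) (r s : Multiset K) (hr : ∀ ρ ∈ r, ρ ∈ A) (hs : ∀ ρ ∈ s, ρ ∉ A)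
    (hfac : p.map A.subtype = Polynomial.C u *
        ((r.map fun ρ => Polynomial.X - Polynomial.C ρ).prod *
         (s.map fun ρ => Polynomial.X - Polynomial.C ρ).prod)) :
    Multiset.card r = (p.map π).natDegree := by
  obtain ⟨g1, hm1, hd1, hg1⟩ := nmcg_lift_in A r hr
  obtain ⟨g2, c, hπ2, hg2⟩ := nmcg_lift_out A π hπ s hs
  have hfac' : p.map A.subtype = Polynomial.C (u * c) * (g1 * g2).map A.subtype := by
    rw [hfac, ← hg1, hg2, Polynomial.map_mul, Polynomial.C_mul]
    ring
  have hgπ : (g1 * g2).map π = g1.map π := by rw [Polynomial.map_mul, hπ2, mul_one]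
  have hmon : (g1.map π).Monic := hm1.map π
  have hdeg : (g1.map π).natDegree = Multiset.card r := by rw [hm1.natDegree_map, hd1]
  have hcoeff : π ((g1 * g2).coeff (Multiset.card r)) = 1 := by
    rw [← Polynomial.coeff_map, hgπ, ← hdeg]
    exact hmon.coeff_natDegree
  have hunit : IsUnit ((g1 * g2).coeff (Multiset.card r)) := by
    by_contra h
    rw [← hπ] at h
    rw [h] at hcoeff
    exact zero_ne_one hcoeff
  obtain ⟨b, hb⟩ := hunit.exists_right_inv
  have hd : u * c ∈ A := by
    have h1 : ((p.coeff (Multiset.card r) : A) : K)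
        = u * c * (((g1 * g2).coeff (Multiset.card r) : A) : K) := by
      have h0 := congrArg (fun q => Polynomial.coeff q (Multiset.card r)) hfac'
      simp only [Polynomial.coeff_map, Polynomial.coeff_C_mul] at h0
      exact h0
    have h2 : (((g1 * g2).coeff (Multiset.card r) : A) : K) * (b : K) = 1 :=
      congrArg Subtype.val hb
    have h3 : u * c = ((p.coeff (Multiset.card r) * b : A) : K) := by
      rw [MulMemClass.coe_mul, h1, mul_assoc, h2, mul_one]
    rw [h3]
    exact (p.coeff (Multiset.card r) * b).2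
  have hp' : p = Polynomial.C ⟨u * c, hd⟩ * (g1 * g2) := by
    apply Polynomial.map_injective A.subtype Subtype.coe_injective
    have h4 : (Polynomial.C (⟨u * c, hd⟩ : A) * (g1 * g2)).map A.subtype
        = Polynomial.C (u * c) * (g1 * g2).map A.subtype := by
      rw [Polynomial.map_mul, Polynomial.map_C]
      rfl
    rw [hfac', h4]
  rw [hp', Polynomial.map_mul, Polynomial.map_C, hgπ] at hp ⊢
  have hne : π ⟨u * c, hd⟩ ≠ 0 := by
    intro h
    apply hp
    rw [h, map_zero, zero_mul]
  rw [Polynomial.natDegree_C_mul hne, hdeg]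

/-- the factorization of `p` over the algebraically closed field `K`, with the roots split
into those inside and those outside `A`. -/
theorem nmcg_factor {K : Type*} [Field K] [IsAlgClosed K] (A : ValuationSubring K)
    [DecidablePred fun ρ : K => ρ ∈ A] (f : Polynomial K) :
    f = Polynomial.C f.leadingCoeff *
        (((f.roots.filter fun ρ => ρ ∈ A).map fun ρ => Polynomial.X - Polynomial.C ρ).prod *
         ((f.roots.filter fun ρ => ¬ ρ ∈ A).map fun ρ => Polynomial.X - Polynomial.C ρ).prod) := by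
  rw [← Multiset.prod_add, ← Multiset.map_add, Multiset.filter_add_not]
  exact (Polynomial.C_leadingCoeff_mul_prod_multiset_X_sub_C
    IsAlgClosed.card_roots_eq_natDegree).symm

/-- (GC) **Gauss count**, statement identical to `nm_gauss_count`. -/
theorem nmc_gauss_count {K k : Type*} [Field K] [IsAlgClosed K] [Field k] (A : ValuationSubring K)
    (π : A →+* k) (hπ : ∀ a : A, π a = 0 ↔ ¬ IsUnit a) (p : Polynomial A) (hp : p.map π ≠ 0) :
    ∃ (u : K) (r s : Multiset K), (p.map A.subtype) = Polynomial.C u *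
        ((r.map fun ρ => Polynomial.X - Polynomial.C ρ).prod *
         (s.map fun ρ => Polynomial.X - Polynomial.C ρ).prod) ∧
      (∀ ρ ∈ r, ρ ∈ A) ∧ (∀ ρ ∈ s, ρ ∉ A) ∧ Multiset.card r = (p.map π).natDegree := by
  classical
  have hfac := nmcg_factor A (p.map A.subtype)
  have h1 : ∀ ρ ∈ (p.map A.subtype).roots.filter (fun ρ => ρ ∈ A), ρ ∈ A :=
    fun ρ hρ => (Multiset.mem_filter.mp hρ).2
  have h2 : ∀ ρ ∈ (p.map A.subtype).roots.filter (fun ρ => ¬ ρ ∈ A), ρ ∉ A :=
    fun ρ hρ => (Multiset.mem_filter.mp hρ).2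
  exact ⟨_, _, _, hfac, h1, h2, nmcg_core A π hπ p hp _ _ _ h1 h2 hfac⟩

open Classical in
/-- the number of roots (with multiplicity) of `f` outside the valuation ring `A`. -/
noncomputable def nmcOut {K : Type*} [Field K] (A : ValuationSubring K) (f : Polynomial K) : ℕ :=
  Multiset.card (f.roots.filter fun ρ => ρ ∉ A)

theorem nmcOut_mul {K : Type*} [Field K] (A : ValuationSubring K) {f g : Polynomial K}
    (h : f * g ≠ 0) : nmcOut A (f * g) = nmcOut A f + nmcOut A g := by
  unfold nmcOut
  rw [Polynomial.roots_mul h, Multiset.filter_add, Multiset.card_add]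

theorem nmcOut_pow {K : Type*} [Field K] (A : ValuationSubring K) (f : Polynomial K) (m : ℕ) :
    nmcOut A (f ^ m) = m * nmcOut A f := by
  unfold nmcOut
  rw [Polynomial.roots_pow, Multiset.filter_nsmul, Multiset.card_nsmul]

theorem nmcOut_X_pow {K : Type*} [Field K] (A : ValuationSubring K) (m : ℕ) :
    nmcOut A ((Polynomial.X : Polynomial K) ^ m) = 0 := by
  rw [nmcOut_pow]
  unfold nmcOut
  rw [Polynomial.roots_X]
  simp [A.zero_mem]

theorem nmcOut_le_natDegree {K : Type*} [Field K] (A : ValuationSubring K) (f : Polynomial K) :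
    nmcOut A f ≤ f.natDegree := by
  classical
  unfold nmcOut
  exact le_trans (Multiset.card_le_card (Multiset.filter_le _ _)) (Polynomial.card_roots' f)

/-- degree form of the Gauss count: `deg p = deg p̄ + #{roots outside A}`. -/
theorem nmc_natDegree_eq {K k : Type*} [Field K] [IsAlgClosed K] [Field k]
    (A : ValuationSubring K) (π : A →+* k) (hπ : ∀ a : A, π a = 0 ↔ ¬ IsUnit a)
    (p : Polynomial A) (hp : p.map π ≠ 0) :
    (p.map A.subtype).natDegree = (p.map π).natDegree + nmcOut A (p.map A.subtype) := by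
  classical
  have hfac := nmcg_factor A (p.map A.subtype)
  have h1 : ∀ ρ ∈ (p.map A.subtype).roots.filter (fun ρ => ρ ∈ A), ρ ∈ A :=
    fun ρ hρ => (Multiset.mem_filter.mp hρ).2
  have h2 : ∀ ρ ∈ (p.map A.subtype).roots.filter (fun ρ => ¬ ρ ∈ A), ρ ∉ A :=
    fun ρ hρ => (Multiset.mem_filter.mp hρ).2
  have hcore := nmcg_core A π hπ p hp _ _ _ h1 h2 hfac
  have hout : nmcOut A (p.map A.subtype)
      = Multiset.card ((p.map A.subtype).roots.filter (fun ρ => ¬ ρ ∈ A)) := by
    unfold nmcOut
    congr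
  rw [hout, ← hcore, ← Multiset.card_add, Multiset.filter_add_not,
    IsAlgClosed.card_roots_eq_natDegree]

end Fermat.Agent.S18L
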