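import Mathlib
import Fermat.Agent.S18L.NmCGC

/-!
# S18, package NM, block C (helper3): the matrix identity and the degree inequality
-/

set_option autoImplicit false

namespace Fermat.Agent.S18L

/-- The matrix identity `E₀ • N = X ^ e • (N₀ * T)` from the three transition relations and the
independence of `xs`. -/
theorem nmc_matrix_id {κ Φ : Type*} [Field κ] [Field Φ] [Algebra κ Φ] (θ : Φ) {n : ℕ}
    (xs x x' : Fin n → Φ)
    (hxs : ∀ p : Fin n → Polynomial κ,
      (∑ i, Polynomial.aeval θ (p i) * xs i) = 0 → ∀ i, p i = 0)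
    (E₀ : Polynomial κ) (N₀ N T : Matrix (Fin n) (Fin n) (Polynomial κ)) (e : ℕ)
    (h1 : ∀ j, Polynomial.aeval θ E₀ * x' j = ∑ i, Polynomial.aeval θ (N₀ j i) * x i)
    (h2 : ∀ j, θ ^ e * x' j = ∑ i, Polynomial.aeval θ (N j i) * xs i)
    (h3 : ∀ i, x i = ∑ l, Polynomial.aeval θ (T i l) * xs l) :
    E₀ • N = (Polynomial.X ^ e : Polynomial κ) • (N₀ * T) := by
  refine Matrix.ext fun j l => ?_
  rw [Matrix.smul_apply, Matrix.smul_apply, Matrix.mul_apply, smul_eq_mul, smul_eq_mul]
  refine sub_eq_zero.mp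
    (hxs (fun l => E₀ * N j l - Polynomial.X ^ e * ∑ i, N₀ j i * T i l) ?_ l)
  calc ∑ l, Polynomial.aeval θ (E₀ * N j l - Polynomial.X ^ e * ∑ i, N₀ j i * T i l) * xs l
      = Polynomial.aeval θ E₀ * ∑ l, Polynomial.aeval θ (N j l) * xs l
          - θ ^ e * ∑ i, Polynomial.aeval θ (N₀ j i)
              * ∑ l, Polynomial.aeval θ (T i l) * xs l := by
        simp only [map_sub, map_mul, map_sum, Polynomial.aeval_X_pow, sub_mul,
          Finset.sum_sub_distrib, Finset.mul_sum, Finset.sum_mul]
        congr 1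
        · exact Finset.sum_congr rfl fun l _ => by ring
        · rw [Finset.sum_comm]
          exact Finset.sum_congr rfl fun i _ => Finset.sum_congr rfl fun l _ => by ring
    _ = Polynomial.aeval θ E₀ * (θ ^ e * x' j)
          - θ ^ e * (Polynomial.aeval θ E₀ * x' j) := by
        rw [← h2 j, h1 j]
        congr 2
        exact Finset.sum_congr rfl fun i _ => by rw [h3 i]
    _ = 0 := by ring

/-- determinants commute with coefficientwise maps of polynomial matrices -/
theorem nmcx_det_map {R S : Type*} [CommRing R] [CommRing S] (f : R →+* S) {n : ℕ}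
    (M : Matrix (Fin n) (Fin n) (Polynomial R)) :
    (M.map (Polynomial.map f)).det = M.det.map f := by
  have h := RingHom.map_det (Polynomial.mapRingHom f) M
  rw [RingHom.mapMatrix_apply] at h
  simpa [Polynomial.coe_mapRingHom] using h.symm

/-- a polynomial over `A` with nonzero reduction is nonzero over `K` -/
theorem nmcx_map_subtype_ne_zero {K k : Type*} [Field K] [Field k] (A : ValuationSubring K)
    (π : A →+* k) (p : Polynomial A) (hp : p.map π ≠ 0) : p.map A.subtype ≠ 0 := by
  intro h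
  apply hp
  have h0 : p = 0 := by
    have hinj : Function.Injective A.subtype := Subtype.val_injective
    exact (Polynomial.map_eq_zero_iff hinj).mp h
  rw [h0, Polynomial.map_zero]

/-- The degree inequality from the matrix identity and the Gauss count. -/
theorem nmc_final {K k : Type*} [Field K] [IsAlgClosed K] [Field k] (A : ValuationSubring K)
    (π : A →+* k) (hπ : ∀ a : A, π a = 0 ↔ ¬ IsUnit a) {n : ℕ}
    (E₀ : Polynomial A) (N₀ : Matrix (Fin n) (Fin n) (Polynomial A))
    (hE₀ : E₀.map π ≠ 0) (hN₀ : (N₀.map (Polynomial.map π)).det ≠ 0)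
    (e : ℕ) (N T : Matrix (Fin n) (Fin n) (Polynomial K)) (hT : T.det ≠ 0)
    (hid : (E₀.map A.subtype) • N
      = (Polynomial.X ^ e : Polynomial K) • ((N₀.map (Polynomial.map A.subtype)) * T)) :
    N.det ≠ 0 ∧
      (N₀.map (Polynomial.map π)).det.natDegree + n * e
        ≤ N.det.natDegree + n * (E₀.map π).natDegree := by
  -- (i) determinants and ring homomorphisms
  rw [nmcx_det_map π N₀] at hN₀ ⊢
  have hEK : E₀.map A.subtype ≠ 0 := nmcx_map_subtype_ne_zero A π E₀ hE₀
  have hDK : N₀.det.map A.subtype ≠ 0 := nmcx_map_subtype_ne_zero A π N₀.det hN₀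
  have hXe : (Polynomial.X ^ e : Polynomial K) ≠ 0 := pow_ne_zero _ Polynomial.X_ne_zero
  -- (ii) the determinant of the matrix identity
  have hdet : (E₀.map A.subtype) ^ n * N.det
      = ((Polynomial.X : Polynomial K) ^ e) ^ n * (N₀.det.map A.subtype * T.det) := by
    have h := congrArg Matrix.det hid
    rw [Matrix.det_smul, Matrix.det_smul, Matrix.det_mul, Fintype.card_fin,
      nmcx_det_map A.subtype N₀] at h
    exact h
  have hrhs : ((Polynomial.X : Polynomial K) ^ e) ^ n * (N₀.det.map A.subtype * T.det) ≠ 0 :=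
    mul_ne_zero (pow_ne_zero _ hXe) (mul_ne_zero hDK hT)
  have hN : N.det ≠ 0 := by
    intro h0
    rw [h0, mul_zero] at hdet
    exact hrhs hdet.symm
  refine ⟨hN, ?_⟩
  have hEn : (E₀.map A.subtype) ^ n ≠ 0 := pow_ne_zero _ hEK
  -- (iii) degrees
  have hdeg := congrArg Polynomial.natDegree hdet
  rw [Polynomial.natDegree_mul hEn hN, Polynomial.natDegree_pow,
    Polynomial.natDegree_mul (pow_ne_zero _ hXe) (mul_ne_zero hDK hT),
    Polynomial.natDegree_pow, Polynomial.natDegree_X_pow,
    Polynomial.natDegree_mul hDK hT] at hdeg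
  -- (iv) roots outside `A`
  have hout := congrArg (nmcOut A) hdet
  rw [nmcOut_mul A (mul_ne_zero hEn hN), nmcOut_pow,
    nmcOut_mul A hrhs, nmcOut_pow, nmcOut_X_pow, mul_zero, zero_add,
    nmcOut_mul A (mul_ne_zero hDK hT)] at hout
  have hTle := nmcOut_le_natDegree A T.det
  -- (v) Gauss count
  have hgE := nmc_natDegree_eq A π hπ E₀ hE₀
  have hgD := nmc_natDegree_eq A π hπ N₀.det hN₀
  -- (vi) combine
  rw [hgE, Nat.mul_add] at hdeg
  rw [hgD] at hdeg
  omega

end Fermat.Agent.S18L
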