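import Mathlib
import Fermat.Agent.S18L.NmDefs

/-!
# S18, package NM, block C (helper3): free basis of the integral closure of `κ[θ]`
-/

set_option autoImplicit false

open scoped IntermediateField

namespace Fermat.Agent.S18L

/-- `κ[θ]` is a principal ideal ring (a quotient of `κ[X]`). -/
theorem nmcf_isPrincipalIdealRing {κ Φ : Type*} [Field κ] [Field Φ] [Algebra κ Φ] (θ : Φ) :
    IsPrincipalIdealRing (Algebra.adjoin κ {θ}) := by
  have hsurj : Function.Surjective
      (Polynomial.aeval (R := κ)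
        (⟨θ, Algebra.self_mem_adjoin_singleton κ θ⟩ : Algebra.adjoin κ {θ})) := by
    rintro ⟨y, hy⟩
    have hy' : y ∈ (Polynomial.aeval (R := κ) θ).range := by
      rw [← Algebra.adjoin_singleton_eq_range_aeval]
      exact hy
    obtain ⟨p, hp⟩ := hy'
    refine ⟨p, Subtype.ext ?_⟩
    rw [Polynomial.aeval_subalgebra_coe]
    exact hp
  exact IsPrincipalIdealRing.of_surjective
    (Polynomial.aeval (R := κ)
      (⟨θ, Algebra.self_mem_adjoin_singleton κ θ⟩ : Algebra.adjoin κ {θ})) hsurj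

/-- every element of `κ[θ]` is a polynomial in `θ`. -/
theorem nmcf_exists_aeval {κ Φ : Type*} [Field κ] [Field Φ] [Algebra κ Φ] (θ : Φ)
    (r : Algebra.adjoin κ {θ}) : ∃ p : Polynomial κ, Polynomial.aeval θ p = (r : Φ) := by
  have hr : (r : Φ) ∈ (Polynomial.aeval (R := κ) θ).range := by
    rw [← Algebra.adjoin_singleton_eq_range_aeval]
    exact r.2
  exact hr

open scoped IntermediateField.algebraAdjoinAdjoin in
/-- the free basis of the integral closure of `κ[θ]` in `Φ` (proof of `nmc_free_basis`). -/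
theorem nmcf_free_basis {κ Φ : Type*} [Field κ] [Field Φ] [Algebra κ Φ] (θ : Φ)
    (hθ : Transcendental κ θ) (hfin : Module.Finite κ⟮θ⟯ Φ) (hsep : Algebra.IsSeparable κ⟮θ⟯ Φ)
    (n : ℕ) (hn : Module.finrank κ⟮θ⟯ Φ = n) :
    ∃ x : Fin n → Φ, (∀ i, NmFin κ θ (x i)) ∧
      (∀ p : Fin n → Polynomial κ,
        (∑ i, Polynomial.aeval θ (p i) * x i) = 0 → ∀ i, p i = 0) ∧
      (∀ y : Φ, NmFin κ θ y →
        ∃ p : Fin n → Polynomial κ, y = ∑ i, Polynomial.aeval θ (p i) * x i) := by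
  classical
  have : IsPrincipalIdealRing (Algebra.adjoin κ {θ}) := nmcf_isPrincipalIdealRing θ
  have hfree : Module.Free (Algebra.adjoin κ {θ}) (integralClosure (Algebra.adjoin κ {θ}) Φ) :=
    IsIntegralClosure.module_free (Algebra.adjoin κ {θ}) κ⟮θ⟯ Φ
      (integralClosure (Algebra.adjoin κ {θ}) Φ)
  have hfinC : Module.Finite (Algebra.adjoin κ {θ})
      (integralClosure (Algebra.adjoin κ {θ}) Φ) :=
    IsIntegralClosure.finite (Algebra.adjoin κ {θ}) κ⟮θ⟯ Φ
      (integralClosure (Algebra.adjoin κ {θ}) Φ)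
  have hrank : Module.finrank (Algebra.adjoin κ {θ})
      (integralClosure (Algebra.adjoin κ {θ}) Φ) = n := by
    rw [IsIntegralClosure.rank (Algebra.adjoin κ {θ}) κ⟮θ⟯ Φ
      (integralClosure (Algebra.adjoin κ {θ}) Φ), hn]
  let b := Module.finBasisOfFinrankEq (Algebra.adjoin κ {θ})
    (integralClosure (Algebra.adjoin κ {θ}) Φ) hrank
  have hcoe : ∀ r : Fin n → Algebra.adjoin κ {θ},
      ((∑ i, r i • b i : integralClosure (Algebra.adjoin κ {θ}) Φ) : Φ)
        = ∑ i, (r i : Φ) * (b i : Φ) := by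
    intro r
    rw [← Subalgebra.coe_val, map_sum]
    refine Finset.sum_congr rfl fun i _ => ?_
    rw [map_smul, Subalgebra.coe_val, Algebra.smul_def]
    rfl
  refine ⟨fun i => (b i : Φ), fun i => (b i).2, ?_, ?_⟩
  · intro p hp i
    have hlin : ∑ i, (⟨Polynomial.aeval θ (p i), Polynomial.aeval_mem_adjoin_singleton κ θ⟩ :
        Algebra.adjoin κ {θ}) • b i = 0 := by
      apply Subtype.ext
      rw [hcoe]
      exact hp
    have h0 := Fintype.linearIndependent_iff.1 b.linearIndependent _ hlin i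
    have h0' : Polynomial.aeval θ (p i) = 0 := congrArg Subtype.val h0
    exact transcendental_iff.1 hθ (p i) h0'
  · intro y hy
    choose q hq using fun i => nmcf_exists_aeval θ (b.repr ⟨y, hy⟩ i)
    refine ⟨q, ?_⟩
    have hsum := b.sum_repr ⟨y, hy⟩
    have hy' : y = ((∑ i, b.repr ⟨y, hy⟩ i • b i :
        integralClosure (Algebra.adjoin κ {θ}) Φ) : Φ) := by
      rw [hsum]
    rw [hy', hcoe]
    exact Finset.sum_congr rfl fun i _ => by rw [hq i]

/-- (FB), statement identical to `nm_free_basis`. -/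
theorem nmc_free_basis {κ Φ : Type*} [Field κ] [Field Φ] [Algebra κ Φ] (θ : Φ)
    (hθ : Transcendental κ θ) (hfin : Module.Finite κ⟮θ⟯ Φ) (hsep : Algebra.IsSeparable κ⟮θ⟯ Φ)
    (n : ℕ) (hn : Module.finrank κ⟮θ⟯ Φ = n) :
    ∃ x : Fin n → Φ, (∀ i, NmFin κ θ (x i)) ∧
      (∀ p : Fin n → Polynomial κ,
        (∑ i, Polynomial.aeval θ (p i) * x i) = 0 → ∀ i, p i = 0) ∧
      (∀ y : Φ, NmFin κ θ y →
        ∃ p : Fin n → Polynomial κ, y = ∑ i, Polynomial.aeval θ (p i) * x i) := by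
  exact nmcf_free_basis θ hθ hfin hsep n hn

end Fermat.Agent.S18L
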