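import Mathlib
import Fermat.Agent.S18L.NmDefs
import Fermat.Agent.S18L.NmA
import Fermat.Agent.S18L.NmCFB
import Fermat.Agent.S18L.NmCAux
import Fermat.Agent.S18L.NmCRed

/-!
# S18, package NM, block C (helper3): the transitions in characteristic zero with respect to a
genuine `K[t]`-basis `xs` of the integral closure of `K[t]`
-/

set_option autoImplicit false

open scoped IntermediateField

namespace Fermat.Agent.S18L

open Fermat.Agent.RRL

/-- `θ` is integral over `κ[θ]`. -/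
theorem nmcz_self {κ Φ : Type*} [Field κ] [Field Φ] [Algebra κ Φ] (θ : Φ) : NmFin κ θ θ :=
  isIntegral_algebraMap
    (x := (⟨θ, Algebra.subset_adjoin (Set.mem_singleton θ)⟩ : Algebra.adjoin κ {θ}))

/-- in characteristic zero a finite extension of `κ(θ)` is separable. -/
theorem nmcz_sep {κ Φ : Type*} [Field κ] [Field Φ] [Algebra κ Φ] [CharZero κ] (θ : Φ)
    (hfin : Module.Finite κ⟮θ⟯ Φ) : Algebra.IsSeparable κ⟮θ⟯ Φ := by
  have : CharZero κ⟮θ⟯ := charZero_of_injective_algebraMap (algebraMap κ κ⟮θ⟯).injective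
  have : Algebra.IsAlgebraic κ⟮θ⟯ Φ := Algebra.IsAlgebraic.of_finite κ⟮θ⟯ Φ
  infer_instance

/-- a common exponent: if every `y j` is integral over `κ[θ']`, `θ' θ = 1`, then one power
`θ ^ e` makes all `θ ^ e * y j` integral over `κ[θ]`. -/
theorem nmcz_common_exp {κ Φ : Type*} [Field κ] [Field Φ] [Algebra κ Φ] (θ θ' : Φ)
    (h : θ' * θ = 1) {n : ℕ} (y : Fin n → Φ) (hy : ∀ j, NmFin κ θ' (y j)) :
    ∃ e : ℕ, ∀ j, NmFin κ θ (θ ^ e * y j) := by
  choose e he using fun j => nmc_int θ θ' (y j) h (hy j)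
  refine ⟨∑ j, e j, fun j => ?_⟩
  have hle : e j ≤ ∑ j, e j := Finset.single_le_sum (fun _ _ => Nat.zero_le _) (Finset.mem_univ j)
  have hsplit : θ ^ (∑ j, e j) * y j = θ ^ ((∑ j, e j) - e j) * (θ ^ e j * y j) := by
    rw [← mul_assoc, ← pow_add, Nat.sub_add_cancel hle]
  rw [hsplit]
  exact IsIntegral.mul (IsIntegral.pow (nmcz_self θ) _) (he j)

/-- a relation `v ᵥ* T = 0` gives a relation between the `x i = Σ_l T_il(θ) xs_l`. -/
theorem nmcz_rel {κ Φ : Type*} [Field κ] [Field Φ] [Algebra κ Φ] (θ : Φ) {n : ℕ}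
    (xs y : Fin n → Φ) (T : Matrix (Fin n) (Fin n) (Polynomial κ))
    (hT : ∀ i, y i = ∑ l, Polynomial.aeval θ (T i l) * xs l) (v : Fin n → Polynomial κ)
    (hv : Matrix.vecMul v T = 0) : (∑ i, Polynomial.aeval θ (v i) * y i) = 0 := by
  have h1 : (∑ i, Polynomial.aeval θ (v i) * y i)
      = ∑ l, Polynomial.aeval θ (Matrix.vecMul v T l) * xs l := by
    calc (∑ i, Polynomial.aeval θ (v i) * y i)
        = ∑ i, ∑ l, Polynomial.aeval θ (v i) * (Polynomial.aeval θ (T i l) * xs l) := by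
          refine Finset.sum_congr rfl fun i _ => ?_
          rw [hT i, Finset.mul_sum]
      _ = ∑ l, ∑ i, Polynomial.aeval θ (v i) * (Polynomial.aeval θ (T i l) * xs l) :=
          Finset.sum_comm
      _ = ∑ l, Polynomial.aeval θ (Matrix.vecMul v T l) * xs l := by
          refine Finset.sum_congr rfl fun l _ => ?_
          simp only [Matrix.vecMul, dotProduct, map_sum, map_mul, Finset.sum_mul, mul_assoc]
  rw [h1, hv]
  simp

variable {K F k Fb : Type*} [Field K] [Field F] [Algebra K F] [Field k] [Field Fb] [Algebra k Fb]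

/-- There are a `K[t]`-independent family `xs` of elements integral over `K[t]`, an exponent
`e` and polynomial matrices `N`, `T` with `t ^ e x'_j = Σ_i N_ji(t) xs_i`,
`x_i = Σ_l T_il(t) xs_l` and `det T ≠ 0`. -/
theorem nmc_trans_zero [CharZero K]
    (G : RedDatum K F k Fb) (t t' : G.O) (htt' : (t' : F) * (t : F) = 1) (n : ℕ)
    (h : NmHyp G t n) (x : Fin n → G.O) (hx : NmBasis G t n x)
    (x' : Fin n → G.O) (hx' : NmBasis G t' n x') :
    ∃ (xs : Fin n → F) (e : ℕ) (N T : Matrix (Fin n) (Fin n) (Polynomial K)),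
      (∀ i, NmFin K (t : F) (xs i)) ∧
      (∀ p : Fin n → Polynomial K,
        (∑ i, Polynomial.aeval (t : F) (p i) * xs i) = 0 → ∀ i, p i = 0) ∧
      (∀ j, (t : F) ^ e * ((x' j : G.O) : F) = ∑ i, Polynomial.aeval (t : F) (N j i) * xs i) ∧
      (∀ i, ((x i : G.O) : F) = ∑ l, Polynomial.aeval (t : F) (T i l) * xs l) ∧
      T.det ≠ 0 := by
  have htr : Transcendental K (t : F) := nmc_transcendental G t h.tr
  obtain ⟨xs, hxs_int, hxs_ind, hxs_span⟩ :=
    nmc_free_basis (t : F) htr h.fin (nmcz_sep (t : F) h.fin) n h.rank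
  obtain ⟨e, he⟩ := nmcz_common_exp (t : F) (t' : F) htt' (fun j => ((x' j : G.O) : F))
    (fun j => hx'.fin j)
  choose N hN using fun j => hxs_span _ (he j)
  choose T hT using fun i => hxs_span _ (hx.fin i)
  refine ⟨xs, e, Matrix.of N, Matrix.of T, hxs_int, hxs_ind, hN, hT, ?_⟩
  intro hdet
  obtain ⟨v, hv0, hv⟩ := Matrix.exists_vecMul_eq_zero_iff.mpr hdet
  have hrel := nmcz_rel (t : F) xs (fun i => ((x i : G.O) : F)) (Matrix.of T) hT v hv
  exact hv0 (funext (nmc_indep_lift G t x hx.indep v hrel))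

end Fermat.Agent.S18L
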