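import Mathlib
import Fermat.Agent.S18L.NmDefs
import Fermat.Agent.S18L.NmA
import Fermat.Agent.S18L.NmCRed
import Fermat.Agent.S18L.NmCBar
import Fermat.Agent.S18L.NmCZero
import Fermat.Agent.S18L.NmCFinal

/-!
# S18, package NM, block C (helper3): the comparison (G3)
-/

set_option autoImplicit false

namespace Fermat.Agent.S18L

open Fermat.Agent.RRL

variable {K F k Fb : Type*} [Field K] [Field F] [Algebra K F] [Field k] [Field Fb] [Algebra k Fb]

/-- (G3), statement identical to `nm_ge_compare`. -/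
theorem nmc_ge_compare [IsAlgClosed K] [CharZero K] [IsAlgClosed k]
    (G : RedDatum K F k Fb) (t t' : G.O) (htt' : (t' : F) * (t : F) = 1) (n : ℕ)
    (h : NmHyp G t n) (h' : NmHyp G t' n) (x : Fin n → G.O) (hx : NmBasis G t n x)
    (x' : Fin n → G.O) (hx' : NmBasis G t' n x') :
    ∃ (Eb : Polynomial k) (Nb : Matrix (Fin n) (Fin n) (Polynomial k)) (E : Polynomial K)
      (N : Matrix (Fin n) (Fin n) (Polynomial K)) (xs : Fin n → F),
      Eb ≠ 0 ∧ Nb.det ≠ 0 ∧
      (∀ j, Polynomial.aeval (G.red t) Eb * G.red (x' j)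
        = ∑ i, Polynomial.aeval (G.red t) (Nb j i) * G.red (x i)) ∧
      E ≠ 0 ∧ N.det ≠ 0 ∧
      (∀ j, Polynomial.aeval (t : F) E * ((x' j : G.O) : F)
        = ∑ i, Polynomial.aeval (t : F) (N j i) * xs i) ∧
      (∀ i, NmFin K (t : F) (xs i)) ∧
      (∀ p : Fin n → Polynomial K,
        (∑ i, Polynomial.aeval (t : F) (p i) * xs i) = 0 → ∀ i, p i = 0) ∧
      Nb.det.natDegree + n * E.natDegree ≤ N.det.natDegree + n * Eb.natDegree := by
  obtain ⟨E₀, N₀, hE₀, hN₀, hrel⟩ := nmc_trans_bar G t t' htt' n h x hx x' hx'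
  obtain ⟨xs, e, N, T, hxsf, hxsi, hN, hT, hTdet⟩ := nmc_trans_zero G t t' htt' n h x hx x' hx'
  have hid : (E₀.map G.A.subtype) • N
      = (Polynomial.X ^ e : Polynomial K) • ((N₀.map (Polynomial.map G.A.subtype)) * T) :=
    nmc_matrix_id (t : F) xs (fun i => ((x i : G.O) : F)) (fun j => ((x' j : G.O) : F)) hxsi
      (E₀.map G.A.subtype) (N₀.map (Polynomial.map G.A.subtype)) N T e
      (fun j => by simpa [Matrix.map_apply] using hrel j) hN hT
  obtain ⟨hNdet, hineq⟩ := nmc_final G.A G.π G.π_eq_zero E₀ N₀ hE₀ hN₀ e N T hTdet hid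
  refine ⟨E₀.map G.π, N₀.map (Polynomial.map G.π), Polynomial.X ^ e, N, xs, hE₀, hN₀, ?_,
    pow_ne_zero _ Polynomial.X_ne_zero, hNdet, ?_, hxsf, hxsi, ?_⟩
  · intro j
    have := nmc_red_rel G t E₀ (fun i => N₀ j i) (x' j) x (hrel j)
    simpa [Matrix.map_apply] using this
  · intro j
    rw [Polynomial.aeval_X_pow]
    exact hN j
  · rw [Polynomial.natDegree_X_pow]
    exact hineq

end Fermat.Agent.S18L
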