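import Mathlib
import Fermat.Agent.S18L.NmDefs
import Fermat.Agent.S18L.NmA
import Fermat.Agent.S18L.NmCGC
import Fermat.Agent.S18L.NmCFB
import Fermat.Agent.S18L.NmCCompare

/-!
# S18, package NM, block C (owner helper3): comparison of the transition data in
characteristic `0` and characteristic `ℓ`

Interface statements (frozen by helper2).
-/

set_option autoImplicit false

open scoped IntermediateField

namespace Fermat.Agent.S18L

open Fermat.Agent.RRL

/-- (FB) the integral closure of `κ[θ]` in a finite separable extension `Φ` of `κ(θ)` of degree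
`n` is a free `κ[θ]`-module on `n` generators. -/
theorem nm_free_basis {κ Φ : Type*} [Field κ] [Field Φ] [Algebra κ Φ] (θ : Φ)
    (hθ : Transcendental κ θ) (hfin : Module.Finite κ⟮θ⟯ Φ) (hsep : Algebra.IsSeparable κ⟮θ⟯ Φ)
    (n : ℕ) (hn : Module.finrank κ⟮θ⟯ Φ = n) :
    ∃ x : Fin n → Φ, (∀ i, NmFin κ θ (x i)) ∧
      (∀ p : Fin n → Polynomial κ,
        (∑ i, Polynomial.aeval θ (p i) * x i) = 0 → ∀ i, p i = 0) ∧
      (∀ y : Φ, NmFin κ θ y →
        ∃ p : Fin n → Polynomial κ, y = ∑ i, Polynomial.aeval θ (p i) * x i) := by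
  exact nmc_free_basis θ hθ hfin hsep n hn

/-- (GC) **Gauss count.**  For a polynomial over the valuation ring `A` of an algebraically
closed field with nonzero reduction, the degree of the reduction is the number of roots in `A`
(with multiplicity). -/
theorem nm_gauss_count {K k : Type*} [Field K] [IsAlgClosed K] [Field k] (A : ValuationSubring K)
    (π : A →+* k) (hπ : ∀ a : A, π a = 0 ↔ ¬ IsUnit a) (p : Polynomial A) (hp : p.map π ≠ 0) :
    ∃ (u : K) (r s : Multiset K), (p.map A.subtype) = Polynomial.C u *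
        ((r.map fun ρ => Polynomial.X - Polynomial.C ρ).prod *
         (s.map fun ρ => Polynomial.X - Polynomial.C ρ).prod) ∧
      (∀ ρ ∈ r, ρ ∈ A) ∧ (∀ ρ ∈ s, ρ ∉ A) ∧ Multiset.card r = (p.map π).natDegree := by
  exact nmc_gauss_count A π hπ p hp

variable {K F k Fb : Type*} [Field K] [Field F] [Algebra K F] [Field k] [Field Fb] [Algebra k Fb]

/-- (G3) **comparison.**  For lifted integral bases `x` (chart `t`) and `x'` (chart `t' = t⁻¹`)
there are transition data `(Eb, Nb)` in characteristic `ℓ` (from `red x` to `red x'`) and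
`(E, N)` in characteristic `0` (from a genuine `K[t]`-basis `xs` of the integral closure of
`K[t]` to `x'`) with `deg det Nb - n deg Eb ≤ deg det N - n deg E`. -/
theorem nm_ge_compare [IsAlgClosed K] [CharZero K] [IsAlgClosed k]
    (G : RedDatum K F k Fb) (t t' : G.O) (htt' : (t' : F) * (t : F) = 1) (n : ℕ)
    (h : NmHyp G t n) (h' : NmHyp G t' n) (x : Fin n → G.O) (hx : NmBasis G t n x)
    (x' : Fin n → G.O) (hx' : NmBasis G t' n x') :
    ∃ (Eb : Polynomial k) (Nb : Matrix (Fin n) (Fin n) (Polynomial k)) (E : Polynomial K)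
      (N : Matrix (Fin n) (Fin n) (Polynomial K)) (xs : Fin n → F),
      Eb ≠ 0 ∧ Nb.det ≠ 0 ∧
      (∀ j, Polynomial.aeval (G.red t) Eb * G.red (x' j)
        = ∑ i, Polynomial.aeval (G.red t) (Nb j i) * G.red (x i)) ∧
      E ≠ 0 ∧ N.det ≠ 0 ∧
      (∀ j, Polynomial.aeval (t : F) E * ((x' j : G.O) : F)
        = ∑ i, Polynomial.aeval (t : F) (N j i) * xs i) ∧
      (∀ i, NmFin K (t : F) (xs i)) ∧
      (∀ p : Fin n → Polynomial K,
        (∑ i, Polynomial.aeval (t : F) (p i) * xs i) = 0 → ∀ i, p i = 0) ∧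
      Nb.det.natDegree + n * E.natDegree ≤ N.det.natDegree + n * Eb.natDegree := by
  exact nmc_ge_compare G t t' htt' n h h' x hx x' hx'

end Fermat.Agent.S18L
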