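import Mathlib

/-!
# S18, package LRR: the index of a full-rank sublattice of `K[X]ⁿ`

For `M ∈ Mat_n(K[X])` with `det M ≠ 0`: `dim_K (K[X]ⁿ / K[X]ⁿ·M) = deg det M`.
-/

set_option autoImplicit false

open Polynomial

namespace Fermat.Agent.S18L

variable {K : Type*} [Field K] {n : ℕ}

/-- `v ↦ v ᵥ* M` is injective when `det M ≠ 0` -/
private theorem nmd_lrrindex_aux_injective (M : Matrix (Fin n) (Fin n) K[X]) (hM : M.det ≠ 0) :
    Function.Injective (Matrix.vecMulLinear M) := by
  rw [← LinearMap.ker_eq_bot, LinearMap.ker_eq_bot']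
  intro v hv
  exact Matrix.eq_zero_of_vecMul_eq_zero hM hv

/-- the range of `v ↦ v ᵥ* M` has full rank -/
private theorem nmd_lrrindex_aux_finrank (M : Matrix (Fin n) (Fin n) K[X]) (hM : M.det ≠ 0) :
    Module.finrank K[X] (LinearMap.range (Matrix.vecMulLinear M))
      = Module.finrank K[X] (Fin n → K[X]) :=
  (LinearEquiv.ofInjective _ (nmd_lrrindex_aux_injective M hM)).finrank_eq.symm

/-- finite-dimensionality of `K[X] ⧸ (a)` for `a ≠ 0` -/
private theorem nmd_lrrindex_aux_finite_span {a : K[X]} (ha : a ≠ 0) :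
    Module.Finite K (K[X] ⧸ Ideal.span ({a} : Set K[X])) :=
  PowerBasis.finite (AdjoinRoot.powerBasis ha)

/-- the determinant of `v ↦ v ᵥ* M` is `det M` -/
private theorem nmd_lrrindex_aux_det (M : Matrix (Fin n) (Fin n) K[X]) :
    LinearMap.det (Matrix.vecMulLinear M) = M.det := by
  have h : Matrix.vecMulLinear M = Matrix.toLin' M.transpose := by
    refine LinearMap.ext fun v => ?_
    rw [Matrix.toLin'_apply, Matrix.mulVec_transpose]
    rfl
  rw [h, LinearMap.det_toLin', Matrix.det_transpose]

/-- the product of the Smith coefficients of the lattice `K[X]ⁿ·M` is associated to `det M` -/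
private theorem nmd_lrrindex_aux_associated (M : Matrix (Fin n) (Fin n) K[X]) (hM : M.det ≠ 0) :
    Associated
      (∏ i, Submodule.smithNormalFormCoeffs (Pi.basisFun K[X] (Fin n))
        (nmd_lrrindex_aux_finrank M hM) i) M.det := by
  classical
  have hinj := nmd_lrrindex_aux_injective M hM
  have h := nmd_lrrindex_aux_finrank M hM
  let b := Pi.basisFun K[X] (Fin n)
  let a := Submodule.smithNormalFormCoeffs b h
  let b' := Submodule.smithNormalFormTopBasis b h
  let ab := Submodule.smithNormalFormBotBasis b h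
  let e₀ := LinearEquiv.ofInjective (Matrix.vecMulLinear M) hinj
  let e : (Fin n → K[X]) ≃ₗ[K[X]] (Fin n → K[X]) := (b'.equiv ab (Equiv.refl _)).trans e₀.symm
  have hcomp : Matrix.toLin b' b' (Matrix.diagonal a)
      = (Matrix.vecMulLinear M).comp e.toLinearMap := by
    refine b'.ext fun i => ?_
    have h1 : Matrix.vecMulLinear M (e₀.symm (ab i)) = (ab i : Fin n → K[X]) := by
      have h2 := LinearEquiv.apply_symm_apply e₀ (ab i)
      have h3 : ((e₀ (e₀.symm (ab i)) : LinearMap.range (Matrix.vecMulLinear M)) : Fin n → K[X])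
          = Matrix.vecMulLinear M (e₀.symm (ab i)) := rfl
      rw [← h3, h2]
    have h4 : e (b' i) = e₀.symm (ab i) := by
      show e₀.symm ((b'.equiv ab (Equiv.refl _)) (b' i)) = e₀.symm (ab i)
      rw [Module.Basis.equiv_apply, Equiv.refl_apply]
    rw [Matrix.toLin_self, LinearMap.comp_apply, LinearEquiv.coe_coe, h4, h1,
      Submodule.smithNormalFormBotBasis_def b h i]
    rw [Finset.sum_eq_single i]
    · rw [Matrix.diagonal_apply_eq]
    · intro j _ hji
      rw [Matrix.diagonal_apply_ne _ hji, zero_smul]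
    · intro hi
      exact absurd (Finset.mem_univ i) hi
  show Associated (∏ i, a i) M.det
  rw [← Matrix.det_diagonal, ← LinearMap.det_toLin b', ← nmd_lrrindex_aux_det M]
  refine LinearMap.associated_det_of_eq_comp e _ _ ?_
  intro x
  rw [hcomp]
  rfl

theorem lrr_index_finite (M : Matrix (Fin n) (Fin n) K[X]) (hM : M.det ≠ 0) :
    Module.Finite K ((Fin n → K[X]) ⧸ LinearMap.range (Matrix.vecMulLinear M)) := by
  have h := nmd_lrrindex_aux_finrank M hM
  have : ∀ i, Module.Finite K (K[X] ⧸ Ideal.span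
      ({Submodule.smithNormalFormCoeffs (Pi.basisFun K[X] (Fin n)) h i} : Set K[X])) :=
    fun i => nmd_lrrindex_aux_finite_span (Submodule.smithNormalFormCoeffs_ne_zero _ h i)
  exact Module.Finite.equiv
    ((Submodule.quotientEquivPiSpan _ (Pi.basisFun K[X] (Fin n)) h).restrictScalars K).symm

theorem lrr_index (M : Matrix (Fin n) (Fin n) K[X]) (hM : M.det ≠ 0) :
    Module.finrank K ((Fin n → K[X]) ⧸ LinearMap.range (Matrix.vecMulLinear M))
      = M.det.natDegree := by
  have h := nmd_lrrindex_aux_finrank M hM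
  have : ∀ i, Module.Finite K (K[X] ⧸ Ideal.span
      ({Submodule.smithNormalFormCoeffs (Pi.basisFun K[X] (Fin n)) h i} : Set K[X])) :=
    fun i => nmd_lrrindex_aux_finite_span (Submodule.smithNormalFormCoeffs_ne_zero _ h i)
  rw [Submodule.finrank_quotient_eq_sum K (Pi.basisFun K[X] (Fin n)) h,
    ← natDegree_eq_of_degree_eq (degree_eq_degree_of_associated
      (nmd_lrrindex_aux_associated M hM)),
    natDegree_prod _ _ (fun i _ => Submodule.smithNormalFormCoeffs_ne_zero _ h i)]
  exact Finset.sum_congr rfl fun i _ => finrank_quotient_span_eq_natDegree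

end Fermat.Agent.S18L
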