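import Mathlib
import Fermat.Agent.S18L.LrrIndex

/-!
# S18, package LRR: lattice Riemann–Roch on the line, polynomial form

For `M ∈ Mat_n(K[X])` with `det M ≠ 0` and `d ≥ deg det M`: the space of `v ∈ K[X]ⁿ` such that
all entries of `v · M` have degree `≤ d` has dimension `n (d + 1) - deg det M`.
-/

set_option autoImplicit false

open Polynomial

namespace Fermat.Agent.S18L

variable {K : Type*} [Field K] {n : ℕ}

/-- polynomial row vectors `v` with all entries of `v · M` of degree `≤ d` -/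
noncomputable def lrrPolySpace (M : Matrix (Fin n) (Fin n) K[X]) (d : ℕ) :
    Submodule K (Fin n → K[X]) :=
  (Submodule.pi Set.univ (fun _ : Fin n => Polynomial.degreeLE K (d : WithBot ℕ))).comap
    ((Matrix.vecMulLinear M).restrictScalars K)

theorem mem_lrrPolySpace (M : Matrix (Fin n) (Fin n) K[X]) (d : ℕ) (v : Fin n → K[X]) :
    v ∈ lrrPolySpace M d ↔ ∀ j, (Matrix.vecMul v M j).natDegree ≤ d := by
  unfold lrrPolySpace
  rw [Submodule.mem_comap, Submodule.mem_pi]
  constructor
  · intro h j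
    have hj := h j (Set.mem_univ j)
    rw [Polynomial.mem_degreeLE] at hj
    exact Polynomial.natDegree_le_iff_degree_le.mpr hj
  · intro h j _
    rw [Polynomial.mem_degreeLE]
    exact Polynomial.natDegree_le_iff_degree_le.mp (h j)

/-- `degreeLE K d` is finite-dimensional -/
private theorem nmd_lrrpoly_aux_finite_degreeLE (d : ℕ) :
    Module.Finite K (Polynomial.degreeLE K (d : WithBot ℕ)) := by
  rw [← Polynomial.degreeLT_succ_eq_degreeLE]
  exact Module.Finite.equiv (Polynomial.degreeLTEquiv K (d + 1)).symm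

/-- `degreeLE K d` has dimension `d + 1` -/
private theorem nmd_lrrpoly_aux_finrank_degreeLE (d : ℕ) :
    Module.finrank K (Polynomial.degreeLE K (d : WithBot ℕ)) = d + 1 := by
  rw [← Polynomial.degreeLT_succ_eq_degreeLE,
    LinearEquiv.finrank_eq (Polynomial.degreeLTEquiv K (d + 1)), Module.finrank_fin_fun]

/-- the `K`-linear map `v ↦ v · M` from `lrrPolySpace M d` to `(degreeLE K d)ⁿ` -/
private noncomputable def nmd_lrrpoly_aux_f (M : Matrix (Fin n) (Fin n) K[X]) (d : ℕ) :
    lrrPolySpace M d →ₗ[K] (Fin n → Polynomial.degreeLE K (d : WithBot ℕ)) :=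
  LinearMap.pi fun j =>
    LinearMap.codRestrict (Polynomial.degreeLE K (d : WithBot ℕ))
      ((LinearMap.proj j).comp
        (((Matrix.vecMulLinear M).restrictScalars K).comp (lrrPolySpace M d).subtype))
      (fun v => by
        have h := v.2
        unfold lrrPolySpace at h
        rw [Submodule.mem_comap, Submodule.mem_pi] at h
        exact h j (Set.mem_univ j))

private theorem nmd_lrrpoly_aux_f_apply (M : Matrix (Fin n) (Fin n) K[X]) (d : ℕ)
    (v : lrrPolySpace M d) (j : Fin n) :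
    ((nmd_lrrpoly_aux_f M d v) j : K[X]) = Matrix.vecMul (v : Fin n → K[X]) M j := rfl

/-- the `K`-linear map `(degreeLE K d)ⁿ → K[X]ⁿ ⧸ K[X]ⁿ · M` -/
private noncomputable def nmd_lrrpoly_aux_q (M : Matrix (Fin n) (Fin n) K[X]) (d : ℕ) :
    (Fin n → Polynomial.degreeLE K (d : WithBot ℕ)) →ₗ[K]
      ((Fin n → K[X]) ⧸ LinearMap.range (Matrix.vecMulLinear M)) :=
  ((LinearMap.range (Matrix.vecMulLinear M)).mkQ.restrictScalars K).comp
    (LinearMap.pi fun j =>
      (Polynomial.degreeLE K (d : WithBot ℕ)).subtype.comp (LinearMap.proj j))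

private theorem nmd_lrrpoly_aux_q_apply (M : Matrix (Fin n) (Fin n) K[X]) (d : ℕ)
    (w : Fin n → Polynomial.degreeLE K (d : WithBot ℕ)) :
    nmd_lrrpoly_aux_q M d w
      = (Submodule.Quotient.mk (fun j => (w j : K[X])) :
          (Fin n → K[X]) ⧸ LinearMap.range (Matrix.vecMulLinear M)) := rfl

private theorem nmd_lrrpoly_aux_f_injective (M : Matrix (Fin n) (Fin n) K[X]) (hM : M.det ≠ 0)
    (d : ℕ) : Function.Injective (nmd_lrrpoly_aux_f M d) := by
  rw [← LinearMap.ker_eq_bot, LinearMap.ker_eq_bot']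
  intro v hv
  have h1 : Matrix.vecMul (v : Fin n → K[X]) M = 0 := by
    funext j
    rw [← nmd_lrrpoly_aux_f_apply M d v j, hv]
    rfl
  exact Subtype.ext (Matrix.eq_zero_of_vecMul_eq_zero hM h1)

private theorem nmd_lrrpoly_aux_range_eq_ker (M : Matrix (Fin n) (Fin n) K[X]) (d : ℕ) :
    LinearMap.range (nmd_lrrpoly_aux_f M d) = LinearMap.ker (nmd_lrrpoly_aux_q M d) := by
  ext w
  rw [LinearMap.mem_range, LinearMap.mem_ker, nmd_lrrpoly_aux_q_apply,
    Submodule.Quotient.mk_eq_zero, LinearMap.mem_range]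
  constructor
  · rintro ⟨v, rfl⟩
    exact ⟨(v : Fin n → K[X]), rfl⟩
  · rintro ⟨v, hv⟩
    have hvj : ∀ j, Matrix.vecMul v M j = (w j : K[X]) := fun j => congrFun hv j
    have hvmem : v ∈ lrrPolySpace M d := by
      rw [mem_lrrPolySpace]
      intro j
      rw [hvj j]
      exact Polynomial.natDegree_le_iff_degree_le.mpr (Polynomial.mem_degreeLE.mp (w j).2)
    refine ⟨⟨v, hvmem⟩, ?_⟩
    funext j
    apply Subtype.ext
    rw [nmd_lrrpoly_aux_f_apply]
    exact hvj j

private theorem nmd_lrrpoly_aux_q_surjective (M : Matrix (Fin n) (Fin n) K[X]) (hM : M.det ≠ 0)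
    (d : ℕ) (hd : M.det.natDegree ≤ d) : Function.Surjective (nmd_lrrpoly_aux_q M d) := by
  intro y
  obtain ⟨w, rfl⟩ := Submodule.Quotient.mk_surjective _ y
  have hdeg : ∀ j, (w j % M.det) ∈ Polynomial.degreeLE K (d : WithBot ℕ) := by
    intro j
    rw [Polynomial.mem_degreeLE]
    have h1 : (w j % M.det).degree < M.det.degree := Polynomial.degree_mod_lt (w j) hM
    have h2 : M.det.degree ≤ (d : WithBot ℕ) := Polynomial.natDegree_le_iff_degree_le.mp hd
    exact (h1.trans_le h2).le
  refine ⟨fun j => ⟨w j % M.det, hdeg j⟩, ?_⟩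
  rw [nmd_lrrpoly_aux_q_apply, Submodule.Quotient.eq, LinearMap.mem_range]
  refine ⟨Matrix.vecMul (fun j => -(w j / M.det)) M.adjugate, ?_⟩
  rw [Matrix.vecMulLinear_apply, Matrix.vecMul_vecMul, Matrix.adjugate_mul, Matrix.vecMul_smul,
    Matrix.vecMul_one]
  funext j
  simp only [Pi.smul_apply, Pi.sub_apply, smul_eq_mul]
  have hdm := EuclideanDomain.div_add_mod (w j) M.det
  linear_combination (-1 : K[X]) * hdm

theorem lrr_poly_finite (M : Matrix (Fin n) (Fin n) K[X]) (hM : M.det ≠ 0) (d : ℕ) :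
    Module.Finite K (lrrPolySpace M d) := by
  have := nmd_lrrpoly_aux_finite_degreeLE (K := K) d
  exact Module.Finite.of_injective (nmd_lrrpoly_aux_f M d) (nmd_lrrpoly_aux_f_injective M hM d)

theorem lrr_poly_finrank (M : Matrix (Fin n) (Fin n) K[X]) (hM : M.det ≠ 0) (d : ℕ)
    (hd : M.det.natDegree ≤ d) :
    Module.finrank K (lrrPolySpace M d) + M.det.natDegree = n * (d + 1) := by
  have := nmd_lrrpoly_aux_finite_degreeLE (K := K) d
  have h1 := LinearMap.finrank_range_add_finrank_ker (nmd_lrrpoly_aux_q M d)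
  have h2 : Module.finrank K (LinearMap.range (nmd_lrrpoly_aux_q M d)) = M.det.natDegree := by
    rw [LinearMap.range_eq_top.mpr (nmd_lrrpoly_aux_q_surjective M hM d hd), finrank_top,
      lrr_index M hM]
  have h3 : Module.finrank K (LinearMap.ker (nmd_lrrpoly_aux_q M d))
      = Module.finrank K (lrrPolySpace M d) := by
    rw [← nmd_lrrpoly_aux_range_eq_ker,
      LinearMap.finrank_range_of_inj (nmd_lrrpoly_aux_f_injective M hM d)]
  have h4 : Module.finrank K (Fin n → Polynomial.degreeLE K (d : WithBot ℕ)) = n * (d + 1) := by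
    rw [Module.finrank_pi_fintype, Finset.sum_const, Finset.card_univ, Fintype.card_fin,
      nmd_lrrpoly_aux_finrank_degreeLE, smul_eq_mul]
  omega

end Fermat.Agent.S18L
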