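import Mathlib
import Fermat.Agent.S18L.NmDefs
import Fermat.Agent.S18L.LrrPoly

/-!
# S18, package NM, block D: the lattice formula (LF) from `lrr_poly_finrank`

`nmW N m = lrrPolySpace (adj N) m`, `det (adj N) = (det N)^(n-1)`.
-/

set_option autoImplicit false

namespace Fermat.Agent.S18L

theorem nmd_nmW_eq {κ : Type*} [Field κ] {n : ℕ} (N : Matrix (Fin n) (Fin n) (Polynomial κ))
    (m : ℕ) : nmW N m = lrrPolySpace N.adjugate m := by
  ext c
  rw [mem_lrrPolySpace]
  show (∀ j, (Matrix.vecMul c N.adjugate j).degree ≤ (m : WithBot ℕ)) ↔ _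
  exact forall_congr' fun j => Polynomial.natDegree_le_iff_degree_le.symm

theorem nmd_lf {κ : Type*} [Field κ] {n : ℕ} (N : Matrix (Fin n) (Fin n) (Polynomial κ))
    (hN : N.det ≠ 0) :
    (∀ m : ℕ, Module.Finite κ (nmW N m)) ∧
    ∃ m₀ : ℕ, ∀ m : ℕ, m₀ ≤ m →
      Module.finrank κ (nmW N m) + (n - 1) * N.det.natDegree = n * (m + 1) := by
  have hdet : N.adjugate.det = N.det ^ (n - 1) := by
    rw [Matrix.det_adjugate, Fintype.card_fin]
  have hM : N.adjugate.det ≠ 0 := by
    rw [hdet]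
    exact pow_ne_zero _ hN
  have hdeg : N.adjugate.det.natDegree = (n - 1) * N.det.natDegree := by
    rw [hdet, Polynomial.natDegree_pow]
  refine ⟨fun m => ?_, (n - 1) * N.det.natDegree, fun m hm => ?_⟩
  · rw [nmd_nmW_eq]
    exact lrr_poly_finite N.adjugate hM m
  · rw [nmd_nmW_eq, ← hdeg]
    exact lrr_poly_finrank N.adjugate hM m (by rw [hdeg]; exact hm)

end Fermat.Agent.S18L
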