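import Mathlib
import Fermat.Agent.S18L.NmDefs

/-!
# S18, package NM, block D (owner helper7): auxiliary definition

`nmdPsi θ x : κ[X]ⁿ →ₗ[κ] Φ`, `c ↦ Σ c_i(θ) x_i`.
-/

set_option autoImplicit false

namespace Fermat.Agent.S18L

/-- `c ↦ Σ c_i(θ) x_i` -/
noncomputable def nmdPsi {κ Φ : Type*} [Field κ] [Field Φ] [Algebra κ Φ] (θ : Φ) {n : ℕ}
    (x : Fin n → Φ) : (Fin n → Polynomial κ) →ₗ[κ] Φ where
  toFun c := ∑ i, Polynomial.aeval θ (c i) * x i
  map_add' c c' := by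
    simp only [Pi.add_apply, map_add, add_mul, Finset.sum_add_distrib]
  map_smul' a c := by
    simp only [Pi.smul_apply, map_smul, smul_mul_assoc, Finset.smul_sum, RingHom.id_apply]

theorem nmdPsi_apply {κ Φ : Type*} [Field κ] [Field Φ] [Algebra κ Φ] (θ : Φ) {n : ℕ}
    (x : Fin n → Φ) (c : Fin n → Polynomial κ) :
    nmdPsi θ x c = ∑ i, Polynomial.aeval θ (c i) * x i := rfl

end Fermat.Agent.S18L
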