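import Mathlib
import Fermat.Agent.S18L.NmDefs

/-!
# S18, package NM, block D: integral over `κ[θ]` ⇒ `θ⁻ʳ y` integral over `κ[θ⁻¹]` for `r ≫ 0`
-/

set_option autoImplicit false

namespace Fermat.Agent.S18L

/-- `p(θ) · θ⁻ᵐ ∈ κ[θ⁻¹]` for `m ≥ deg p`. -/
private theorem nmd_nmdinta_aux_mem {κ Φ : Type*} [Field κ] [Field Φ] [Algebra κ Φ] (θ : Φ)
    (hθ : θ ≠ 0) (p : Polynomial κ) (m : ℕ) (hm : p.natDegree ≤ m) :
    Polynomial.aeval θ p * θ⁻¹ ^ m ∈ Algebra.adjoin κ {θ⁻¹} := by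
  rw [Polynomial.aeval_eq_sum_range, Finset.sum_mul]
  apply Subalgebra.sum_mem
  intro k hk
  rw [Finset.mem_range] at hk
  have hkm : k ≤ m := by omega
  have h1 : θ ^ k * θ⁻¹ ^ m = θ⁻¹ ^ (m - k) := by
    have h : θ⁻¹ ^ m = θ⁻¹ ^ (m - k) * θ⁻¹ ^ k := by rw [← pow_add, Nat.sub_add_cancel hkm]
    rw [h, mul_comm (θ⁻¹ ^ (m - k)), ← mul_assoc, ← mul_pow, mul_inv_cancel₀ hθ, one_pow,
      one_mul]
  rw [smul_mul_assoc, h1]
  exact Subalgebra.smul_mem _
    (Subalgebra.pow_mem _ (Algebra.subset_adjoin (Set.mem_singleton _)) _) _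

theorem nmd_int_inv {κ Φ : Type*} [Field κ] [Field Φ] [Algebra κ Φ] (θ : Φ) (hθ : θ ≠ 0)
    (y : Φ) (hy : NmFin κ θ y) :
    ∃ M : ℕ, ∀ r : ℕ, M ≤ r → NmFin κ θ⁻¹ (θ⁻¹ ^ r * y) := by
  obtain ⟨P, hPm, hP⟩ := hy
  have hmem : ∀ x : Φ, x ∈ Algebra.adjoin κ {θ} →
      ∃ q : Polynomial κ, Polynomial.aeval θ q = x := by
    intro x hx
    rw [Algebra.adjoin_singleton_eq_range_aeval] at hx
    exact hx
  choose Ac hAc using fun i : ℕ => hmem _ (P.coeff i).2
  refine ⟨(Finset.range (P.natDegree + 1)).sup (fun i => (Ac i).natDegree), fun r hr => ?_⟩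
  -- the monic polynomial over `Φ` with root `θ⁻ʳ y`
  have hP'm : (P.map (algebraMap (Algebra.adjoin κ {θ}) Φ)).Monic := hPm.map _
  have hP'd : (P.map (algebraMap (Algebra.adjoin κ {θ}) Φ)).natDegree = P.natDegree :=
    hPm.natDegree_map _
  have hP'root : Polynomial.eval y (P.map (algebraMap (Algebra.adjoin κ {θ}) Φ)) = 0 := by
    rw [Polynomial.eval_map]
    exact hP
  have hQ'm : (Polynomial.scaleRoots (P.map (algebraMap (Algebra.adjoin κ {θ}) Φ))
      (θ⁻¹ ^ r)).Monic := (Polynomial.monic_scaleRoots_iff _).2 hP'm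
  have hQ'root : Polynomial.eval (θ⁻¹ ^ r * y)
      (Polynomial.scaleRoots (P.map (algebraMap (Algebra.adjoin κ {θ}) Φ)) (θ⁻¹ ^ r)) = 0 := by
    rw [Polynomial.scaleRoots_eval_mul, hP'root, mul_zero]
  -- its coefficients lie in `κ[θ⁻¹]`
  have hlift : Polynomial.scaleRoots (P.map (algebraMap (Algebra.adjoin κ {θ}) Φ)) (θ⁻¹ ^ r)
      ∈ Polynomial.lifts (algebraMap (Algebra.adjoin κ {θ⁻¹}) Φ) := by
    rw [Polynomial.lifts_iff_coeff_lifts]
    intro i
    have hcoe : ∀ x : Φ, x ∈ Algebra.adjoin κ {θ⁻¹} →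
        x ∈ Set.range (algebraMap (Algebra.adjoin κ {θ⁻¹}) Φ) := fun x hx => ⟨⟨x, hx⟩, rfl⟩
    apply hcoe
    rw [Polynomial.coeff_scaleRoots, hP'd, Polynomial.coeff_map]
    by_cases hi : i < P.natDegree
    · have e : (algebraMap (Algebra.adjoin κ {θ}) Φ) (P.coeff i) = Polynomial.aeval θ (Ac i) :=
        (hAc i).symm
      rw [e, ← pow_mul]
      apply nmd_nmdinta_aux_mem θ hθ
      calc (Ac i).natDegree
          ≤ (Finset.range (P.natDegree + 1)).sup (fun i => (Ac i).natDegree) :=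
            Finset.le_sup (f := fun i => (Ac i).natDegree) (Finset.mem_range.2 (by omega))
        _ ≤ r := hr
        _ ≤ r * (P.natDegree - i) := Nat.le_mul_of_pos_right r (by omega)
    · have h0 : P.natDegree - i = 0 := by omega
      rw [h0, pow_zero, mul_one]
      rcases Nat.lt_or_ge P.natDegree i with hlt | hge
      · rw [Polynomial.coeff_eq_zero_of_natDegree_lt hlt, map_zero]
        exact Subalgebra.zero_mem _
      · have hid : i = P.natDegree := by omega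
        rw [hid, hPm.coeff_natDegree, map_one]
        exact Subalgebra.one_mem _
  obtain ⟨Q, hQmap, -, hQm⟩ := Polynomial.lifts_and_degree_eq_and_monic hlift hQ'm
  refine ⟨Q, hQm, ?_⟩
  rw [← Polynomial.eval_map, hQmap]
  exact hQ'root

end Fermat.Agent.S18L
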