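import Mathlib
import Fermat.Agent.S18L.NmDefs

/-!
# S18, package NM, block D: the Bézout step

If `g(u) z` and `u^M z` are integral over `κ[u]` and `g(0) ≠ 0`, then `z` is integral over `κ[u]`.
-/

set_option autoImplicit false

namespace Fermat.Agent.S18L

private theorem nmd_intb_aux_fin_aeval {κ Φ : Type*} [Field κ] [Field Φ] [Algebra κ Φ] (u : Φ)
    (p : Polynomial κ) : NmFin κ u (Polynomial.aeval u p) := by
  have hmem : Polynomial.aeval u p ∈ Algebra.adjoin κ {u} :=
    Polynomial.aeval_mem_adjoin_singleton κ u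
  exact isIntegral_algebraMap (R := Algebra.adjoin κ {u}) (A := Φ) (x := ⟨_, hmem⟩)

theorem nmd_int_bezout {κ Φ : Type*} [Field κ] [Field Φ] [Algebra κ Φ] (u z : Φ)
    (g : Polynomial κ) (hg : g.eval 0 ≠ 0) (M : ℕ)
    (h1 : NmFin κ u (Polynomial.aeval u g * z)) (h2 : NmFin κ u (u ^ M * z)) :
    NmFin κ u z := by
  have hX : ¬ (Polynomial.X : Polynomial κ) ∣ g := by
    rw [Polynomial.X_dvd_iff, Polynomial.coeff_zero_eq_eval_zero]
    exact hg
  have hcop : IsCoprime g ((Polynomial.X : Polynomial κ) ^ M) :=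
    ((Polynomial.irreducible_X.coprime_iff_not_dvd).mpr hX).symm.pow_right
  obtain ⟨a, b, hab⟩ := hcop
  have h3 : Polynomial.aeval u a * Polynomial.aeval u g + Polynomial.aeval u b * u ^ M = 1 := by
    have h := congrArg (Polynomial.aeval u) hab
    rw [map_add, map_mul, map_mul, map_pow, Polynomial.aeval_X, map_one] at h
    exact h
  have hz : z = Polynomial.aeval u a * (Polynomial.aeval u g * z)
      + Polynomial.aeval u b * (u ^ M * z) := by
    linear_combination (-z) * h3
  have h4 : NmFin κ u (Polynomial.aeval u a * (Polynomial.aeval u g * z)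
      + Polynomial.aeval u b * (u ^ M * z)) :=
    IsIntegral.add (IsIntegral.mul (nmd_intb_aux_fin_aeval u a) h1)
      (IsIntegral.mul (nmd_intb_aux_fin_aeval u b) h2)
  rw [← hz] at h4
  exact h4

/-- polynomials in `u` are integral over `κ[u]`; sums and products of integral elements are. -/
theorem nmd_fin_aeval {κ Φ : Type*} [Field κ] [Field Φ] [Algebra κ Φ] (u : Φ)
    (p : Polynomial κ) : NmFin κ u (Polynomial.aeval u p) := by
  exact nmd_intb_aux_fin_aeval u p

theorem nmd_fin_mul {κ Φ : Type*} [Field κ] [Field Φ] [Algebra κ Φ] (u : Φ) {a b : Φ}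
    (ha : NmFin κ u a) (hb : NmFin κ u b) : NmFin κ u (a * b) := by
  exact IsIntegral.mul ha hb

theorem nmd_fin_sum {κ Φ : Type*} [Field κ] [Field Φ] [Algebra κ Φ] (u : Φ) {ι : Type*}
    (s : Finset ι) (f : ι → Φ) (hf : ∀ i ∈ s, NmFin κ u (f i)) : NmFin κ u (∑ i ∈ s, f i) := by
  unfold NmFin at hf ⊢
  exact IsIntegral.sum f hf

end Fermat.Agent.S18L
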