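import Mathlib
import Fermat.Agent.S18L.NmDefs

/-!
# S18, package NM, block D: reflected polynomials (`θ ↔ θ⁻¹`)
-/

set_option autoImplicit false

open Polynomial

namespace Fermat.Agent.S18L

variable {κ Φ : Type*} [Field κ] [Field Φ] [Algebra κ Φ]

/-- `p(θ) = θ^d · p̃(θ⁻¹)` for `p̃ = reflect d p`, `d ≥ deg p`. -/
theorem nmd_aeval_reflect (θ : Φ) (hθ : θ ≠ 0) (p : κ[X]) (d : ℕ) (hd : p.natDegree ≤ d) :
    aeval θ⁻¹ (p.reflect d) * θ ^ d = aeval θ p := by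
  let _ : Invertible θ := invertibleOfNonzero hθ
  have h := Polynomial.eval₂_reflect_mul_pow (algebraMap κ Φ) θ d p hd
  rw [invOf_eq_inv] at h
  rw [Polynomial.aeval_def, Polynomial.aeval_def]
  exact h

/-- `p(θ⁻¹) · θ^d = p̃(θ)` for `p̃ = reflect d p`, `d ≥ deg p`. -/
theorem nmd_aeval_reflect' (θ : Φ) (hθ : θ ≠ 0) (p : κ[X]) (d : ℕ) (hd : p.natDegree ≤ d) :
    aeval θ⁻¹ p * θ ^ d = aeval θ (p.reflect d) := by
  have hθ' : θ⁻¹ ≠ 0 := inv_ne_zero hθ
  let _ : Invertible θ⁻¹ := invertibleOfNonzero hθ'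
  have h := Polynomial.eval₂_reflect_mul_pow (algebraMap κ Φ) θ⁻¹ d p hd
  rw [invOf_eq_inv, inv_inv] at h
  rw [Polynomial.aeval_def, Polynomial.aeval_def, ← h, mul_assoc, ← mul_pow,
    inv_mul_cancel₀ hθ, one_pow, mul_one]

theorem nmd_natDegree_reflect_le (p : κ[X]) (d : ℕ) (hd : p.natDegree ≤ d) :
    (p.reflect d).natDegree ≤ d := by
  have h := Polynomial.natDegree_reflect_le (N := d) (p := p)
  rwa [max_eq_left hd] at h

theorem nmd_eval_zero_reverse (p : κ[X]) (hp : p ≠ 0) : p.reverse.eval 0 ≠ 0 := by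
  rw [← Polynomial.coeff_zero_eq_eval_zero, Polynomial.coeff_zero_reverse]
  exact Polynomial.leadingCoeff_ne_zero.2 hp

/-- `reverse p = reflect (natDegree p) p` evaluated: `p(θ) = θ^{deg p} · (reverse p)(θ⁻¹)`. -/
theorem nmd_aeval_reverse (θ : Φ) (hθ : θ ≠ 0) (p : κ[X]) :
    aeval θ⁻¹ p.reverse * θ ^ p.natDegree = aeval θ p := by
  let _ : Invertible θ := invertibleOfNonzero hθ
  have h := Polynomial.eval₂_reverse_mul_pow (algebraMap κ Φ) θ p
  rw [invOf_eq_inv] at h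
  rw [Polynomial.aeval_def, Polynomial.aeval_def]
  exact h

theorem nmd_ne_zero_of_transcendental (θ : Φ) (hθ : Transcendental κ θ) : θ ≠ 0 := by
  rintro rfl
  exact hθ isAlgebraic_zero

end Fermat.Agent.S18L
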