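import Mathlib
import Fermat.Agent.S18L.NmDefs
import Fermat.Agent.S18L.NmDRefl
import Fermat.Agent.S18L.NmDIntA
import Fermat.Agent.S18L.NmDIntB

/-!
# S18, package NM, block D: key step of the lower bound (G2)

For `c ∈ nmW N (s + deg det N - deg E)` the element `Σ c_i(θ) x_i` lies in `nmL κ θ s`.
-/

set_option autoImplicit false

namespace Fermat.Agent.S18L

theorem nmd_lower_key {κ Φ : Type*} [Field κ] [Field Φ] [Algebra κ Φ] (θ : Φ)
    (hθ : Transcendental κ θ) {n : ℕ} (x x' : Fin n → Φ)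
    (hxf : ∀ i, NmFin κ θ (x i)) (hxf' : ∀ j, NmFin κ θ⁻¹ (x' j))
    (E : Polynomial κ) (hE : E ≠ 0) (N : Matrix (Fin n) (Fin n) (Polynomial κ))
    (hdet : N.det ≠ 0)
    (hN : ∀ j, Polynomial.aeval θ E * x' j = ∑ i, Polynomial.aeval θ (N j i) * x i)
    (s : ℕ) (hs : E.natDegree ≤ s + N.det.natDegree) (c : Fin n → Polynomial κ)
    (hc : c ∈ nmW N (s + N.det.natDegree - E.natDegree)) :
    (∑ i, Polynomial.aeval θ (c i) * x i) ∈ nmL κ θ s := by
  -- (`hE` is part of the frozen signature; the argument below does not need it)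
  have _hE := hE
  have hθ0 : θ ≠ 0 := nmd_ne_zero_of_transcendental θ hθ
  have hcW : ∀ j, (Matrix.vecMul c N.adjugate j).degree
      ≤ ((s + N.det.natDegree - E.natDegree : ℕ) : WithBot ℕ) := hc
  -- `w = c ⬝ adj N`, with `w ⬝ N = det N • c`
  obtain ⟨w, hw⟩ : ∃ w : Fin n → Polynomial κ, w = Matrix.vecMul c N.adjugate := ⟨_, rfl⟩
  have hwN : Matrix.vecMul w N = N.det • c := by
    rw [hw, Matrix.vecMul_vecMul, Matrix.adjugate_mul, Matrix.vecMul_smul, Matrix.vecMul_one]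
  have h2 : ∀ k, ∑ j, w j * N j k = N.det * c k := by
    intro k
    have h := congrFun hwN k
    rw [Pi.smul_apply, smul_eq_mul] at h
    exact h
  have hdeg : ∀ j, (E * w j).natDegree ≤ s + N.det.natDegree := by
    intro j
    have h1 : (w j).natDegree ≤ s + N.det.natDegree - E.natDegree := by
      rw [hw]
      exact Polynomial.natDegree_le_of_degree_le (hcW j)
    have h3 := Polynomial.natDegree_mul_le (p := E) (q := w j)
    omega
  -- (a) `y` is integral over `κ[θ]`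
  have hy : NmFin κ θ (∑ i, Polynomial.aeval θ (c i) * x i) :=
    nmd_fin_sum θ Finset.univ _ (fun i _ => nmd_fin_mul θ (nmd_fin_aeval θ (c i)) (hxf i))
  -- (b) `det N(θ) · y = Σ_j (E w_j)(θ) x'_j`
  have hb : Polynomial.aeval θ N.det * (∑ i, Polynomial.aeval θ (c i) * x i)
      = ∑ j, Polynomial.aeval θ (E * w j) * x' j := by
    have h1 : ∀ j, Polynomial.aeval θ (E * w j) * x' j
        = ∑ k, Polynomial.aeval θ (w j * N j k) * x k := by
      intro j
      rw [map_mul, mul_comm (Polynomial.aeval θ E) _, mul_assoc, hN j, Finset.mul_sum]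
      refine Finset.sum_congr rfl fun k _ => ?_
      rw [map_mul, mul_assoc]
    rw [Finset.sum_congr rfl (fun j _ => h1 j), Finset.sum_comm, Finset.mul_sum]
    refine Finset.sum_congr rfl fun k _ => ?_
    rw [← Finset.sum_mul, ← map_sum (Polynomial.aeval θ) (fun j => w j * N j k) Finset.univ,
      h2 k, map_mul, mul_assoc]
  -- (c) passing to `u = θ⁻¹`
  have hA : ∀ j, Polynomial.aeval θ⁻¹ ((E * w j).reflect (s + N.det.natDegree))
      = Polynomial.aeval θ (E * w j) * θ⁻¹ ^ (s + N.det.natDegree) := by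
    intro j
    rw [← nmd_aeval_reflect θ hθ0 (E * w j) (s + N.det.natDegree) (hdeg j), mul_assoc, ← mul_pow,
      mul_inv_cancel₀ hθ0, one_pow, mul_one]
  have hc' : Polynomial.aeval θ⁻¹ N.det.reverse
        * ((∑ i, Polynomial.aeval θ (c i) * x i) * θ⁻¹ ^ s)
      = ∑ j, Polynomial.aeval θ⁻¹ ((E * w j).reflect (s + N.det.natDegree)) * x' j := by
    have h3 : ∑ j, Polynomial.aeval θ⁻¹ ((E * w j).reflect (s + N.det.natDegree)) * x' j
        = θ⁻¹ ^ (s + N.det.natDegree)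
          * (Polynomial.aeval θ N.det * (∑ i, Polynomial.aeval θ (c i) * x i)) := by
      rw [hb, Finset.mul_sum]
      refine Finset.sum_congr rfl fun j _ => ?_
      rw [hA j]
      ring
    have h4 : θ⁻¹ ^ N.det.natDegree * θ ^ N.det.natDegree = 1 := by
      rw [← mul_pow, inv_mul_cancel₀ hθ0, one_pow]
    rw [h3, ← nmd_aeval_reverse θ hθ0 N.det, pow_add]
    linear_combination (-(Polynomial.aeval θ⁻¹ N.det.reverse)
      * (∑ i, Polynomial.aeval θ (c i) * x i) * θ⁻¹ ^ s) * h4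
  have hz1 : NmFin κ θ⁻¹ (Polynomial.aeval θ⁻¹ N.det.reverse
      * ((∑ i, Polynomial.aeval θ (c i) * x i) * θ⁻¹ ^ s)) := by
    rw [hc']
    exact nmd_fin_sum θ⁻¹ Finset.univ _
      (fun j _ => nmd_fin_mul θ⁻¹ (nmd_fin_aeval θ⁻¹ _) (hxf' j))
  -- (d) a high power of `u` makes `y` integral over `κ[u]`
  obtain ⟨M₀, hM₀⟩ := nmd_int_inv θ hθ0 _ hy
  have hz2 : NmFin κ θ⁻¹ (θ⁻¹ ^ M₀ * ((∑ i, Polynomial.aeval θ (c i) * x i) * θ⁻¹ ^ s)) := by
    have h5 := hM₀ (M₀ + s) (Nat.le_add_right _ _)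
    have e : θ⁻¹ ^ M₀ * ((∑ i, Polynomial.aeval θ (c i) * x i) * θ⁻¹ ^ s)
        = θ⁻¹ ^ (M₀ + s) * (∑ i, Polynomial.aeval θ (c i) * x i) := by
      rw [pow_add]
      ring
    rw [e]
    exact h5
  -- (e) Bézout
  have hz : NmFin κ θ⁻¹ ((∑ i, Polynomial.aeval θ (c i) * x i) * θ⁻¹ ^ s) :=
    nmd_int_bezout θ⁻¹ _ N.det.reverse (nmd_eval_zero_reverse N.det hdet) M₀ hz1 hz2
  exact (mem_nmL κ θ s _).2 ⟨hy, hz⟩

end Fermat.Agent.S18L
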