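import Mathlib
import Fermat.Agent.S18L.NmDefs
import Fermat.Agent.S18L.NmDAux
import Fermat.Agent.S18L.NmDLowKey

/-!
# S18, package NM, block D: the lower bound (G2)
-/

set_option autoImplicit false

namespace Fermat.Agent.S18L

theorem nmd_ge_lower {κ Φ : Type*} [Field κ] [Field Φ] [Algebra κ Φ] (θ : Φ)
    (hθ : Transcendental κ θ) {n : ℕ} (x x' : Fin n → Φ)
    (hx : ∀ p : Fin n → Polynomial κ,
      (∑ i, Polynomial.aeval θ (p i) * x i) = 0 → ∀ i, p i = 0)
    (hxf : ∀ i, NmFin κ θ (x i)) (hxf' : ∀ j, NmFin κ θ⁻¹ (x' j))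
    (E : Polynomial κ) (hE : E ≠ 0) (N : Matrix (Fin n) (Fin n) (Polynomial κ))
    (hdet : N.det ≠ 0)
    (hN : ∀ j, Polynomial.aeval θ E * x' j = ∑ i, Polynomial.aeval θ (N j i) * x i)
    (s : ℕ) (hs : E.natDegree ≤ s + N.det.natDegree) (hfin : Module.Finite κ (nmL κ θ s)) :
    Module.finrank κ (nmW N (s + N.det.natDegree - E.natDegree))
      ≤ Module.finrank κ (nmL κ θ s) := by
  have hfin' : Module.Finite κ (nmL κ θ s) := hfin
  let f : nmW N (s + N.det.natDegree - E.natDegree) →ₗ[κ] nmL κ θ s :=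
    LinearMap.codRestrict (nmL κ θ s)
      ((nmdPsi θ x).domRestrict (nmW N (s + N.det.natDegree - E.natDegree)))
      (fun c => nmd_lower_key θ hθ x x' hxf hxf' E hE N hdet hN s hs c.1 c.2)
  have hf : Function.Injective f := by
    rw [injective_iff_map_eq_zero]
    intro c hc
    have h1 : (∑ i, Polynomial.aeval θ ((c : Fin n → Polynomial κ) i) * x i) = 0 :=
      congrArg Subtype.val hc
    exact Subtype.ext (funext (hx _ h1))
  exact LinearMap.finrank_le_finrank_of_injective hf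

end Fermat.Agent.S18L
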