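import Mathlib
import Fermat.Agent.S18L.NmDefs
import Fermat.Agent.S18L.NmDRefl

/-!
# S18, package NM, block D: key step of the upper bound (G1)

Every `y ∈ nmL κ θ s` is `Σ c_i(θ) x_i` with `c ∈ nmW N (s + deg det N - deg E)`.
-/

set_option autoImplicit false

namespace Fermat.Agent.S18L

theorem nmd_upper_key {κ Φ : Type*} [Field κ] [Field Φ] [Algebra κ Φ] (θ : Φ)
    (hθ : Transcendental κ θ) {n : ℕ} (x x' : Fin n → Φ)
    (hx : ∀ p : Fin n → Polynomial κ,
      (∑ i, Polynomial.aeval θ (p i) * x i) = 0 → ∀ i, p i = 0)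
    (hxs : ∀ y : Φ, NmFin κ θ y →
      ∃ p : Fin n → Polynomial κ, y = ∑ i, Polynomial.aeval θ (p i) * x i)
    (hx' : ∀ p : Fin n → Polynomial κ,
      (∑ i, Polynomial.aeval θ⁻¹ (p i) * x' i) = 0 → ∀ i, p i = 0)
    (hxs' : ∀ y : Φ, NmFin κ θ⁻¹ y →
      ∃ p : Fin n → Polynomial κ, y = ∑ i, Polynomial.aeval θ⁻¹ (p i) * x' i)
    (E : Polynomial κ) (hE : E ≠ 0) (N : Matrix (Fin n) (Fin n) (Polynomial κ))
    (hdet : N.det ≠ 0)
    (hN : ∀ j, Polynomial.aeval θ E * x' j = ∑ i, Polynomial.aeval θ (N j i) * x i)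
    (s : ℕ) (y : Φ) (hy : y ∈ nmL κ θ s) :
    ∃ c ∈ nmW N (s + N.det.natDegree - E.natDegree),
      y = ∑ i, Polynomial.aeval θ (c i) * x i := by
  classical
  have _ := hx'
  have hθ0 : θ ≠ 0 := nmd_ne_zero_of_transcendental θ hθ
  obtain ⟨hy1, hy2⟩ := (mem_nmL κ θ s y).1 hy
  obtain ⟨c, hc⟩ := hxs y hy1
  obtain ⟨r, hr⟩ := hxs' _ hy2
  obtain ⟨D, hD⟩ : ∃ D : ℕ, ∀ j, (r j).natDegree ≤ D :=
    ⟨Finset.univ.sup (fun j => (r j).natDegree), fun j =>
      Finset.le_sup (f := fun j => (r j).natDegree) (Finset.mem_univ j)⟩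
  obtain ⟨R, hRdef⟩ : ∃ R : Fin n → Polynomial κ, ∀ j, R j = (r j).reflect D :=
    ⟨fun j => (r j).reflect D, fun _ => rfl⟩
  have hR : ∀ j, Polynomial.aeval θ⁻¹ (r j) * θ ^ D = Polynomial.aeval θ (R j) := fun j => by
    rw [hRdef j]
    exact nmd_aeval_reflect' θ hθ0 (r j) D (hD j)
  have hRdeg : ∀ j, (R j).natDegree ≤ D := fun j => by
    rw [hRdef j]
    exact nmd_natDegree_reflect_le (r j) D (hD j)
  have hu : θ ^ s * θ⁻¹ ^ s = 1 := by rw [← mul_pow, mul_inv_cancel₀ hθ0, one_pow]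
  have hS1 : ∑ j, Polynomial.aeval θ (R j) * (Polynomial.aeval θ E * x' j)
      = Polynomial.aeval θ E * θ ^ D * (y * θ⁻¹ ^ s) := by
    rw [hr, Finset.mul_sum]
    refine Finset.sum_congr rfl fun j _ => ?_
    rw [← hR j]
    ring
  have hS2 : ∀ j, ∑ i, Polynomial.aeval θ (R j) * (Polynomial.aeval θ (N j i) * x i)
      = Polynomial.aeval θ (R j) * (Polynomial.aeval θ E * x' j) := by
    intro j
    rw [← Finset.mul_sum, ← hN j]
  have hkey : ∑ i, Polynomial.aeval θ
      (E * Polynomial.X ^ D * c i - Polynomial.X ^ s * ∑ j, R j * N j i) * x i = 0 := by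
    have h1 : ∀ i, Polynomial.aeval θ
        (E * Polynomial.X ^ D * c i - Polynomial.X ^ s * ∑ j, R j * N j i) * x i
        = Polynomial.aeval θ E * θ ^ D * (Polynomial.aeval θ (c i) * x i)
          - θ ^ s * ∑ j, Polynomial.aeval θ (R j) * (Polynomial.aeval θ (N j i) * x i) := by
      intro i
      simp only [map_sub, map_mul, map_pow, Polynomial.aeval_X, map_sum, sub_mul,
        Finset.sum_mul, Finset.mul_sum]
      congr 1
      · ring
      · refine Finset.sum_congr rfl fun j _ => ?_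
        ring
    calc ∑ i, Polynomial.aeval θ
          (E * Polynomial.X ^ D * c i - Polynomial.X ^ s * ∑ j, R j * N j i) * x i
        = ∑ i, (Polynomial.aeval θ E * θ ^ D * (Polynomial.aeval θ (c i) * x i)
            - θ ^ s * ∑ j, Polynomial.aeval θ (R j) * (Polynomial.aeval θ (N j i) * x i)) :=
          Finset.sum_congr rfl (fun i _ => h1 i)
      _ = Polynomial.aeval θ E * θ ^ D * ∑ i, Polynomial.aeval θ (c i) * x i
            - θ ^ s * ∑ i, ∑ j,
              Polynomial.aeval θ (R j) * (Polynomial.aeval θ (N j i) * x i) := by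
          simp only [Finset.sum_sub_distrib, Finset.mul_sum]
      _ = Polynomial.aeval θ E * θ ^ D * y
            - θ ^ s * ∑ j, ∑ i,
              Polynomial.aeval θ (R j) * (Polynomial.aeval θ (N j i) * x i) := by
          rw [← hc, Finset.sum_comm]
      _ = Polynomial.aeval θ E * θ ^ D * y
            - θ ^ s * (Polynomial.aeval θ E * θ ^ D * (y * θ⁻¹ ^ s)) := by
          rw [Finset.sum_congr rfl (fun j _ => hS2 j), hS1]
      _ = 0 := by
          have h2 : θ ^ s * (Polynomial.aeval θ E * θ ^ D * (y * θ⁻¹ ^ s))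
              = Polynomial.aeval θ E * θ ^ D * y * (θ ^ s * θ⁻¹ ^ s) := by ring
          rw [h2, hu, mul_one, sub_self]
  have hP := hx (fun i => E * Polynomial.X ^ D * c i - Polynomial.X ^ s * ∑ j, R j * N j i) hkey
  have hvec : (E * Polynomial.X ^ D) • c
      = (Polynomial.X ^ s : Polynomial κ) • Matrix.vecMul R N := by
    funext i
    have hPi : E * Polynomial.X ^ D * c i - Polynomial.X ^ s * ∑ j, R j * N j i = 0 := hP i
    simp only [Pi.smul_apply, smul_eq_mul, Matrix.vecMul, dotProduct]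
    exact sub_eq_zero.mp hPi
  have hadj : (E * Polynomial.X ^ D) • Matrix.vecMul c N.adjugate
      = (Polynomial.X ^ s : Polynomial κ) • (N.det • R) := by
    have h3 := congrArg (fun v => Matrix.vecMul v N.adjugate) hvec
    simp only [Matrix.smul_vecMul, Matrix.vecMul_vecMul, Matrix.mul_adjugate,
      Matrix.vecMul_smul, Matrix.vecMul_one] at h3
    exact h3
  refine ⟨c, ?_, hc⟩
  show ∀ j, (Matrix.vecMul c N.adjugate j).degree
    ≤ ((s + N.det.natDegree - E.natDegree : ℕ) : WithBot ℕ)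
  intro j
  by_cases hw : Matrix.vecMul c N.adjugate j = 0
  · rw [hw, Polynomial.degree_zero]
    exact bot_le
  · apply Polynomial.degree_le_of_natDegree_le
    have hj := congrFun hadj j
    simp only [Pi.smul_apply, smul_eq_mul] at hj
    have hX : (Polynomial.X : Polynomial κ) ^ D ≠ 0 := pow_ne_zero _ Polynomial.X_ne_zero
    have hlhs : E * Polynomial.X ^ D * Matrix.vecMul c N.adjugate j ≠ 0 :=
      mul_ne_zero (mul_ne_zero hE hX) hw
    have hRj : R j ≠ 0 := by
      intro h0
      rw [h0, mul_zero, mul_zero] at hj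
      exact hlhs hj
    have hd1 : (E * Polynomial.X ^ D * Matrix.vecMul c N.adjugate j).natDegree
        = E.natDegree + D + (Matrix.vecMul c N.adjugate j).natDegree := by
      rw [Polynomial.natDegree_mul (mul_ne_zero hE hX) hw, Polynomial.natDegree_mul hE hX,
        Polynomial.natDegree_X_pow]
    have hd2 : (Polynomial.X ^ s * (N.det * R j)).natDegree
        = s + (N.det.natDegree + (R j).natDegree) := by
      rw [Polynomial.natDegree_mul (pow_ne_zero _ Polynomial.X_ne_zero)
        (mul_ne_zero hdet hRj), Polynomial.natDegree_mul hdet hRj, Polynomial.natDegree_X_pow]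
    rw [hj, hd2] at hd1
    have hRd := hRdeg j
    omega

end Fermat.Agent.S18L
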