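import Mathlib
import Fermat.Agent.S18L.NmDefs
import Fermat.Agent.S18L.NmDAux
import Fermat.Agent.S18L.NmDLf
import Fermat.Agent.S18L.NmDUpKey

/-!
# S18, package NM, block D: the upper bound (G1)
-/

set_option autoImplicit false

namespace Fermat.Agent.S18L

theorem nmd_ge_upper {κ Φ : Type*} [Field κ] [Field Φ] [Algebra κ Φ] (θ : Φ)
    (hθ : Transcendental κ θ) {n : ℕ} (x x' : Fin n → Φ)
    (hx : ∀ p : Fin n → Polynomial κ,
      (∑ i, Polynomial.aeval θ (p i) * x i) = 0 → ∀ i, p i = 0)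
    (hxs : ∀ y : Φ, NmFin κ θ y →
      ∃ p : Fin n → Polynomial κ, y = ∑ i, Polynomial.aeval θ (p i) * x i)
    (hx' : ∀ p : Fin n → Polynomial κ,
      (∑ i, Polynomial.aeval θ⁻¹ (p i) * x' i) = 0 → ∀ i, p i = 0)
    (hxs' : ∀ y : Φ, NmFin κ θ⁻¹ y →
      ∃ p : Fin n → Polynomial κ, y = ∑ i, Polynomial.aeval θ⁻¹ (p i) * x' i)
    (E : Polynomial κ) (hE : E ≠ 0) (N : Matrix (Fin n) (Fin n) (Polynomial κ))
    (hdet : N.det ≠ 0)
    (hN : ∀ j, Polynomial.aeval θ E * x' j = ∑ i, Polynomial.aeval θ (N j i) * x i)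
    (s : ℕ) :
    Module.finrank κ (nmL κ θ s)
      ≤ Module.finrank κ (nmW N (s + N.det.natDegree - E.natDegree)) := by
  have hle : nmL κ θ s
      ≤ Submodule.map (nmdPsi θ x) (nmW N (s + N.det.natDegree - E.natDegree)) := by
    intro y hy
    obtain ⟨c, hc, hyc⟩ := nmd_upper_key θ hθ x x' hx hxs hx' hxs' E hE N hdet hN s y hy
    refine ⟨c, hc, ?_⟩
    rw [nmdPsi_apply]
    exact hyc.symm
  have hfin : Module.Finite κ (nmW N (s + N.det.natDegree - E.natDegree)) :=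
    (nmd_lf N hdet).1 _
  exact le_trans (Submodule.finrank_mono hle) (Submodule.finrank_map_le _ _)

end Fermat.Agent.S18L
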