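import Mathlib
import Fermat.Agent.S18L.NmDefs
import Fermat.Agent.S18L.NmDLf
import Fermat.Agent.S18L.NmDUp
import Fermat.Agent.S18L.NmDLow

/-!
# S18, package NM, block D (owner helper7): the lattice formula on the projective line and the
two coordinate bounds for the spaces `nmL`

Interface statements (frozen by helper2).
-/

set_option autoImplicit false

open scoped IntermediateField

namespace Fermat.Agent.S18L

/-- (LF) **lattice formula.**  For a polynomial matrix `N` with nonzero determinant the space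
`nmW N m = {c | deg (c ⬝ adj N)_j ≤ m}` is finite-dimensional, of dimension
`n (m + 1) - (n - 1) deg (det N)` for `m` large. -/
theorem nm_lf {κ : Type*} [Field κ] {n : ℕ} (N : Matrix (Fin n) (Fin n) (Polynomial κ))
    (hN : N.det ≠ 0) :
    (∀ m : ℕ, Module.Finite κ (nmW N m)) ∧
    ∃ m₀ : ℕ, ∀ m : ℕ, m₀ ≤ m →
      Module.finrank κ (nmW N m) + (n - 1) * N.det.natDegree = n * (m + 1) := by
  exact nmd_lf N hN

/-- (G1) **upper bound.**  If `x` is a `κ[θ]`-basis of the integral closure of `κ[θ]`, `x'` a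
`κ[θ⁻¹]`-basis of the integral closure of `κ[θ⁻¹]`, and `E(θ) x' = N(θ) x`, then `nmL κ θ s`
embeds into `nmW N (s + deg det N - deg E)`. -/
theorem nm_ge_upper {κ Φ : Type*} [Field κ] [Field Φ] [Algebra κ Φ] (θ : Φ)
    (hθ : Transcendental κ θ) {n : ℕ} (x x' : Fin n → Φ)
    (hx : ∀ p : Fin n → Polynomial κ,
      (∑ i, Polynomial.aeval θ (p i) * x i) = 0 → ∀ i, p i = 0)
    (hxs : ∀ y : Φ, NmFin κ θ y →
      ∃ p : Fin n → Polynomial κ, y = ∑ i, Polynomial.aeval θ (p i) * x i)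
    (hx' : ∀ p : Fin n → Polynomial κ,
      (∑ i, Polynomial.aeval θ⁻¹ (p i) * x' i) = 0 → ∀ i, p i = 0)
    (hxs' : ∀ y : Φ, NmFin κ θ⁻¹ y →
      ∃ p : Fin n → Polynomial κ, y = ∑ i, Polynomial.aeval θ⁻¹ (p i) * x' i)
    (E : Polynomial κ) (hE : E ≠ 0) (N : Matrix (Fin n) (Fin n) (Polynomial κ))
    (hdet : N.det ≠ 0)
    (hN : ∀ j, Polynomial.aeval θ E * x' j = ∑ i, Polynomial.aeval θ (N j i) * x i)
    (s : ℕ) :
    Module.finrank κ (nmL κ θ s)
      ≤ Module.finrank κ (nmW N (s + N.det.natDegree - E.natDegree)) := by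
  exact nmd_ge_upper θ hθ x x' hx hxs hx' hxs' E hE N hdet hN s

/-- (G2) **lower bound.**  If the `x i` are integral over `κ[θ]` and `κ[θ]`-independent, the
`x' j` are integral over `κ[θ⁻¹]`, and `E(θ) x' = N(θ) x`, then `nmW N (s + deg det N - deg E)`
embeds into `nmL κ θ s`. -/
theorem nm_ge_lower {κ Φ : Type*} [Field κ] [Field Φ] [Algebra κ Φ] (θ : Φ)
    (hθ : Transcendental κ θ) {n : ℕ} (x x' : Fin n → Φ)
    (hx : ∀ p : Fin n → Polynomial κ,
      (∑ i, Polynomial.aeval θ (p i) * x i) = 0 → ∀ i, p i = 0)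
    (hxf : ∀ i, NmFin κ θ (x i)) (hxf' : ∀ j, NmFin κ θ⁻¹ (x' j))
    (E : Polynomial κ) (hE : E ≠ 0) (N : Matrix (Fin n) (Fin n) (Polynomial κ))
    (hdet : N.det ≠ 0)
    (hN : ∀ j, Polynomial.aeval θ E * x' j = ∑ i, Polynomial.aeval θ (N j i) * x i)
    (s : ℕ) (hs : E.natDegree ≤ s + N.det.natDegree) (hfin : Module.Finite κ (nmL κ θ s)) :
    Module.finrank κ (nmW N (s + N.det.natDegree - E.natDegree))
      ≤ Module.finrank κ (nmL κ θ s) := by
  exact nmd_ge_lower θ hθ x x' hx hxf hxf' E hE N hdet hN s hs hfin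

end Fermat.Agent.S18L
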