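import Mathlib
import Fermat.Agent.S18L.CrvDD
import Fermat.Agent.S18L.CrvDDOrd
import Fermat.Agent.S18L.CrvDDBij
import Fermat.Agent.S18L.CrvDDFin
import Fermat.Agent.S18L.CrvBase
import Fermat.Agent.S18L.CrvG2

/-!
# S18, package CRV (helper6): the algebraic description of regularity conditions in terms of integrality over `k[t]` and `k[t⁻¹]` (dictionary between Prelude places and integral closures, finite part and part at infinity)
-/

set_option autoImplicit false

open AlgebraicCurve IsDedekindDomain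
open scoped IntermediateField.algebraAdjoinAdjoin

namespace Fermat.Agent.S18L

section G

variable (k : Type*) {L : Type*} [Field k] [Field L] [Algebra k L] (t : L)

theorem crvi_ord_neg (Q : Place k L) (z : L) : Q.ord (-z) = Q.ord z := by
  simp [Place.ord, Valuation.map_neg]

theorem crvi_ord_nonneg_of_mem (Q : Place k L) {y : L} (hy : y ∈ Q.toValuationSubring) :
    0 ≤ Q.ord y := by
  rcases eq_or_ne y 0 with rfl | hy0
  · rw [Q.ord_zero]
  · exact (Fermat.Agent.X0S24.PlaceRes.mem_iff_ord_nonneg Q hy0).mp hy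

theorem crvi_ord_pow (Q : Place k L) (f : L) (n : ℕ) : Q.ord (f ^ n) = (n : ℤ) * Q.ord f := by
  rw [← zpow_natCast, Q.ord_zpow]

/-- polynomials in an element of the valuation ring stay in the valuation ring -/
theorem crvi_aeval_mem (Q : Place k L) {y : L} (hy : y ∈ Q.toValuationSubring)
    (p : Polynomial k) : Polynomial.aeval y p ∈ Q.toValuationSubring := by
  induction p using Polynomial.induction_on' with
  | add p q hp hq =>
    rw [map_add]
    exact add_mem hp hq
  | monomial n a =>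
    rw [Polynomial.aeval_monomial]
    exact mul_mem (Q.algebraMap_mem' a) (pow_mem hy n)

/-- a unit plus an element of positive order has order zero -/
theorem crvi_ord_add_eq_zero (Q : Place k L) {a z : L} (ha : a ≠ 0) (ha0 : Q.ord a = 0)
    (hz : z ≠ 0) (hz0 : 0 < Q.ord z) : a + z ≠ 0 ∧ Q.ord (a + z) = 0 := by
  have hne : a + z ≠ 0 := by
    intro h
    have h' : a = -z := eq_neg_of_add_eq_zero_left h
    rw [h', crvi_ord_neg] at ha0
    omega
  refine ⟨hne, ?_⟩
  have h1 := Fermat.Agent.X0S24.PlaceRes.ord_add Q ha hz hne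
  have h2 := Fermat.Agent.X0S24.PlaceRes.ord_add Q hne (neg_ne_zero.mpr hz)
    (by rwa [add_neg_cancel_right])
  rw [add_neg_cancel_right, ha0, crvi_ord_neg] at h2
  rw [ha0] at h1
  omega

/-- the residue of a non-constant element `y` of the valuation ring, when `L` is algebraic over
`k(y)` and `k` is algebraically closed -/
theorem crvi_exists_residue [IsAlgClosed k] (Q : Place k L) {y : L}
    (halg : Algebra.IsAlgebraic (crvK k y) L) (hy : y ∈ Q.toValuationSubring)
    (hyc : ∀ c : k, y ≠ algebraMap k L c) :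
    ∃ c : k, 0 < Q.ord (y - algebraMap k L c) := by
  by_contra hcon
  have hxc : ∀ c : k, y - algebraMap k L c ≠ 0 ∧ Q.ord (y - algebraMap k L c) = 0 := by
    intro c
    have hne : y - algebraMap k L c ≠ 0 := sub_ne_zero.mpr (hyc c)
    refine ⟨hne, ?_⟩
    have hmem : y - algebraMap k L c ∈ Q.toValuationSubring :=
      sub_mem hy (Q.algebraMap_mem' c)
    have h1 := (Fermat.Agent.X0S24.PlaceRes.mem_iff_ord_nonneg Q hne).mp hmem
    have h2 : ¬ 0 < Q.ord (y - algebraMap k L c) := fun h => hcon ⟨c, h⟩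
    omega
  have hsub : ∀ a : L, a ∈ crvK k y → a ∈ Q.toValuationSubring := by
    intro a ha
    obtain ⟨r, s, rfl⟩ := (IntermediateField.mem_adjoin_simple_iff k a).mp ha
    by_cases hr : r = 0
    · simp [hr, zero_mem]
    by_cases hs : s = 0
    · simp [hs, zero_mem]
    obtain ⟨hr0, hr1⟩ := Fermat.Agent.X0S24.PlaceRes.aeval_ne_zero_and_ord Q hxc r hr
    obtain ⟨hs0, hs1⟩ := Fermat.Agent.X0S24.PlaceRes.aeval_ne_zero_and_ord Q hxc s hs
    rw [Fermat.Agent.X0S24.PlaceRes.mem_iff_ord_nonneg Q (div_ne_zero hr0 hs0), div_eq_mul_inv,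
      Q.ord_mul hr0 (inv_ne_zero hs0), Q.ord_inv, hr1, hs1]
    simp
  have hall : ∀ z : L, z ∈ Q.toValuationSubring := by
    intro z
    have hz : IsIntegral (crvK k y) z :=
      (Algebra.IsAlgebraic.isAlgebraic (R := crvK k y) z).isIntegral
    obtain ⟨p, hpm, hpz⟩ := hz
    let incl : crvK k y →+* Q.toValuationSubring :=
      { toFun := fun a => ⟨(a : L), hsub a a.2⟩
        map_one' := rfl
        map_mul' := fun _ _ => rfl
        map_zero' := rfl
        map_add' := fun _ _ => rfl }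
    have hcomp : (algebraMap Q.toValuationSubring L).comp incl = algebraMap (crvK k y) L := rfl
    have hint : IsIntegral Q.toValuationSubring z := by
      refine ⟨p.map incl, hpm.map _, ?_⟩
      rw [Polynomial.eval₂_map, hcomp]
      exact hpz
    obtain ⟨w, hw⟩ := IsIntegrallyClosed.isIntegral_iff.mp hint
    rw [← hw]
    exact w.2
  exact Q.ne_top' (SetLike.ext fun z => ⟨fun _ => ValuationSubring.mem_top z, fun _ => hall z⟩)

/-- finitely many places containing `t` at which a nonzero `x` has nonzero order -/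
theorem crvi_finite (ht : Transcendental k t) [FiniteDimensional (crvK k t) L]
    [Algebra.IsSeparable (crvK k t) L] (x : L) (hx : x ≠ 0) :
    {Q : Place k L | t ∈ Q.toValuationSubring ∧ Q.ord x ≠ 0}.Finite := by
  have := crv_isDedekindDomain k t ht
  have := crv_isFractionRing k t
  refine ((dd_finite_support (k := k) (crvB k t) x hx).image
    (ddPlace (k := k) (crvB k t))).subset ?_
  rintro Q ⟨hQ, hQx⟩
  obtain ⟨v, rfl⟩ := ddPlace_surj (k := k) (crvB k t) Q (fun b => crv_mem_place k t Q hQ b)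
  exact ⟨v, hQx, rfl⟩

theorem crvi_ne_algebraMap (ht : Transcendental k t) (c : k) : t ≠ algebraMap k L c := by
  rintro rfl
  exact ht (isAlgebraic_algebraMap c)

/-- D-fin: regular at all places where `t` is regular ⟺ integral over `k[t]`. -/
theorem crv_isIntegral_iff (ht : Transcendental k t) [FiniteDimensional (crvK k t) L]
    [Algebra.IsSeparable (crvK k t) L] (x : L) :
    (∀ Q : Place k L, 0 ≤ Q.ord t → 0 ≤ Q.ord x) ↔ IsIntegral (crvR k t) x := by
  have ht0 : t ≠ 0 := fun h => crvi_ne_algebraMap k t ht 0 (by rw [h, map_zero])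
  constructor
  · intro h
    refine crv_isIntegral_of_ord_nonneg k t ht x fun Q hQ => h Q ?_
    exact (Fermat.Agent.X0S24.PlaceRes.mem_iff_ord_nonneg Q ht0).mp hQ
  · intro h Q hQ
    have hQ' : t ∈ Q.toValuationSubring :=
      (Fermat.Agent.X0S24.PlaceRes.mem_iff_ord_nonneg Q ht0).mpr hQ
    exact crvi_ord_nonneg_of_mem k Q (crv_mem_place k t Q hQ' ⟨x, h⟩)

/-- D-inf: regular at all poles of `t` ⟺ some `q(t⁻¹)·x`, `q(0) ≠ 0`, is integral over
`k[t⁻¹]`  (`k` algebraically closed). -/
theorem crv_regular_at_poles_iff [IsAlgClosed k] (ht : Transcendental k t)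
    [FiniteDimensional (crvK k t) L] [Algebra.IsSeparable (crvK k t) L] (x : L) :
    (∀ Q : Place k L, Q.ord t < 0 → 0 ≤ Q.ord x) ↔
      ∃ q : Polynomial k, q.eval 0 ≠ 0 ∧
        IsIntegral (crvR k t⁻¹) (Polynomial.aeval t⁻¹ q * x) := by
  have ht' : Transcendental k t⁻¹ := crv_transcendental_inv k t ht
  have := crv_finite_inv k t
  have := crv_separable_inv k t
  have hs0 : t⁻¹ ≠ 0 := fun h => crvi_ne_algebraMap k t⁻¹ ht' 0 (by rw [h, map_zero])
  have hsc : ∀ c : k, t⁻¹ - algebraMap k L c ≠ 0 := fun c =>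
    sub_ne_zero.mpr (crvi_ne_algebraMap k t⁻¹ ht' c)
  classical
  constructor
  · intro h
    rcases eq_or_ne x 0 with rfl | hx
    · refine ⟨1, by simp, ?_⟩
      rw [mul_zero]
      exact isIntegral_zero
    have hT := crvi_finite k t⁻¹ ht' x hx
    have halg : Algebra.IsAlgebraic (crvK k t⁻¹) L := Algebra.IsAlgebraic.of_finite _ _
    have hex : ∀ Q : Place k L, ∃ c : k, c ≠ 0 ∧ (t⁻¹ ∈ Q.toValuationSubring → Q.ord t⁻¹ = 0 →
        0 < Q.ord (t⁻¹ - algebraMap k L c)) := by
      intro Q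
      by_cases hQ : t⁻¹ ∈ Q.toValuationSubring ∧ Q.ord t⁻¹ = 0
      · obtain ⟨c, hc⟩ := crvi_exists_residue k Q halg hQ.1 (crvi_ne_algebraMap k t⁻¹ ht')
        refine ⟨c, ?_, fun _ _ => hc⟩
        rintro rfl
        rw [map_zero, sub_zero, hQ.2] at hc
        exact lt_irrefl _ hc
      · exact ⟨1, one_ne_zero, fun h1 h2 => absurd ⟨h1, h2⟩ hQ⟩
    choose c hc0 hc using hex
    refine ⟨∏ Q ∈ hT.toFinset, (Polynomial.X - Polynomial.C (c Q)) ^ (-(Q.ord x)).toNat, ?_, ?_⟩
    · rw [Polynomial.eval_prod, Finset.prod_ne_zero_iff]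
      intro Q _
      rw [Polynomial.eval_pow, Polynomial.eval_sub, Polynomial.eval_X, Polynomial.eval_C,
        zero_sub]
      exact pow_ne_zero _ (neg_ne_zero.mpr (hc0 Q))
    · refine crv_isIntegral_of_ord_nonneg k t⁻¹ ht' _ fun Q hQ => ?_
      apply crvi_ord_nonneg_of_mem
      rcases le_or_gt 0 (Q.ord x) with hQx | hQx
      · exact mul_mem (crvi_aeval_mem k Q hQ _)
          ((Fermat.Agent.X0S24.PlaceRes.mem_iff_ord_nonneg Q hx).mpr hQx)
      · have hmem : Q ∈ hT.toFinset := by
          rw [Set.Finite.mem_toFinset]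
          exact ⟨hQ, hQx.ne⟩
        have hs1 : 0 ≤ Q.ord t⁻¹ := (Fermat.Agent.X0S24.PlaceRes.mem_iff_ord_nonneg Q hs0).mp hQ
        have hs2 : Q.ord t⁻¹ = 0 := by
          by_contra hne
          have hpos : 0 < Q.ord t⁻¹ := lt_of_le_of_ne hs1 (Ne.symm hne)
          rw [Q.ord_inv] at hpos
          have := h Q (by omega)
          omega
        have hres := hc Q hQ hs2
        rw [← Finset.mul_prod_erase _ _ hmem, map_mul, mul_comm, ← mul_assoc]
        refine mul_mem ?_ (crvi_aeval_mem k Q hQ _)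
        have hval : Polynomial.aeval t⁻¹
            ((Polynomial.X - Polynomial.C (c Q)) ^ (-(Q.ord x)).toNat)
            = (t⁻¹ - algebraMap k L (c Q)) ^ (-(Q.ord x)).toNat := by
          simp
        rw [hval]
        have hpne : (t⁻¹ - algebraMap k L (c Q)) ^ (-(Q.ord x)).toNat ≠ 0 :=
          pow_ne_zero _ (hsc (c Q))
        rw [Fermat.Agent.X0S24.PlaceRes.mem_iff_ord_nonneg Q (mul_ne_zero hx hpne),
          Q.ord_mul hx hpne, crvi_ord_pow]
        have hn : ((-(Q.ord x)).toNat : ℤ) = -(Q.ord x) := Int.toNat_of_nonneg (by omega)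
        rw [hn]
        nlinarith
  · rintro ⟨q, hq0, hint⟩ Q hQ
    rcases eq_or_ne x 0 with rfl | hx
    · rw [Q.ord_zero]
    have hspos : 0 < Q.ord t⁻¹ := by
      rw [Q.ord_inv]
      omega
    have hs : t⁻¹ ∈ Q.toValuationSubring :=
      (Fermat.Agent.X0S24.PlaceRes.mem_iff_ord_nonneg Q hs0).mpr hspos.le
    have hy : Polynomial.aeval t⁻¹ q * x ∈ Q.toValuationSubring :=
      crv_mem_place k t⁻¹ Q hs ⟨_, hint⟩
    -- `q(t⁻¹)` has order zero
    have hu : Polynomial.aeval t⁻¹ q ≠ 0 ∧ Q.ord (Polynomial.aeval t⁻¹ q) = 0 := by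
      have hdec : Polynomial.aeval t⁻¹ q
          = algebraMap k L (q.eval 0) + t⁻¹ * Polynomial.aeval t⁻¹ q.divX := by
        conv_lhs => rw [← Polynomial.divX_mul_X_add q]
        rw [Polynomial.coeff_zero_eq_eval_zero]
        simp only [map_add, map_mul, Polynomial.aeval_X, Polynomial.aeval_C]
        ring
      have ha : algebraMap k L (q.eval 0) ≠ 0 := (map_ne_zero (algebraMap k L)).mpr hq0
      have ha0 : Q.ord (algebraMap k L (q.eval 0)) = 0 :=
        Fermat.Agent.X0S24.PlaceRes.ord_algebraMap Q hq0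
      rw [hdec]
      rcases eq_or_ne (Polynomial.aeval t⁻¹ q.divX) 0 with hw | hw
      · rw [hw, mul_zero, add_zero]
        exact ⟨ha, ha0⟩
      · refine crvi_ord_add_eq_zero k Q ha ha0 (mul_ne_zero hs0 hw) ?_
        rw [Q.ord_mul hs0 hw]
        have := crvi_ord_nonneg_of_mem k Q (crvi_aeval_mem k Q hs q.divX)
        omega
    have h1 := (Fermat.Agent.X0S24.PlaceRes.mem_iff_ord_nonneg Q (mul_ne_zero hu.1 hx)).mp hy
    rw [Q.ord_mul hu.1 hx, hu.2, zero_add] at h1
    exact h1

/-- D-L: the Riemann–Roch space of `s` times the polar divisor of `t`, algebraically: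
`x` has `ord_Q x ≥ - s * max (-ord_Q t) 0` at every place ⟺ `x` is integral over `k[t]` and
`t⁻¹ ^ s * x` is regular at all poles of `t`. -/
theorem crv_mem_L_iff (ht : Transcendental k t) [FiniteDimensional (crvK k t) L]
    [Algebra.IsSeparable (crvK k t) L] (s : ℕ) (x : L) :
    (∀ Q : Place k L, -((s : ℤ) * max (-(Q.ord t)) 0) ≤ Q.ord x) ↔
      (IsIntegral (crvR k t) x ∧ ∀ Q : Place k L, Q.ord t < 0 → 0 ≤ Q.ord (t⁻¹ ^ s * x)) := by
  have ht0 : t ≠ 0 := fun h => crvi_ne_algebraMap k t ht 0 (by rw [h, map_zero])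
  have hpne : t⁻¹ ^ s ≠ 0 := pow_ne_zero _ (inv_ne_zero ht0)
  have hord : ∀ Q : Place k L, x ≠ 0 →
      Q.ord (t⁻¹ ^ s * x) = -((s : ℤ) * Q.ord t) + Q.ord x := by
    intro Q hx
    rw [Q.ord_mul hpne hx, crvi_ord_pow, Q.ord_inv]
    ring
  constructor
  · intro h
    refine ⟨(crv_isIntegral_iff k t ht x).mp fun Q hQ => ?_, fun Q hQ => ?_⟩
    · have h1 := h Q
      rwa [max_eq_right (by omega), mul_zero, neg_zero] at h1
    · rcases eq_or_ne x 0 with rfl | hx
      · rw [mul_zero, Q.ord_zero]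
      have h1 := h Q
      rw [max_eq_left (by omega)] at h1
      rw [hord Q hx]
      linarith
  · rintro ⟨hint, h⟩ Q
    rcases le_or_gt 0 (Q.ord t) with hQ | hQ
    · rw [max_eq_right (by omega), mul_zero, neg_zero]
      exact (crv_isIntegral_iff k t ht x).mpr hint Q hQ
    · rw [max_eq_left (by omega)]
      rcases eq_or_ne x 0 with rfl | hx
      · rw [Q.ord_zero]
        have : 0 ≤ (s : ℤ) * (-(Q.ord t)) := mul_nonneg (Int.natCast_nonneg s) (by omega)
        omega
      have h1 := h Q hQ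
      rw [hord Q hx] at h1
      linarith

end G

end Fermat.Agent.S18L
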