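import Mathlib
import Fermat.Agent.S18L.NmDefs

/-!
# S18, package NM, block S (helper4), leaf Base: basic consequences of `NmHyp` / `NmBasis`
-/

set_option autoImplicit false

open scoped IntermediateField

namespace Fermat.Agent.S18L

variable {K F k Fb : Type*} [Field K] [Field F] [Algebra K F] [Field k] [Field Fb] [Algebra k Fb]

open scoped IntermediateField.algebraAdjoinAdjoin in
/-- the reductions of a lifted integral basis are linearly independent over `k(red t)` -/
theorem nmsbase_linearIndependent (G : RedDatum K F k Fb) (t : G.O) (n : ℕ)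
    (x : Fin n → G.O) (hx : NmBasis G t n x) :
    LinearIndependent k⟮G.red t⟯ (fun i => G.red (x i)) := by
  rw [← LinearIndependent.iff_fractionRing (Algebra.adjoin k {G.red t}) k⟮G.red t⟯]
  rw [Fintype.linearIndependent_iff]
  intro g hg i
  have hmem : ∀ j, ∃ p : Polynomial k, Polynomial.aeval (G.red t) p = (g j : Fb) := by
    intro j
    have hj : (g j : Fb) ∈ (Polynomial.aeval (G.red t) : Polynomial k →ₐ[k] Fb).range := by
      rw [← Algebra.adjoin_singleton_eq_range_aeval]
      exact (g j).2
    exact hj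
  choose p hp using hmem
  have h0 : ∑ j, Polynomial.aeval (G.red t) (p j) * G.red (x j) = 0 := by
    rw [← hg]
    refine Finset.sum_congr rfl fun j _ => ?_
    rw [hp j]
    rfl
  have hpi := hx.indep p h0 i
  apply Subtype.ext
  rw [← hp i, hpi]
  simp

/-- `t` is transcendental over `K` (`K` algebraically closed: otherwise `t` would be a constant
`c ∈ A` and `red t = π c` would be algebraic over `k`). -/
theorem nms_transcendental [IsAlgClosed K] (G : RedDatum K F k Fb) (t : G.O) (n : ℕ)
    (h : NmHyp G t n) : Transcendental K (t : F) := by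
  intro halg
  have hint : IsIntegral K (t : F) := halg.isIntegral
  have hirr := minpoly.irreducible hint
  have hdeg : (minpoly K (t : F)).degree = 1 := IsAlgClosed.degree_eq_one_of_irreducible K hirr
  have hmem : (t : F) ∈ (algebraMap K F).range :=
    minpoly.mem_range_of_degree_eq_one K (t : F) hdeg
  obtain ⟨c, hc⟩ := hmem
  have hmemO : algebraMap K F c ∈ G.O := hc ▸ t.2
  have hcA : c ∈ G.A := (G.algebraMap_mem c).mp hmemO
  have ht : t = ⟨algebraMap K F c, hmemO⟩ := Subtype.ext hc.symm
  have hred : G.red t = algebraMap k Fb (G.π ⟨c, hcA⟩) := by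
    rw [ht]
    exact G.red_algebraMap ⟨c, hcA⟩ hmemO
  exact h.tr (hred ▸ isAlgebraic_algebraMap _)

/-- in characteristic zero `F / K(t)` is separable -/
theorem nms_separable [CharZero K] (t : F) [FiniteDimensional K⟮t⟯ F] :
    Algebra.IsSeparable K⟮t⟯ F := by
  have : CharZero K⟮t⟯ := charZero_of_injective_algebraMap (algebraMap K K⟮t⟯).injective
  infer_instance

/-- the reductions of a lifted integral basis form a `k(red t)`-basis of `Fb` -/
theorem nms_basis_red (G : RedDatum K F k Fb) (t : G.O) (n : ℕ) (h : NmHyp G t n)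
    (x : Fin n → G.O) (hx : NmBasis G t n x) :
    ∃ b : Module.Basis (Fin n) k⟮G.red t⟯ Fb, ∀ i, b i = G.red (x i) := by
  have hli := nmsbase_linearIndependent G t n x hx
  have := h.finb
  have hcard : Fintype.card (Fin n) = Module.finrank k⟮G.red t⟯ Fb := by
    rw [Fintype.card_fin, h.rankb]
  have hspan := hli.span_eq_top_of_card_eq_finrank' hcard
  refine ⟨Module.Basis.mk hli hspan.ge, fun i => ?_⟩
  simp

/-- choice of the centre `ρ` of a residue disc: all other points of the disc are unramified -/
theorem nms_exists_rho (G : RedDatum K F k Fb) (t : G.O) (n : ℕ) (h : NmHyp G t n) (a : k) :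
    ∃ ρ : G.A, G.π ρ = a ∧ ∀ r : G.A, r ≠ ρ → G.π r = a → NmUnr K (t : F) (r : K) := by
  by_cases hex : ∃ ρ : G.A, G.π ρ = a ∧ ¬ NmUnr K (t : F) (ρ : K)
  · obtain ⟨ρ, hρ, hnot⟩ := hex
    refine ⟨ρ, hρ, fun r hne hr => ?_⟩
    rcases h.br r ρ hne (by rw [hr, hρ]) with h1 | h1
    · exact h1
    · exact absurd h1 hnot
  · obtain ⟨ρ, hρ⟩ := G.π_surj a
    refine ⟨ρ, hρ, fun r _ hr => ?_⟩
    by_contra hcon
    exact hex ⟨r, hr, hcon⟩

end Fermat.Agent.S18L
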