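import Mathlib
import Fermat.Agent.S18L.NmDefs
import Fermat.Agent.S18L.NmA
import Fermat.Agent.S18L.NmSBase

/-!
# S18, package NM, block S (helper4), leaf Dual: the Gram matrix of a lifted integral basis has
polynomial entries over `A`, its determinant `D` has nonzero reduction, and the trace-dual basis
`z` lies in `O`, with `D(t) z_i` integral over `K[t]`, dual to `x` in characteristic `0` and
(after reduction) in characteristic `ℓ`.
-/

set_option autoImplicit false

open scoped IntermediateField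

namespace Fermat.Agent.S18L

variable {K F k Fb : Type*} [Field K] [Field F] [Algebra K F] [Field k] [Field Fb] [Algebra k Fb]

/-- abstract trace duality: the rows of `det⁻¹ • adj M` applied to `x` are dual to `x`. -/
theorem nmsdual_abstract {Kf E : Type*} [Field Kf] [Field E] [Algebra Kf E] {n : ℕ}
    (M : Matrix (Fin n) (Fin n) Kf) (x : Fin n → E)
    (htr : ∀ i l, Algebra.trace Kf E (x i * x l) = M i l) (hdet : M.det ≠ 0) (i l : Fin n) :
    Algebra.trace Kf E
        (((algebraMap Kf E M.det)⁻¹ * ∑ j, algebraMap Kf E (M.adjugate i j) * x j) * x l)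
      = if i = l then 1 else 0 := by
  have h1 : ((algebraMap Kf E M.det)⁻¹ * ∑ j, algebraMap Kf E (M.adjugate i j) * x j) * x l
      = (M.det)⁻¹ • ∑ j, M.adjugate i j • (x j * x l) := by
    rw [← map_inv₀, Algebra.smul_def, mul_assoc, Finset.sum_mul]
    congr 1
    apply Finset.sum_congr rfl
    intro j _
    rw [Algebra.smul_def, mul_assoc]
  rw [h1, map_smul, map_sum]
  simp only [map_smul, htr, smul_eq_mul]
  have h2 : ∑ j, M.adjugate i j * M j l = (M.adjugate * M) i l := by rw [Matrix.mul_apply]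
  rw [h2, Matrix.adjugate_mul, Matrix.smul_apply, Matrix.one_apply, smul_eq_mul]
  split_ifs
  · rw [mul_one, inv_mul_cancel₀ hdet]
  · rw [mul_zero, mul_zero]

/-- the same after specialising a matrix over a commutative ring `P` along `φ : P →+* Kf`. -/
theorem nmsdual_spec {Kf E P : Type*} [Field Kf] [Field E] [Algebra Kf E] [CommRing P] {n : ℕ}
    (φ : P →+* Kf) (T : Matrix (Fin n) (Fin n) P) (x : Fin n → E)
    (htr : ∀ i l, algebraMap Kf E (Algebra.trace Kf E (x i * x l))
      = algebraMap Kf E (φ (T i l)))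
    (hdet : algebraMap Kf E (φ T.det) ≠ 0) (i l : Fin n) :
    Algebra.trace Kf E
        (((algebraMap Kf E (φ T.det))⁻¹ * ∑ j, algebraMap Kf E (φ (T.adjugate i j)) * x j) * x l)
      = if i = l then 1 else 0 := by
  have hM : ∀ i l, Algebra.trace Kf E (x i * x l) = (φ.mapMatrix T) i l :=
    fun i l => (algebraMap Kf E).injective (htr i l)
  have hd : (φ.mapMatrix T).det = φ T.det := (RingHom.map_det φ T).symm
  have ha : (φ.mapMatrix T).adjugate = φ.mapMatrix T.adjugate := (RingHom.map_adjugate φ T).symm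
  have hdet' : (φ.mapMatrix T).det ≠ 0 := by
    rw [hd]
    intro h0
    apply hdet
    rw [h0, map_zero]
  have h := nmsdual_abstract (φ.mapMatrix T) x hM hdet' i l
  rw [hd, ha] at h
  exact h

/-- evaluation at the generator of `κ⟮θ⟯` after a coefficient map -/
noncomputable def nmsdual_ev {R κ Φ : Type*} [CommRing R] [Field κ] [Field Φ] [Algebra κ Φ]
    (f : R →+* κ) (θ : Φ) : Polynomial R →+* κ⟮θ⟯ :=
  (Polynomial.aeval (IntermediateField.AdjoinSimple.gen κ θ)).toRingHom.comp
    (Polynomial.mapRingHom f)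

theorem nmsdual_ev_spec {R κ Φ : Type*} [CommRing R] [Field κ] [Field Φ] [Algebra κ Φ]
    (f : R →+* κ) (θ : Φ) (q : Polynomial R) :
    algebraMap κ⟮θ⟯ Φ (nmsdual_ev f θ q) = Polynomial.aeval θ (q.map f) := by
  unfold nmsdual_ev
  simp only [RingHom.coe_comp, Function.comp_apply, Polynomial.coe_mapRingHom,
    AlgHom.toRingHom_eq_coe, RingHom.coe_coe]
  rw [← Polynomial.aeval_algebraMap_apply, IntermediateField.AdjoinSimple.algebraMap_gen]

/-- polynomials in `θ` are integral over `κ[θ]` -/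
theorem nmsdual_isIntegral_aeval {κ Φ : Type*} [Field κ] [Field Φ] [Algebra κ Φ] (θ : Φ)
    (q : Polynomial κ) : IsIntegral (Algebra.adjoin κ {θ}) (Polynomial.aeval θ q) := by
  have hmem : Polynomial.aeval θ q ∈ Algebra.adjoin κ {θ} :=
    Polynomial.aeval_mem_adjoin_singleton κ θ
  exact isIntegral_algebraMap (R := Algebra.adjoin κ {θ}) (A := Φ) (x := ⟨_, hmem⟩)

theorem nms_dual [IsAlgClosed K] [CharZero K] [IsAlgClosed k]
    (G : RedDatum K F k Fb) (t : G.O) (n : ℕ) (h : NmHyp G t n) (x : Fin n → G.O)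
    (hx : NmBasis G t n x) :
    ∃ (D : Polynomial G.A) (z : Fin n → G.O), D.map G.π ≠ 0 ∧
      (∀ i, NmFin K (t : F)
        (Polynomial.aeval (t : F) (D.map G.A.subtype) * ((z i : G.O) : F))) ∧
      (∀ i l, Algebra.trace K⟮(t : F)⟯ F (((z i : G.O) : F) * ((x l : G.O) : F))
        = if i = l then 1 else 0) ∧
      (∀ i l, Algebra.trace k⟮G.red t⟯ Fb (G.red (z i) * G.red (x l))
        = if i = l then 1 else 0) := by
  classical
  have hfinF := h.fin
  have hfinb := h.finb
  have hsepb := h.sep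
  -- the Gram matrix
  have hfin : ∀ i l, NmFin K (t : F) (((x i * x l : G.O)) : F) := fun i l =>
    (hx.fin i).mul (hx.fin l)
  choose T hT0 hT1 using fun i l => nm_trace_red G t n h (x i * x l) (hfin i l)
  have hφ₀ := nmsdual_ev_spec (G.A.subtype) (t : F)
  have hφ₁ := nmsdual_ev_spec (G.π) (G.red t)
  -- the determinant has nonzero reduction
  obtain ⟨b, hb⟩ := nms_basis_red G t n h x hx
  have hdisc : Algebra.discr k⟮G.red t⟯ (fun i => G.red (x i)) ≠ 0 := by
    have h0 := Algebra.discr_not_zero_of_basis k⟮G.red t⟯ b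
    rwa [show (b : Fin n → Fb) = fun i => G.red (x i) from funext hb] at h0
  have hdetbar : nmsdual_ev (G.π) (G.red t) (Matrix.of T).det
      = Algebra.discr k⟮G.red t⟯ (fun i => G.red (x i)) := by
    rw [Algebra.discr_def, RingHom.map_det]
    congr 1
    refine Matrix.ext fun i l => ?_
    apply (algebraMap k⟮G.red t⟯ Fb).injective
    rw [RingHom.mapMatrix_apply, Matrix.map_apply, Matrix.of_apply, hφ₁, ← hT1 i l, map_mul,
      Algebra.traceMatrix_apply, Algebra.traceForm_apply]
  have hDbar : Polynomial.aeval (G.red t) ((Matrix.of T).det.map G.π) ≠ 0 := by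
    rw [← hφ₁, hdetbar]
    exact fun h0 => hdisc ((algebraMap k⟮G.red t⟯ Fb).injective (by rw [h0, map_zero]))
  have hDπ : (Matrix.of T).det.map G.π ≠ 0 := fun h0 => hDbar (by rw [h0, map_zero])
  -- membership in `O`
  obtain ⟨hDmem, hDred⟩ := nm_red_aeval G t (Matrix.of T).det
  have hinv : (Polynomial.aeval (t : F) ((Matrix.of T).det.map G.A.subtype))⁻¹ ∈ G.O :=
    G.inv_mem ⟨_, hDmem⟩ (by rw [hDred]; exact hDbar)
  have hDt0 : Polynomial.aeval (t : F) ((Matrix.of T).det.map G.A.subtype) ≠ 0 := by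
    intro h0
    apply hDbar
    rw [← hDred]
    have h1 : (⟨_, hDmem⟩ : G.O) = 0 := Subtype.ext h0
    rw [h1, map_zero]
  choose hAmem hAred using fun i j => nm_red_aeval G t ((Matrix.of T).adjugate i j)
  have hred_inv : G.red ⟨_, hinv⟩
      = (Polynomial.aeval (G.red t) ((Matrix.of T).det.map G.π))⁻¹ := by
    have h1 : (⟨_, hinv⟩ : G.O) * ⟨_, hDmem⟩ = 1 := Subtype.ext (inv_mul_cancel₀ hDt0)
    have h2 := congrArg G.red h1
    rw [map_mul, map_one, hDred] at h2
    exact eq_inv_of_mul_eq_one_left h2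
  have hzF : ∀ i, (((⟨_, hinv⟩ : G.O) * ∑ j, (⟨_, hAmem i j⟩ : G.O) * x j : G.O) : F)
      = (Polynomial.aeval (t : F) ((Matrix.of T).det.map G.A.subtype))⁻¹
        * ∑ j, Polynomial.aeval (t : F) (((Matrix.of T).adjugate i j).map G.A.subtype)
          * ((x j : G.O) : F) := by
    intro i
    push_cast
    rfl
  have hzred : ∀ i, G.red ((⟨_, hinv⟩ : G.O) * ∑ j, (⟨_, hAmem i j⟩ : G.O) * x j)
      = (Polynomial.aeval (G.red t) ((Matrix.of T).det.map G.π))⁻¹
        * ∑ j, Polynomial.aeval (G.red t) (((Matrix.of T).adjugate i j).map G.π)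
          * G.red (x j) := by
    intro i
    rw [map_mul, map_sum, hred_inv]
    congr 1
    apply Finset.sum_congr rfl
    intro j _
    rw [map_mul, hAred]
  refine ⟨(Matrix.of T).det, fun i => (⟨_, hinv⟩ : G.O) * ∑ j, (⟨_, hAmem i j⟩ : G.O) * x j,
    hDπ, ?_, ?_, ?_⟩
  · intro i
    rw [hzF, ← mul_assoc, mul_inv_cancel₀ hDt0, one_mul]
    exact IsIntegral.sum _ (fun j _ =>
      IsIntegral.mul (nmsdual_isIntegral_aeval (t : F) _) (hx.fin j))
  · intro i l
    rw [hzF]
    have h0 := nmsdual_spec (nmsdual_ev (G.A.subtype) (t : F)) (Matrix.of T)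
      (fun i => ((x i : G.O) : F))
      (fun i l => by rw [hφ₀]; exact hT0 i l) (by rw [hφ₀]; exact hDt0) i l
    simp only [hφ₀] at h0
    exact h0
  · intro i l
    rw [hzred]
    have h0 := nmsdual_spec (nmsdual_ev (G.π) (G.red t)) (Matrix.of T)
      (fun i => G.red (x i))
      (fun i l => by rw [hφ₁, ← map_mul]; exact hT1 i l) (by rw [hφ₁]; exact hDbar) i l
    simp only [hφ₁] at h0
    exact h0

end Fermat.Agent.S18L
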