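import Mathlib
import Fermat.Agent.S18L.NmDefs
import Fermat.Agent.S18L.NmSBase

/-!
# S18, package NM, block S (helper4), leaf Exp: expansion in the reduced basis via the dual
family.
-/

set_option autoImplicit false

open scoped IntermediateField

namespace Fermat.Agent.S18L

variable {K F k Fb : Type*} [Field K] [Field F] [Algebra K F] [Field k] [Field Fb] [Algebra k Fb]

/-- abstract form: if `zb` is a trace-dual family of a basis `b` of `L / E`, then the coordinates
of `y` in the basis `b` are the traces `Tr (y * zb i)`. -/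
theorem nmsexp_repr_eq_trace {E L : Type*} [Field E] [Field L] [Algebra E L] {n : ℕ}
    (b : Module.Basis (Fin n) E L) (zb : Fin n → L)
    (hz : ∀ i l, Algebra.trace E L (zb i * b l) = if i = l then 1 else 0) (y : L) (i : Fin n) :
    Algebra.trace E L (y * zb i) = b.repr y i := by
  have hterm : ∀ l, Algebra.trace E L (b.repr y l • b l * zb i)
      = b.repr y l * (if i = l then 1 else 0) := by
    intro l
    rw [smul_mul_assoc, map_smul, smul_eq_mul, mul_comm (b l) (zb i), hz i l]
  conv_lhs => rw [← b.sum_repr y]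
  rw [Finset.sum_mul, map_sum]
  simp_rw [hterm]
  simp

theorem nms_expand (G : RedDatum K F k Fb) (t : G.O) (n : ℕ) (h : NmHyp G t n)
    (x : Fin n → G.O) (hx : NmBasis G t n x) (zb : Fin n → Fb)
    (hz : ∀ i l, Algebra.trace k⟮G.red t⟯ Fb (zb i * G.red (x l)) = if i = l then 1 else 0)
    (y : Fb) (p : Fin n → Polynomial k)
    (hp : ∀ i, algebraMap k⟮G.red t⟯ Fb (Algebra.trace k⟮G.red t⟯ Fb (y * zb i))
      = Polynomial.aeval (G.red t) (p i)) :
    y = ∑ i, Polynomial.aeval (G.red t) (p i) * G.red (x i) := by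
  obtain ⟨b, hb⟩ := nms_basis_red G t n h x hx
  have hz' : ∀ i l, Algebra.trace k⟮G.red t⟯ Fb (zb i * b l) = if i = l then 1 else 0 := by
    intro i l
    rw [hb l]
    exact hz i l
  have key : ∀ i, Algebra.trace k⟮G.red t⟯ Fb (y * zb i) = b.repr y i :=
    fun i => nmsexp_repr_eq_trace b zb hz' y i
  conv_lhs => rw [← b.sum_repr y]
  refine Finset.sum_congr rfl fun i _ => ?_
  rw [Algebra.smul_def, ← key i, hp i, hb i]

end Fermat.Agent.S18L
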