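import Mathlib
import Fermat.Agent.S18L.NmC

/-!
# S18, package NM, block S (helper4), leaf Fac: splitting off the roots in a residue disc

For a polynomial `D` over the valuation ring `A` of an algebraically closed field, with nonzero
reduction, and a point `a` of the residue field: `D = g * h` with `h` monic, all roots of `h` in
the residue disc of `a`, and `g` not vanishing at `a` after reduction.
-/

set_option autoImplicit false

namespace Fermat.Agent.S18L

/-- A multiset of elements of `K` all lying in the subring `A` is the image of a multiset of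
elements of `A`. -/
theorem nmsfac_lift_multiset {K : Type*} [Field K] (A : ValuationSubring K) (r : Multiset K)
    (hr : ∀ ρ ∈ r, ρ ∈ A) : ∃ r' : Multiset A, r'.map (fun ρ : A => (ρ : K)) = r := by
  refine ⟨r.attach.map (fun ρ => (⟨ρ.1, hr ρ.1 ρ.2⟩ : A)), ?_⟩
  rw [Multiset.map_map]
  exact Multiset.attach_map_val r

/-- Evaluating the image of a product of linear factors: a root of the image is the image of one
of the chosen points. -/
theorem nmsfac_root_of_prod {R S : Type*} [CommRing R] [CommRing S] [IsDomain S] (f : R →+* S)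
    (m : Multiset R) (x : S)
    (hx : (((m.map fun ρ => Polynomial.X - Polynomial.C ρ).prod).map f).eval x = 0) :
    ∃ ρ ∈ m, f ρ = x := by
  rw [Polynomial.map_multiset_prod, Polynomial.eval_multiset_prod, Multiset.map_map,
    Multiset.map_map, Multiset.prod_eq_zero_iff] at hx
  obtain ⟨ρ, hρ, h0⟩ := Multiset.mem_map.1 hx
  refine ⟨ρ, hρ, ?_⟩
  simp only [Function.comp_apply, Polynomial.map_sub, Polynomial.map_X, Polynomial.map_C,
    Polynomial.eval_sub, Polynomial.eval_X, Polynomial.eval_C] at h0
  exact (sub_eq_zero.1 h0).symm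

theorem nms_factor {K k : Type*} [Field K] [IsAlgClosed K] [Field k] (A : ValuationSubring K)
    (π : A →+* k) (hπ : ∀ a : A, π a = 0 ↔ ¬ IsUnit a) (D : Polynomial A) (hD : D.map π ≠ 0)
    (a : k) :
    ∃ g h : Polynomial A, D = g * h ∧ h.Monic ∧ (g.map π).eval a ≠ 0 ∧
      ∀ r : K, (h.map A.subtype).eval r = 0 → ∃ r' : A, (r' : K) = r ∧ π r' = a := by
  classical
  obtain ⟨u, r, s, hfac, hr, hs, hcard⟩ := nm_gauss_count A π hπ D hD
  obtain ⟨r', rfl⟩ := nmsfac_lift_multiset A r hr
  -- the monic polynomial over `A` whose roots are the roots of `D` in `A`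
  have hRmonic : ((r'.map (fun ρ => Polynomial.X - Polynomial.C ρ)).prod).Monic :=
    Polynomial.monic_multiset_prod_of_monic _ _ (fun ρ _ => Polynomial.monic_X_sub_C ρ)
  have hRmap : ((r'.map (fun ρ => Polynomial.X - Polynomial.C ρ)).prod).map A.subtype
      = ((r'.map (fun ρ : A => (ρ : K))).map fun ρ => Polynomial.X - Polynomial.C ρ).prod := by
    rw [Polynomial.map_multiset_prod, Multiset.map_map, Multiset.map_map]
    congr 1
    refine Multiset.map_congr rfl (fun ρ _ => ?_)
    simp
  have hdvd : (r'.map (fun ρ => Polynomial.X - Polynomial.C ρ)).prod ∣ D := by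
    rw [← Polynomial.map_dvd_map A.subtype Subtype.val_injective hRmonic, hfac, ← hRmap]
    exact ⟨Polynomial.C u * (s.map fun ρ => Polynomial.X - Polynomial.C ρ).prod, by ring⟩
  obtain ⟨G₂, hG₂⟩ := hdvd
  have hDmap : D.map π
      = ((r'.map (fun ρ => Polynomial.X - Polynomial.C ρ)).prod).map π * G₂.map π := by
    rw [← Polynomial.map_mul, ← hG₂]
  have hG₂ne : G₂.map π ≠ 0 := by
    intro h0
    apply hD
    rw [hDmap, h0, mul_zero]
  have hRdeg : (((r'.map (fun ρ => Polynomial.X - Polynomial.C ρ)).prod).map π).natDegree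
      = Multiset.card r' := by
    rw [hRmonic.natDegree_map, Polynomial.natDegree_multiset_prod_X_sub_C_eq_card]
  have hG₂deg : (G₂.map π).natDegree = 0 := by
    have h1 : (D.map π).natDegree
        = (((r'.map (fun ρ => Polynomial.X - Polynomial.C ρ)).prod).map π).natDegree
          + (G₂.map π).natDegree := by
      rw [hDmap, Polynomial.natDegree_mul (hRmonic.map π).ne_zero hG₂ne]
    rw [Multiset.card_map] at hcard
    omega
  have hG₂a : (G₂.map π).eval a ≠ 0 := by
    rw [Polynomial.eq_C_of_natDegree_eq_zero hG₂deg, Polynomial.eval_C]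
    intro h0
    apply hG₂ne
    rw [Polynomial.eq_C_of_natDegree_eq_zero hG₂deg, h0, Polynomial.C_0]
  have hsplit : (r'.map (fun ρ => Polynomial.X - Polynomial.C ρ)).prod
      = ((r'.filter (fun ρ => π ρ = a)).map (fun ρ => Polynomial.X - Polynomial.C ρ)).prod
        * ((r'.filter (fun ρ => ¬ π ρ = a)).map
            (fun ρ => Polynomial.X - Polynomial.C ρ)).prod := by
    rw [← Multiset.prod_add, ← Multiset.map_add, Multiset.filter_add_not]
  refine ⟨G₂ * ((r'.filter (fun ρ => ¬ π ρ = a)).map
      (fun ρ => Polynomial.X - Polynomial.C ρ)).prod,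
    ((r'.filter (fun ρ => π ρ = a)).map (fun ρ => Polynomial.X - Polynomial.C ρ)).prod,
    ?_, ?_, ?_, ?_⟩
  · rw [hG₂, hsplit]
    ring
  · exact Polynomial.monic_multiset_prod_of_monic _ _ (fun ρ _ => Polynomial.monic_X_sub_C ρ)
  · rw [Polynomial.map_mul, Polynomial.eval_mul]
    refine mul_ne_zero hG₂a ?_
    intro h0
    obtain ⟨ρ, hρ, hρa⟩ := nmsfac_root_of_prod π _ a h0
    exact (Multiset.mem_filter.1 hρ).2 hρa
  · intro x hx
    obtain ⟨ρ, hρ, hρx⟩ := nmsfac_root_of_prod A.subtype _ x hx
    exact ⟨ρ, hρx, (Multiset.mem_filter.1 hρ).2⟩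

end Fermat.Agent.S18L
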