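import Mathlib

/-!
# S18, package NM, block S (helper4), leaf Ideal: an element which is a polynomial in `τ` up to a
denominator not vanishing at `a`, for every point `a` of an algebraically closed field, is a
polynomial in `τ`.
-/

set_option autoImplicit false

namespace Fermat.Agent.S18L

/-- the ideal of denominators of `c` with respect to `k[τ]` -/
def nmsid_ideal {k Φ : Type*} [Field k] [Field Φ] [Algebra k Φ] (τ c : Φ) :
    Ideal (Polynomial k) where
  carrier := {q | ∃ p : Polynomial k, Polynomial.aeval τ q * c = Polynomial.aeval τ p}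
  zero_mem' := ⟨0, by simp⟩
  add_mem' := by
    rintro q₁ q₂ ⟨p₁, h₁⟩ ⟨p₂, h₂⟩
    exact ⟨p₁ + p₂, by rw [map_add, add_mul, h₁, h₂, map_add]⟩
  smul_mem' := by
    rintro r q ⟨p, hp⟩
    exact ⟨r * p, by rw [smul_eq_mul, map_mul, mul_assoc, hp, map_mul]⟩

theorem nmsid_mem_ideal {k Φ : Type*} [Field k] [Field Φ] [Algebra k Φ] (τ c : Φ)
    (q : Polynomial k) :
    q ∈ nmsid_ideal τ c ↔ ∃ p : Polynomial k, Polynomial.aeval τ q * c = Polynomial.aeval τ p :=
  Iff.rfl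

theorem nms_ideal_trick {k Φ : Type*} [Field k] [IsAlgClosed k] [Field Φ] [Algebra k Φ] (τ c : Φ)
    (hloc : ∀ a : k, ∃ q p : Polynomial k, q.eval a ≠ 0 ∧
      Polynomial.aeval τ q * c = Polynomial.aeval τ p) :
    ∃ p : Polynomial k, c = Polynomial.aeval τ p := by
  obtain ⟨q₀, hq₀⟩ : ∃ q₀ : Polynomial k,
      q₀ = Submodule.IsPrincipal.generator (nmsid_ideal τ c) := ⟨_, rfl⟩
  have hgen : q₀ ∈ nmsid_ideal τ c := by
    rw [hq₀]
    exact Submodule.IsPrincipal.generator_mem _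
  have hdvd : ∀ q ∈ nmsid_ideal τ c, q₀ ∣ q := by
    intro q hq
    rw [hq₀]
    exact (Submodule.IsPrincipal.mem_iff_generator_dvd _).mp hq
  have hnoroot : ∀ a : k, q₀.eval a ≠ 0 := by
    intro a h0
    obtain ⟨q, p, hq, hqp⟩ := hloc a
    obtain ⟨r, hr⟩ := hdvd q ((nmsid_mem_ideal τ c q).mpr ⟨p, hqp⟩)
    apply hq
    rw [hr, Polynomial.eval_mul, h0, zero_mul]
  have hdeg : q₀.degree = 0 := by
    by_contra hd
    obtain ⟨x, hx⟩ := IsAlgClosed.exists_root q₀ hd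
    exact hnoroot x hx
  have hq₀C : q₀ = Polynomial.C (q₀.coeff 0) := Polynomial.eq_C_of_degree_eq_zero hdeg
  have ha0 : q₀.coeff 0 ≠ 0 := by
    intro h0
    apply hnoroot 0
    rw [hq₀C, h0, map_zero, Polynomial.eval_zero]
  obtain ⟨p, hp⟩ := (nmsid_mem_ideal τ c q₀).mp hgen
  rw [hq₀C, Polynomial.aeval_C] at hp
  refine ⟨Polynomial.C (q₀.coeff 0)⁻¹ * p, ?_⟩
  rw [map_mul, Polynomial.aeval_C, ← hp, ← mul_assoc, ← map_mul, inv_mul_cancel₀ ha0, map_one,
    one_mul]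

end Fermat.Agent.S18L
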