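import Mathlib
import Fermat.Agent.S18L.NmDefs
import Fermat.Agent.S18L.CrvBase
import Fermat.Agent.X0S24.PlaceRes

/-!
# S18, package NM, block T, leaf (Tb): a place above `t = ρ` and the integral closure of `K[t]`

* polynomials in `t` not vanishing at `ρ` are units at a place `P` with `ord_P (t - ρ) > 0`;
* the elements of the integral closure of `K[t]` of positive order at `P` form a prime ideal.
-/

set_option autoImplicit false

namespace Fermat.Agent.S18L.Nm

open Fermat.Agent.S18L

variable {K F : Type*} [Field K] [Field F] [Algebra K F]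

theorem tb121_ord_neg (P : AlgebraicCurve.Place K F) (x : F) : P.ord (-x) = P.ord x := by
  unfold AlgebraicCurve.Place.ord
  rw [Valuation.map_neg]

theorem tb121_ne_zero_of_ord_pos (P : AlgebraicCurve.Place K F) {x : F} (hx : 0 < P.ord x) :
    x ≠ 0 := by
  rintro rfl
  rw [AlgebraicCurve.Place.ord_zero] at hx
  exact lt_irrefl _ hx

theorem tb121_t_mem (P : AlgebraicCurve.Place K F) (t : F) (ρ : K)
    (hP : 0 < P.ord (t - algebraMap K F ρ)) : t ∈ P.toValuationSubring := by
  have hd0 := tb121_ne_zero_of_ord_pos P hP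
  have hd : t - algebraMap K F ρ ∈ P.toValuationSubring :=
    (Fermat.Agent.X0S24.PlaceRes.mem_iff_ord_nonneg P hd0).2 hP.le
  have := add_mem hd (P.algebraMap_mem' ρ)
  rwa [sub_add_cancel] at this

theorem tb121_aeval_mem (P : AlgebraicCurve.Place K F) {t : F} (ht : t ∈ P.toValuationSubring)
    (q : Polynomial K) : Polynomial.aeval t q ∈ P.toValuationSubring := by
  induction q using Polynomial.induction_on' with
  | add p q hp hq =>
    rw [map_add]
    exact add_mem hp hq
  | monomial n a =>
    rw [Polynomial.aeval_monomial]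
    exact mul_mem (P.algebraMap_mem' a) (pow_mem ht n)

theorem place_ord_aeval (P : AlgebraicCurve.Place K F) (t : F) (ρ : K)
    (hP : 0 < P.ord (t - algebraMap K F ρ)) (q : Polynomial K) (hq : q.eval ρ ≠ 0) :
    Polynomial.aeval t q ≠ 0 ∧ P.ord (Polynomial.aeval t q) = 0 := by
  have hd0 := tb121_ne_zero_of_ord_pos P hP
  have ht := tb121_t_mem P t ρ hP
  have hdecomp : Polynomial.aeval t q = algebraMap K F (q.eval ρ)
      + (t - algebraMap K F ρ) * Polynomial.aeval t (q /ₘ (Polynomial.X - Polynomial.C ρ)) := by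
    conv_lhs => rw [← Polynomial.modByMonic_add_div q (Polynomial.X - Polynomial.C ρ),
      Polynomial.modByMonic_X_sub_C_eq_C_eval]
    simp
  obtain ⟨g, hg⟩ : ∃ g : F, g = Polynomial.aeval t (q /ₘ (Polynomial.X - Polynomial.C ρ)) :=
    ⟨_, rfl⟩
  have hgmem : g ∈ P.toValuationSubring := hg ▸ tb121_aeval_mem P ht _
  rw [← hg] at hdecomp
  have hc0 : algebraMap K F (q.eval ρ) ≠ 0 := by simpa using hq
  have hcord := Fermat.Agent.X0S24.PlaceRes.ord_algebraMap P hq
  rcases eq_or_ne g 0 with hg0 | hg0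
  · rw [hdecomp, hg0, mul_zero, add_zero]
    exact ⟨hc0, hcord⟩
  · have he0 : (t - algebraMap K F ρ) * g ≠ 0 := mul_ne_zero hd0 hg0
    have heord : 0 < P.ord ((t - algebraMap K F ρ) * g) := by
      rw [P.ord_mul hd0 hg0]
      have := (Fermat.Agent.X0S24.PlaceRes.mem_iff_ord_nonneg P hg0).1 hgmem
      omega
    have hs0 : Polynomial.aeval t q ≠ 0 := by
      intro h
      rw [h] at hdecomp
      have hc : algebraMap K F (q.eval ρ) = -((t - algebraMap K F ρ) * g) :=
        eq_neg_of_add_eq_zero_left hdecomp.symm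
      rw [hc, tb121_ord_neg] at hcord
      omega
    refine ⟨hs0, ?_⟩
    have hsmem : Polynomial.aeval t q ∈ P.toValuationSubring := tb121_aeval_mem P ht q
    have h1 := (Fermat.Agent.X0S24.PlaceRes.mem_iff_ord_nonneg P hs0).1 hsmem
    have hc : algebraMap K F (q.eval ρ)
        = Polynomial.aeval t q + -((t - algebraMap K F ρ) * g) := by
      rw [hdecomp]; ring
    have h2 := Fermat.Agent.X0S24.PlaceRes.ord_add P hs0 (neg_ne_zero.2 he0) (hc ▸ hc0)
    rw [← hc, hcord, tb121_ord_neg] at h2
    rcases min_le_iff.1 h2 with h3 | h3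
    · omega
    · omega

theorem place_exists_prime (P : AlgebraicCurve.Place K F) (t : F) (ρ : K)
    (hP : 0 < P.ord (t - algebraMap K F ρ)) :
    ∃ 𝔓 : Ideal (integralClosure (Algebra.adjoin K {t}) F), 𝔓.IsPrime ∧
      ∀ b : integralClosure (Algebra.adjoin K {t}) F,
        b ∈ 𝔓 ↔ ((b : F) = 0 ∨ 0 < P.ord (b : F)) := by
  have ht := tb121_t_mem P t ρ hP
  have hnn : ∀ b : integralClosure (Algebra.adjoin K {t}) F, (b : F) ≠ 0 → 0 ≤ P.ord (b : F) :=
    fun b hb => (Fermat.Agent.X0S24.PlaceRes.mem_iff_ord_nonneg P hb).1 (crv_mem_place K t P ht b)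
  refine ⟨{ carrier := {b | (b : F) = 0 ∨ 0 < P.ord (b : F)}
            add_mem' := ?_
            zero_mem' := Or.inl rfl
            smul_mem' := ?_ }, ⟨?_, ?_⟩, fun b => Iff.rfl⟩
  · rintro a b ha hb
    change ((a : F) + (b : F) = 0 ∨ 0 < P.ord ((a : F) + (b : F)))
    rcases ha with ha | ha
    · rw [ha, zero_add]; exact hb
    rcases hb with hb | hb
    · rw [hb, add_zero]; exact Or.inr ha
    by_cases hab : (a : F) + (b : F) = 0
    · exact Or.inl hab
    · right
      have := Fermat.Agent.X0S24.PlaceRes.ord_add P (tb121_ne_zero_of_ord_pos P ha)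
        (tb121_ne_zero_of_ord_pos P hb) hab
      exact lt_of_lt_of_le (lt_min ha hb) this
  · rintro c a ha
    change ((c : F) * (a : F) = 0 ∨ 0 < P.ord ((c : F) * (a : F)))
    rcases ha with ha | ha
    · left; rw [ha, mul_zero]
    by_cases hc : (c : F) = 0
    · left; rw [hc, zero_mul]
    · right
      rw [P.ord_mul hc (tb121_ne_zero_of_ord_pos P ha)]
      have := hnn c hc
      omega
  · rw [Ideal.ne_top_iff_one]
    rintro (h | h)
    · exact one_ne_zero (α := F) h
    · have h' : 0 < P.ord (1 : F) := h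
      rw [AlgebraicCurve.Place.ord_one] at h'
      exact lt_irrefl _ h'
  · intro x y hxy
    by_cases hx : (x : F) = 0
    · exact Or.inl (Or.inl hx)
    by_cases hy : (y : F) = 0
    · exact Or.inr (Or.inl hy)
    have hxy' : ((x : F) * (y : F) = 0 ∨ 0 < P.ord ((x : F) * (y : F))) := hxy
    rcases hxy' with h | h
    · exact absurd h (mul_ne_zero hx hy)
    · rw [P.ord_mul hx hy] at h
      have h1 := hnn x hx
      have h2 := hnn y hy
      by_cases hx' : 0 < P.ord (x : F)
      · exact Or.inl (Or.inr hx')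
      · exact Or.inr (Or.inr (by omega))

end Fermat.Agent.S18L.Nm
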