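import Mathlib
import Fermat.Agent.S18L.NmDefs
import Fermat.Agent.S18L.CrvBase

/-!
# S18, package NM, block T, leaf (Tc): the nilpotent-trace lemma

`Φ / κ(θ)` finite separable.  If `w`, `v` are integral over `κ[θ]` and `w ^ N = (θ - a) v`,
then `Tr w ∈ (θ - a) κ[θ]`.
-/

set_option autoImplicit false

open scoped IntermediateField

namespace Fermat.Agent.S18L.Nm

open Fermat.Agent.S18L

/-- a nilpotent-mod-`p` element has integral trace in `p`. -/
theorem tc119_intTrace_mem {A B : Type*} [CommRing A] [CommRing B] [Algebra A B]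
    [IsDedekindDomain A] [IsDomain B] [IsIntegrallyClosed B] [Module.IsTorsionFree A B]
    [Module.Finite A B] (p : Ideal A) [p.IsMaximal] (x : B) (N : ℕ)
    (hx : x ^ N ∈ p.map (algebraMap A B)) : Algebra.intTrace A B x ∈ p := by
  rw [← Ideal.Quotient.eq_zero_iff_mem, ← Algebra.trace_quotient_eq_of_isDedekindDomain,
    ← isNilpotent_iff_eq_zero]
  refine Algebra.isNilpotent_trace_of_isNilpotent ⟨N, ?_⟩
  rw [← map_pow, Ideal.Quotient.eq_zero_iff_mem]
  exact hx

/-- `θ - a` generates a maximal ideal of `κ[θ]`. -/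
theorem tc119_isMaximal {κ Φ : Type*} [Field κ] [Field Φ] [Algebra κ Φ] (θ : Φ)
    (hθ : Transcendental κ θ) (a : κ) (τ : Algebra.adjoin κ {θ})
    (hτ : (τ : Φ) = θ - algebraMap κ Φ a) :
    (Ideal.span {τ} : Ideal (Algebra.adjoin κ {θ})).IsMaximal := by
  have hpid := crv_isPrincipalIdealRing κ θ hθ
  have hsurj : Function.Surjective
      (Polynomial.aeval (R := κ) (crvT κ θ) : Polynomial κ → crvR κ θ) := by
    rintro ⟨y, hy⟩
    have hy' : y ∈ (Polynomial.aeval (R := κ) θ).range := by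
      rw [← Algebra.adjoin_singleton_eq_range_aeval]
      exact hy
    obtain ⟨q, hq⟩ := hy'
    refine ⟨q, Subtype.ext ?_⟩
    rw [Polynomial.aeval_subalgebra_coe]
    exact hq
  have hinj : Function.Injective
      (Polynomial.aeval (R := κ) (crvT κ θ) : Polynomial κ → crvR κ θ) := by
    intro q q' h
    have h' := congrArg (Subtype.val) h
    rw [Polynomial.aeval_subalgebra_coe, Polynomial.aeval_subalgebra_coe] at h'
    exact (transcendental_iff_injective.mp hθ) h'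
  let e : Polynomial κ ≃+* crvR κ θ :=
    RingEquiv.ofBijective (Polynomial.aeval (R := κ) (crvT κ θ)) ⟨hinj, hsurj⟩
  have he : e (Polynomial.X - Polynomial.C a) = τ := by
    apply Subtype.ext
    show ((Polynomial.aeval (R := κ) (crvT κ θ) (Polynomial.X - Polynomial.C a) : crvR κ θ) : Φ)
      = (τ : Φ)
    rw [Polynomial.aeval_subalgebra_coe, hτ]
    simp [crvT]
  have hirr : Irreducible τ := by
    rw [← he]
    exact (MulEquiv.irreducible_iff e.toMulEquiv).mpr (Polynomial.irreducible_X_sub_C a)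
  exact PrincipalIdealRing.isMaximal_of_irreducible hirr

section tc119Aux

open scoped IntermediateField.algebraAdjoinAdjoin

theorem tc119_main {κ Φ : Type*} [Field κ] [Field Φ] [Algebra κ Φ] (θ : Φ)
    (hθ : Transcendental κ θ) (hfin : Module.Finite κ⟮θ⟯ Φ) (hsep : Algebra.IsSeparable κ⟮θ⟯ Φ)
    (a : κ) (w v : Φ) (hw : IsIntegral (Algebra.adjoin κ {θ}) w)
    (hv : IsIntegral (Algebra.adjoin κ {θ}) v) (N : ℕ)
    (hwN : w ^ N = (θ - algebraMap κ Φ a) * v) :
    ∃ c : Algebra.adjoin κ {θ}, algebraMap κ⟮θ⟯ Φ (Algebra.trace κ⟮θ⟯ Φ w)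
      = (θ - algebraMap κ Φ a) * (c : Φ) := by
  have hdedR : IsDedekindDomain (crvR κ θ) := crv_isDedekindDomain_R κ θ hθ
  have hdedB : IsDedekindDomain (crvB κ θ) := crv_isDedekindDomain κ θ hθ
  have hfinB : Module.Finite (crvR κ θ) (crvB κ θ) :=
    IsIntegralClosure.finite (crvR κ θ) (crvK κ θ) Φ (crvB κ θ)
  let τ : crvR κ θ := ⟨θ - algebraMap κ Φ a,
    sub_mem (Algebra.self_mem_adjoin_singleton κ θ) (Subalgebra.algebraMap_mem _ a)⟩
  have hmax : (Ideal.span {τ} : Ideal (crvR κ θ)).IsMaximal := tc119_isMaximal θ hθ a τ rfl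
  let x : crvB κ θ := ⟨w, hw⟩
  let y : crvB κ θ := ⟨v, hv⟩
  have hx : x ^ N ∈ (Ideal.span {τ} : Ideal (crvR κ θ)).map (algebraMap (crvR κ θ) (crvB κ θ)) := by
    have e1 : x ^ N = algebraMap (crvR κ θ) (crvB κ θ) τ * y := by
      apply Subtype.ext
      exact hwN
    rw [e1]
    exact Ideal.mul_mem_right _ _ (Ideal.mem_map_of_mem _ (Ideal.mem_span_singleton_self τ))
  have hmem := tc119_intTrace_mem (Ideal.span {τ} : Ideal (crvR κ θ)) x N hx
  obtain ⟨c, hc⟩ := Ideal.mem_span_singleton'.mp hmem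
  refine ⟨c, ?_⟩
  have h1 := Algebra.algebraMap_intTrace (A := crvR κ θ) (K := crvK κ θ) (L := Φ) x
  have h2 : algebraMap (crvB κ θ) Φ x = w := rfl
  rw [h2] at h1
  rw [← h1, ← hc, ← IsScalarTower.algebraMap_apply (crvR κ θ) (crvK κ θ) Φ]
  show ((c * τ : crvR κ θ) : Φ) = _
  rw [mul_comm]
  rfl

end tc119Aux

theorem nil_trace {κ Φ : Type*} [Field κ] [Field Φ] [Algebra κ Φ] (θ : Φ)
    (hθ : Transcendental κ θ) (hfin : Module.Finite κ⟮θ⟯ Φ) (hsep : Algebra.IsSeparable κ⟮θ⟯ Φ)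
    (a : κ) (w v : Φ) (hw : NmFin κ θ w) (hv : NmFin κ θ v) (N : ℕ)
    (hwN : w ^ N = (θ - algebraMap κ Φ a) * v) :
    ∃ p : Polynomial κ, algebraMap κ⟮θ⟯ Φ (Algebra.trace κ⟮θ⟯ Φ w)
      = (θ - algebraMap κ Φ a) * Polynomial.aeval θ p := by
  obtain ⟨c, hc⟩ := tc119_main θ hθ hfin hsep a w v hw hv N hwN
  have hc' : (c : Φ) ∈ (Polynomial.aeval (R := κ) θ).range := by
    rw [← Algebra.adjoin_singleton_eq_range_aeval]
    exact c.2
  obtain ⟨p, hp⟩ := hc'
  exact ⟨p, by rw [hc, ← hp]; rfl⟩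

end Fermat.Agent.S18L.Nm
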