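import Fermat.Agent.S18L.DiffMain

/-!
# S18, NORMAL, lemma (N6): two convenience lemmas for discharging the tameness hypothesis

* residue degree one above a point with algebraically closed residue field;
* in characteristic zero every ramification exponent is prime to `τ`.
-/

set_option autoImplicit false

namespace Fermat.Agent.S18L.Nm

open Fermat.Agent.S18L

section Convenience

variable (A₀ : Type*) {B : Type*} [CommRing A₀] [CommRing B] [Algebra A₀ B] [Module.Finite A₀ B]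

/-- Residue degree one above a point with algebraically closed residue field. -/
theorem residue_degree_one_of_isAlgClosed {k₁ : Type*} [Field k₁] [IsAlgClosed k₁]
    (φ : A₀ →+* k₁) (hφ : Function.Surjective φ) (τ : A₀) (hker : ∀ a : A₀, φ a = 0 ↔ τ ∣ a)
    (P : Ideal B) (hP : P.IsPrime) (hτP : algebraMap A₀ B τ ∈ P) :
    ∀ b : B, ∃ a : A₀, b - algebraMap A₀ B a ∈ P := by
  intro b
  obtain ⟨ψ, hψ⟩ : ∃ ψ : A₀ →+* B ⧸ P, ψ = (Ideal.Quotient.mk P).comp (algebraMap A₀ B) :=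
    ⟨_, rfl⟩
  have hkerψ : RingHom.ker φ ≤ RingHom.ker ψ := by
    intro a ha
    rw [RingHom.mem_ker, hker] at ha
    obtain ⟨c, rfl⟩ := ha
    rw [RingHom.mem_ker, hψ, RingHom.comp_apply, Ideal.Quotient.eq_zero_iff_mem, map_mul]
    exact P.mul_mem_right _ hτP
  obtain ⟨g, hg⟩ : ∃ g : k₁ →+* B ⧸ P, ∀ a, g (φ a) = ψ a :=
    ⟨φ.liftOfSurjective hφ ⟨ψ, hkerψ⟩, fun a =>
      φ.liftOfRightInverse_comp_apply _ _ ⟨ψ, hkerψ⟩ a⟩
  have hgint : g.IsIntegral := by
    intro x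
    obtain ⟨y, rfl⟩ := Ideal.Quotient.mk_surjective x
    obtain ⟨p, hpm, hp⟩ := (Algebra.IsIntegral.isIntegral (R := A₀) y)
    refine ⟨p.map φ, hpm.map φ, ?_⟩
    rw [Polynomial.eval₂_map]
    have hgφ : g.comp φ = ψ := RingHom.ext hg
    rw [hgφ, hψ, ← Polynomial.hom_eval₂, hp, map_zero]
  have hbij := IsAlgClosed.ringHom_bijective_of_isIntegral g hgint
  obtain ⟨c, hc⟩ := hbij.2 (Ideal.Quotient.mk P b)
  obtain ⟨a, rfl⟩ := hφ c
  refine ⟨a, ?_⟩
  rw [← Ideal.Quotient.eq, ← hc, hg, hψ]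
  rfl

/-- In characteristic zero every ramification exponent is prime to `τ`. -/
theorem not_dvd_eExp_of_algebra_rat [IsDedekindDomain A₀] [IsDedekindDomain B]
    [Module.IsTorsionFree A₀ B] [Algebra ℚ A₀] (τ : A₀)
    (hτ : (Ideal.span {τ} : Ideal A₀).IsMaximal) (P : Ideal B) (hP : P.IsPrime) (hP0 : P ≠ ⊥) :
    ¬ τ ∣ ((Diff.eExp A₀ B P : ℕ) : A₀) := by
  intro hdvd
  have he : 1 ≤ Diff.eExp A₀ B P := Diff.one_le_eExp A₀ hP hP0
  have hq : ((Diff.eExp A₀ B P : ℕ) : ℚ) ≠ 0 := by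
    have : Diff.eExp A₀ B P ≠ 0 := by omega
    exact_mod_cast this
  have hu : IsUnit ((Diff.eExp A₀ B P : ℕ) : A₀) := by
    have h := (IsUnit.mk0 _ hq).map (algebraMap ℚ A₀)
    rwa [map_natCast] at h
  have hτu : IsUnit τ := isUnit_of_dvd_unit hdvd hu
  exact hτ.ne_top (Ideal.span_singleton_eq_top.2 hτu)

end Convenience

end Fermat.Agent.S18L.Nm
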