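import Fermat.Agent.S18L.DiffMain

/-!
# S18, NORMAL, lemma (N6), step "tame ⇒ τ · (trace dual) ⊆ radical" (local at `τ`)

`A₀ ⊆ B` Dedekind (AKLB setting), `τ ∈ A₀` generating a maximal ideal, all primes of `B` above
`τ` tame of residue degree one.  If `z ∈ L` lies in the trace dual of `B`, then for some
`s ∈ A₀` prime to `τ` the element `s τ z` lies in `B` and in every prime of `B` above `τ`.
-/

set_option autoImplicit false

namespace Fermat.Agent.S18L.Nm

open Fermat.Agent.S18L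

variable (A₀ K₀ L : Type*) {B : Type*} [CommRing A₀] [Field K₀] [CommRing B] [Field L]
  [Algebra A₀ K₀] [Algebra B L] [Algebra A₀ B] [Algebra K₀ L] [Algebra A₀ L]
  [IsScalarTower A₀ K₀ L] [IsScalarTower A₀ B L]
  [IsDedekindDomain A₀] [IsFractionRing A₀ K₀] [FiniteDimensional K₀ L] [Algebra.IsSeparable K₀ L]
  [IsIntegralClosure B A₀ L] [IsDedekindDomain B] [Module.IsTorsionFree A₀ B]

section Dual116

attribute [local instance] FractionRing.liftAlgebra FractionRing.isScalarTower_liftAlgebra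

private theorem dual116_main (τ : A₀) (hτ : (Ideal.span {τ} : Ideal A₀).IsMaximal)
    (hτ0 : τ ≠ 0)
    (htame : ∀ P : Ideal B, P.IsPrime → algebraMap A₀ B τ ∈ P →
      (∀ b : B, ∃ a : A₀, b - algebraMap A₀ B a ∈ P) ∧ ¬ τ ∣ ((Diff.eExp A₀ B P : ℕ) : A₀))
    (z : L) (hz : ∀ b : B, ∃ a : A₀,
      algebraMap A₀ K₀ a = Algebra.trace K₀ L (z * algebraMap B L b)) :
    ∃ (s : A₀) (y : B), ¬ τ ∣ s ∧ algebraMap B L y = algebraMap A₀ L (s * τ) * z ∧
      ∀ P : Ideal B, P.IsPrime → algebraMap A₀ B τ ∈ P → y ∈ P := by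
  classical
  have hFr : IsFractionRing B L := IsIntegralClosure.isFractionRing_of_finite_extension A₀ K₀ L B
  have hfin : Module.Finite A₀ B := IsIntegralClosure.finite A₀ K₀ L B
  have hint : Algebra.IsIntegral A₀ B := IsIntegralClosure.isIntegral_algebra A₀ L
  have hinj : Function.Injective (algebraMap A₀ B) := FaithfulSMul.algebraMap_injective A₀ B
  have H : RingHom.comp (algebraMap (FractionRing A₀) (FractionRing B))
      ↑(FractionRing.algEquiv A₀ K₀).symm.toRingEquiv =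
        RingHom.comp ↑(FractionRing.algEquiv B L).symm.toRingEquiv (algebraMap K₀ L) := by
    apply IsLocalization.ringHom_ext (nonZeroDivisors A₀)
    ext
    simp only [RingHom.coe_comp, RingHom.coe_coe,
      AlgEquiv.coe_ringEquiv, Function.comp_apply, AlgEquiv.commutes,
      ← IsScalarTower.algebraMap_apply]
    rw [IsScalarTower.algebraMap_apply A₀ B L, AlgEquiv.commutes,
      ← IsScalarTower.algebraMap_apply]
  have hsep : Algebra.IsSeparable (FractionRing A₀) (FractionRing B) :=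
    Algebra.IsSeparable.of_equiv_equiv _ _ H
  -- multiplication by an element of the different sends `z` into `B`
  have hzmem : z ∈ Submodule.traceDual A₀ K₀ (1 : Submodule B L) := by
    rw [Submodule.mem_traceDual]
    intro a ha
    obtain ⟨b, rfl⟩ := Submodule.mem_one.mp ha
    obtain ⟨a', ha'⟩ := hz b
    exact ⟨a', by rw [ha', Algebra.traceForm_apply]⟩
  have hdz : ∀ d ∈ differentIdeal A₀ B, ∃ w : B, algebraMap B L w = algebraMap B L d * z := by
    intro d hd
    have h1 : algebraMap B L d ∈ IsLocalization.coeSubmodule L (differentIdeal A₀ B) :=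
      (IsLocalization.mem_coeSubmodule L _).mpr ⟨d, hd, rfl⟩
    rw [coeSubmodule_differentIdeal A₀ K₀, Submodule.mem_div_iff_forall_mul_mem] at h1
    obtain ⟨w, hw⟩ := Submodule.mem_one.mp (h1 z hzmem)
    exact ⟨w, hw⟩
  -- the ideals
  have hτB0 : algebraMap A₀ B τ ≠ 0 := fun h => hτ0 (hinj (by rw [h, map_zero]))
  set T : Ideal B := Ideal.span {algebraMap A₀ B τ} with hTdef
  have hT0 : T ≠ ⊥ := by
    rw [hTdef, Ne, Ideal.span_singleton_eq_bot]
    exact hτB0
  set G : Ideal B := differentIdeal A₀ B ⊔ T with hGdef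
  obtain ⟨D'', hD⟩ : G ∣ differentIdeal A₀ B := Ideal.dvd_iff_le.mpr le_sup_left
  obtain ⟨T', hT⟩ : G ∣ T := Ideal.dvd_iff_le.mpr le_sup_right
  have hG0 : G ≠ 0 := by
    intro h
    rw [h, zero_mul] at hT
    exact hT0 hT
  -- facts about the primes above `τ`
  have hb : ∀ P : Ideal B, P.IsPrime → algebraMap A₀ B τ ∈ P → P ∣ T' := by
    intro P hP hτP
    have hP0 : P ≠ ⊥ := by
      rintro rfl
      exact hτB0 (by simpa using hτP)
    have hunder : P.under A₀ = Ideal.span {τ} := by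
      refine (hτ.eq_of_le (Ideal.comap_ne_top _ hP.ne_top) ?_).symm
      rw [Ideal.span_singleton_le_iff_mem]
      exact hτP
    have hmap : (P.under A₀).map (algebraMap A₀ B) = T := by
      rw [hunder, Ideal.map_span, Set.image_singleton]
    obtain ⟨hres, hnd⟩ := htame P hP hτP
    have htame' : ((Diff.eExp A₀ B P : ℕ) : A₀) ∉ P.under A₀ := by
      rw [hunder, Ideal.mem_span_singleton]
      exact hnd
    have hnot := Diff.not_pow_eExp_dvd_differentIdeal_of_tame A₀ hP hP0 hres htame'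
    have hpow : P ^ Diff.eExp A₀ B P ∣ G * T' := by
      rw [← hT, ← hmap]
      exact (Diff.pow_dvd_map_under_iff A₀ hP hP0 _).mpr le_rfl
    by_contra hcon
    have h2 : P ^ Diff.eExp A₀ B P ∣ G :=
      (Ideal.prime_of_isPrime hP0 hP).pow_dvd_of_dvd_mul_right _ hcon hpow
    exact hnot (h2.trans ⟨D'', hD⟩)
  have hc : ∀ P : Ideal B, P.IsPrime → algebraMap A₀ B τ ∈ P → ¬ P ∣ D'' := by
    intro P hP hτP hPD
    have h1 : differentIdeal A₀ B ≤ G * P := by
      rw [← Ideal.dvd_iff_le]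
      conv_rhs => rw [hD]
      exact mul_dvd_mul_left G hPD
    have h2 : T ≤ G * P := by
      rw [← Ideal.dvd_iff_le]
      conv_rhs => rw [hT]
      exact mul_dvd_mul_left G (hb P hP hτP)
    have h3 : G * P ∣ G * 1 := by
      rw [mul_one, Ideal.dvd_iff_le]
      exact sup_le h1 h2
    have h4 : P ∣ 1 := (mul_dvd_mul_iff_left hG0).mp h3
    rw [Ideal.dvd_iff_le, Ideal.one_eq_top, top_le_iff] at h4
    exact hP.ne_top h4
  -- choice of `s`
  have hs : ¬ D''.comap (algebraMap A₀ B) ≤ Ideal.span {τ} := by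
    intro hle
    have hτprime : (Ideal.span {τ} : Ideal A₀).IsPrime := hτ.isPrime
    obtain ⟨Q, hQle, hQprime, hQcomap⟩ :=
      Ideal.exists_ideal_over_prime_of_isIntegral (Ideal.span {τ}) D'' hle
    have hτQ : algebraMap A₀ B τ ∈ Q := by
      have h : τ ∈ Q.comap (algebraMap A₀ B) := hQcomap ▸ Ideal.mem_span_singleton_self τ
      exact h
    exact hc Q hQprime hτQ (Ideal.dvd_iff_le.mpr hQle)
  obtain ⟨s, hsD, hsτ⟩ := SetLike.not_le_iff_exists.mp hs
  have ht : algebraMap A₀ B (s * τ) ∈ T' * differentIdeal A₀ B := by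
    have h : algebraMap A₀ B (s * τ) ∈ D'' * T := by
      rw [map_mul]
      exact Ideal.mul_mem_mul hsD (Ideal.mem_span_singleton_self _)
    have e : D'' * T = T' * differentIdeal A₀ B := by
      conv_lhs => rw [hT]
      conv_rhs => rw [hD]
      ring
    rwa [e] at h
  have key : ∀ t ∈ T' * differentIdeal A₀ B,
      ∃ y ∈ T', algebraMap B L y = algebraMap B L t * z := by
    intro t ht
    refine Submodule.mul_induction_on ht ?_ ?_
    · intro a ha d hd
      obtain ⟨w, hw⟩ := hdz d hd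
      exact ⟨a * w, Ideal.mul_mem_right _ _ ha, by rw [map_mul, map_mul, hw, mul_assoc]⟩
    · rintro x y ⟨y1, h1, e1⟩ ⟨y2, h2, e2⟩
      exact ⟨y1 + y2, Ideal.add_mem _ h1 h2, by rw [map_add, map_add, e1, e2, add_mul]⟩
  obtain ⟨y, hyT, hy⟩ := key _ ht
  refine ⟨s, y, ?_, ?_, ?_⟩
  · rwa [Ideal.mem_span_singleton] at hsτ
  · rw [hy, ← IsScalarTower.algebraMap_apply]
  · intro P hP hτP
    exact Ideal.dvd_iff_le.mp (hb P hP hτP) hyT

end Dual116

/-- **(N6), dual step.** -/
theorem exists_smul_mem_primes_of_tame (τ : A₀) (hτ : (Ideal.span {τ} : Ideal A₀).IsMaximal)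
    (hτ0 : τ ≠ 0)
    (htame : ∀ P : Ideal B, P.IsPrime → algebraMap A₀ B τ ∈ P →
      (∀ b : B, ∃ a : A₀, b - algebraMap A₀ B a ∈ P) ∧ ¬ τ ∣ ((Diff.eExp A₀ B P : ℕ) : A₀))
    (z : L) (hz : ∀ b : B, ∃ a : A₀,
      algebraMap A₀ K₀ a = Algebra.trace K₀ L (z * algebraMap B L b)) :
    ∃ (s : A₀) (y : B), ¬ τ ∣ s ∧ algebraMap B L y = algebraMap A₀ L (s * τ) * z ∧
      ∀ P : Ideal B, P.IsPrime → algebraMap A₀ B τ ∈ P → y ∈ P := by
  exact dual116_main A₀ K₀ L τ hτ hτ0 htame z hz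

end Fermat.Agent.S18L.Nm
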