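import Mathlib
import Fermat.Agent.S18L.NmDefs
import Fermat.Agent.S18L.CrvBase

/-!
# S18, package NM, block T, leaf (Ta): uniform denominator for the local trace dual

`F / K(t)` finite, characteristic zero.  If all traces `Tr (z y)`, `y` integral over `K[t]`,
are regular at `t = ρ`, then a single polynomial `q₀` with `q₀(ρ) ≠ 0` clears all denominators:
`Tr (q₀(t) z y) ∈ K[t]` for all integral `y`.  (The integral closure is a finitely generated
`K[t]`-module; take the product of the denominators of a finite generating set.)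
-/

set_option autoImplicit false

open scoped IntermediateField

namespace Fermat.Agent.S18L.Nm

open Fermat.Agent.S18L

/-- polynomials in `t` can be pulled out of the trace -/
private theorem ta117_pull {K F : Type*} [Field K] [Field F] [Algebra K F] (t : F)
    (r : Polynomial K) (x : F) :
    algebraMap K⟮t⟯ F (Algebra.trace K⟮t⟯ F (Polynomial.aeval t r * x))
      = Polynomial.aeval t r * algebraMap K⟮t⟯ F (Algebra.trace K⟮t⟯ F x) := by
  have h1 : Polynomial.aeval t r
      = algebraMap K⟮t⟯ F (Polynomial.aeval (IntermediateField.AdjoinSimple.gen K t) r) := by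
    rw [← Polynomial.aeval_algebraMap_apply, IntermediateField.AdjoinSimple.algebraMap_gen]
  rw [h1, ← Algebra.smul_def, map_smul, smul_eq_mul, map_mul]

open scoped IntermediateField.algebraAdjoinAdjoin in
private theorem ta117_main {K F : Type*} [Field K] [Field F] [Algebra K F] [CharZero K]
    (t : F) (ht : Transcendental K t) (hfin : Module.Finite K⟮t⟯ F) (ρ : K) (z : F)
    (hz : ∀ y : F, NmFin K t y → ∃ q p : Polynomial K, q.eval ρ ≠ 0 ∧
      Polynomial.aeval t q * algebraMap K⟮t⟯ F (Algebra.trace K⟮t⟯ F (z * y))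
        = Polynomial.aeval t p) :
    ∃ q₀ : Polynomial K, q₀.eval ρ ≠ 0 ∧ ∀ y : F, NmFin K t y → ∃ p : Polynomial K,
      algebraMap K⟮t⟯ F (Algebra.trace K⟮t⟯ F (Polynomial.aeval t q₀ * z * y))
        = Polynomial.aeval t p := by
  classical
  have hdd : IsDedekindDomain (Algebra.adjoin K {t}) := crv_isDedekindDomain_R K t ht
  have hchar : CharZero K⟮t⟯ := charZero_of_injective_algebraMap (algebraMap K K⟮t⟯).injective
  have hsep : Algebra.IsSeparable K⟮t⟯ F := inferInstance
  have hBfin : Module.Finite (Algebra.adjoin K {t}) (integralClosure (Algebra.adjoin K {t}) F) :=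
    IsIntegralClosure.finite (Algebra.adjoin K {t}) K⟮t⟯ F
      (integralClosure (Algebra.adjoin K {t}) F)
  obtain ⟨S, hS⟩ := (Module.Finite.fg_top :
    (⊤ : Submodule (Algebra.adjoin K {t}) (integralClosure (Algebra.adjoin K {t}) F)).FG)
  have hz' : ∀ b : integralClosure (Algebra.adjoin K {t}) F, ∃ q p : Polynomial K,
      q.eval ρ ≠ 0 ∧
      Polynomial.aeval t q * algebraMap K⟮t⟯ F (Algebra.trace K⟮t⟯ F (z * (b : F)))
        = Polynomial.aeval t p := fun b => hz b.1 b.2
  choose q p hq hqp using hz'
  refine ⟨∏ b ∈ S, q b, ?_, ?_⟩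
  · rw [Polynomial.eval_prod]
    exact Finset.prod_ne_zero_iff.mpr fun b _ => hq b
  · have hall : ∀ b : integralClosure (Algebra.adjoin K {t}) F, ∃ p' : Polynomial K,
        algebraMap K⟮t⟯ F (Algebra.trace K⟮t⟯ F
          (Polynomial.aeval t (∏ b ∈ S, q b) * z * (b : F))) = Polynomial.aeval t p' := by
      intro b
      have hb : b ∈ Submodule.span (Algebra.adjoin K {t}) (S : Set _) := by
        rw [hS]
        exact Submodule.mem_top
      induction hb using Submodule.span_induction with
      | mem b hb =>
        refine ⟨(∏ x ∈ S.erase b, q x) * p b, ?_⟩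
        rw [mul_assoc, ta117_pull, ← Finset.mul_prod_erase S q hb, map_mul (Polynomial.aeval t),
          map_mul (Polynomial.aeval t), ← hqp b]
        ring
      | zero =>
        refine ⟨0, ?_⟩
        simp
      | add x y _ _ hx hy =>
        obtain ⟨px, hpx⟩ := hx
        obtain ⟨py, hpy⟩ := hy
        refine ⟨px + py, ?_⟩
        have h1 : Polynomial.aeval t (∏ b ∈ S, q b) * z * ((x + y : integralClosure _ F) : F)
            = Polynomial.aeval t (∏ b ∈ S, q b) * z * (x : F)
              + Polynomial.aeval t (∏ b ∈ S, q b) * z * (y : F) := by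
          rw [Subalgebra.coe_add, mul_add]
        rw [h1, map_add, map_add, hpx, hpy, map_add]
      | smul a x _ hx =>
        obtain ⟨px, hpx⟩ := hx
        obtain ⟨r, hr⟩ : (a : F) ∈ (Polynomial.aeval (R := K) t).range := by
          rw [← Algebra.adjoin_singleton_eq_range_aeval]
          exact a.2
        refine ⟨r * px, ?_⟩
        have hr' : Polynomial.aeval t r = (a : F) := hr
        have h1 : Polynomial.aeval t (∏ b ∈ S, q b) * z * ((a • x : integralClosure _ F) : F)
            = Polynomial.aeval t r * (Polynomial.aeval t (∏ b ∈ S, q b) * z * (x : F)) := by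
          have h2 : ((a • x : integralClosure _ F) : F) = (a : F) * (x : F) := rfl
          rw [h2, hr']
          ring
        rw [h1, ta117_pull, hpx, map_mul]
    intro y hy
    exact hall ⟨y, hy⟩

theorem tame_dual_denom {K F : Type*} [Field K] [Field F] [Algebra K F] [CharZero K]
    (t : F) (ht : Transcendental K t) (hfin : Module.Finite K⟮t⟯ F) (ρ : K) (z : F)
    (hz : ∀ y : F, NmFin K t y → ∃ q p : Polynomial K, q.eval ρ ≠ 0 ∧
      Polynomial.aeval t q * algebraMap K⟮t⟯ F (Algebra.trace K⟮t⟯ F (z * y))
        = Polynomial.aeval t p) :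
    ∃ q₀ : Polynomial K, q₀.eval ρ ≠ 0 ∧ ∀ y : F, NmFin K t y → ∃ p : Polynomial K,
      algebraMap K⟮t⟯ F (Algebra.trace K⟮t⟯ F (Polynomial.aeval t q₀ * z * y))
        = Polynomial.aeval t p := by
  exact ta117_main t ht hfin ρ z hz

end Fermat.Agent.S18L.Nm
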