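import Mathlib
import Fermat.Agent.S18L.NmDefs

/-!
# S18, package NM, block T, leaf (Te): evaluation at `ρ` on `K[t]`, `t` transcendental

The ring homomorphism `K[t] → K`, `p(t) ↦ p(ρ)`; it is surjective with kernel `(t - ρ)`, and
`(t - ρ)` is a maximal ideal.
-/

set_option autoImplicit false

namespace Fermat.Agent.S18L.Nm

theorem te120_exists_aeval_eq {K F : Type*} [Field K] [Field F] [Algebra K F]
    (t : F) (a : Algebra.adjoin K {t}) : ∃ p : Polynomial K, (a : F) = Polynomial.aeval t p := by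
  have ha : (a : F) ∈ (Polynomial.aeval (R := K) t).range := by
    rw [← Algebra.adjoin_singleton_eq_range_aeval]
    exact a.2
  obtain ⟨p, hp⟩ := ha
  exact ⟨p, hp.symm⟩

theorem exists_eval_hom {K F : Type*} [Field K] [Field F] [Algebra K F]
    (t : F) (ht : Transcendental K t) (ρ : K) (τ : Algebra.adjoin K {t})
    (hτ : (τ : F) = t - algebraMap K F ρ) :
    ∃ φ : Algebra.adjoin K {t} →+* K, Function.Surjective φ ∧
      (∀ (p : Polynomial K) (a : Algebra.adjoin K {t}), (a : F) = Polynomial.aeval t p →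
        φ a = p.eval ρ) ∧
      (∀ a : Algebra.adjoin K {t}, φ a = 0 ↔ τ ∣ a) ∧
      (Ideal.span {τ} : Ideal (Algebra.adjoin K {t})).IsMaximal ∧ τ ≠ 0 := by
  obtain ⟨T, hT⟩ : ∃ T : Algebra.adjoin K {t}, (T : F) = t :=
    ⟨⟨t, Algebra.self_mem_adjoin_singleton K t⟩, rfl⟩
  have hcoe : ∀ p : Polynomial K,
      ((Polynomial.aeval T p : Algebra.adjoin K {t}) : F) = Polynomial.aeval t p := by
    intro p
    rw [Polynomial.aeval_subalgebra_coe, hT]
  have hinj : Function.Injective (Polynomial.aeval (R := K) T) := by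
    intro p q hpq
    apply (transcendental_iff_injective.1 ht)
    rw [← hcoe p, ← hcoe q, hpq]
  have hsurj : Function.Surjective (Polynomial.aeval (R := K) T) := by
    intro a
    obtain ⟨p, hp⟩ := te120_exists_aeval_eq t a
    exact ⟨p, Subtype.ext ((hcoe p).trans hp.symm)⟩
  obtain ⟨e, he⟩ : ∃ e : Polynomial K ≃ₐ[K] Algebra.adjoin K {t},
      ∀ p, e p = Polynomial.aeval T p :=
    ⟨AlgEquiv.ofBijective (Polynomial.aeval (R := K) T) ⟨hinj, hsurj⟩, fun _ => rfl⟩
  have hτe : τ = e (Polynomial.X - Polynomial.C ρ) := by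
    apply Subtype.ext
    rw [hτ, he, hcoe, map_sub, Polynomial.aeval_X, Polynomial.aeval_C]
  obtain ⟨φ, hφ⟩ : ∃ φ : Algebra.adjoin K {t} →+* K,
      ∀ a, φ a = Polynomial.eval ρ (e.symm a) :=
    ⟨(Polynomial.evalRingHom ρ).comp (e.symm : Algebra.adjoin K {t} →+* Polynomial K),
      fun _ => rfl⟩
  have hφsurj : Function.Surjective φ := by
    intro c
    refine ⟨e (Polynomial.C c), ?_⟩
    rw [hφ, AlgEquiv.symm_apply_apply, Polynomial.eval_C]
  have hker : ∀ a : Algebra.adjoin K {t}, φ a = 0 ↔ τ ∣ a := by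
    intro a
    rw [hφ, ← Polynomial.IsRoot.def, ← Polynomial.dvd_iff_isRoot, hτe]
    conv_rhs => rw [← AlgEquiv.apply_symm_apply e a]
    exact (map_dvd_iff e).symm
  refine ⟨φ, hφsurj, ?_, hker, ?_, ?_⟩
  · intro p a hpa
    have hae : a = e p := Subtype.ext (by rw [hpa, he, hcoe])
    rw [hφ, hae, AlgEquiv.symm_apply_apply]
  · have hkereq : RingHom.ker φ = Ideal.span {τ} := by
      ext a
      rw [RingHom.mem_ker, Ideal.mem_span_singleton, hker]
    rw [← hkereq]
    exact RingHom.ker_isMaximal_of_surjective φ hφsurj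
  · rw [hτe]
    intro h0
    have h1 : (Polynomial.X - Polynomial.C ρ : Polynomial K) = 0 := by
      apply e.injective
      rw [h0, map_zero]
    exact Polynomial.X_sub_C_ne_zero ρ h1

/-- every element of `K[t]` is a polynomial in `t` -/
theorem exists_aeval_eq {K F : Type*} [Field K] [Field F] [Algebra K F]
    (t : F) (a : Algebra.adjoin K {t}) : ∃ p : Polynomial K, (a : F) = Polynomial.aeval t p := by
  exact te120_exists_aeval_eq t a

end Fermat.Agent.S18L.Nm
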