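import Mathlib
import Fermat.Agent.S18L.NmDefs
import Fermat.Agent.S18L.CrvBase
import Fermat.Agent.S18L.NmN6Dual
import Fermat.Agent.S18L.NmN6Conv
import Fermat.Agent.S18L.NmTa
import Fermat.Agent.S18L.NmTe

/-!
# S18, package NM, block T, leaf (Td): the tame trace-dual lemma in the language of the
integral closure of `K[t]`

`K` algebraically closed of characteristic zero, `F / K(t)` finite.  If `z` lies in the trace
dual of the integral closure `B` of `K[t]` locally at `ρ`, then for some polynomial `r` with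
`r(ρ) ≠ 0` the element `r(t) (t - ρ) z` lies in `B` and in every prime of `B` containing `t - ρ`.
-/

set_option autoImplicit false

open scoped IntermediateField

namespace Fermat.Agent.S18L.Nm

open Fermat.Agent.S18L

section td118

open scoped IntermediateField.algebraAdjoinAdjoin

/-- the tame trace-dual lemma, proved with the scoped instances for `K[t] ⊆ K(t)` available -/
private theorem td118_main {K F : Type*} [Field K] [Field F] [Algebra K F] [IsAlgClosed K]
    [CharZero K] (t : F) (ht : Transcendental K t) (hfin : Module.Finite K⟮t⟯ F) (ρ : K) (z : F)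
    (hz : ∀ y : F, NmFin K t y → ∃ q p : Polynomial K, q.eval ρ ≠ 0 ∧
      Polynomial.aeval t q * algebraMap K⟮t⟯ F (Algebra.trace K⟮t⟯ F (z * y))
        = Polynomial.aeval t p) :
    ∃ (r : Polynomial K) (y : integralClosure (Algebra.adjoin K {t}) F), r.eval ρ ≠ 0 ∧
      (y : F) = Polynomial.aeval t r * (t - algebraMap K F ρ) * z ∧
      ∀ 𝔓 : Ideal (integralClosure (Algebra.adjoin K {t}) F), 𝔓.IsPrime →
        (∀ b : integralClosure (Algebra.adjoin K {t}) F,
          (b : F) = t - algebraMap K F ρ → b ∈ 𝔓) → y ∈ 𝔓 := by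
  have hDR : IsDedekindDomain (crvR K t) := crv_isDedekindDomain_R K t ht
  have hch : CharZero K⟮t⟯ := charZero_of_injective_algebraMap (algebraMap K K⟮t⟯).injective
  have hsep : Algebra.IsSeparable K⟮t⟯ F := inferInstance
  have hDB : IsDedekindDomain (crvB K t) := crv_isDedekindDomain K t ht
  have hIC : IsIntegralClosure (crvB K t) (crvR K t) F := inferInstance
  have hTF : Module.IsTorsionFree (crvR K t) (crvB K t) := inferInstance
  have hFin : Module.Finite (crvR K t) (crvB K t) :=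
    IsIntegralClosure.finite (crvR K t) K⟮t⟯ F (crvB K t)
  have hST : IsScalarTower (crvR K t) (crvB K t) F := IsScalarTower.of_algebraMap_eq (fun _ => rfl)
  let hQ : Algebra ℚ (crvR K t) := ((algebraMap K (crvR K t)).comp (algebraMap ℚ K)).toAlgebra
  -- the uniformiser `τ = t - ρ`
  obtain ⟨τ, hτdef⟩ : ∃ τ : crvR K t, (τ : F) = t - algebraMap K F ρ :=
    ⟨⟨t - algebraMap K F ρ, Subalgebra.sub_mem _ (Algebra.self_mem_adjoin_singleton K t)
      (Subalgebra.algebraMap_mem _ ρ)⟩, rfl⟩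
  obtain ⟨φ, hφ, hφeval, hker, hτmax, hτ0⟩ := exists_eval_hom t ht ρ τ hτdef
  have hinjAB : Function.Injective (algebraMap (crvR K t) (crvB K t)) :=
    fun a a' h => Subtype.ext (congrArg (fun b : crvB K t => (b : F)) h)
  have htame : ∀ P : Ideal (crvB K t), P.IsPrime → algebraMap (crvR K t) (crvB K t) τ ∈ P →
      (∀ b : crvB K t, ∃ a : crvR K t, b - algebraMap (crvR K t) (crvB K t) a ∈ P) ∧
        ¬ τ ∣ ((Diff.eExp (crvR K t) (crvB K t) P : ℕ) : crvR K t) := by
    intro P hP hτP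
    refine ⟨residue_degree_one_of_isAlgClosed (crvR K t) φ hφ τ hker P hP hτP,
      not_dvd_eExp_of_algebra_rat (crvR K t) τ hτmax P hP ?_⟩
    rintro rfl
    rw [Ideal.mem_bot] at hτP
    exact hτ0 (hinjAB (by rw [hτP, map_zero]))
  -- the uniform denominator
  obtain ⟨q₀, hq₀, hq₀tr⟩ := tame_dual_denom t ht hfin ρ z hz
  have hz' : ∀ b : crvB K t, ∃ a : crvR K t, algebraMap (crvR K t) K⟮t⟯ a
      = Algebra.trace K⟮t⟯ F ((Polynomial.aeval t q₀ * z) * algebraMap (crvB K t) F b) := by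
    intro b
    obtain ⟨p, hp⟩ := hq₀tr (b : F) b.2
    refine ⟨⟨Polynomial.aeval t p, Polynomial.aeval_mem_adjoin_singleton K t⟩, ?_⟩
    apply (algebraMap K⟮t⟯ F).injective
    rw [← IsScalarTower.algebraMap_apply (crvR K t) K⟮t⟯ F]
    exact hp.symm
  obtain ⟨s, y, hs, hy, hyP⟩ := exists_smul_mem_primes_of_tame (crvR K t) K⟮t⟯ F τ hτmax hτ0
    htame (Polynomial.aeval t q₀ * z) hz'
  obtain ⟨rs, hrs⟩ := exists_aeval_eq t s
  have hrsρ : rs.eval ρ ≠ 0 := by
    rw [← hφeval rs s hrs]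
    intro h0
    exact hs ((hker s).mp h0)
  refine ⟨rs * q₀, y, ?_, ?_, ?_⟩
  · rw [Polynomial.eval_mul]
    exact mul_ne_zero hrsρ hq₀
  · have hy' : (y : F) = ((s : F) * (τ : F)) * (Polynomial.aeval t q₀ * z) := hy
    rw [hy', hrs, hτdef, map_mul]
    ring
  · intro 𝔓 h𝔓 hb
    exact hyP 𝔓 h𝔓 (hb _ hτdef)

end td118

theorem tame_dual_alg {K F : Type*} [Field K] [Field F] [Algebra K F] [IsAlgClosed K] [CharZero K]
    (t : F) (ht : Transcendental K t) (hfin : Module.Finite K⟮t⟯ F) (ρ : K) (z : F)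
    (hz : ∀ y : F, NmFin K t y → ∃ q p : Polynomial K, q.eval ρ ≠ 0 ∧
      Polynomial.aeval t q * algebraMap K⟮t⟯ F (Algebra.trace K⟮t⟯ F (z * y))
        = Polynomial.aeval t p) :
    ∃ (r : Polynomial K) (y : integralClosure (Algebra.adjoin K {t}) F), r.eval ρ ≠ 0 ∧
      (y : F) = Polynomial.aeval t r * (t - algebraMap K F ρ) * z ∧
      ∀ 𝔓 : Ideal (integralClosure (Algebra.adjoin K {t}) F), 𝔓.IsPrime →
        (∀ b : integralClosure (Algebra.adjoin K {t}) F,
          (b : F) = t - algebraMap K F ρ → b ∈ 𝔓) → y ∈ 𝔓 := by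
  exact td118_main t ht hfin ρ z hz

end Fermat.Agent.S18L.Nm
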