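import Mathlib
import Fermat.Agent.S18L.NmDefs
import Fermat.Agent.S18L.NmTb
import Fermat.Agent.S18L.NmTc
import Fermat.Agent.S18L.NmTd

/-!
# S18, package NM, block T (owner helper39): the tame trace-dual lemma in characteristic zero
and the nilpotent-trace lemma

Interface statements (frozen by helper2).
-/

set_option autoImplicit false

open scoped IntermediateField

namespace Fermat.Agent.S18L

/-- (T0) **tame trace dual.**  `K` algebraically closed of characteristic zero, `F / K(t)`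
finite.  If `z` lies in the trace dual of the integral closure of `K[t]` locally at `ρ`
(all traces `Tr (z y)`, `y` integral over `K[t]`, are regular at `t = ρ`), then at every place
`P` above `t = ρ` we have `ord_P z ≥ 1 - e_P`, `e_P = ord_P (t - ρ)`. -/
theorem nm_tame_dual {K F : Type*} [Field K] [Field F] [Algebra K F] [IsAlgClosed K] [CharZero K]
    (t : F) (ht : Transcendental K t) (hfin : Module.Finite K⟮t⟯ F) (ρ : K) (z : F) (hz0 : z ≠ 0)
    (hz : ∀ y : F, NmFin K t y → ∃ q p : Polynomial K, q.eval ρ ≠ 0 ∧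
      Polynomial.aeval t q * algebraMap K⟮t⟯ F (Algebra.trace K⟮t⟯ F (z * y))
        = Polynomial.aeval t p)
    (P : AlgebraicCurve.Place K F) (hP : 0 < P.ord (t - algebraMap K F ρ)) :
    1 - P.ord (t - algebraMap K F ρ) ≤ P.ord z := by
  obtain ⟨r, y, hr, hy, hmem⟩ := Nm.tame_dual_alg t ht hfin ρ z hz
  obtain ⟨𝔓, h𝔓, h𝔓mem⟩ := Nm.place_exists_prime P t ρ hP
  have hy𝔓 : y ∈ 𝔓 := hmem 𝔓 h𝔓 (fun b hb => (h𝔓mem b).mpr (Or.inr (hb ▸ hP)))
  have hτ0 : t - algebraMap K F ρ ≠ 0 := by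
    intro h
    rw [h] at hP
    simp at hP
  obtain ⟨hr0, hrord⟩ := Nm.place_ord_aeval P t ρ hP r hr
  have hy0 : (y : F) ≠ 0 := by
    rw [hy]
    exact mul_ne_zero (mul_ne_zero hr0 hτ0) hz0
  have hpos : 0 < P.ord (y : F) := ((h𝔓mem y).mp hy𝔓).resolve_left hy0
  rw [hy, P.ord_mul (mul_ne_zero hr0 hτ0) hz0, P.ord_mul hr0 hτ0, hrord] at hpos
  omega

/-- (S5) **nilpotent trace.**  `Φ / κ(θ)` finite separable.  If `w`, `v` are integral over
`κ[θ]` and `w ^ N = (θ - a) v`, then `Tr w ∈ (θ - a) κ[θ]`. -/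
theorem nm_nil_trace {κ Φ : Type*} [Field κ] [Field Φ] [Algebra κ Φ] (θ : Φ)
    (hθ : Transcendental κ θ) (hfin : Module.Finite κ⟮θ⟯ Φ) (hsep : Algebra.IsSeparable κ⟮θ⟯ Φ)
    (a : κ) (w v : Φ) (hw : NmFin κ θ w) (hv : NmFin κ θ v) (N : ℕ)
    (hwN : w ^ N = (θ - algebraMap κ Φ a) * v) :
    ∃ p : Polynomial κ, algebraMap κ⟮θ⟯ Φ (Algebra.trace κ⟮θ⟯ Φ w)
      = (θ - algebraMap κ Φ a) * Polynomial.aeval θ p := by
  exact Nm.nil_trace θ hθ hfin hsep a w v hw hv N hwN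

end Fermat.Agent.S18L
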