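import Mathlib
import Fermat.Agent.S18L.NmDefs
import Fermat.Agent.S18L.NmA
import Fermat.Agent.S18L.NmT
import Fermat.Agent.S18L.NmSBase

/-!
# S18, package NM, block S (helper4), leaf Loc: an element `z` dual to the lifted integral basis
(`Tr (z x_l) = δ_il`) lies in the local trace dual at every `c ∈ A`, hence (tame trace dual)
`ord_P z ≥ 1 - ord_P (t - c)` at every place above `t = c`.
-/

set_option autoImplicit false

open scoped IntermediateField

namespace Fermat.Agent.S18L

variable {K F k Fb : Type*} [Field K] [Field F] [Algebra K F] [Field k] [Field Fb] [Algebra k Fb]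

/-- a polynomial in `t` is the image of the same polynomial in the generator of `K(t)` -/
theorem nmsloc_aeval_gen (t : F) (p : Polynomial K) :
    Polynomial.aeval t p
      = algebraMap K⟮t⟯ F (Polynomial.aeval (IntermediateField.AdjoinSimple.gen K t) p) := by
  rw [← Polynomial.aeval_algebraMap_apply, IntermediateField.AdjoinSimple.algebraMap_gen]

/-- `K(t)`-linearity of the trace applied to an expansion in a family dual to `z` -/
theorem nmsloc_trace_eq (t : F) {n : ℕ} (x : Fin n → F) (z y : F) (i : Fin n)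
    (hz : ∀ l, Algebra.trace K⟮t⟯ F (z * x l) = if i = l then 1 else 0)
    (Q : Polynomial K) (P' : Fin n → Polynomial K)
    (hQy : Polynomial.aeval t Q * y = ∑ l, Polynomial.aeval t (P' l) * x l) :
    Polynomial.aeval t Q * algebraMap K⟮t⟯ F (Algebra.trace K⟮t⟯ F (z * y))
      = Polynomial.aeval t (P' i) := by
  have h1 : (Polynomial.aeval (IntermediateField.AdjoinSimple.gen K t) Q) • (z * y)
      = ∑ l, (Polynomial.aeval (IntermediateField.AdjoinSimple.gen K t) (P' l)) • (z * x l) := by
    simp only [Algebra.smul_def, ← nmsloc_aeval_gen]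
    calc Polynomial.aeval t Q * (z * y) = z * (Polynomial.aeval t Q * y) := by ring
      _ = z * ∑ l, Polynomial.aeval t (P' l) * x l := by rw [hQy]
      _ = ∑ l, Polynomial.aeval t (P' l) * (z * x l) := by
        rw [Finset.mul_sum]
        exact Finset.sum_congr rfl fun l _ => by ring
  have h2 := congrArg (Algebra.trace K⟮t⟯ F) h1
  rw [map_smul, map_sum] at h2
  simp only [map_smul, hz, smul_eq_mul, mul_ite, mul_one, mul_zero, Finset.sum_ite_eq,
    Finset.mem_univ, if_true] at h2
  rw [nmsloc_aeval_gen t Q, nmsloc_aeval_gen t (P' i), ← map_mul, h2]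

theorem nms_ord_dual [IsAlgClosed K] [CharZero K] [IsAlgClosed k]
    (G : RedDatum K F k Fb) (t : G.O) (n : ℕ) (h : NmHyp G t n) (x : Fin n → G.O)
    (hx : NmBasis G t n x) (z : F) (i : Fin n)
    (hz : ∀ l, Algebra.trace K⟮(t : F)⟯ F (z * ((x l : G.O) : F)) = if i = l then 1 else 0)
    (c : G.A) (P : AlgebraicCurve.Place K F)
    (hP : 0 < P.ord ((t : F) - algebraMap K F (c : K))) :
    1 - P.ord ((t : F) - algebraMap K F (c : K)) ≤ P.ord z := by
  have ht := nms_transcendental G t n h
  have hz0 : z ≠ 0 := by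
    rintro rfl
    have h0 := hz i
    rw [zero_mul, map_zero, if_pos rfl] at h0
    exact zero_ne_one h0
  refine nm_tame_dual (t : F) ht h.fin (c : K) z hz0 (fun y hy => ?_) P hP
  obtain ⟨Q, P', hQ, hQy⟩ := nm_local_basis G t n h x hx y hy
  exact ⟨Q, P' i, hQ c,
    nmsloc_trace_eq (t : F) (fun l => ((x l : G.O) : F)) z y i hz Q P' hQy⟩

end Fermat.Agent.S18L
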