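import Mathlib
import Fermat.Agent.S18L.NmDefs
import Fermat.Agent.S18L.NmA
import Fermat.Agent.S18L.NmT
import Fermat.Agent.S18L.CrvInf
import Fermat.Agent.S18L.NmSBase
import Fermat.Agent.S18L.NmSLoc

/-!
# S18, package NM, block S (helper4), leaf OrdA: orders of `w = g(t) (t - ρ) z` at the finite
places of the `t`-line (`z` a dual basis element, `D = g h`, `h` the part of the Gram determinant
with roots in the residue disc of `ρ`, all points of the disc other than `ρ` unramified).
-/

set_option autoImplicit false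

open scoped IntermediateField

namespace Fermat.Agent.S18L

variable {K F k Fb : Type*} [Field K] [Field F] [Algebra K F] [Field k] [Field Fb] [Algebra k Fb]

omit [Field k] [Field Fb] [Algebra k Fb] in
/-- at a place where `t - c` has positive order, a polynomial `q` with `q(c) ≠ 0` gives an
element `q(t)` of order zero -/
theorem nmsorda_ord_aeval_eq_zero (P : AlgebraicCurve.Place K F) (t : F)
    (ht : t ∈ P.toValuationSubring) (c : K) (hc0 : t - algebraMap K F c ≠ 0)
    (hc : 0 < P.ord (t - algebraMap K F c)) (q : Polynomial K) (hq : q.eval c ≠ 0) :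
    Polynomial.aeval t q ≠ 0 ∧ P.ord (Polynomial.aeval t q) = 0 := by
  have hdec : Polynomial.aeval t q = algebraMap K F (q.eval c)
      + (t - algebraMap K F c) * Polynomial.aeval t (q /ₘ (Polynomial.X - Polynomial.C c)) := by
    have h1 := Polynomial.modByMonic_add_div q (Polynomial.X - Polynomial.C c)
    rw [Polynomial.modByMonic_X_sub_C_eq_C_eval] at h1
    conv_lhs => rw [← h1]
    simp only [map_add, map_mul, map_sub, Polynomial.aeval_X, Polynomial.aeval_C]
  have ha : algebraMap K F (q.eval c) ≠ 0 := (map_ne_zero (algebraMap K F)).mpr hq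
  have ha0 : P.ord (algebraMap K F (q.eval c)) = 0 :=
    Fermat.Agent.X0S24.PlaceRes.ord_algebraMap P hq
  rw [hdec]
  rcases eq_or_ne (Polynomial.aeval t (q /ₘ (Polynomial.X - Polynomial.C c))) 0 with hw | hw
  · rw [hw, mul_zero, add_zero]
    exact ⟨ha, ha0⟩
  · refine crvi_ord_add_eq_zero K P ha ha0 (mul_ne_zero hc0 hw) ?_
    rw [P.ord_mul hc0 hw]
    have h2 := crvi_ord_nonneg_of_mem K P
      (crvi_aeval_mem K P ht (q /ₘ (Polynomial.X - Polynomial.C c)))
    omega

theorem nms_ord_w [IsAlgClosed K] [CharZero K] [IsAlgClosed k]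
    (G : RedDatum K F k Fb) (t : G.O) (n : ℕ) (h : NmHyp G t n) (x : Fin n → G.O)
    (hx : NmBasis G t n x) (D : Polynomial G.A) (hD0 : D.map G.π ≠ 0) (z : F) (i : Fin n)
    (hzD : NmFin K (t : F) (Polynomial.aeval (t : F) (D.map G.A.subtype) * z))
    (hz : ∀ l, Algebra.trace K⟮(t : F)⟯ F (z * ((x l : G.O) : F)) = if i = l then 1 else 0)
    (ρ : G.A) (hρ : ∀ r : G.A, r ≠ ρ → G.π r = G.π ρ → NmUnr K (t : F) (r : K))
    (g hh : Polynomial G.A) (hD : D = g * hh) (hmonic : hh.Monic)
    (hroots : ∀ r : K, (hh.map G.A.subtype).eval r = 0 →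
      ∃ r' : G.A, (r' : K) = r ∧ G.π r' = G.π ρ)
    (P : AlgebraicCurve.Place K F) (hP : 0 ≤ P.ord (t : F)) :
    0 ≤ P.ord (Polynomial.aeval (t : F) (g.map G.A.subtype)
        * ((t : F) - algebraMap K F (ρ : K)) * z) ∧
    (0 < P.ord ((t : F) - algebraMap K F (ρ : K)) →
      1 ≤ P.ord (Polynomial.aeval (t : F) (g.map G.A.subtype)
        * ((t : F) - algebraMap K F (ρ : K)) * z)) := by
  have _ := hmonic
  have ht : Transcendental K (t : F) := nms_transcendental G t n h
  have hfin : FiniteDimensional (crvK K (t : F)) F := h.fin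
  have hsep : Algebra.IsSeparable (crvK K (t : F)) F := nms_separable (t : F)
  have halg : Algebra.IsAlgebraic (crvK K (t : F)) F := Algebra.IsAlgebraic.of_finite _ _
  have ht0 : (t : F) ≠ 0 := fun h0 => crvi_ne_algebraMap K (t : F) ht 0 (by rw [h0, map_zero])
  have htmem : (t : F) ∈ P.toValuationSubring :=
    (Fermat.Agent.X0S24.PlaceRes.mem_iff_ord_nonneg P ht0).mpr hP
  -- nonvanishing
  have hDne : D ≠ 0 := fun h0 => hD0 (by rw [h0, Polynomial.map_zero])
  have hgne : g ≠ 0 := fun h0 => hDne (by rw [hD, h0, zero_mul])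
  have hinj : Function.Injective G.A.subtype := Subtype.val_injective
  have hgK : g.map G.A.subtype ≠ 0 := (Polynomial.map_ne_zero_iff hinj).mpr hgne
  have hgt : Polynomial.aeval (t : F) (g.map G.A.subtype) ≠ 0 :=
    fun h0 => hgK (transcendental_iff.mp ht _ h0)
  have hd : (t : F) - algebraMap K F (ρ : K) ≠ 0 :=
    sub_ne_zero.mpr (crvi_ne_algebraMap K (t : F) ht (ρ : K))
  have hz0 : z ≠ 0 := by
    rintro rfl
    have h1 := hz i
    rw [zero_mul, map_zero, if_pos rfl] at h1
    exact zero_ne_one h1
  -- orders of the factors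
  have hgt_ord : 0 ≤ P.ord (Polynomial.aeval (t : F) (g.map G.A.subtype)) :=
    crvi_ord_nonneg_of_mem K P (crvi_aeval_mem K P htmem _)
  have hd_ord : 0 ≤ P.ord ((t : F) - algebraMap K F (ρ : K)) :=
    crvi_ord_nonneg_of_mem K P (sub_mem htmem (P.algebraMap_mem' _))
  have hw : P.ord (Polynomial.aeval (t : F) (g.map G.A.subtype)
        * ((t : F) - algebraMap K F (ρ : K)) * z)
      = P.ord (Polynomial.aeval (t : F) (g.map G.A.subtype))
        + P.ord ((t : F) - algebraMap K F (ρ : K)) + P.ord z := by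
    rw [P.ord_mul (mul_ne_zero hgt hd) hz0, P.ord_mul hgt hd]
  -- the residue of `t` at `P`
  obtain ⟨c, hc⟩ := crvi_exists_residue K P halg htmem (crvi_ne_algebraMap K (t : F) ht)
  have hc0 : (t : F) - algebraMap K F c ≠ 0 :=
    sub_ne_zero.mpr (crvi_ne_algebraMap K (t : F) ht c)
  have hd_zero : c ≠ (ρ : K) → P.ord ((t : F) - algebraMap K F (ρ : K)) = 0 := by
    intro hne
    have h1 := nmsorda_ord_aeval_eq_zero P (t : F) htmem c hc0 hc
      (Polynomial.X - Polynomial.C (ρ : K))
      (by rw [Polynomial.eval_sub, Polynomial.eval_X, Polynomial.eval_C]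
          exact sub_ne_zero.mpr hne)
    have h2 : Polynomial.aeval (t : F) (Polynomial.X - Polynomial.C (ρ : K))
        = (t : F) - algebraMap K F (ρ : K) := by
      rw [map_sub, Polynomial.aeval_X, Polynomial.aeval_C]
    rw [h2] at h1
    exact h1.2
  by_cases hcase : (hh.map G.A.subtype).eval c = 0
  · -- the residue is a root of `hh`: use the local trace dual
    obtain ⟨r', hr'c, hr'π⟩ := hroots c hcase
    subst hr'c
    have hdual := nms_ord_dual G t n h x hx z i hz r' P hc
    by_cases hr : r' = ρ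
    · subst hr
      rw [hw]
      exact ⟨by omega, fun _ => by omega⟩
    · have hunr := hρ r' hr hr'π P hc
      have hdz := hd_zero (fun h1 => hr (Subtype.ext h1))
      rw [hw]
      exact ⟨by omega, fun hpos => by omega⟩
  · -- the residue is not a root of `hh`: `hh(t)` is a unit at `P`
    obtain ⟨hht0, hht_ord⟩ :=
      nmsorda_ord_aeval_eq_zero P (t : F) htmem c hc0 hc (hh.map G.A.subtype) hcase
    have hDt : Polynomial.aeval (t : F) (D.map G.A.subtype)
        = Polynomial.aeval (t : F) (g.map G.A.subtype)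
          * Polynomial.aeval (t : F) (hh.map G.A.subtype) := by
      rw [hD, Polynomial.map_mul, map_mul]
    have hint : 0 ≤ P.ord (Polynomial.aeval (t : F) (D.map G.A.subtype) * z) :=
      (crv_isIntegral_iff K (t : F) ht _).mpr hzD P hP
    have hDz : Polynomial.aeval (t : F) (D.map G.A.subtype) * z ≠ 0 := by
      rw [hDt]
      exact mul_ne_zero (mul_ne_zero hgt hht0) hz0
    have key : Polynomial.aeval (t : F) (g.map G.A.subtype)
          * ((t : F) - algebraMap K F (ρ : K)) * z
          * Polynomial.aeval (t : F) (hh.map G.A.subtype)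
        = ((t : F) - algebraMap K F (ρ : K))
          * (Polynomial.aeval (t : F) (D.map G.A.subtype) * z) := by
      rw [hDt]
      ring
    have h1 : P.ord (Polynomial.aeval (t : F) (g.map G.A.subtype)
          * ((t : F) - algebraMap K F (ρ : K)) * z)
          + P.ord (Polynomial.aeval (t : F) (hh.map G.A.subtype))
        = P.ord ((t : F) - algebraMap K F (ρ : K))
          + P.ord (Polynomial.aeval (t : F) (D.map G.A.subtype) * z) := by
      rw [← P.ord_mul (mul_ne_zero (mul_ne_zero hgt hd) hz0) hht0, key, P.ord_mul hd hDz]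
    exact ⟨by omega, fun hpos => by omega⟩

end Fermat.Agent.S18L
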