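import Mathlib
import Fermat.Agent.S18L.NmDefs
import Fermat.Agent.S18L.CrvInf

/-!
# S18, package NM, block S (helper4), leaf OrdB: an element regular at all finite places of the
`t`-line and vanishing at all places above `t = ρ` is integral over `K[t]`, and a power of it is
`(t - ρ)` times an integral element.
-/

set_option autoImplicit false

open scoped IntermediateField

namespace Fermat.Agent.S18L

theorem nms_rad_of_ord {K F : Type*} [Field K] [Field F] [Algebra K F] (t : F)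
    (ht : Transcendental K t) (hfin : Module.Finite K⟮t⟯ F) (hsep : Algebra.IsSeparable K⟮t⟯ F)
    (ρ : K) (w : F)
    (hw : ∀ P : AlgebraicCurve.Place K F, 0 ≤ P.ord t →
      0 ≤ P.ord w ∧ (0 < P.ord (t - algebraMap K F ρ) → 1 ≤ P.ord w)) :
    NmFin K t w ∧ ∃ N : ℕ, NmFin K t (w ^ N * (t - algebraMap K F ρ)⁻¹) := by
  have : FiniteDimensional (crvK K t) F := hfin
  have : Algebra.IsSeparable (crvK K t) F := hsep
  have ht0 : t ≠ 0 := fun h => crvi_ne_algebraMap K t ht 0 (by rw [h, map_zero])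
  have hd0 : t - algebraMap K F ρ ≠ 0 := sub_ne_zero.mpr (crvi_ne_algebraMap K t ht ρ)
  refine ⟨(crv_isIntegral_iff K t ht w).mp (fun P hP => (hw P hP).1), ?_⟩
  -- the finitely many finite places where `t - ρ` vanishes
  have hS := crvi_finite K t ht (t - algebraMap K F ρ) hd0
  refine ⟨1 + ∑ Q ∈ hS.toFinset, (Q.ord (t - algebraMap K F ρ)).toNat,
    (crv_isIntegral_iff K t ht _).mp ?_⟩
  intro P hP
  have htP : t ∈ P.toValuationSubring :=
    (Fermat.Agent.X0S24.PlaceRes.mem_iff_ord_nonneg P ht0).mpr hP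
  have hdP : t - algebraMap K F ρ ∈ P.toValuationSubring :=
    sub_mem htP (P.algebraMap_mem' ρ)
  have hd_nonneg : 0 ≤ P.ord (t - algebraMap K F ρ) :=
    (Fermat.Agent.X0S24.PlaceRes.mem_iff_ord_nonneg P hd0).mp hdP
  obtain ⟨hw0, hw1⟩ := hw P hP
  rcases eq_or_ne w 0 with hwz | hwne
  · have hNpos : 1 + ∑ Q ∈ hS.toFinset, (Q.ord (t - algebraMap K F ρ)).toNat ≠ 0 := by omega
    rw [hwz, zero_pow hNpos, zero_mul, P.ord_zero]
  · rw [P.ord_mul (pow_ne_zero _ hwne) (inv_ne_zero hd0), crvi_ord_pow K P w _, P.ord_inv]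
    rcases hd_nonneg.eq_or_lt with hz | hpos
    · rw [← hz, neg_zero, add_zero]
      exact mul_nonneg (Nat.cast_nonneg _) hw0
    · have hPS : P ∈ hS.toFinset := by
        rw [Set.Finite.mem_toFinset]
        exact ⟨htP, hpos.ne'⟩
      have hle : (P.ord (t - algebraMap K F ρ)).toNat
          ≤ ∑ Q ∈ hS.toFinset, (Q.ord (t - algebraMap K F ρ)).toNat :=
        Finset.single_le_sum (f := fun Q : AlgebraicCurve.Place K F =>
          (Q.ord (t - algebraMap K F ρ)).toNat) (fun Q _ => Nat.zero_le _) hPS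
      have h1 : 1 ≤ P.ord w := hw1 hpos
      have hNge : P.ord (t - algebraMap K F ρ)
          ≤ ((1 + ∑ Q ∈ hS.toFinset, (Q.ord (t - algebraMap K F ρ)).toNat : ℕ) : ℤ) := by
        have h2 : (((P.ord (t - algebraMap K F ρ)).toNat : ℕ) : ℤ)
            ≤ ((1 + ∑ Q ∈ hS.toFinset, (Q.ord (t - algebraMap K F ρ)).toNat : ℕ) : ℤ) := by
          exact_mod_cast (by omega :
            (P.ord (t - algebraMap K F ρ)).toNat
              ≤ 1 + ∑ Q ∈ hS.toFinset, (Q.ord (t - algebraMap K F ρ)).toNat)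
        rwa [Int.toNat_of_nonneg hd_nonneg] at h2
      have h3 : ((1 + ∑ Q ∈ hS.toFinset, (Q.ord (t - algebraMap K F ρ)).toNat : ℕ) : ℤ)
          ≤ ((1 + ∑ Q ∈ hS.toFinset, (Q.ord (t - algebraMap K F ρ)).toNat : ℕ) : ℤ)
            * P.ord w :=
        le_mul_of_one_le_right (Nat.cast_nonneg _) h1
      linarith

end Fermat.Agent.S18L
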