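import Mathlib
import Fermat.Agent.S18L.NmDefs
import Fermat.Agent.S18L.NmA
import Fermat.Agent.S18L.NmT
import Fermat.Agent.S18L.NmSBase

/-!
# S18, package NM, block S (helper4), leaf Red: reduction of the radical element.
If `w = g(t) (t - ρ) z` (`z ∈ O`) is integral over `K[t]` and `w ^ N = (t - ρ) v` with `v`
integral over `K[t]`, then for every `y` integral over `k[red t]` the trace
`Tr (y · red z)` becomes a polynomial in `red t` after multiplication by `(red g)(red t)`.
-/

set_option autoImplicit false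

open scoped IntermediateField

namespace Fermat.Agent.S18L

variable {K F k Fb : Type*} [Field K] [Field F] [Algebra K F] [Field k] [Field Fb] [Algebra k Fb]

/-- a polynomial in the generator of `k(τ)` maps to the polynomial in `τ` -/
theorem nmsred_gen_aeval (τ : Fb) (p : Polynomial k) :
    algebraMap k⟮τ⟯ Fb (Polynomial.aeval (IntermediateField.AdjoinSimple.gen k τ) p)
      = Polynomial.aeval τ p := by
  rw [← Polynomial.aeval_algebraMap_apply, IntermediateField.AdjoinSimple.algebraMap_gen]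

/-- the trace is linear with respect to polynomial expressions in `τ` times `τ - a` -/
theorem nmsred_trace_smul (τ : Fb) (p : Polynomial k) (a : k) (x : Fb) :
    algebraMap k⟮τ⟯ Fb (Algebra.trace k⟮τ⟯ Fb
        (Polynomial.aeval τ p * (τ - algebraMap k Fb a) * x))
      = Polynomial.aeval τ p * (τ - algebraMap k Fb a)
        * algebraMap k⟮τ⟯ Fb (Algebra.trace k⟮τ⟯ Fb x) := by
  have hc : algebraMap k⟮τ⟯ Fb
      (Polynomial.aeval (IntermediateField.AdjoinSimple.gen k τ) p
        * (IntermediateField.AdjoinSimple.gen k τ - algebraMap k k⟮τ⟯ a))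
      = Polynomial.aeval τ p * (τ - algebraMap k Fb a) := by
    rw [map_mul, map_sub, nmsred_gen_aeval, IntermediateField.AdjoinSimple.algebraMap_gen,
      ← IsScalarTower.algebraMap_apply]
  rw [← hc, ← Algebra.smul_def, map_smul, smul_eq_mul, map_mul]

theorem nms_local_trace [IsAlgClosed K] [CharZero K] [IsAlgClosed k]
    (G : RedDatum K F k Fb) (t : G.O) (n : ℕ) (h : NmHyp G t n) (ρ : G.A)
    (g : Polynomial G.A) (z : G.O) (N : ℕ)
    (hw : NmFin K (t : F) (Polynomial.aeval (t : F) (g.map G.A.subtype)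
        * ((t : F) - algebraMap K F (ρ : K)) * (z : F)))
    (hv : NmFin K (t : F) ((Polynomial.aeval (t : F) (g.map G.A.subtype)
        * ((t : F) - algebraMap K F (ρ : K)) * (z : F)) ^ N
        * ((t : F) - algebraMap K F (ρ : K))⁻¹))
    (y : Fb) (hy : NmFin k (G.red t) y) :
    ∃ p : Polynomial k,
      Polynomial.aeval (G.red t) (g.map G.π)
          * algebraMap k⟮G.red t⟯ Fb (Algebra.trace k⟮G.red t⟯ Fb (y * G.red z))
        = Polynomial.aeval (G.red t) p := by
  obtain ⟨hg, hgred⟩ := nm_red_aeval G t g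
  have hρ : algebraMap K F (ρ : K) ∈ G.O := (G.algebraMap_mem _).mpr ρ.2
  have hρred : G.red ⟨algebraMap K F (ρ : K), hρ⟩ = algebraMap k Fb (G.π ρ) :=
    G.red_algebraMap ρ hρ
  obtain ⟨gO, hgO⟩ : ∃ gO : G.O,
      gO = ⟨Polynomial.aeval (t : F) (g.map G.A.subtype), hg⟩ := ⟨_, rfl⟩
  obtain ⟨dO, hdO⟩ : ∃ dO : G.O, dO = t - ⟨algebraMap K F (ρ : K), hρ⟩ := ⟨_, rfl⟩
  have hgOred : G.red gO = Polynomial.aeval (G.red t) (g.map G.π) := by rw [hgO, hgred]
  have hdred : G.red dO = G.red t - algebraMap k Fb (G.π ρ) := by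
    rw [hdO, map_sub, hρred]
  have hd0 : G.red dO ≠ 0 := by
    rw [hdred]
    intro h0
    apply h.tr
    rw [sub_eq_zero] at h0
    rw [h0]
    exact isAlgebraic_algebraMap _
  have hinv : ((dO : F))⁻¹ ∈ G.O := G.inv_mem dO hd0
  have hdF : (dO : F) ≠ 0 := by
    intro h0
    apply hd0
    have hz : dO = 0 := Subtype.ext h0
    rw [hz, map_zero]
  obtain ⟨iO, hiO⟩ : ∃ iO : G.O, iO = ⟨((dO : F))⁻¹, hinv⟩ := ⟨_, rfl⟩
  have hid : iO * dO = 1 := by
    apply Subtype.ext
    rw [hiO]
    exact inv_mul_cancel₀ hdF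
  have hidred : G.red iO * G.red dO = 1 := by
    rw [← map_mul, hid, map_one]
  have hwcoe : ((gO * dO * z : G.O) : F) = Polynomial.aeval (t : F) (g.map G.A.subtype)
        * ((t : F) - algebraMap K F (ρ : K)) * (z : F) := by
    rw [hgO, hdO]
    rfl
  have hvcoe : (((gO * dO * z) ^ N * iO : G.O) : F)
      = (Polynomial.aeval (t : F) (g.map G.A.subtype)
        * ((t : F) - algebraMap K F (ρ : K)) * (z : F)) ^ N
        * ((t : F) - algebraMap K F (ρ : K))⁻¹ := by
    have hdcoe : (dO : F) = (t : F) - algebraMap K F (ρ : K) := by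
      rw [hdO]
      rfl
    rw [Subring.coe_mul, Subring.coe_pow, hwcoe, hiO, ← hdcoe]
  have hW : NmFin k (G.red t) (G.red (gO * dO * z)) :=
    nm_red_fin G t n h _ (by rw [hwcoe]; exact hw)
  have hV : NmFin k (G.red t) (G.red ((gO * dO * z) ^ N * iO)) :=
    nm_red_fin G t n h _ (by rw [hvcoe]; exact hv)
  have hWred : G.red (gO * dO * z) = Polynomial.aeval (G.red t) (g.map G.π)
      * (G.red t - algebraMap k Fb (G.π ρ)) * G.red z := by
    rw [map_mul, map_mul, hgOred, hdred]
  have hWN : (G.red (gO * dO * z) * y) ^ N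
      = (G.red t - algebraMap k Fb (G.π ρ)) * (G.red ((gO * dO * z) ^ N * iO) * y ^ N) := by
    rw [← hdred, map_mul (G.red) ((gO * dO * z) ^ N) iO, map_pow, mul_pow]
    calc G.red (gO * dO * z) ^ N * y ^ N
        = G.red (gO * dO * z) ^ N * (G.red iO * G.red dO) * y ^ N := by
          rw [hidred, mul_one]
      _ = G.red dO * (G.red (gO * dO * z) ^ N * G.red iO * y ^ N) := by ring
  have hWy : NmFin k (G.red t) (G.red (gO * dO * z) * y) := IsIntegral.mul hW hy
  have hVy : NmFin k (G.red t) (G.red ((gO * dO * z) ^ N * iO) * y ^ N) :=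
    IsIntegral.mul hV (IsIntegral.pow hy N)
  obtain ⟨p₀, hp₀⟩ := nm_nil_trace (G.red t) h.tr h.finb h.sep (G.π ρ) _ _ hWy hVy N hWN
  refine ⟨p₀, ?_⟩
  have hd0' : G.red t - algebraMap k Fb (G.π ρ) ≠ 0 := by
    rw [← hdred]
    exact hd0
  apply mul_left_cancel₀ hd0'
  rw [← hp₀, hWred]
  have hre : Polynomial.aeval (G.red t) (g.map G.π) * (G.red t - algebraMap k Fb (G.π ρ))
        * G.red z * y
      = Polynomial.aeval (G.red t) (g.map G.π) * (G.red t - algebraMap k Fb (G.π ρ))
        * (y * G.red z) := by ring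
  rw [hre, nmsred_trace_smul]
  ring

end Fermat.Agent.S18L
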