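import Mathlib
import Fermat.Agent.S18L.NmDefs
import Fermat.Agent.S18L.NmA
import Fermat.Agent.S18L.NmT
import Fermat.Agent.S18L.CrvInf
import Fermat.Agent.S18L.NmSBase
import Fermat.Agent.S18L.NmSFac
import Fermat.Agent.S18L.NmSIdeal
import Fermat.Agent.S18L.NmSDual
import Fermat.Agent.S18L.NmSExp
import Fermat.Agent.S18L.NmSLoc
import Fermat.Agent.S18L.NmSOrdB
import Fermat.Agent.S18L.NmSOrdA
import Fermat.Agent.S18L.NmSRed

/-!
# S18, package NM, block S (owner helper4): NORMAL via the trace-dual sandwich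

Interface statement (frozen by helper2).
-/

set_option autoImplicit false

open scoped IntermediateField

namespace Fermat.Agent.S18L

open Fermat.Agent.RRL

variable {K F k Fb : Type*} [Field K] [Field F] [Algebra K F] [Field k] [Field Fb] [Algebra k Fb]

/-- **NORMAL.**  Every element of `Fb` integral over `k[red t]` is a `k[red t]`-combination of
the reductions of a lifted integral basis; in particular it is the reduction of an element of
`O` integral over `K[t]`. -/
theorem nm_normal [IsAlgClosed K] [CharZero K] [IsAlgClosed k]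
    (G : RedDatum K F k Fb) (t : G.O) (n : ℕ) (h : NmHyp G t n) (x : Fin n → G.O)
    (hx : NmBasis G t n x) (y : Fb) (hy : NmFin k (G.red t) y) :
    ∃ p : Fin n → Polynomial k, y = ∑ i, Polynomial.aeval (G.red t) (p i) * G.red (x i) := by
  obtain ⟨D, z, hD0, hzD, hz, hzb⟩ := nms_dual G t n h x hx
  have ht : Transcendental K (t : F) := nms_transcendental G t n h
  have hfin : Module.Finite K⟮(t : F)⟯ F := h.fin
  have hsep : Algebra.IsSeparable K⟮(t : F)⟯ F := nms_separable (t : F)
  have key : ∀ i, ∃ p : Polynomial k,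
      algebraMap k⟮G.red t⟯ Fb (Algebra.trace k⟮G.red t⟯ Fb (y * G.red (z i)))
        = Polynomial.aeval (G.red t) p := by
    intro i
    apply nms_ideal_trick
    intro a
    obtain ⟨ρ, hρa, hρ⟩ := nms_exists_rho G t n h a
    obtain ⟨g, hh, hDg, hmonic, hga, hroots⟩ := nms_factor G.A G.π G.π_eq_zero D hD0 a
    have hρ' : ∀ r : G.A, r ≠ ρ → G.π r = G.π ρ → NmUnr K (t : F) (r : K) := by
      intro r hr hrr
      exact hρ r hr (hrr.trans hρa)
    have hroots' : ∀ r : K, (hh.map G.A.subtype).eval r = 0 →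
        ∃ r' : G.A, (r' : K) = r ∧ G.π r' = G.π ρ := by
      intro r hr
      obtain ⟨r', hr', hr'a⟩ := hroots r hr
      exact ⟨r', hr', hr'a.trans hρa.symm⟩
    have hord := fun (P : AlgebraicCurve.Place K F) (hP : 0 ≤ P.ord (t : F)) =>
      nms_ord_w G t n h x hx D hD0 ((z i : G.O) : F) i (hzD i) (fun l => hz i l) ρ hρ' g hh hDg
        hmonic hroots' P hP
    obtain ⟨hw, N, hv⟩ := nms_rad_of_ord (t : F) ht h.fin hsep (ρ : K) _ hord
    obtain ⟨p, hp⟩ := nms_local_trace G t n h ρ g (z i) N hw hv y hy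
    exact ⟨g.map G.π, p, hga, hp⟩
  choose p hp using key
  exact ⟨p, nms_expand G t n h x hx (fun i => G.red (z i)) hzb y p hp⟩

end Fermat.Agent.S18L
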