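import Mathlib
import Fermat.Agent.S18L.NmDefs
import Fermat.Agent.S18L.NmA
import Fermat.Agent.S18L.NmS
import Fermat.Agent.S18L.NmD
import Fermat.Agent.S18L.NmC

/-!
# S18, package NM (B-core): (GE) `dim_k nmL k (red t) s ≤ dim_K nmL K t s` for `s` large (owner helper2)
-/

set_option autoImplicit false

open scoped IntermediateField

namespace Fermat.Agent.S18L

open Fermat.Agent.RRL

variable {K F k Fb : Type*} [Field K] [Field F] [Algebra K F] [Field k] [Field Fb] [Algebra k Fb]

/-- if the reduction of `t` is transcendental over `k`, then `t` is transcendental over `K`. -/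
theorem nmx78_transcendental [IsAlgClosed K] (G : RedDatum K F k Fb) (t : G.O)
    (htr : Transcendental k (G.red t)) : Transcendental K (t : F) := by
  intro halg
  have hint : IsIntegral K (t : F) := halg.isIntegral
  have hdeg : (minpoly K (t : F)).degree = 1 :=
    IsAlgClosed.degree_eq_one_of_irreducible K (minpoly.irreducible hint)
  obtain ⟨a, ha⟩ := minpoly.mem_range_of_degree_eq_one K (t : F) hdeg
  have hmem : algebraMap K F a ∈ G.O := by rw [ha]; exact t.2
  have haA : a ∈ G.A := (G.algebraMap_mem a).mp hmem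
  have hred := G.red_algebraMap ⟨a, haA⟩ hmem
  have ht : t = ⟨algebraMap K F a, hmem⟩ := Subtype.ext ha.symm
  apply htr
  rw [ht, hred]
  exact isAlgebraic_algebraMap _

/-- the arithmetic behind the comparison of the two lattice formulas -/
theorem nmx78_arith (n s δb eb δ e fb f : ℕ) (h1 : eb ≤ s) (h2 : e ≤ s)
    (hb : fb + (n - 1) * δb = n * (s + δb - eb + 1))
    (hf : f + (n - 1) * δ = n * (s + δ - e + 1))
    (hcmp : δb + n * e ≤ δ + n * eb) : fb ≤ f := by
  rcases n with _ | n
  · simp at hb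
    omega
  · simp only [Nat.add_sub_cancel] at hb hf
    have e1 : s + δb - eb = (s - eb) + δb := by omega
    have e2 : s + δ - e = (s - e) + δ := by omega
    rw [e1] at hb
    rw [e2] at hf
    obtain ⟨u, rfl⟩ : ∃ u, s = eb + u := ⟨s - eb, by omega⟩
    obtain ⟨v, hv⟩ : ∃ v, eb + u = e + v := ⟨eb + u - e, by omega⟩
    have e3 : eb + u - eb = u := by omega
    have e4 : eb + u - e = v := by omega
    rw [e3] at hb
    rw [e4] at hf
    zify at hb hf hcmp hv ⊢
    nlinarith [hb, hf, hcmp, hv]

/-- (GE) -/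
theorem nm_ge [IsAlgClosed K] [CharZero K] [IsAlgClosed k]
    (G : RedDatum K F k Fb) (t t' : G.O) (htt' : (t' : F) * (t : F) = 1) (n : ℕ)
    (h : NmHyp G t n) (h' : NmHyp G t' n)
    (hfinK : ∀ s : ℕ, Module.Finite K (nmL K (t : F) s)) :
    ∃ s₀ : ℕ, ∀ s : ℕ, s₀ ≤ s →
      Module.finrank k (nmL k (G.red t) s) ≤ Module.finrank K (nmL K (t : F) s) := by
  have htF : (t' : F) = (t : F)⁻¹ := eq_inv_of_mul_eq_one_left htt'
  have hmul : t' * t = 1 := Subtype.ext htt'
  have hred : G.red t' = (G.red t)⁻¹ := by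
    apply eq_inv_of_mul_eq_one_left
    rw [← map_mul, hmul, map_one]
  have htrK : Transcendental K (t : F) := nmx78_transcendental G t h.tr
  obtain ⟨x, hx⟩ := nm_exists_basis G t n h
  obtain ⟨x', hx'⟩ := nm_exists_basis G t' n h'
  obtain ⟨Eb, Nb, E, N, xs, hEb, hNb, hNbrel, hE, hN, hNrel, hxsfin, hxsindep, hcmp⟩ :=
    nm_ge_compare G t t' htt' n h h' x hx x' hx'
  obtain ⟨-, m₀b, hLFb⟩ := nm_lf Nb hNb
  obtain ⟨-, m₀, hLF⟩ := nm_lf N hN
  refine ⟨Eb.natDegree + E.natDegree + m₀b + m₀, fun s hs => ?_⟩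
  have hup := nm_ge_upper (κ := k) (G.red t) h.tr (fun i => G.red (x i)) (fun i => G.red (x' i))
    hx.indep (nm_normal G t n h x hx)
    (by
      intro p hp
      rw [← hred] at hp
      exact hx'.indep p hp)
    (by
      intro y hy
      rw [← hred] at hy ⊢
      exact nm_normal G t' n h' x' hx' y hy)
    Eb hEb Nb hNb hNbrel s
  have hlow := nm_ge_lower (κ := K) (t : F) htrK xs (fun j => ((x' j : G.O) : F))
    hxsindep hxsfin
    (by
      intro j
      rw [← htF]
      exact hx'.fin j)
    E hE N hN hNrel s (by omega) (hfinK s)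
  have hb := hLFb (s + Nb.det.natDegree - Eb.natDegree) (by omega)
  have hf := hLF (s + N.det.natDegree - E.natDegree) (by omega)
  have hmid := nmx78_arith n s Nb.det.natDegree Eb.natDegree N.det.natDegree E.natDegree _ _
    (by omega) (by omega) hb hf hcmp
  exact hup.trans (hmid.trans hlow)

end Fermat.Agent.S18L
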