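import Mathlib
import Fermat.Agent.S18L.CrvInf

/-!
# S18, package CRV (helper6): the Riemann–Roch space of `s` times the polar divisor of `t`
in terms of integrality over `k[t]` and `k[t⁻¹]`.
-/

set_option autoImplicit false

open AlgebraicCurve IsDedekindDomain
open scoped IntermediateField.algebraAdjoinAdjoin

namespace Fermat.Agent.S18L

section L

variable (k : Type*) {L : Type*} [Field k] [Field L] [Algebra k L] (t : L)

/-- D-L': `x ∈ L(s · (t)_∞)` ⟺ `x` is integral over `k[t]` and `t⁻¹ ^ s * x` is integral over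
`k[t⁻¹]`. -/
theorem crv_mem_L_iff' (ht : Transcendental k t) [FiniteDimensional (crvK k t) L]
    [Algebra.IsSeparable (crvK k t) L] (s : ℕ) (x : L) :
    (∀ Q : Place k L, -((s : ℤ) * max (-(Q.ord t)) 0) ≤ Q.ord x) ↔
      (IsIntegral (crvR k t) x ∧ IsIntegral (crvR k t⁻¹) (t⁻¹ ^ s * x)) := by
  have ht0 : t ≠ 0 := fun h => ht (h ▸ isAlgebraic_zero)
  have hti : Transcendental k t⁻¹ := crv_transcendental_inv k t ht
  have := crv_finite_inv k t
  have := crv_separable_inv k t
  rw [← crv_isIntegral_iff k t ht x, ← crv_isIntegral_iff k t⁻¹ hti (t⁻¹ ^ s * x)]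
  have hpow : ∀ Q : Place k L, Q.ord (t⁻¹ ^ s) = -((s : ℤ) * Q.ord t) := by
    intro Q
    have := Q.ord_zpow t⁻¹ (s : ℤ)
    rw [zpow_natCast, Q.ord_inv] at this
    rw [this]; ring
  have hps0 : t⁻¹ ^ s ≠ 0 := pow_ne_zero _ (inv_ne_zero ht0)
  constructor
  · intro h
    refine ⟨fun Q hQ => ?_, fun Q hQ => ?_⟩
    · have := h Q
      rwa [max_eq_right (by omega), mul_zero, neg_zero] at this
    · rw [Q.ord_inv] at hQ
      rcases eq_or_ne x 0 with rfl | hx
      · simp
      · rw [Q.ord_mul hps0 hx, hpow]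
        have := h Q
        rw [max_eq_left (by omega)] at this
        linarith
  · rintro ⟨h1, h2⟩ Q
    rcases le_or_gt 0 (Q.ord t) with hQ | hQ
    · rw [max_eq_right (by omega), mul_zero, neg_zero]
      exact h1 Q hQ
    · rw [max_eq_left (by omega)]
      rcases eq_or_ne x 0 with rfl | hx
      · simp only [Place.ord_zero]
        have : (0 : ℤ) ≤ (s : ℤ) * -(Q.ord t) := mul_nonneg (by positivity) (by omega)
        omega
      · have := h2 Q (by rw [Q.ord_inv]; omega)
        rw [Q.ord_mul hps0 hx, hpow] at this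
        linarith

end L

end Fermat.Agent.S18L
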