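import Mathlib
import Fermat.Agent.RR.Riemann
import Fermat.Agent.S18L.NmDefs
import Fermat.Agent.S18L.CrvL

/-!
# S18, package NM (B-core): `L(s (t)_∞) = nmL K t s` for a curve on the Prelude places (owner helper2)
-/

set_option autoImplicit false

open scoped IntermediateField

namespace Fermat.Agent.S18L

open Fermat.Agent.RRL

variable {K F k Fb : Type*} [Field K] [Field F] [Algebra K F] [Field k] [Field Fb] [Algebra k Fb]

/-- the Riemann–Roch space of `s (t)_∞` on a curve on the Prelude places is `nmL K t s`. -/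
theorem nm_L_eq (C : Curve K F (AlgebraicCurve.Place K F))
    (hC : ∀ (P : AlgebraicCurve.Place K F) (x : F), C.toPreCurve.ord P x = P.ord x)
    (θ : F) (hθ : Transcendental K θ) (hfin : Module.Finite K⟮θ⟯ F)
    (hsep : Algebra.IsSeparable K⟮θ⟯ F) (s : ℕ) :
    C.toPreCurve.L (s • C.toPreCurve.poleDiv θ) = nmL K θ s := by
  have hθ0 : θ ≠ 0 := fun h => hθ (h ▸ isAlgebraic_zero)
  have key := fun x : F => crv_mem_L_iff' K θ hθ s x
  ext x
  rw [PreCurve.mem_L, mem_nmL]
  unfold NmFin
  rw [mul_comm x, ← key x]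
  have hD : ∀ p : AlgebraicCurve.Place K F,
      (s • C.toPreCurve.poleDiv θ) p = (s : ℤ) * max (-(p.ord θ)) 0 := by
    intro p
    rw [Finsupp.smul_apply, PreCurve.poleDiv_apply _ hθ0, hC, nsmul_eq_mul]
  constructor
  · rintro (rfl | h)
    · exact (key 0).mpr ⟨isIntegral_zero, by rw [mul_zero]; exact isIntegral_zero⟩
    · intro Q
      rw [← hD, ← hC]
      exact h Q
  · intro h
    refine Or.inr fun p => ?_
    rw [hD, hC]
    exact h p

end Fermat.Agent.S18L
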