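import Mathlib
import Fermat.Agent.S18L.NmDefs
import Fermat.Agent.S18L.NmA

/-!
# S18, package NM (B-core): (NE) reduction maps `nmL K t s ∩ O` into `nmL k (red t) s` (owner helper2)
-/

set_option autoImplicit false

open scoped IntermediateField

namespace Fermat.Agent.S18L

open Fermat.Agent.RRL

variable {K F k Fb : Type*} [Field K] [Field F] [Algebra K F] [Field k] [Field Fb] [Algebra k Fb]

/-- (NE) -/
theorem nm_ne [IsAlgClosed K] [CharZero K] [IsAlgClosed k]
    (G : RedDatum K F k Fb) (t t' : G.O) (htt' : (t' : F) * (t : F) = 1) (n : ℕ)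
    (h : NmHyp G t n) (h' : NmHyp G t' n) (s : ℕ) (x : G.O) (hx : (x : F) ∈ nmL K (t : F) s) :
    G.red x ∈ nmL k (G.red t) s := by
  rw [mem_nmL] at hx ⊢
  have hinv : ((t : F))⁻¹ = (t' : F) := (eq_inv_of_mul_eq_one_left htt').symm
  have hmul : t' * t = 1 := Subtype.ext (by simpa using htt')
  have hred : G.red t' * G.red t = 1 := by rw [← map_mul, hmul, map_one]
  have hredinv : (G.red t)⁻¹ = G.red t' := (eq_inv_of_mul_eq_one_left hred).symm
  refine ⟨nm_red_fin G t n h x hx.1, ?_⟩
  have h2 : NmFin K (t' : F) ((x * t' ^ s : G.O) : F) := by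
    have := hx.2
    rw [hinv] at this
    simpa using this
  have h3 := nm_red_fin G t' n h' (x * t' ^ s) h2
  rw [map_mul, map_pow] at h3
  rw [hredinv]
  exact h3

end Fermat.Agent.S18L
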