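import Mathlib
import Fermat.Agent.RR.Riemann
import Fermat.Agent.S18L.NmDefs
import Fermat.Agent.S18L.NmA
import Fermat.Agent.S18L.NmNe
import Fermat.Agent.S18L.NmGe
import Fermat.Agent.S18L.NmInv
import Fermat.Agent.S18L.NmLeq

/-!
# S18, package NM (B-core): end theorem `nm_main` (the hypotheses `hNE`, `hGE` of `inj_free`) (owner helper2)
-/

set_option autoImplicit false

open scoped IntermediateField

namespace Fermat.Agent.S18L

open Fermat.Agent.RRL

variable {K F k Fb : Type*} [Field K] [Field F] [Algebra K F] [Field k] [Field Fb] [Algebra k Fb]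

/-- the chart `t` is transcendental over `K` because its reduction is transcendental over `k`. -/
theorem nmx79_transcendental [IsAlgClosed K] (G : RedDatum K F k Fb) (t : G.O)
    (htr : Transcendental k (G.red t)) : Transcendental K (t : F) := by
  intro halg
  have hint : IsIntegral K (t : F) := halg.isIntegral
  have hdeg : (minpoly K (t : F)).degree = 1 :=
    IsAlgClosed.degree_eq_one_of_irreducible K (minpoly.irreducible hint)
  obtain ⟨c, hc⟩ := minpoly.mem_range_of_degree_eq_one K (t : F) hdeg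
  have hmem : algebraMap K F c ∈ G.O := by rw [hc]; exact t.2
  have hcA : c ∈ G.A := (G.algebraMap_mem c).mp hmem
  have hred := G.red_algebraMap ⟨c, hcA⟩ hmem
  have ht : t = ⟨algebraMap K F c, hmem⟩ := Subtype.ext hc.symm
  apply htr
  rw [ht, hred]
  exact isAlgebraic_algebraMap _

/-- **B-core, end theorem**: the hypotheses `hNE`, `hGE` of `inj_free`. -/
theorem nm_main [IsAlgClosed K] [CharZero K] [IsAlgClosed k]
    (G : RedDatum K F k Fb) (C : Curve K F (AlgebraicCurve.Place K F))
    (hC : ∀ (P : AlgebraicCurve.Place K F) (x : F), C.toPreCurve.ord P x = P.ord x)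
    (Cb : Curve k Fb (AlgebraicCurve.Place k Fb))
    (hCb : ∀ (Q : AlgebraicCurve.Place k Fb) (x : Fb), Cb.toPreCurve.ord Q x = Q.ord x)
    (t t' : G.O) (htt' : (t' : F) * (t : F) = 1) (n : ℕ)
    (h : NmHyp G t n) (h' : NmHyp G t' n) :
    (∀ (s : ℕ) (x : G.O), (x : F) ∈ C.toPreCurve.L (s • C.toPreCurve.poleDiv (t : F)) →
        G.red x ∈ Cb.toPreCurve.L (s • Cb.toPreCurve.poleDiv (G.red t))) ∧
    (∃ s₀ : ℕ, ∀ s : ℕ, s₀ ≤ s →
        Module.finrank k (Cb.toPreCurve.L (s • Cb.toPreCurve.poleDiv (G.red t)))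
          ≤ Module.finrank K (C.toPreCurve.L (s • C.toPreCurve.poleDiv (t : F)))) := by
  have htrK : Transcendental K (t : F) := nmx79_transcendental G t h.tr
  have hfin : Module.Finite K⟮(t : F)⟯ F := h.fin
  have hsep : Algebra.IsSeparable K⟮(t : F)⟯ F := inferInstance
  have hL : ∀ s : ℕ, C.toPreCurve.L (s • C.toPreCurve.poleDiv (t : F)) = nmL K (t : F) s :=
    fun s => nm_L_eq C hC (t : F) htrK hfin hsep s
  have hLb : ∀ s : ℕ,
      Cb.toPreCurve.L (s • Cb.toPreCurve.poleDiv (G.red t)) = nmL k (G.red t) s :=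
    fun s => nm_L_eq Cb hCb (G.red t) h.tr h.finb h.sep s
  refine ⟨fun s x hx => ?_, ?_⟩
  · rw [hLb]
    rw [hL] at hx
    exact nm_ne G t t' htt' n h h' s x hx
  · have hfinK : ∀ s : ℕ, Module.Finite K (nmL K (t : F) s) := by
      intro s
      rw [← hL]
      exact C.toPreCurve.finite_L _
    obtain ⟨s₀, hs₀⟩ := nm_ge G t t' htt' n h h' hfinK
    refine ⟨s₀, fun s hs => ?_⟩
    rw [hL, hLb]
    exact hs₀ s hs

end Fermat.Agent.S18L
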