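import Mathlib
import Fermat.Agent.S18L.NmMain
import Fermat.Agent.S18L.NmInv

/-!
# S18, package INST (second cover, helper8): from the standing hypotheses of one chart and the
branch hypothesis of the inverse chart to the hypotheses `ht`, `hNE`, `hGE` of `inj_free`
-/

set_option autoImplicit false
set_option synthInstance.maxHeartbeats 400000

open AlgebraicCurve
open scoped IntermediateField

namespace Fermat.Agent.S18L

open Fermat.Agent.RRL

variable {K F k Fb : Type*} [Field K] [Field F] [Algebra K F] [Field k] [Field Fb] [Algebra k Fb]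

theorem inst_of_chart [IsAlgClosed K] [CharZero K] [IsAlgClosed k]
    (G : RedDatum K F k Fb) (C : Curve K F (Place K F))
    (hC : ∀ (P : Place K F) (x : F), C.toPreCurve.ord P x = P.ord x)
    (Cb : Curve k Fb (Place k Fb))
    (hCb : ∀ (Q : Place k Fb) (x : Fb), Cb.toPreCurve.ord Q x = Q.ord x)
    (t : G.O) (n : ℕ) (h : NmHyp G t n)
    (hbr' : ∀ a b : G.A, a ≠ b → G.π a = G.π b →
      NmUnr K ((t : F))⁻¹ (a : K) ∨ NmUnr K ((t : F))⁻¹ (b : K)) :
    (∀ c : k, G.red t ≠ algebraMap k Fb c) ∧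
    (∀ (s : ℕ) (x : G.O), (x : F) ∈ C.toPreCurve.L (s • C.toPreCurve.poleDiv (t : F)) →
        G.red x ∈ Cb.toPreCurve.L (s • Cb.toPreCurve.poleDiv (G.red t))) ∧
    (∃ s₀ : ℕ, ∀ s : ℕ, s₀ ≤ s →
        Module.finrank k (Cb.toPreCurve.L (s • Cb.toPreCurve.poleDiv (G.red t)))
          ≤ Module.finrank K (C.toPreCurve.L (s • C.toPreCurve.poleDiv (t : F)))) := by
  have hnc : ∀ c : k, G.red t ≠ algebraMap k Fb c := by
    intro c hc
    exact h.tr (hc ▸ isAlgebraic_algebraMap c)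
  have hred0 : G.red t ≠ 0 := by
    intro h0
    exact hnc 0 (by rw [h0, map_zero])
  have ht0 : (t : F) ≠ 0 := by
    intro h0
    have : t = 0 := Subtype.ext h0
    exact hred0 (by rw [this, map_zero])
  have htt' : (((⟨((t : F))⁻¹, G.inv_mem t hred0⟩ : G.O) : G.O) : F) * (t : F) = 1 :=
    inv_mul_cancel₀ ht0
  have h' : NmHyp G ⟨((t : F))⁻¹, G.inv_mem t hred0⟩ n :=
    nm_hyp_inv G t ⟨((t : F))⁻¹, G.inv_mem t hred0⟩ htt' n h hbr'
  obtain ⟨hNE, hGE⟩ := nm_main G C hC Cb hCb t ⟨((t : F))⁻¹, G.inv_mem t hred0⟩ htt' n h h'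
  exact ⟨hnc, hNE, hGE⟩

end Fermat.Agent.S18L
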