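/-
S18 library, package HM (helper3): explicit Hauptmoduln for `Γ₀(2)` and `Γ₀(3)`.
Definitions.
-/
import Mathlib
import Fermat.Prelude.Def_ModularCurve_X0
import Fermat.Prelude.Def_ModularCurve_JqCoeff
import Fermat.Prelude.Def_ModularCurve_LaurentCoeff
import Fermat.Prelude.Def_ModularCurve_X0ModL
import Fermat.Prelude.Thm_ModularForm_sturm_bound_Gamma0

set_option autoImplicit false

namespace Fermat.Agent.S18L

open ModularCurve

/-- `q ↦ q ^ d` on integral power series (total in `d`; for `d ≠ 0` it is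
`PowerSeries.expand d _`). -/
noncomputable def hmExp (d : ℕ) (p : PowerSeries ℤ) : PowerSeries ℤ :=
  PowerSeries.mk fun n => if d ∣ n then PowerSeries.coeff (n / d) p else 0

/-- `∏ (1 - q ^ (d n))`, the Euler product at `q ^ d`. -/
noncomputable def hmEta (d : ℕ) : PowerSeries ℤ := hmExp d etaProd

/-- The inverse power series of `hmEta d`. -/
noncomputable def hmEtaInv (d : ℕ) : PowerSeries ℤ := (hmEta d).invOfUnit 1

/-- `Δ(q ^ d) = q ^ d ∏ (1 - q ^ (d n)) ^ 24`. -/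
noncomputable def hmDelta (d : ℕ) : PowerSeries ℤ := PowerSeries.X ^ d * hmEta d ^ 24

/-- `E₄(q ^ d)`. -/
noncomputable def hmE4 (d : ℕ) : PowerSeries ℤ := hmExp d eisenstein4

/-- The eta quotient `q⁻¹ ∏ ((1 - q ^ n) / (1 - q ^ (d n))) ^ e` as an integral Laurent series. -/
noncomputable def hmQuot (d e : ℕ) : LaurentSeries ℤ :=
  HahnSeries.single (-1 : ℤ) (1 : ℤ) *
    HahnSeries.ofPowerSeries ℤ ℤ (hmEta 1 ^ e * hmEtaInv d ^ e)

/-- `(η(τ)/η(2τ)) ^ 24`, Hauptmodul of `Γ₀(2)`. -/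
noncomputable def hm2Z : LaurentSeries ℤ := hmQuot 2 24

/-- `(η(τ)/η(3τ)) ^ 12`, Hauptmodul of `Γ₀(3)`. -/
noncomputable def hm3Z : LaurentSeries ℤ := hmQuot 3 12

/-- The Hauptmodul `(η(τ)/η(2τ)) ^ 24` of `Γ₀(2)` with coefficients in any commutative ring. -/
noncomputable def hm2 (R : Type*) [CommRing R] : LaurentSeries R :=
  coeffMap (Int.castRingHom R) hm2Z

/-- The Hauptmodul `(η(τ)/η(3τ)) ^ 12` of `Γ₀(3)` with coefficients in any commutative ring. -/
noncomputable def hm3 (R : Type*) [CommRing R] : LaurentSeries R :=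
  coeffMap (Int.castRingHom R) hm3Z

/-- `p ∈ ℤ[[q]]` is the `q`-expansion (at `i∞`, in `q = e^{2πiτ}`) of a holomorphic modular form
of weight `k` on `Γ₀(N)`. -/
def IsQExp (N : ℕ) (k : ℤ) (p : PowerSeries ℤ) : Prop :=
  ∃ f : ModularForm (CongruenceSubgroup.Gamma0 N) k,
    UpperHalfPlane.qExpansion 1 (⇑f) = p.map (Int.castRingHom ℂ)

end Fermat.Agent.S18L
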