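/-
S18 library, package HM: certified truncated power series arithmetic over `ℤ`
(toolkit for `HMCheck.lean`): coefficient lists, list operations and their transfer lemmas.
-/
import Mathlib
import Fermat.Agent.S18L.HMDefs

set_option autoImplicit false

namespace Fermat.Agent.S18L

open ModularCurve

/-- the list of the first `n` coefficients of a power series -/
noncomputable def hmck_tr (n : ℕ) (f : PowerSeries ℤ) : List ℤ :=
  (List.range n).map fun k => PowerSeries.coeff k f

theorem hmck_getD_tr {n k : ℕ} (hk : k < n) (f : PowerSeries ℤ) :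
    (hmck_tr n f).getD k 0 = PowerSeries.coeff k f := by
  simp [hmck_tr, List.getD_eq_getElem?_getD, hk]

/-- truncated product of coefficient lists -/
def hmck_mul (n : ℕ) (a b : List ℤ) : List ℤ :=
  (List.range n).map fun k =>
    ((List.range (k + 1)).map fun i => a.getD i 0 * b.getD (k - i) 0).sum

/-- truncated sum of coefficient lists -/
def hmck_add (n : ℕ) (a b : List ℤ) : List ℤ :=
  (List.range n).map fun k => a.getD k 0 + b.getD k 0

/-- truncated difference of coefficient lists -/
def hmck_sub (n : ℕ) (a b : List ℤ) : List ℤ :=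
  (List.range n).map fun k => a.getD k 0 - b.getD k 0

/-- truncated scalar multiple of a coefficient list -/
def hmck_smul (n : ℕ) (c : ℤ) (a : List ℤ) : List ℤ :=
  (List.range n).map fun k => c * a.getD k 0

/-- `q ↦ q ^ d` on coefficient lists -/
def hmck_exp (n d : ℕ) (a : List ℤ) : List ℤ :=
  (List.range n).map fun k => if d ∣ k then a.getD (k / d) 0 else 0

/-- multiplication by `X ^ s` on coefficient lists -/
def hmck_shift (n s : ℕ) (a : List ℤ) : List ℤ :=
  (List.range n).map fun k => if s ≤ k then a.getD (k - s) 0 else 0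

/-- multiplication by `1 - X ^ d` on coefficient lists -/
def hmck_mulOneSub (n d : ℕ) (a : List ℤ) : List ℤ :=
  (List.range n).map fun k => a.getD k 0 - (if d ≤ k then a.getD (k - d) 0 else 0)

theorem hmck_sum_range (m : ℕ) (F : ℕ → ℤ) :
    ∑ i ∈ Finset.range m, F i = ((List.range m).map F).sum := by
  induction m with
  | zero => simp
  | succ m ih =>
    rw [Finset.sum_range_succ, ih, List.range_succ, List.map_append, List.sum_append]
    simp

theorem hmck_tr_mul (n : ℕ) (f g : PowerSeries ℤ) :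
    hmck_tr n (f * g) = hmck_mul n (hmck_tr n f) (hmck_tr n g) := by
  unfold hmck_mul
  conv_lhs => unfold hmck_tr
  apply List.map_congr_left
  intro k hk
  rw [List.mem_range] at hk
  rw [PowerSeries.coeff_mul, Finset.Nat.sum_antidiagonal_eq_sum_range_succ_mk, hmck_sum_range]
  congr 1
  apply List.map_congr_left
  intro i hi
  rw [List.mem_range] at hi
  rw [hmck_getD_tr (by omega), hmck_getD_tr (by omega)]

theorem hmck_tr_add (n : ℕ) (f g : PowerSeries ℤ) :
    hmck_tr n (f + g) = hmck_add n (hmck_tr n f) (hmck_tr n g) := by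
  unfold hmck_add
  conv_lhs => unfold hmck_tr
  apply List.map_congr_left
  intro k hk
  rw [List.mem_range] at hk
  rw [hmck_getD_tr hk, hmck_getD_tr hk, map_add]

theorem hmck_tr_sub (n : ℕ) (f g : PowerSeries ℤ) :
    hmck_tr n (f - g) = hmck_sub n (hmck_tr n f) (hmck_tr n g) := by
  unfold hmck_sub
  conv_lhs => unfold hmck_tr
  apply List.map_congr_left
  intro k hk
  rw [List.mem_range] at hk
  rw [hmck_getD_tr hk, hmck_getD_tr hk, map_sub]

theorem hmck_tr_smul (n : ℕ) (c : ℤ) (f : PowerSeries ℤ) :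
    hmck_tr n (PowerSeries.C c * f) = hmck_smul n c (hmck_tr n f) := by
  unfold hmck_smul
  conv_lhs => unfold hmck_tr
  apply List.map_congr_left
  intro k hk
  rw [List.mem_range] at hk
  rw [hmck_getD_tr hk, PowerSeries.coeff_C_mul]

theorem hmck_tr_exp (n d : ℕ) (p : PowerSeries ℤ) :
    hmck_tr n (hmExp d p) = hmck_exp n d (hmck_tr n p) := by
  unfold hmck_exp
  conv_lhs => unfold hmck_tr
  apply List.map_congr_left
  intro k hk
  rw [List.mem_range] at hk
  rw [hmck_getD_tr (lt_of_le_of_lt (Nat.div_le_self k d) hk), hmExp, PowerSeries.coeff_mk]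

theorem hmck_tr_shift (n s : ℕ) (f : PowerSeries ℤ) :
    hmck_tr n (PowerSeries.X ^ s * f) = hmck_shift n s (hmck_tr n f) := by
  unfold hmck_shift
  conv_lhs => unfold hmck_tr
  apply List.map_congr_left
  intro k hk
  rw [List.mem_range] at hk
  rw [hmck_getD_tr (lt_of_le_of_lt (Nat.sub_le k s) hk), PowerSeries.coeff_X_pow_mul']

theorem hmck_tr_mulOneSub (n d : ℕ) (f : PowerSeries ℤ) :
    hmck_tr n (f * (1 - PowerSeries.X ^ d)) = hmck_mulOneSub n d (hmck_tr n f) := by
  unfold hmck_mulOneSub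
  conv_lhs => unfold hmck_tr
  apply List.map_congr_left
  intro k hk
  rw [List.mem_range] at hk
  rw [hmck_getD_tr hk, hmck_getD_tr (lt_of_le_of_lt (Nat.sub_le k d) hk),
    show f * (1 - PowerSeries.X ^ d) = f - PowerSeries.X ^ d * f by ring, map_sub,
    PowerSeries.coeff_X_pow_mul']

/-- all coefficients below `m + 1` vanish if the coefficient list is zero -/
theorem hmck_coeff_eq_zero {m : ℕ} {P : PowerSeries ℤ}
    (h : hmck_tr (m + 1) P = List.replicate (m + 1) 0) :
    ∀ n : ℕ, n ≤ m → PowerSeries.coeff n P = 0 := by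
  intro n hn
  rw [← hmck_getD_tr (Nat.lt_succ_of_le hn) P, h]
  simp [List.getD_eq_getElem?_getD]

/-! ### base data: `eisenstein4` -/

/-- `σ₃(k)` as a list sum -/
def hmck_sig3 (k : ℕ) : ℤ :=
  ((List.range (k + 1)).map fun d => if d ∣ k then (d : ℤ) ^ 3 else 0).sum

/-- the coefficient list of `eisenstein4` -/
def hmck_e4 (n : ℕ) : List ℤ :=
  (List.range n).map fun k => if k = 0 then 1 else 240 * hmck_sig3 k

theorem hmck_sum_divisors (k : ℕ) (hk : k ≠ 0) :
    ∑ d ∈ k.divisors, (d : ℤ) ^ 3 = hmck_sig3 k := by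
  unfold hmck_sig3
  rw [← hmck_sum_range, ← Finset.sum_filter]
  apply Finset.sum_congr _ (fun _ _ => rfl)
  ext d
  simp only [Nat.mem_divisors, Finset.mem_filter, Finset.mem_range]
  constructor
  · rintro ⟨h, -⟩
    exact ⟨Nat.lt_succ_of_le (Nat.le_of_dvd (Nat.pos_of_ne_zero hk) h), h⟩
  · rintro ⟨-, h⟩
    exact ⟨h, hk⟩

theorem hmck_tr_eisenstein4 (n : ℕ) : hmck_tr n eisenstein4 = hmck_e4 n := by
  unfold hmck_tr hmck_e4
  apply List.map_congr_left
  intro k _
  rw [eisenstein4, PowerSeries.coeff_mk]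
  split_ifs with h
  · rfl
  · rw [hmck_sum_divisors k h]

/-! ### base data: `etaProd` -/

/-- a product of factors `1 - X ^ (i + 1)` with all `i ≥ n` is `≡ 1` modulo `X ^ n` -/
theorem hmck_prod_tail (n : ℕ) (t : Finset ℕ) (ht : ∀ i ∈ t, n ≤ i) :
    ∃ g : PowerSeries ℤ,
      ∏ i ∈ t, (1 - PowerSeries.X ^ (i + 1) : PowerSeries ℤ) = 1 + PowerSeries.X ^ n * g := by
  classical
  induction t using Finset.induction_on with
  | empty => exact ⟨0, by simp⟩
  | insert a t hat ih =>
    obtain ⟨g, hg⟩ := ih (fun i hi => ht i (Finset.mem_insert_of_mem hi))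
    have ha : n ≤ a := ht a (Finset.mem_insert_self a t)
    refine ⟨g - PowerSeries.X ^ (a + 1 - n) * (1 + PowerSeries.X ^ n * g), ?_⟩
    rw [Finset.prod_insert hat, hg]
    have hX : (PowerSeries.X : PowerSeries ℤ) ^ (a + 1) =
        PowerSeries.X ^ n * PowerSeries.X ^ (a + 1 - n) := by
      rw [← pow_add]
      congr 1
      omega
    rw [hX]
    ring

open PowerSeries.WithPiTopology in
/-- the coefficients of `etaProd` below `n` are those of the product of the first `n` factors -/
theorem hmck_coeff_etaProd (n k : ℕ) (hk : k < n) :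
    PowerSeries.coeff k etaProd =
      PowerSeries.coeff k (∏ i ∈ Finset.range n, (1 - PowerSeries.X ^ (i + 1) : PowerSeries ℤ)) := by
  classical
  have h := (PowerSeries.WithPiTopology.multipliable_one_sub_X_pow ℤ).hasProd
  rw [HasProd, PowerSeries.WithPiTopology.tendsto_iff_coeff_tendsto] at h
  have hk' := h k
  rw [nhds_discrete, Filter.tendsto_pure] at hk'
  obtain ⟨s₀, hs₀⟩ := Filter.eventually_atTop.mp hk'
  have h1 := hs₀ (s₀ ∪ Finset.range n) Finset.subset_union_left
  rw [etaProd, ← h1]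
  have hsplit : s₀ ∪ Finset.range n = Finset.range n ∪ (s₀ \ Finset.range n) := by
    rw [Finset.union_sdiff_self_eq_union, Finset.union_comm]
  rw [hsplit, Finset.prod_union Finset.disjoint_sdiff]
  obtain ⟨g, hg⟩ := hmck_prod_tail n (s₀ \ Finset.range n) (fun i hi => by
    have := (Finset.mem_sdiff.mp hi).2
    rw [Finset.mem_range] at this
    omega)
  rw [hg, mul_add, mul_one, map_add,
    show (∏ i ∈ Finset.range n, (1 - PowerSeries.X ^ (i + 1) : PowerSeries ℤ)) *
      (PowerSeries.X ^ n * g) = PowerSeries.X ^ n *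
        ((∏ i ∈ Finset.range n, (1 - PowerSeries.X ^ (i + 1) : PowerSeries ℤ)) * g) by ring,
    PowerSeries.coeff_X_pow_mul', if_neg (by omega), add_zero]

/-- the coefficient list of the product of the first `m` factors `1 - X ^ (i + 1)` -/
def hmck_etaL (n : ℕ) : ℕ → List ℤ
  | 0 => (List.range n).map fun k => if k = 0 then 1 else 0
  | m + 1 => hmck_mulOneSub n (m + 1) (hmck_etaL n m)

theorem hmck_tr_prod (n m : ℕ) :
    hmck_tr n (∏ i ∈ Finset.range m, (1 - PowerSeries.X ^ (i + 1) : PowerSeries ℤ)) =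
      hmck_etaL n m := by
  induction m with
  | zero =>
    rw [Finset.prod_range_zero]
    unfold hmck_tr hmck_etaL
    apply List.map_congr_left
    intro k _
    rw [PowerSeries.coeff_one]
  | succ m ih =>
    rw [Finset.prod_range_succ, hmck_tr_mulOneSub, ih]
    rfl

theorem hmck_tr_etaProd (n : ℕ) : hmck_tr n etaProd = hmck_etaL n n := by
  rw [← hmck_tr_prod]
  unfold hmck_tr
  apply List.map_congr_left
  intro k hk
  rw [List.mem_range] at hk
  exact hmck_coeff_etaProd n k hk

/-! ### certificate-style versions of the transfer lemmas -/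

section cert

variable {n : ℕ} {f g : PowerSeries ℤ} {a b c : List ℤ}

theorem hmck_mul' (hf : hmck_tr n f = a) (hg : hmck_tr n g = b) (h : hmck_mul n a b = c) :
    hmck_tr n (f * g) = c := by
  rw [hmck_tr_mul, hf, hg, h]

theorem hmck_add' (hf : hmck_tr n f = a) (hg : hmck_tr n g = b) (h : hmck_add n a b = c) :
    hmck_tr n (f + g) = c := by
  rw [hmck_tr_add, hf, hg, h]

theorem hmck_sub' (hf : hmck_tr n f = a) (hg : hmck_tr n g = b) (h : hmck_sub n a b = c) :
    hmck_tr n (f - g) = c := by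
  rw [hmck_tr_sub, hf, hg, h]

theorem hmck_smul' {z : ℤ} {s : PowerSeries ℤ} (hs : s = PowerSeries.C z)
    (hf : hmck_tr n f = a) (h : hmck_smul n z a = b) : hmck_tr n (s * f) = b := by
  rw [hs, hmck_tr_smul, hf, h]

theorem hmck_sq' (hf : hmck_tr n f = a) (h : hmck_mul n a a = c) : hmck_tr n (f ^ 2) = c := by
  rw [sq, hmck_tr_mul, hf, h]

theorem hmck_pow_add' {i j k : ℕ} (hk : i + j = k) (hf : hmck_tr n (f ^ i) = a)
    (hg : hmck_tr n (f ^ j) = b) (h : hmck_mul n a b = c) : hmck_tr n (f ^ k) = c := by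
  rw [← hk, pow_add, hmck_tr_mul, hf, hg, h]

theorem hmck_pow_succ' {i k : ℕ} (hk : i + 1 = k) (hf : hmck_tr n (f ^ i) = a)
    (hg : hmck_tr n f = b) (h : hmck_mul n a b = c) : hmck_tr n (f ^ k) = c := by
  rw [← hk, pow_succ, hmck_tr_mul, hf, hg, h]

theorem hmck_exp' {d : ℕ} (hf : hmck_tr n f = a) (h : hmck_exp n d a = b) :
    hmck_tr n (hmExp d f) = b := by
  rw [hmck_tr_exp, hf, h]

theorem hmck_shift' {s : ℕ} (hf : hmck_tr n f = a) (h : hmck_shift n s a = b) :
    hmck_tr n (PowerSeries.X ^ s * f) = b := by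
  rw [hmck_tr_shift, hf, h]

end cert

end Fermat.Agent.S18L
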