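/-
S18 library, package HM: certified coefficient lists for `HMCheck.lean`
(generated data; every step is a truncated list operation checked by kernel evaluation).
-/
import Mathlib
import Fermat.Agent.S18L.HMCheckAux

set_option autoImplicit false

namespace Fermat.Agent.S18L

open ModularCurve

theorem hmck_b_1 : hmck_tr 10 (eisenstein4) =
    [1, 240, 2160, 6720, 17520, 30240, 60480, 82560, 140400, 181680] :=
  (hmck_tr_eisenstein4 10).trans (by decide +kernel)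

theorem hmck_b_2 : hmck_tr 10 (etaProd) =
    [1, -1, -1, 0, 0, 1, 0, 1, 0, 0] :=
  (hmck_tr_etaProd 10).trans (by decide +kernel)

theorem hmck_b_3 : hmck_tr 10 (hmEta 1) =
    [1, -1, -1, 0, 0, 1, 0, 1, 0, 0] :=
  hmck_exp' hmck_b_2 (by decide +kernel)

theorem hmck_b_4 : hmck_tr 10 (hmEta 1 ^ 2) =
    [1, -2, -1, 2, 1, 2, -2, 0, -2, -2] :=
  hmck_sq' hmck_b_3 (by decide +kernel)

theorem hmck_b_5 : hmck_tr 10 (hmEta 1 ^ 4) =
    [1, -4, 2, 8, -5, -4, -10, 8, 9, 0] :=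
  hmck_pow_add' rfl hmck_b_4 hmck_b_4 (by decide +kernel)

theorem hmck_b_6 : hmck_tr 10 (hmEta 1 ^ 8) =
    [1, -8, 20, 0, -70, 64, 56, 0, -125, -160] :=
  hmck_pow_add' rfl hmck_b_5 hmck_b_5 (by decide +kernel)

theorem hmck_b_7 : hmck_tr 10 (hmEta 1 ^ 16) =
    [1, -16, 104, -320, 260, 1248, -3712, 1664, 6890, -7280] :=
  hmck_pow_add' rfl hmck_b_6 hmck_b_6 (by decide +kernel)

theorem hmck_b_8 : hmck_tr 10 (hmEta 1 ^ 24) =
    [1, -24, 252, -1472, 4830, -6048, -16744, 84480, -113643, -115920] :=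
  hmck_pow_add' rfl hmck_b_7 hmck_b_6 (by decide +kernel)

theorem hmck_b_9 : hmck_tr 10 (hmDelta 1) =
    [0, 1, -24, 252, -1472, 4830, -6048, -16744, 84480, -113643] :=
  hmck_shift' hmck_b_8 (by decide +kernel)

theorem hmck_b_10 : hmck_tr 10 (hmEta 2) =
    [1, 0, -1, 0, -1, 0, 0, 0, 0, 0] :=
  hmck_exp' hmck_b_2 (by decide +kernel)

theorem hmck_b_11 : hmck_tr 10 (hmEta 2 ^ 2) =
    [1, 0, -2, 0, -1, 0, 2, 0, 1, 0] :=
  hmck_sq' hmck_b_10 (by decide +kernel)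

theorem hmck_b_12 : hmck_tr 10 (hmEta 2 ^ 4) =
    [1, 0, -4, 0, 2, 0, 8, 0, -5, 0] :=
  hmck_pow_add' rfl hmck_b_11 hmck_b_11 (by decide +kernel)

theorem hmck_b_13 : hmck_tr 10 (hmEta 2 ^ 8) =
    [1, 0, -8, 0, 20, 0, 0, 0, -70, 0] :=
  hmck_pow_add' rfl hmck_b_12 hmck_b_12 (by decide +kernel)

theorem hmck_b_14 : hmck_tr 10 (hmEta 2 ^ 16) =
    [1, 0, -16, 0, 104, 0, -320, 0, 260, 0] :=
  hmck_pow_add' rfl hmck_b_13 hmck_b_13 (by decide +kernel)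

theorem hmck_b_15 : hmck_tr 10 (hmEta 2 ^ 24) =
    [1, 0, -24, 0, 252, 0, -1472, 0, 4830, 0] :=
  hmck_pow_add' rfl hmck_b_14 hmck_b_13 (by decide +kernel)

theorem hmck_b_16 : hmck_tr 10 (hmDelta 2) =
    [0, 0, 1, 0, -24, 0, 252, 0, -1472, 0] :=
  hmck_shift' hmck_b_15 (by decide +kernel)

theorem hmck_b_17 : hmck_tr 10 (hmE4 1) =
    [1, 240, 2160, 6720, 17520, 30240, 60480, 82560, 140400, 181680] :=
  hmck_exp' hmck_b_1 (by decide +kernel)

theorem hmck_b_18 : hmck_tr 10 (hmE4 1 ^ 2) =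
    [1, 480, 61920, 1050240, 7926240, 37500480, 135480960, 395301120, 1014559200, 2296875360] :=
  hmck_sq' hmck_b_17 (by decide +kernel)

theorem hmck_b_19 : hmck_tr 10 (hmE4 1 ^ 3) =
    [1, 720, 179280, 16954560, 396974160, 4632858720, 34413301440, 187477879680, 814940600400, 2975469665040] :=
  hmck_pow_succ' rfl hmck_b_18 hmck_b_17 (by decide +kernel)

theorem hmck_b_20 : hmck_tr 10 (hmE4 1 ^ 3 * hmDelta 1) =
    [0, 1, 696, 162252, 12831808, 34188270, -882400608, -833380744, 25487347200, -20041723323] :=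
  hmck_mul' hmck_b_19 hmck_b_9 (by decide +kernel)

theorem hmck_b_21 : hmck_tr 10 (hmE4 1 ^ 3 * hmDelta 1 * hmDelta 2) =
    [0, 0, 0, 1, 696, 162228, 12815104, 30294474, -1190188608, -1613013192] :=
  hmck_mul' hmck_b_20 hmck_b_16 (by decide +kernel)

theorem hmck_b_22 : hmck_tr 10 (256 * hmDelta 2) =
    [0, 0, 256, 0, -6144, 0, 64512, 0, -376832, 0] :=
  hmck_smul' (map_ofNat PowerSeries.C 256).symm hmck_b_16 (by decide +kernel)

theorem hmck_b_23 : hmck_tr 10 (hmDelta 1 + 256 * hmDelta 2) =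
    [0, 1, 232, 252, -7616, 4830, 58464, -16744, -292352, -113643] :=
  hmck_add' hmck_b_9 hmck_b_22 (by decide +kernel)

theorem hmck_b_24 : hmck_tr 10 ((hmDelta 1 + 256 * hmDelta 2) ^ 2) =
    [0, 0, 1, 464, 54328, 101696, -3460660, -1480416, 87531584, -52458624] :=
  hmck_sq' hmck_b_23 (by decide +kernel)

theorem hmck_b_25 : hmck_tr 10 ((hmDelta 1 + 256 * hmDelta 2) ^ 3) =
    [0, 0, 0, 1, 696, 162228, 12815104, 30294474, -1190188608, -1613013192] :=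
  hmck_pow_succ' rfl hmck_b_24 hmck_b_23 (by decide +kernel)

theorem hmck_b_26 : hmck_tr 10 (hmE4 1 ^ 3 * hmDelta 1 * hmDelta 2 - (hmDelta 1 + 256 * hmDelta 2) ^ 3) =
    List.replicate 10 0 :=
  hmck_sub' hmck_b_21 hmck_b_25 (by decide +kernel)

theorem hmck_b_27 : hmck_tr 10 (hmE4 2) =
    [1, 0, 240, 0, 2160, 0, 6720, 0, 17520, 0] :=
  hmck_exp' hmck_b_1 (by decide +kernel)

theorem hmck_b_28 : hmck_tr 10 (hmE4 2 ^ 2) =
    [1, 0, 480, 0, 61920, 0, 1050240, 0, 7926240, 0] :=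
  hmck_sq' hmck_b_27 (by decide +kernel)

theorem hmck_b_29 : hmck_tr 10 (hmE4 2 ^ 3) =
    [1, 0, 720, 0, 179280, 0, 16954560, 0, 396974160, 0] :=
  hmck_pow_succ' rfl hmck_b_28 hmck_b_27 (by decide +kernel)

theorem hmck_b_30 : hmck_tr 10 (hmE4 2 ^ 3 * hmDelta 1) =
    [0, 1, -24, 972, -18752, 365550, -5368608, 65593976, -675079680, 5523276357] :=
  hmck_mul' hmck_b_29 hmck_b_9 (by decide +kernel)

theorem hmck_b_31 : hmck_tr 10 (hmE4 2 ^ 3 * hmDelta 1 * hmDelta 2) =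
    [0, 0, 0, 1, -24, 948, -18176, 342474, -4924608, 57064248] :=
  hmck_mul' hmck_b_30 hmck_b_16 (by decide +kernel)

theorem hmck_b_32 : hmck_tr 10 (16 * hmDelta 2) =
    [0, 0, 16, 0, -384, 0, 4032, 0, -23552, 0] :=
  hmck_smul' (map_ofNat PowerSeries.C 16).symm hmck_b_16 (by decide +kernel)

theorem hmck_b_33 : hmck_tr 10 (hmDelta 1 + 16 * hmDelta 2) =
    [0, 1, -8, 252, -1856, 4830, -2016, -16744, 60928, -113643] :=
  hmck_add' hmck_b_9 hmck_b_32 (by decide +kernel)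

theorem hmck_b_34 : hmck_tr 10 ((hmDelta 1 + 16 * hmDelta 2) ^ 2) =
    [0, 0, 1, -16, 568, -7744, 102860, -1016736, 5877824, -18555264] :=
  hmck_sq' hmck_b_33 (by decide +kernel)

theorem hmck_b_35 : hmck_tr 10 ((hmDelta 1 + 16 * hmDelta 2) ^ 3) =
    [0, 0, 0, 1, -24, 948, -18176, 342474, -4924608, 57064248] :=
  hmck_pow_succ' rfl hmck_b_34 hmck_b_33 (by decide +kernel)

theorem hmck_b_36 : hmck_tr 10 (hmE4 2 ^ 3 * hmDelta 1 * hmDelta 2 - (hmDelta 1 + 16 * hmDelta 2) ^ 3) =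
    List.replicate 10 0 :=
  hmck_sub' hmck_b_31 hmck_b_35 (by decide +kernel)

theorem hmck_c2a : hmck_tr 10 (hmE4 1 ^ 3 * hmDelta 1 * hmDelta 2 - (hmDelta 1 + 256 * hmDelta 2) ^ 3) =
    List.replicate 10 0 :=
  hmck_b_26

theorem hmck_c2b : hmck_tr 10 (hmE4 2 ^ 3 * hmDelta 1 * hmDelta 2 - (hmDelta 1 + 16 * hmDelta 2) ^ 3) =
    List.replicate 10 0 :=
  hmck_b_36

end Fermat.Agent.S18L
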