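/-
S18 library, package HM: certified coefficient lists for `HMCheck.lean`
(generated data; every step is a truncated list operation checked by kernel evaluation).
-/
import Mathlib
import Fermat.Agent.S18L.HMCheckAux

set_option autoImplicit false

namespace Fermat.Agent.S18L

open ModularCurve

theorem hmck_c_1 : hmck_tr 17 (eisenstein4) =
    [1, 240, 2160, 6720, 17520, 30240, 60480, 82560, 140400, 181680, 272160, 319680, 490560, 527520, 743040, 846720, 1123440] :=
  (hmck_tr_eisenstein4 17).trans (by decide +kernel)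

theorem hmck_c_2 : hmck_tr 17 (etaProd) =
    [1, -1, -1, 0, 0, 1, 0, 1, 0, 0, 0, 0, -1, 0, 0, -1, 0] :=
  (hmck_tr_etaProd 17).trans (by decide +kernel)

theorem hmck_c_3 : hmck_tr 17 (hmEta 1) =
    [1, -1, -1, 0, 0, 1, 0, 1, 0, 0, 0, 0, -1, 0, 0, -1, 0] :=
  hmck_exp' hmck_c_2 (by decide +kernel)

theorem hmck_c_4 : hmck_tr 17 (hmEta 1 ^ 2) =
    [1, -2, -1, 2, 1, 2, -2, 0, -2, -2, 1, 0, 0, 2, 3, -2, 2] :=
  hmck_sq' hmck_c_3 (by decide +kernel)

theorem hmck_c_5 : hmck_tr 17 (hmEta 1 ^ 4) =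
    [1, -4, 2, 8, -5, -4, -10, 8, 9, 0, 14, -16, -10, -4, 0, -8, 14] :=
  hmck_pow_add' rfl hmck_c_4 hmck_c_4 (by decide +kernel)

theorem hmck_c_6 : hmck_tr 17 (hmEta 1 ^ 8) =
    [1, -8, 20, 0, -70, 64, 56, 0, -125, -160, 308, 0, 110, 0, -520, 0, 57] :=
  hmck_pow_add' rfl hmck_c_5 hmck_c_5 (by decide +kernel)

theorem hmck_c_7 : hmck_tr 17 (hmEta 1 ^ 16) =
    [1, -16, 104, -320, 260, 1248, -3712, 1664, 6890, -7280, -5568, -4160, 33176, 4640, -74240, 29824, 14035] :=
  hmck_pow_add' rfl hmck_c_6 hmck_c_6 (by decide +kernel)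

theorem hmck_c_8 : hmck_tr 17 (hmEta 1 ^ 24) =
    [1, -24, 252, -1472, 4830, -6048, -16744, 84480, -113643, -115920, 534612, -370944, -577738, 401856, 1217160, 987136, -6905934] :=
  hmck_pow_add' rfl hmck_c_7 hmck_c_6 (by decide +kernel)

theorem hmck_c_9 : hmck_tr 17 (hmDelta 1) =
    [0, 1, -24, 252, -1472, 4830, -6048, -16744, 84480, -113643, -115920, 534612, -370944, -577738, 401856, 1217160, 987136] :=
  hmck_shift' hmck_c_8 (by decide +kernel)

theorem hmck_c_10 : hmck_tr 17 (hmEta 3) =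
    [1, 0, 0, -1, 0, 0, -1, 0, 0, 0, 0, 0, 0, 0, 0, 1, 0] :=
  hmck_exp' hmck_c_2 (by decide +kernel)

theorem hmck_c_11 : hmck_tr 17 (hmEta 3 ^ 2) =
    [1, 0, 0, -2, 0, 0, -1, 0, 0, 2, 0, 0, 1, 0, 0, 2, 0] :=
  hmck_sq' hmck_c_10 (by decide +kernel)

theorem hmck_c_12 : hmck_tr 17 (hmEta 3 ^ 4) =
    [1, 0, 0, -4, 0, 0, 2, 0, 0, 8, 0, 0, -5, 0, 0, -4, 0] :=
  hmck_pow_add' rfl hmck_c_11 hmck_c_11 (by decide +kernel)

theorem hmck_c_13 : hmck_tr 17 (hmEta 3 ^ 8) =
    [1, 0, 0, -8, 0, 0, 20, 0, 0, 0, 0, 0, -70, 0, 0, 64, 0] :=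
  hmck_pow_add' rfl hmck_c_12 hmck_c_12 (by decide +kernel)

theorem hmck_c_14 : hmck_tr 17 (hmEta 3 ^ 16) =
    [1, 0, 0, -16, 0, 0, 104, 0, 0, -320, 0, 0, 260, 0, 0, 1248, 0] :=
  hmck_pow_add' rfl hmck_c_13 hmck_c_13 (by decide +kernel)

theorem hmck_c_15 : hmck_tr 17 (hmEta 3 ^ 24) =
    [1, 0, 0, -24, 0, 0, 252, 0, 0, -1472, 0, 0, 4830, 0, 0, -6048, 0] :=
  hmck_pow_add' rfl hmck_c_14 hmck_c_13 (by decide +kernel)

theorem hmck_c_16 : hmck_tr 17 (hmDelta 3) =
    [0, 0, 0, 1, 0, 0, -24, 0, 0, 252, 0, 0, -1472, 0, 0, 4830, 0] :=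
  hmck_shift' hmck_c_15 (by decide +kernel)

theorem hmck_c_17 : hmck_tr 17 (hmE4 1) =
    [1, 240, 2160, 6720, 17520, 30240, 60480, 82560, 140400, 181680, 272160, 319680, 490560, 527520, 743040, 846720, 1123440] :=
  hmck_exp' hmck_c_1 (by decide +kernel)

theorem hmck_c_18 : hmck_tr 17 (hmDelta 1 * hmDelta 3) =
    [0, 0, 0, 0, 1, -24, 252, -1496, 5406, -12096, 18836, -37488, 95013, -86480, -240420, 461448, 156468] :=
  hmck_mul' hmck_c_9 hmck_c_16 (by decide +kernel)

theorem hmck_c_19 : hmck_tr 17 (hmE4 1 ^ 2) =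
    [1, 480, 61920, 1050240, 7926240, 37500480, 135480960, 395301120, 1014559200, 2296875360, 4837561920, 9353842560, 17342613120, 30119288640, 50993844480, 82051050240, 129863578080] :=
  hmck_sq' hmck_c_17 (by decide +kernel)

theorem hmck_c_20 : hmck_tr 17 (hmE4 1 ^ 3) =
    [1, 720, 179280, 16954560, 396974160, 4632858720, 34413301440, 187477879680, 814940600400, 2975469665040, 9486467837280, 27053330840640, 70485969919680, 169930679355360, 384163875688320, 820167497170560, 1668890801059920] :=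
  hmck_pow_succ' rfl hmck_c_19 hmck_c_17 (by decide +kernel)

theorem hmck_c_21 : hmck_tr 17 (756 * hmDelta 1) =
    [0, 756, -18144, 190512, -1112832, 3651480, -4572288, -12658464, 63866880, -85914108, -87635520, 404166672, -280433664, -436769928, 303803136, 920172960, 746274816] :=
  hmck_smul' (map_ofNat PowerSeries.C 756).symm hmck_c_9 (by decide +kernel)

theorem hmck_c_22 : hmck_tr 17 (hmE4 1 ^ 3 - 756 * hmDelta 1) =
    [1, -36, 197424, 16764048, 398086992, 4629207240, 34417873728, 187490538144, 814876733520, 2975555579148, 9486555472800, 27052926673968, 70486250353344, 169931116125288, 384163571885184, 820166576997600, 1668890054785104] :=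
  hmck_sub' hmck_c_20 hmck_c_21 (by decide +kernel)

theorem hmck_c_23 : hmck_tr 17 (19131876 * hmDelta 3) =
    [0, 0, 0, 19131876, 0, 0, -459165024, 0, 0, 4821232752, 0, 0, -28162121472, 0, 0, 92406961080, 0] :=
  hmck_smul' (map_ofNat PowerSeries.C 19131876).symm hmck_c_16 (by decide +kernel)

theorem hmck_c_24 : hmck_tr 17 (hmE4 1 ^ 3 - 756 * hmDelta 1 - 19131876 * hmDelta 3) =
    [1, -36, 197424, -2367828, 398086992, 4629207240, 34877038752, 187490538144, 814876733520, 2970734346396, 9486555472800, 27052926673968, 70514412474816, 169931116125288, 384163571885184, 820074170036520, 1668890054785104] :=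
  hmck_sub' hmck_c_22 hmck_c_23 (by decide +kernel)

theorem hmck_c_25 : hmck_tr 17 ((hmE4 1 ^ 3 - 756 * hmDelta 1 - 19131876 * hmDelta 3) ^ 2) =
    [1, -72, 396144, -18950184, 39942893376, -954335999088, 162526913211024, -59505997601088, 150310179590128992, 3594466247553264312, 48631417400980693152, 469494553014161059680, 3590732165460948648864, 22953669471447451867728, 126950632927311897842688, 621886626324436636458576, 2745675023060155245187104] :=
  hmck_sq' hmck_c_24 (by decide +kernel)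

theorem hmck_c_26 : hmck_tr 17 (hmDelta 1 * hmDelta 3 * (hmE4 1 ^ 3 - 756 * hmDelta 1 - 19131876 * hmDelta 3) ^ 2) =
    [0, 0, 0, 0, 1, -96, 398124, -28477280, 40497639198, -1918333919232, 195527078239364, -4260506392772544, 194338960283947653, -276756497621582912, 1222330942278791628, -19025088944838264288, 17056116962597468244] :=
  hmck_mul' hmck_c_18 hmck_c_25 (by decide +kernel)

theorem hmck_c_27 : hmck_tr 17 (hmDelta 1 ^ 2) =
    [0, 0, 1, -48, 1080, -15040, 143820, -985824, 4857920, -16295040, 28412910, 38671600, -424520544, 1268350272, -1211937160, -4306546080, 18293091840] :=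
  hmck_sq' hmck_c_9 (by decide +kernel)

theorem hmck_c_28 : hmck_tr 17 (196830 * (hmDelta 1 * hmDelta 3)) =
    [0, 0, 0, 0, 196830, -4723920, 49601160, -294457680, 1064062980, -2380855680, 3707489880, -7378763040, 18701408790, -17021858400, -47321868600, 90826809840, 30797596440] :=
  hmck_smul' (map_ofNat PowerSeries.C 196830).symm hmck_c_18 (by decide +kernel)

theorem hmck_c_29 : hmck_tr 17 (hmDelta 1 ^ 2 + 196830 * (hmDelta 1 * hmDelta 3)) =
    [0, 0, 1, -48, 197910, -4738960, 49744980, -295443504, 1068920900, -2397150720, 3735902790, -7340091440, 18276888246, -15753508128, -48533805760, 86520263760, 49090688280] :=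
  hmck_add' hmck_c_27 hmck_c_28 (by decide +kernel)

theorem hmck_c_30 : hmck_tr 17 (hmDelta 3 ^ 2) =
    [0, 0, 0, 0, 0, 0, 1, 0, 0, -48, 0, 0, 1080, 0, 0, -15040, 0] :=
  hmck_sq' hmck_c_16 (by decide +kernel)

theorem hmck_c_31 : hmck_tr 17 (387420489 * hmDelta 3 ^ 2) =
    [0, 0, 0, 0, 0, 0, 387420489, 0, 0, -18596183472, 0, 0, 418414128120, 0, 0, -5826804154560, 0] :=
  hmck_smul' (map_ofNat PowerSeries.C 387420489).symm hmck_c_30 (by decide +kernel)

theorem hmck_c_32 : hmck_tr 17 (hmDelta 1 ^ 2 + 196830 * (hmDelta 1 * hmDelta 3) + 387420489 * hmDelta 3 ^ 2) =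
    [0, 0, 1, -48, 197910, -4738960, 437165469, -295443504, 1068920900, -20993334192, 3735902790, -7340091440, 436691016366, -15753508128, -48533805760, -5740283890800, 49090688280] :=
  hmck_add' hmck_c_29 hmck_c_31 (by decide +kernel)

theorem hmck_c_33 : hmck_tr 17 ((hmDelta 1 ^ 2 + 196830 * (hmDelta 1 * hmDelta 3) + 387420489 * hmDelta 3 ^ 2) ^ 2) =
    [0, 0, 0, 0, 1, -96, 398124, -28477280, 40497639198, -1918333919232, 195527078239364, -4260506392772544, 194338960283947653, -276756497621582912, 1222330942278791628, -19025088944838264288, 17056116962597468244] :=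
  hmck_sq' hmck_c_32 (by decide +kernel)

theorem hmck_c_34 : hmck_tr 17 (hmDelta 1 * hmDelta 3 * (hmE4 1 ^ 3 - 756 * hmDelta 1 - 19131876 * hmDelta 3) ^ 2 - (hmDelta 1 ^ 2 + 196830 * (hmDelta 1 * hmDelta 3) + 387420489 * hmDelta 3 ^ 2) ^ 2) =
    List.replicate 17 0 :=
  hmck_sub' hmck_c_26 hmck_c_33 (by decide +kernel)

theorem hmck_c_35 : hmck_tr 17 (hmE4 3) =
    [1, 0, 0, 240, 0, 0, 2160, 0, 0, 6720, 0, 0, 17520, 0, 0, 30240, 0] :=
  hmck_exp' hmck_c_1 (by decide +kernel)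

theorem hmck_c_36 : hmck_tr 17 (hmE4 3 ^ 2) =
    [1, 0, 0, 480, 0, 0, 61920, 0, 0, 1050240, 0, 0, 7926240, 0, 0, 37500480, 0] :=
  hmck_sq' hmck_c_35 (by decide +kernel)

theorem hmck_c_37 : hmck_tr 17 (hmE4 3 ^ 3) =
    [1, 0, 0, 720, 0, 0, 179280, 0, 0, 16954560, 0, 0, 396974160, 0, 0, 4632858720, 0] :=
  hmck_pow_succ' rfl hmck_c_36 hmck_c_35 (by decide +kernel)

theorem hmck_c_38 : hmck_tr 17 (36 * hmDelta 1) =
    [0, 36, -864, 9072, -52992, 173880, -217728, -602784, 3041280, -4091148, -4173120, 19246032, -13353984, -20798568, 14466816, 43817760, 35536896] :=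
  hmck_smul' (map_ofNat PowerSeries.C 36).symm hmck_c_9 (by decide +kernel)

theorem hmck_c_39 : hmck_tr 17 (hmE4 3 ^ 3 - 36 * hmDelta 1) =
    [1, -36, 864, -8352, 52992, -173880, 397008, 602784, -3041280, 21045708, 4173120, -19246032, 410328144, 20798568, -14466816, 4589040960, -35536896] :=
  hmck_sub' hmck_c_37 hmck_c_38 (by decide +kernel)

theorem hmck_c_40 : hmck_tr 17 (756 * hmDelta 3) =
    [0, 0, 0, 756, 0, 0, -18144, 0, 0, 190512, 0, 0, -1112832, 0, 0, 3651480, 0] :=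
  hmck_smul' (map_ofNat PowerSeries.C 756).symm hmck_c_16 (by decide +kernel)

theorem hmck_c_41 : hmck_tr 17 (hmE4 3 ^ 3 - 36 * hmDelta 1 - 756 * hmDelta 3) =
    [1, -36, 864, -9108, 52992, -173880, 415152, 602784, -3041280, 20855196, 4173120, -19246032, 411440976, 20798568, -14466816, 4585389480, -35536896] :=
  hmck_sub' hmck_c_39 hmck_c_40 (by decide +kernel)

theorem hmck_c_42 : hmck_tr 17 ((hmE4 3 ^ 3 - 36 * hmDelta 1 - 756 * hmDelta 3) ^ 2) =
    [1, -72, 3024, -80424, 1508256, -19901808, 187875504, -1294452288, 6643449792, -24688613448, 56504850912, 10610978400, -730078502976, 3629589741648, -7912128114432, 2710010642256, 87421775197824] :=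
  hmck_sq' hmck_c_41 (by decide +kernel)

theorem hmck_c_43 : hmck_tr 17 (hmDelta 1 * hmDelta 3 * (hmE4 3 ^ 3 - 36 * hmDelta 1 - 756 * hmDelta 3) ^ 2) =
    [0, 0, 0, 0, 1, -96, 5004, -172640, 4313598, -81292032, 1183151204, -13547815104, 124014231333, -918863335232, 5547786538668, -27215285112288, 106195231483284] :=
  hmck_mul' hmck_c_18 hmck_c_42 (by decide +kernel)

theorem hmck_c_44 : hmck_tr 17 (270 * (hmDelta 1 * hmDelta 3)) =
    [0, 0, 0, 0, 270, -6480, 68040, -403920, 1459620, -3265920, 5085720, -10121760, 25653510, -23349600, -64913400, 124590960, 42246360] :=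
  hmck_smul' (map_ofNat PowerSeries.C 270).symm hmck_c_18 (by decide +kernel)

theorem hmck_c_45 : hmck_tr 17 (hmDelta 1 ^ 2 + 270 * (hmDelta 1 * hmDelta 3)) =
    [0, 0, 1, -48, 1350, -21520, 211860, -1389744, 6317540, -19560960, 33498630, 28549840, -398867034, 1245000672, -1276850560, -4181955120, 18335338200] :=
  hmck_add' hmck_c_27 hmck_c_44 (by decide +kernel)

theorem hmck_c_46 : hmck_tr 17 (729 * hmDelta 3 ^ 2) =
    [0, 0, 0, 0, 0, 0, 729, 0, 0, -34992, 0, 0, 787320, 0, 0, -10964160, 0] :=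
  hmck_smul' (map_ofNat PowerSeries.C 729).symm hmck_c_30 (by decide +kernel)

theorem hmck_c_47 : hmck_tr 17 (hmDelta 1 ^ 2 + 270 * (hmDelta 1 * hmDelta 3) + 729 * hmDelta 3 ^ 2) =
    [0, 0, 1, -48, 1350, -21520, 212589, -1389744, 6317540, -19595952, 33498630, 28549840, -398079714, 1245000672, -1276850560, -4192919280, 18335338200] :=
  hmck_add' hmck_c_45 hmck_c_46 (by decide +kernel)

theorem hmck_c_48 : hmck_tr 17 ((hmDelta 1 ^ 2 + 270 * (hmDelta 1 * hmDelta 3) + 729 * hmDelta 3 ^ 2) ^ 2) =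
    [0, 0, 0, 0, 1, -96, 5004, -172640, 4313598, -81292032, 1183151204, -13547815104, 124014231333, -918863335232, 5547786538668, -27215285112288, 106195231483284] :=
  hmck_sq' hmck_c_47 (by decide +kernel)

theorem hmck_c_49 : hmck_tr 17 (hmDelta 1 * hmDelta 3 * (hmE4 3 ^ 3 - 36 * hmDelta 1 - 756 * hmDelta 3) ^ 2 - (hmDelta 1 ^ 2 + 270 * (hmDelta 1 * hmDelta 3) + 729 * hmDelta 3 ^ 2) ^ 2) =
    List.replicate 17 0 :=
  hmck_sub' hmck_c_43 hmck_c_48 (by decide +kernel)

theorem hmck_c3a : hmck_tr 17 (hmDelta 1 * hmDelta 3 * (hmE4 1 ^ 3 - 756 * hmDelta 1 - 19131876 * hmDelta 3) ^ 2 - (hmDelta 1 ^ 2 + 196830 * (hmDelta 1 * hmDelta 3) + 387420489 * hmDelta 3 ^ 2) ^ 2) =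
    List.replicate 17 0 :=
  hmck_c_34

theorem hmck_c3b : hmck_tr 17 (hmDelta 1 * hmDelta 3 * (hmE4 3 ^ 3 - 36 * hmDelta 1 - 756 * hmDelta 3) ^ 2 - (hmDelta 1 ^ 2 + 270 * (hmDelta 1 * hmDelta 3) + 729 * hmDelta 3 ^ 2) ^ 2) =
    List.replicate 17 0 :=
  hmck_c_49

end Fermat.Agent.S18L
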