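/-
S18 library, package HM (helper3): the finitely many `q`-coefficient checks needed for the
Sturm bound (certified truncated power series arithmetic over `ℤ`).
-/
import Mathlib
import Fermat.Agent.S18L.HMDefs
import Fermat.Agent.S18L.HMCheckAuxL2
import Fermat.Agent.S18L.HMCheckAuxL3

set_option autoImplicit false

namespace Fermat.Agent.S18L

open ModularCurve

theorem hm_check2a : ∀ n : ℕ, n ≤ 9 → PowerSeries.coeff n
    (hmE4 1 ^ 3 * hmDelta 1 * hmDelta 2 - (hmDelta 1 + 256 * hmDelta 2) ^ 3) = 0 := by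
  exact hmck_coeff_eq_zero hmck_c2a

theorem hm_check2b : ∀ n : ℕ, n ≤ 9 → PowerSeries.coeff n
    (hmE4 2 ^ 3 * hmDelta 1 * hmDelta 2 - (hmDelta 1 + 16 * hmDelta 2) ^ 3) = 0 := by
  exact hmck_coeff_eq_zero hmck_c2b

theorem hm_check3a : ∀ n : ℕ, n ≤ 16 → PowerSeries.coeff n
    (hmDelta 1 * hmDelta 3 * (hmE4 1 ^ 3 - 756 * hmDelta 1 - 19131876 * hmDelta 3) ^ 2
      - (hmDelta 1 ^ 2 + 196830 * (hmDelta 1 * hmDelta 3) + 387420489 * hmDelta 3 ^ 2) ^ 2)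
      = 0 := by
  exact hmck_coeff_eq_zero hmck_c3a

theorem hm_check3b : ∀ n : ℕ, n ≤ 16 → PowerSeries.coeff n
    (hmDelta 1 * hmDelta 3 * (hmE4 3 ^ 3 - 36 * hmDelta 1 - 756 * hmDelta 3) ^ 2
      - (hmDelta 1 ^ 2 + 270 * (hmDelta 1 * hmDelta 3) + 729 * hmDelta 3 ^ 2) ^ 2) = 0 := by
  exact hmck_coeff_eq_zero hmck_c3b

end Fermat.Agent.S18L
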