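/-
S18 library, package HM, leaf T1 (helper97): auxiliary constructions for `HMQExpA`:
restriction of a level-one form to `Γ₀(N)`, the level raising `f(τ) ↦ f(Nτ)`, and their
`q`-expansions.
-/
import Mathlib
import Fermat.Agent.S18L.HMDefs
import Fermat.Agent.S23.Theta
import Fermat.Agent.X0S24.EtaBridge

set_option autoImplicit false

open UpperHalfPlane ModularFormClass CongruenceSubgroup
open scoped MatrixGroups ModularForm Manifold Pointwise

namespace Fermat.Agent.S18L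

open ModularCurve

/-! ### power series bookkeeping -/

theorem hmqa_coeff_hmExp (d : ℕ) (p : PowerSeries ℤ) (n : ℕ) :
    PowerSeries.coeff n (hmExp d p) = if d ∣ n then PowerSeries.coeff (n / d) p else 0 := by
  rw [hmExp, PowerSeries.coeff_mk]

theorem hmqa_hmExp_one (p : PowerSeries ℤ) : hmExp 1 p = p := by
  ext n
  rw [hmqa_coeff_hmExp, if_pos (one_dvd n), Nat.div_one]

theorem hmqa_hmExp_eq_expand {d : ℕ} (hd : d ≠ 0) (p : PowerSeries ℤ) :
    hmExp d p = PowerSeries.expand d hd p := by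
  ext n
  rw [hmqa_coeff_hmExp, PowerSeries.coeff_expand]

theorem hmqa_hmE4_one : hmE4 1 = eisenstein4 := hmqa_hmExp_one _

theorem hmqa_hmDelta_one : hmDelta 1 = PowerSeries.X * etaProd ^ 24 := by
  rw [hmDelta, hmEta, hmqa_hmExp_one, pow_one]

theorem hmqa_hmDelta_eq {N : ℕ} (hN : N ≠ 0) :
    hmDelta N = hmExp N (PowerSeries.X * etaProd ^ 24) := by
  rw [hmDelta, hmEta, hmqa_hmExp_eq_expand hN, hmqa_hmExp_eq_expand hN, map_mul, map_pow,
    PowerSeries.expand_X]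

/-! ### restriction of a level-one form to `Γ₀(N)` -/

/-- A level-one form, viewed as a form on `Γ₀(N)`. -/
noncomputable def hmqa_res (N : ℕ) {k : ℤ} (f : ModularForm 𝒮ℒ k) :
    ModularForm (Gamma0 N) k where
  toFun := f
  slash_action_eq' := fun γ hγ => f.slash_action_eq' γ (Subgroup.map_le_range _ _ hγ)
  holo' := f.holo'
  bdd_at_cusps' := fun hc => f.bdd_at_cusps' (hc.mono (Subgroup.map_le_range _ _))

theorem hmqa_coe_res (N : ℕ) {k : ℤ} (f : ModularForm 𝒮ℒ k) :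
    (⇑(hmqa_res N f) : ℍ → ℂ) = ⇑f := rfl

/-! ### level raising -/

/-- `f ∣[k] diag(N, 1)` as a form on `Γ₀(N)`. -/
noncomputable def hmqa_raise (N : ℕ) [NeZero N] {k : ℤ} (f : ModularForm 𝒮ℒ k) :
    ModularForm (Gamma0 N) k :=
  let T := ModularForm.translate f (ModularForm.heckeDiagMatrix N)
  { toFun := T
    slash_action_eq' := fun γ hγ => T.slash_action_eq' γ (Fermat.Agent.S23L.Theta.gamma0_le N hγ)
    holo' := T.holo'
    bdd_at_cusps' := fun hc => T.bdd_at_cusps' (hc.mono (Fermat.Agent.S23L.Theta.gamma0_le N)) }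

theorem hmqa_coe_raise (N : ℕ) [NeZero N] {k : ℤ} (f : ModularForm 𝒮ℒ k) :
    (⇑(hmqa_raise N f) : ℍ → ℂ) = (⇑f) ∣[k] ModularForm.heckeDiagMatrix N :=
  rfl

theorem hmqa_raise_apply (N : ℕ) [NeZero N] {k : ℤ} (f : ModularForm 𝒮ℒ k) (τ : ℍ) :
    hmqa_raise N f τ = (N : ℂ) ^ (k - 1) * f (ModularForm.heckeDiagMatrix N • τ) :=
  ModularForm.slash_heckeDiagMatrix_apply k (NeZero.ne N) (⇑f) τ

/-- `τ ↦ f (N τ)` as a form on `Γ₀(N)`. -/
noncomputable def hmqa_V (N : ℕ) [NeZero N] {k : ℤ} (f : ModularForm 𝒮ℒ k) :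
    ModularForm (Gamma0 N) k :=
  ((N : ℂ) ^ (k - 1))⁻¹ • hmqa_raise N f

theorem hmqa_V_apply (N : ℕ) [NeZero N] {k : ℤ} (f : ModularForm 𝒮ℒ k) (τ : ℍ) :
    hmqa_V N f τ = f (ModularForm.heckeDiagMatrix N • τ) := by
  have hN : (N : ℂ) ^ (k - 1) ≠ 0 := zpow_ne_zero _ (Nat.cast_ne_zero.mpr (NeZero.ne N))
  change ((N : ℂ) ^ (k - 1))⁻¹ • hmqa_raise N f τ = _
  rw [hmqa_raise_apply, smul_eq_mul, inv_mul_cancel_left₀ hN]

theorem hmqa_hasSum_V (N : ℕ) [NeZero N] {k : ℤ} (f : ModularForm 𝒮ℒ k) (τ : ℍ) :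
    HasSum (fun n : ℕ => (if N ∣ n then (PowerSeries.coeff (n / N)) (qExpansion 1 ⇑f) else 0) •
        Function.Periodic.qParam 1 (τ : ℂ) ^ n) (hmqa_V N f τ) := by
  have hN : N ≠ 0 := NeZero.ne N
  have h := ModularForm.hasSum_qExpansion f one_pos
    one_mem_strictPeriods_SL (ModularForm.heckeDiagMatrix N • τ)
  rw [Fermat.Agent.S23L.Theta.qParam_heckeDiag] at h
  rw [← hmqa_V_apply] at h
  have hinj : Function.Injective (fun m : ℕ => N * m) := fun a b hab =>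
    Nat.eq_of_mul_eq_mul_left (Nat.pos_of_ne_zero hN) hab
  rw [← hinj.hasSum_iff]
  · have heq : ((fun n : ℕ => (if N ∣ n then
        (PowerSeries.coeff (n / N)) (qExpansion 1 ⇑f) else 0) •
        Function.Periodic.qParam 1 (τ : ℂ) ^ n) ∘ fun m : ℕ => N * m)
        = fun i => (PowerSeries.coeff i) (qExpansion 1 ⇑f) *
            (Function.Periodic.qParam 1 (τ : ℂ) ^ N) ^ i := by
      funext m
      simp only [Function.comp_apply, dvd_mul_right, if_true, Nat.mul_div_cancel_left _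
        (Nat.pos_of_ne_zero hN), smul_eq_mul, pow_mul]
    rw [heq]
    exact h
  · intro n hn
    have : ¬ N ∣ n := fun ⟨m, hm⟩ => hn ⟨m, hm.symm⟩
    simp [this]

theorem hmqa_qExpansion_V_coeff (N : ℕ) [NeZero N] {k : ℤ} (f : ModularForm 𝒮ℒ k) (n : ℕ) :
    (PowerSeries.coeff n) (qExpansion 1 ⇑(hmqa_V N f)) =
      if N ∣ n then (PowerSeries.coeff (n / N)) (qExpansion 1 ⇑f) else 0 :=
  (ModularFormClass.qExpansion_coeff_unique (f := hmqa_V N f) one_pos
    (Fermat.Agent.S23L.Theta.one_mem_strictPeriods N) (hmqa_hasSum_V N f) n).symm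

/-- integrality is preserved by level raising -/
theorem hmqa_qExpansion_V (N : ℕ) [NeZero N] {k : ℤ} (f : ModularForm 𝒮ℒ k) (p : PowerSeries ℤ)
    (h : qExpansion 1 ⇑f = p.map (Int.castRingHom ℂ)) :
    qExpansion 1 ⇑(hmqa_V N f) = (hmExp N p).map (Int.castRingHom ℂ) := by
  ext n
  rw [hmqa_qExpansion_V_coeff, PowerSeries.coeff_map, hmqa_coeff_hmExp, h]
  split_ifs
  · rw [PowerSeries.coeff_map]
  · rw [map_zero]

theorem hmqa_isQExp_res (N : ℕ) {k : ℤ} (f : ModularForm 𝒮ℒ k) (p : PowerSeries ℤ)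
    (h : qExpansion 1 ⇑f = p.map (Int.castRingHom ℂ)) : IsQExp N k p :=
  ⟨hmqa_res N f, h⟩

theorem hmqa_isQExp_V (N : ℕ) [NeZero N] {k : ℤ} (f : ModularForm 𝒮ℒ k) (p : PowerSeries ℤ)
    (h : qExpansion 1 ⇑f = p.map (Int.castRingHom ℂ)) : IsQExp N k (hmExp N p) :=
  ⟨hmqa_V N f, hmqa_qExpansion_V N f p h⟩

/-! ### the level-one inputs -/

/-- the discriminant as a level-one modular form -/
noncomputable def hmqa_delta : ModularForm 𝒮ℒ 12 :=
  CuspForm.toModularFormₗ CuspForm.discriminant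

theorem hmqa_coe_delta : (⇑hmqa_delta : ℍ → ℂ) = ModularForm.discriminant := rfl

theorem hmqa_qExpansion_delta :
    qExpansion 1 ⇑hmqa_delta = (PowerSeries.X * etaProd ^ 24).map (Int.castRingHom ℂ) := by
  rw [hmqa_coe_delta, Fermat.Agent.X0S24.EtaBridge.qExpansion_discriminant, map_mul,
    PowerSeries.map_X, dedekindEtaUnit]

end Fermat.Agent.S18L
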