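/-
S18 library, package HM (helper3): the level-one forms `E₄`, `Δ` and their level raisings
`E₄(Nτ)`, `Δ(Nτ)` as modular forms on `Γ₀(N)` with integral `q`-expansions.
-/
import Mathlib
import Fermat.Agent.S18L.HMDefs
import Fermat.Agent.S18L.HMQExpAAux

set_option autoImplicit false

namespace Fermat.Agent.S18L

open ModularCurve

/-- `E₄(τ)` (`d = 1`) and `E₄(Nτ)` (`d = N`) are modular forms of weight `4` on `Γ₀(N)`. -/
theorem isQExp_E4 (N : ℕ) [NeZero N] (d : ℕ) (hd : d = 1 ∨ d = N) : IsQExp N 4 (hmE4 d) := by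
  rcases hd with rfl | rfl
  · rw [hmqa_hmE4_one]
    exact hmqa_isQExp_res N ModularForm.E₄ _ Fermat.Agent.X0S24.EtaBridge.qExpansion_E4
  · exact hmqa_isQExp_V _ ModularForm.E₄ _ Fermat.Agent.X0S24.EtaBridge.qExpansion_E4

/-- `Δ(τ)` (`d = 1`) and `Δ(Nτ)` (`d = N`) are modular forms of weight `12` on `Γ₀(N)`. -/
theorem isQExp_delta (N : ℕ) [NeZero N] (d : ℕ) (hd : d = 1 ∨ d = N) :
    IsQExp N 12 (hmDelta d) := by
  rcases hd with rfl | rfl
  · rw [hmqa_hmDelta_one]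
    exact hmqa_isQExp_res N hmqa_delta _ hmqa_qExpansion_delta
  · rw [hmqa_hmDelta_eq (NeZero.ne _)]
    exact hmqa_isQExp_V _ hmqa_delta _ hmqa_qExpansion_delta

end Fermat.Agent.S18L
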