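/-
S18 library, package HM (helper3): closure properties of `IsQExp` and the Sturm bound.
-/
import Mathlib
import Fermat.Agent.S18L.HMDefs
import Fermat.Prelude.Thm_CongruenceSubgroup_one_mem_strictPeriods_Gamma0
import Fermat.Agent.X0Count.Index

set_option autoImplicit false

namespace Fermat.Agent.S18L

open ModularCurve

theorem IsQExp.congr_weight {N : ℕ} {k l : ℤ} {p : PowerSeries ℤ} (h : k = l)
    (hp : IsQExp N k p) : IsQExp N l p := h ▸ hp

theorem IsQExp.add {N : ℕ} [NeZero N] {k : ℤ} {p r : PowerSeries ℤ} (hp : IsQExp N k p)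
    (hr : IsQExp N k r) : IsQExp N k (p + r) := by
  obtain ⟨f, hf⟩ := hp
  obtain ⟨g, hg⟩ := hr
  refine ⟨f + g, ?_⟩
  rw [FunLike.coe_add, ModularForm.qExpansion_add one_pos
    (CongruenceSubgroup.one_mem_strictPeriods_Gamma0 N) f g, hf, hg, map_add]

theorem IsQExp.sub {N : ℕ} [NeZero N] {k : ℤ} {p r : PowerSeries ℤ} (hp : IsQExp N k p)
    (hr : IsQExp N k r) : IsQExp N k (p - r) := by
  obtain ⟨f, hf⟩ := hp
  obtain ⟨g, hg⟩ := hr
  refine ⟨f - g, ?_⟩
  rw [FunLike.coe_sub, ModularForm.qExpansion_sub one_pos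
    (CongruenceSubgroup.one_mem_strictPeriods_Gamma0 N) f g, hf, hg, map_sub]

theorem IsQExp.intCast_mul {N : ℕ} [NeZero N] {k : ℤ} {p : PowerSeries ℤ} (c : ℤ)
    (hp : IsQExp N k p) : IsQExp N k ((c : PowerSeries ℤ) * p) := by
  obtain ⟨f, hf⟩ := hp
  refine ⟨(c : ℂ) • f, ?_⟩
  rw [FunLike.coe_smul, ModularForm.qExpansion_smul one_pos
    (CongruenceSubgroup.one_mem_strictPeriods_Gamma0 N) (c : ℂ) f, hf, map_mul, map_intCast]
  ext n
  rw [PowerSeries.coeff_smul, ← map_intCast (PowerSeries.C (R := ℂ)) c, PowerSeries.coeff_C_mul,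
    smul_eq_mul]

theorem IsQExp.mul {N : ℕ} [NeZero N] {k l : ℤ} {p r : PowerSeries ℤ} (hp : IsQExp N k p)
    (hr : IsQExp N l r) : IsQExp N (k + l) (p * r) := by
  obtain ⟨f, hf⟩ := hp
  obtain ⟨g, hg⟩ := hr
  refine ⟨f.mul g, ?_⟩
  rw [ModularForm.qExpansion_mul one_pos
    (CongruenceSubgroup.one_mem_strictPeriods_Gamma0 N) f g, hf, hg, map_mul]

theorem IsQExp.pow {N : ℕ} [NeZero N] {k : ℤ} {p : PowerSeries ℤ} (hp : IsQExp N k p) (n : ℕ) :
    IsQExp N (n * k) (p ^ n) := by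
  obtain ⟨f, hf⟩ := hp
  refine ⟨f.pow n, ?_⟩
  rw [ModularForm.qExpansion_pow one_pos
    (CongruenceSubgroup.one_mem_strictPeriods_Gamma0 N) f n, hf, map_pow]

/-- **Sturm bound** for integral `q`-expansions on `Γ₀(N)`. -/
theorem IsQExp.eq_zero {N : ℕ} [NeZero N] {k : ℤ} {p : PowerSeries ℤ} (hp : IsQExp N k p)
    (hc : ∀ n : ℕ, n ≤ (k * (dedekindPsi N : ℤ)).toNat / 12 → PowerSeries.coeff n p = 0) :
    p = 0 := by
  obtain ⟨f, hf⟩ := hp
  have hf0 : f = 0 := by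
    refine ModularForm.sturm_bound_Gamma0 N f fun n hn => ?_
    rw [Fermat.Agent.X0Count.index_Gamma0 N] at hn
    rw [hf, PowerSeries.coeff_map, hc n hn, map_zero]
  rw [hf0] at hf
  have h0 : UpperHalfPlane.qExpansion 1 (⇑(0 : ModularForm (CongruenceSubgroup.Gamma0 N) k)) = 0 :=
    UpperHalfPlane.qExpansion_zero 1
  rw [h0] at hf
  ext n
  have h1 := congrArg (PowerSeries.coeff n) hf
  rw [PowerSeries.coeff_map, map_zero, eq_intCast] at h1
  rw [map_zero]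
  exact_mod_cast h1.symm

end Fermat.Agent.S18L
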