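/-
S18 library, package HM (helper3): the level 2 and level 3 identities between `E₄` and `Δ`
in `ℤ[[q]]`, from the Sturm bound.
-/
import Mathlib
import Fermat.Agent.S18L.HMDefs
import Fermat.Agent.S18L.HMQExpA
import Fermat.Agent.S18L.HMQExpB
import Fermat.Agent.S18L.HMCheck

set_option autoImplicit false

namespace Fermat.Agent.S18L

open ModularCurve

/-! ### auxiliary lemmas (helper104) -/

theorem hmst_psi2 : dedekindPsi 2 = 3 := by
  have h2 : Nat.Prime 2 := Nat.prime_two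
  have hs : Squarefree 2 := h2.squarefree
  rw [dedekindPsi, Nat.Prime.divisors h2, Finset.filter_insert, Finset.filter_singleton,
    if_pos hs, if_pos squarefree_one, Finset.sum_pair (by norm_num)]

theorem hmst_psi3 : dedekindPsi 3 = 4 := by
  have h3 : Nat.Prime 3 := Nat.prime_three
  have hs : Squarefree 3 := h3.squarefree
  rw [dedekindPsi, Nat.Prime.divisors h3, Finset.filter_insert, Finset.filter_singleton,
    if_pos hs, if_pos squarefree_one, Finset.sum_pair (by norm_num)]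

/-- the Sturm number in weight `36` at level `2` -/
theorem hmst_bound2 : (36 * (dedekindPsi 2 : ℤ)).toNat / 12 = 9 := by
  rw [hmst_psi2]
  decide

/-- the Sturm number in weight `48` at level `3` -/
theorem hmst_bound3 : (48 * (dedekindPsi 3 : ℤ)).toNat / 12 = 16 := by
  rw [hmst_psi3]
  decide

/-- multiplication by a numeral -/
theorem hmst_natCast_mul {N : ℕ} [NeZero N] {k : ℤ} {p : PowerSeries ℤ} (c : ℕ)
    (hp : IsQExp N k p) : IsQExp N k ((c : PowerSeries ℤ) * p) := by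
  have h := hp.intCast_mul (c : ℤ)
  rwa [Int.cast_natCast] at h

/-- Sturm bound at level `2`, weight `36`, in the form used below -/
theorem hmst_eq_of_sturm2 {p r : PowerSeries ℤ} (hp : IsQExp 2 36 p) (hr : IsQExp 2 36 r)
    (hc : ∀ n : ℕ, n ≤ 9 → PowerSeries.coeff n (p - r) = 0) : p = r := by
  have h := (hp.sub hr).eq_zero (fun n hn => hc n (by rwa [hmst_bound2] at hn))
  exact sub_eq_zero.mp h

/-- Sturm bound at level `3`, weight `48`, in the form used below -/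
theorem hmst_eq_of_sturm3 {p r : PowerSeries ℤ} (hp : IsQExp 3 48 p) (hr : IsQExp 3 48 r)
    (hc : ∀ n : ℕ, n ≤ 16 → PowerSeries.coeff n (p - r) = 0) : p = r := by
  have h := (hp.sub hr).eq_zero (fun n hn => hc n (by rwa [hmst_bound3] at hn))
  exact sub_eq_zero.mp h

/-! ### the identities -/

/-- `j(τ) h₂² = (h₂ + 256)³` cleared of denominators (`h₂ = Δ(τ)/Δ(2τ)`). -/
theorem hm_sturm2a :
    hmE4 1 ^ 3 * hmDelta 1 * hmDelta 2 = (hmDelta 1 + 256 * hmDelta 2) ^ 3 := by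
  have hE : IsQExp 2 4 (hmE4 1) := isQExp_E4 2 1 (Or.inl rfl)
  have hD1 : IsQExp 2 12 (hmDelta 1) := isQExp_delta 2 1 (Or.inl rfl)
  have hD2 : IsQExp 2 12 (hmDelta 2) := isQExp_delta 2 2 (Or.inr rfl)
  have h1 : IsQExp 2 36 (hmE4 1 ^ 3 * hmDelta 1 * hmDelta 2) :=
    (((hE.pow 3).mul hD1).mul hD2).congr_weight (by norm_num)
  have hc : IsQExp 2 12 (256 * hmDelta 2) := by
    simpa using hmst_natCast_mul 256 hD2
  have h2 : IsQExp 2 36 ((hmDelta 1 + 256 * hmDelta 2) ^ 3) :=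
    ((hD1.add hc).pow 3).congr_weight (by norm_num)
  exact hmst_eq_of_sturm2 h1 h2 hm_check2a

/-- `j(2τ) h₂ = (h₂ + 16)³` cleared of denominators. -/
theorem hm_sturm2b :
    hmE4 2 ^ 3 * hmDelta 1 * hmDelta 2 = (hmDelta 1 + 16 * hmDelta 2) ^ 3 := by
  have hE : IsQExp 2 4 (hmE4 2) := isQExp_E4 2 2 (Or.inr rfl)
  have hD1 : IsQExp 2 12 (hmDelta 1) := isQExp_delta 2 1 (Or.inl rfl)
  have hD2 : IsQExp 2 12 (hmDelta 2) := isQExp_delta 2 2 (Or.inr rfl)
  have h1 : IsQExp 2 36 (hmE4 2 ^ 3 * hmDelta 1 * hmDelta 2) :=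
    (((hE.pow 3).mul hD1).mul hD2).congr_weight (by norm_num)
  have hc : IsQExp 2 12 (16 * hmDelta 2) := by
    simpa using hmst_natCast_mul 16 hD2
  have h2 : IsQExp 2 36 ((hmDelta 1 + 16 * hmDelta 2) ^ 3) :=
    ((hD1.add hc).pow 3).congr_weight (by norm_num)
  exact hmst_eq_of_sturm2 h1 h2 hm_check2b

/-- the square of `j(τ) h₃³ = (h₃ + 27)(h₃ + 243)³` cleared of denominators
(`h₃² = Δ(τ)/Δ(3τ)`). -/
theorem hm_sturm3a :
    hmDelta 1 * hmDelta 3 * (hmE4 1 ^ 3 - 756 * hmDelta 1 - 19131876 * hmDelta 3) ^ 2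
      = (hmDelta 1 ^ 2 + 196830 * (hmDelta 1 * hmDelta 3) + 387420489 * hmDelta 3 ^ 2) ^ 2 := by
  have hE : IsQExp 3 4 (hmE4 1) := isQExp_E4 3 1 (Or.inl rfl)
  have hD1 : IsQExp 3 12 (hmDelta 1) := isQExp_delta 3 1 (Or.inl rfl)
  have hD3 : IsQExp 3 12 (hmDelta 3) := isQExp_delta 3 3 (Or.inr rfl)
  have hE3 : IsQExp 3 12 (hmE4 1 ^ 3) := (hE.pow 3).congr_weight (by norm_num)
  have hc1 : IsQExp 3 12 (756 * hmDelta 1) := by
    simpa using hmst_natCast_mul 756 hD1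
  have hc2 : IsQExp 3 12 (19131876 * hmDelta 3) := by
    simpa using hmst_natCast_mul 19131876 hD3
  have hD13 : IsQExp 3 24 (hmDelta 1 * hmDelta 3) :=
    (hD1.mul hD3).congr_weight (by norm_num)
  have h1 : IsQExp 3 48
      (hmDelta 1 * hmDelta 3 * (hmE4 1 ^ 3 - 756 * hmDelta 1 - 19131876 * hmDelta 3) ^ 2) :=
    (hD13.mul (((hE3.sub hc1).sub hc2).pow 2)).congr_weight (by norm_num)
  have hD1sq : IsQExp 3 24 (hmDelta 1 ^ 2) := (hD1.pow 2).congr_weight (by norm_num)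
  have hD3sq : IsQExp 3 24 (hmDelta 3 ^ 2) := (hD3.pow 2).congr_weight (by norm_num)
  have hc3 : IsQExp 3 24 (196830 * (hmDelta 1 * hmDelta 3)) := by
    simpa using hmst_natCast_mul 196830 hD13
  have hc4 : IsQExp 3 24 (387420489 * hmDelta 3 ^ 2) := by
    simpa using hmst_natCast_mul 387420489 hD3sq
  have h2 : IsQExp 3 48
      ((hmDelta 1 ^ 2 + 196830 * (hmDelta 1 * hmDelta 3) + 387420489 * hmDelta 3 ^ 2) ^ 2) :=
    (((hD1sq.add hc3).add hc4).pow 2).congr_weight (by norm_num)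
  exact hmst_eq_of_sturm3 h1 h2 hm_check3a

/-- the square of `j(3τ) h₃ = (h₃ + 27)(h₃ + 3)³` cleared of denominators. -/
theorem hm_sturm3b :
    hmDelta 1 * hmDelta 3 * (hmE4 3 ^ 3 - 36 * hmDelta 1 - 756 * hmDelta 3) ^ 2
      = (hmDelta 1 ^ 2 + 270 * (hmDelta 1 * hmDelta 3) + 729 * hmDelta 3 ^ 2) ^ 2 := by
  have hE : IsQExp 3 4 (hmE4 3) := isQExp_E4 3 3 (Or.inr rfl)
  have hD1 : IsQExp 3 12 (hmDelta 1) := isQExp_delta 3 1 (Or.inl rfl)
  have hD3 : IsQExp 3 12 (hmDelta 3) := isQExp_delta 3 3 (Or.inr rfl)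
  have hE3 : IsQExp 3 12 (hmE4 3 ^ 3) := (hE.pow 3).congr_weight (by norm_num)
  have hc1 : IsQExp 3 12 (36 * hmDelta 1) := by
    simpa using hmst_natCast_mul 36 hD1
  have hc2 : IsQExp 3 12 (756 * hmDelta 3) := by
    simpa using hmst_natCast_mul 756 hD3
  have hD13 : IsQExp 3 24 (hmDelta 1 * hmDelta 3) :=
    (hD1.mul hD3).congr_weight (by norm_num)
  have h1 : IsQExp 3 48
      (hmDelta 1 * hmDelta 3 * (hmE4 3 ^ 3 - 36 * hmDelta 1 - 756 * hmDelta 3) ^ 2) :=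
    (hD13.mul (((hE3.sub hc1).sub hc2).pow 2)).congr_weight (by norm_num)
  have hD1sq : IsQExp 3 24 (hmDelta 1 ^ 2) := (hD1.pow 2).congr_weight (by norm_num)
  have hD3sq : IsQExp 3 24 (hmDelta 3 ^ 2) := (hD3.pow 2).congr_weight (by norm_num)
  have hc3 : IsQExp 3 24 (270 * (hmDelta 1 * hmDelta 3)) := by
    simpa using hmst_natCast_mul 270 hD13
  have hc4 : IsQExp 3 24 (729 * hmDelta 3 ^ 2) := by
    simpa using hmst_natCast_mul 729 hD3sq
  have h2 : IsQExp 3 48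
      ((hmDelta 1 ^ 2 + 270 * (hmDelta 1 * hmDelta 3) + 729 * hmDelta 3 ^ 2) ^ 2) :=
    (((hD1sq.add hc3).add hc4).pow 2).congr_weight (by norm_num)
  exact hmst_eq_of_sturm3 h1 h2 hm_check3b

end Fermat.Agent.S18L
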