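/-
S18 library, package HM (helper3): `j(τ)`, `j(2τ)` in terms of the Hauptmodul
`h₂ = (η(τ)/η(2τ))²⁴` of `Γ₀(2)`, as identities in `ℤ((q))`.
-/
import Mathlib
import Fermat.Agent.S18L.HMDefs
import Fermat.Agent.S18L.HMSturm

set_option autoImplicit false

namespace Fermat.Agent.S18L

open ModularCurve

/-- `hmExp 1` is the identity. -/
theorem hml2_hmExp_one (p : PowerSeries ℤ) : hmExp 1 p = p := by
  ext n
  simp [hmExp]

/-- the constant coefficient of `hmEta d` is `1`. -/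
theorem hml2_constantCoeff_hmEta (d : ℕ) : PowerSeries.constantCoeff (hmEta d) = 1 := by
  have h : PowerSeries.coeff 0 (hmEta d) = PowerSeries.coeff 0 etaProd := by
    simp [hmEta, hmExp]
  rw [← PowerSeries.coeff_zero_eq_constantCoeff_apply, h,
    PowerSeries.coeff_zero_eq_constantCoeff_apply]
  exact constantCoeff_etaProd

/-- `hmEtaInv d` is the inverse of `hmEta d`. -/
theorem hml2_hmEta_mul_inv (d : ℕ) : hmEta d * hmEtaInv d = 1 :=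
  PowerSeries.mul_invOfUnit _ _ (by rw [hml2_constantCoeff_hmEta]; rfl)

/-- `q ↦ q ^ d` on Laurent series restricts to `hmExp d` on power series. -/
theorem hml2_qExpand_ofPowerSeries (d : ℕ) [NeZero d] (p : PowerSeries ℤ) :
    qExpand ℤ d (HahnSeries.ofPowerSeries ℤ ℤ p) = HahnSeries.ofPowerSeries ℤ ℤ (hmExp d p) := by
  have hd : 0 < d := Nat.pos_of_ne_zero (NeZero.ne d)
  ext k
  by_cases hk : (d : ℤ) ∣ k
  · obtain ⟨c, rfl⟩ := hk
    rw [qExpand_coeff_mul]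
    rcases lt_or_ge c 0 with hc | hc
    · have hneg : (d : ℤ) * c < 0 := mul_neg_of_pos_of_neg (by exact_mod_cast hd) hc
      rw [ofPowerSeries_coeff_of_neg _ hc, ofPowerSeries_coeff_of_neg _ hneg]
    · lift c to ℕ using hc
      have e : (d : ℤ) * (c : ℤ) = ((d * c : ℕ) : ℤ) := by push_cast; ring
      rw [e, HahnSeries.ofPowerSeries_apply_coeff, HahnSeries.ofPowerSeries_apply_coeff]
      simp [hmExp, Nat.mul_div_cancel_left c hd]
  · rw [qExpand_coeff_of_not_dvd d _ hk]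
    rcases lt_or_ge k 0 with hk0 | hk0
    · rw [ofPowerSeries_coeff_of_neg _ hk0]
    · lift k to ℕ using hk0
      rw [HahnSeries.ofPowerSeries_apply_coeff]
      have hnd : ¬ d ∣ k := fun h => hk (Int.natCast_dvd_natCast.mpr h)
      simp [hmExp, hnd]

/-- `q⁻¹ · q = 1` in `ℤ((q))`. -/
theorem hml2_single_mul_X :
    (HahnSeries.single (-1 : ℤ) (1 : ℤ) : LaurentSeries ℤ) *
      HahnSeries.ofPowerSeries ℤ ℤ PowerSeries.X = 1 := by
  rw [HahnSeries.ofPowerSeries_X, HahnSeries.single_mul_single]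
  simp

/-- `Δ(q ^ d) ≠ 0` in `ℤ((q))`. -/
theorem hml2_delta_ne_zero (d : ℕ) : HahnSeries.ofPowerSeries ℤ ℤ (hmDelta d) ≠ 0 := by
  intro h
  have h0 : hmDelta d = 0 := HahnSeries.ofPowerSeries_injective (h.trans (map_zero _).symm)
  unfold hmDelta at h0
  rcases mul_eq_zero.mp h0 with h1 | h1
  · exact pow_ne_zero d PowerSeries.X_ne_zero h1
  · have h2 : hmEta d = 0 := pow_eq_zero_iff (by norm_num) |>.mp h1
    have h3 := hml2_constantCoeff_hmEta d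
    rw [h2, map_zero] at h3
    exact zero_ne_one h3

/-- (i) `h₂ · Δ(q²) = Δ(q)`. -/
theorem hml2_hm2Z_mul :
    hm2Z * HahnSeries.ofPowerSeries ℤ ℤ (hmDelta 2) = HahnSeries.ofPowerSeries ℤ ℤ (hmDelta 1) := by
  have h2 := hml2_hmEta_mul_inv 2
  have h1 : hmEta 1 ^ 24 * hmEtaInv 2 ^ 24 * hmDelta 2 = PowerSeries.X * hmDelta 1 := by
    unfold hmDelta
    calc hmEta 1 ^ 24 * hmEtaInv 2 ^ 24 * (PowerSeries.X ^ 2 * hmEta 2 ^ 24)
        = PowerSeries.X ^ 2 * hmEta 1 ^ 24 * (hmEta 2 * hmEtaInv 2) ^ 24 := by ring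
      _ = PowerSeries.X * (PowerSeries.X ^ 1 * hmEta 1 ^ 24) := by rw [h2]; ring
  unfold hm2Z hmQuot
  rw [mul_assoc, ← map_mul, h1, map_mul, ← mul_assoc, hml2_single_mul_X, one_mul]

/-- (ii) `j(q) · Δ(q) = E₄(q)³`. -/
theorem hml2_jq_mul :
    jqModC ℤ * HahnSeries.ofPowerSeries ℤ ℤ (hmDelta 1)
      = HahnSeries.ofPowerSeries ℤ ℤ (hmE4 1) ^ 3 := by
  have hmap : jNum.map (Int.castRingHom ℤ) = jNum := by
    ext n
    simp
  have h2 := dedekindEtaUnit_mul_inv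
  have h3 : etaProd ^ 24 = dedekindEtaUnit := rfl
  have h1 : jNum * hmDelta 1 = PowerSeries.X * hmE4 1 ^ 3 := by
    unfold hmDelta hmE4 hmEta jNum
    rw [hml2_hmExp_one, hml2_hmExp_one, h3]
    calc eisenstein4 ^ 3 * dedekindEtaUnitInv * (PowerSeries.X ^ 1 * dedekindEtaUnit)
        = PowerSeries.X * eisenstein4 ^ 3 * (dedekindEtaUnit * dedekindEtaUnitInv) := by ring
      _ = PowerSeries.X * eisenstein4 ^ 3 := by rw [h2, mul_one]
  unfold jqModC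
  rw [hmap, mul_assoc, ← map_mul, h1, map_mul, ← mul_assoc, hml2_single_mul_X, one_mul, map_pow]

/-- (iii) `j(q²) · Δ(q²) = E₄(q²)³`. -/
theorem hml2_jqN_mul :
    jqNModC ℤ 2 * HahnSeries.ofPowerSeries ℤ ℤ (hmDelta 2)
      = HahnSeries.ofPowerSeries ℤ ℤ (hmE4 2) ^ 3 := by
  have h := congrArg (qExpand ℤ 2) hml2_jq_mul
  rw [map_mul, map_pow, hml2_qExpand_ofPowerSeries, hml2_qExpand_ofPowerSeries] at h
  have hE : hmExp 2 (hmE4 1) = hmE4 2 := by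
    unfold hmE4
    rw [hml2_hmExp_one]
  have hD : HahnSeries.ofPowerSeries ℤ ℤ (hmExp 2 (hmDelta 1))
      = HahnSeries.ofPowerSeries ℤ ℤ (hmDelta 2) := by
    rw [← hml2_qExpand_ofPowerSeries]
    unfold hmDelta hmEta
    rw [hml2_hmExp_one]
    simp only [map_mul, map_pow, HahnSeries.ofPowerSeries_X, qExpand_single,
      hml2_qExpand_ofPowerSeries]
    simp [HahnSeries.single_pow]
  rw [hD, hE] at h
  exact h

/-- the algebra behind `hm2Z_jq1`. -/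
theorem hml2_alg1 {A : Type*} [CommRing A] [IsDomain A] (J h D₁ D₂ F : A) (hD1 : D₁ ≠ 0)
    (hD2 : D₂ ≠ 0) (hi : h * D₂ = D₁) (hii : J * D₁ = F ^ 3)
    (hS : F ^ 3 * D₁ * D₂ = (D₁ + 256 * D₂) ^ 3) : J * h ^ 2 = (h + 256) ^ 3 := by
  apply mul_left_cancel₀ (mul_ne_zero hD1 (pow_ne_zero 3 hD2))
  calc D₁ * D₂ ^ 3 * (J * h ^ 2) = J * D₁ * (h * D₂) ^ 2 * D₂ := by ring
    _ = F ^ 3 * D₁ ^ 2 * D₂ := by rw [hii, hi]
    _ = F ^ 3 * D₁ * D₂ * D₁ := by ring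
    _ = (D₁ + 256 * D₂) ^ 3 * D₁ := by rw [hS]
    _ = (h * D₂ + 256 * D₂) ^ 3 * D₁ := by rw [hi]
    _ = D₁ * D₂ ^ 3 * (h + 256) ^ 3 := by ring

/-- the algebra behind `hm2Z_jq2`. -/
theorem hml2_alg2 {A : Type*} [CommRing A] [IsDomain A] (J h D₁ D₂ F : A) (hD1 : D₁ ≠ 0)
    (hD2 : D₂ ≠ 0) (hi : h * D₂ = D₁) (hiii : J * D₂ = F ^ 3)
    (hS : F ^ 3 * D₁ * D₂ = (D₁ + 16 * D₂) ^ 3) : J * h = (h + 16) ^ 3 := by
  apply mul_left_cancel₀ (mul_ne_zero hD1 (pow_ne_zero 3 hD2))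
  calc D₁ * D₂ ^ 3 * (J * h) = J * D₂ * (h * D₂) * D₂ * D₁ := by ring
    _ = F ^ 3 * D₁ * D₂ * D₁ := by rw [hiii, hi]
    _ = (D₁ + 16 * D₂) ^ 3 * D₁ := by rw [hS]
    _ = (h * D₂ + 16 * D₂) ^ 3 * D₁ := by rw [hi]
    _ = D₁ * D₂ ^ 3 * (h + 16) ^ 3 := by ring

theorem hm2Z_jq1 : jqModC ℤ * hm2Z ^ 2 = (hm2Z + 256) ^ 3 := by
  have hS := congrArg (HahnSeries.ofPowerSeries ℤ ℤ) hm_sturm2a
  simp only [map_mul, map_pow, map_add, map_ofNat] at hS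
  exact hml2_alg1 _ _ _ _ _ (hml2_delta_ne_zero 1) (hml2_delta_ne_zero 2) hml2_hm2Z_mul
    hml2_jq_mul hS

theorem hm2Z_jq2 : jqNModC ℤ 2 * hm2Z = (hm2Z + 16) ^ 3 := by
  have hS := congrArg (HahnSeries.ofPowerSeries ℤ ℤ) hm_sturm2b
  simp only [map_mul, map_pow, map_add, map_ofNat] at hS
  exact hml2_alg2 _ _ _ _ _ (hml2_delta_ne_zero 1) (hml2_delta_ne_zero 2) hml2_hm2Z_mul
    hml2_jqN_mul hS

end Fermat.Agent.S18L
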