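/-
S18 library, package HM (helper3): `j(τ)`, `j(3τ)` in terms of the Hauptmodul
`h₃ = (η(τ)/η(3τ))¹²` of `Γ₀(3)`, as identities in `ℤ((q))`.
-/
import Mathlib
import Fermat.Agent.S18L.HMDefs
import Fermat.Agent.S18L.HMSturm

set_option autoImplicit false

namespace Fermat.Agent.S18L

open ModularCurve

/-! ### power series part -/

theorem hml3_hmExp_one (p : PowerSeries ℤ) : hmExp 1 p = p := by
  ext n
  simp [hmExp, PowerSeries.coeff_mk]

theorem hml3_constantCoeff_hmExp (d : ℕ) (p : PowerSeries ℤ) :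
    PowerSeries.constantCoeff (hmExp d p) = PowerSeries.constantCoeff p := by
  rw [← PowerSeries.coeff_zero_eq_constantCoeff_apply,
    ← PowerSeries.coeff_zero_eq_constantCoeff_apply, hmExp, PowerSeries.coeff_mk,
    if_pos (dvd_zero d), Nat.zero_div]

theorem hml3_constantCoeff_hmEta (d : ℕ) : PowerSeries.constantCoeff (hmEta d) = 1 := by
  rw [hmEta, hml3_constantCoeff_hmExp, constantCoeff_etaProd]

theorem hml3_constantCoeff_hmE4 (d : ℕ) : PowerSeries.constantCoeff (hmE4 d) = 1 := by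
  rw [hmE4, hml3_constantCoeff_hmExp, constantCoeff_eisenstein4]

theorem hml3_hmEta_mul_inv (d : ℕ) : hmEta d * hmEtaInv d = 1 :=
  PowerSeries.mul_invOfUnit _ _ (by rw [hml3_constantCoeff_hmEta]; rfl)

theorem hml3_hmDelta_one : hmDelta 1 = PowerSeries.X * (hmEta 1 ^ 12) ^ 2 := by
  rw [hmDelta]
  ring

theorem hml3_hmDelta_three :
    hmDelta 3 = PowerSeries.X * (PowerSeries.X * hmEta 3 ^ 12) ^ 2 := by
  rw [hmDelta]
  ring

/-- Extraction of the square root: if `(X a²)(X b²)(E³ - X V)² = (X² U)²` with `b = X c` and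
`a, c, E, U` of constant coefficient `1`, then `E³ a b = X (U + a b V)` (the sign is read off
from the coefficient of `X`). -/
theorem hml3_sqrt (a c E U V : PowerSeries ℤ)
    (ha : PowerSeries.constantCoeff a = 1) (hc : PowerSeries.constantCoeff c = 1)
    (hE : PowerSeries.constantCoeff E = 1) (hU : PowerSeries.constantCoeff U = 1)
    (h : (PowerSeries.X * a ^ 2) * (PowerSeries.X * (PowerSeries.X * c) ^ 2) *
        (E ^ 3 - PowerSeries.X * V) ^ 2 = (PowerSeries.X ^ 2 * U) ^ 2) :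
    E ^ 3 * a * (PowerSeries.X * c) = PowerSeries.X * (U + a * (PowerSeries.X * c) * V) := by
  have hX : (PowerSeries.X : PowerSeries ℤ) ^ 2 ≠ 0 := pow_ne_zero 2 PowerSeries.X_ne_zero
  have h1 : (a * (PowerSeries.X * c) * (E ^ 3 - PowerSeries.X * V)) ^ 2
      = (PowerSeries.X * U) ^ 2 := by
    apply mul_left_cancel₀ hX
    linear_combination h
  have c1 : PowerSeries.coeff 1 (a * (PowerSeries.X * c) * (E ^ 3 - PowerSeries.X * V)) = 1 := by
    have e : a * (PowerSeries.X * c) * (E ^ 3 - PowerSeries.X * V)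
        = PowerSeries.X * (a * c * (E ^ 3 - PowerSeries.X * V)) := by ring
    rw [e, show (1 : ℕ) = 0 + 1 from rfl, PowerSeries.coeff_succ_X_mul,
      PowerSeries.coeff_zero_eq_constantCoeff_apply, map_mul, map_mul, map_sub, map_pow, map_mul,
      ha, hc, hE, PowerSeries.constantCoeff_X]
    norm_num
  have c2 : PowerSeries.coeff 1 (PowerSeries.X * U) = 1 := by
    rw [show (1 : ℕ) = 0 + 1 from rfl, PowerSeries.coeff_succ_X_mul,
      PowerSeries.coeff_zero_eq_constantCoeff_apply, hU]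
  rcases sq_eq_sq_iff_eq_or_eq_neg.mp h1 with h2 | h2
  · linear_combination h2
  · exfalso
    have h3 := congrArg (PowerSeries.coeff 1) h2
    rw [c1, map_neg, c2] at h3
    norm_num at h3

/-- the level-three identity for `j(τ)`, in `ℤ[[q]]`, with the square root extracted. -/
theorem hml3_ps_a :
    hmE4 1 ^ 3 * hmEta 1 ^ 12 * (PowerSeries.X * hmEta 3 ^ 12)
      = PowerSeries.X * ((hmEta 1 ^ 12 + 27 * (PowerSeries.X * hmEta 3 ^ 12)) *
          (hmEta 1 ^ 12 + 243 * (PowerSeries.X * hmEta 3 ^ 12)) ^ 3) := by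
  have ha : PowerSeries.constantCoeff (hmEta 1 ^ 12) = 1 := by
    rw [map_pow, hml3_constantCoeff_hmEta, one_pow]
  have hc : PowerSeries.constantCoeff (hmEta 3 ^ 12) = 1 := by
    rw [map_pow, hml3_constantCoeff_hmEta, one_pow]
  have hU : PowerSeries.constantCoeff ((hmEta 1 ^ 12) ^ 4
      + 196830 * ((hmEta 1 ^ 12) ^ 2 * (PowerSeries.X * hmEta 3 ^ 12) ^ 2)
      + 387420489 * (PowerSeries.X * hmEta 3 ^ 12) ^ 4) = 1 := by
    simp only [map_add, map_mul, map_pow, ha, hc, PowerSeries.constantCoeff_X]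
    norm_num
  have h := hm_sturm3a
  rw [hml3_hmDelta_one, hml3_hmDelta_three] at h
  have key := hml3_sqrt (hmEta 1 ^ 12) (hmEta 3 ^ 12) (hmE4 1) _
    (756 * (hmEta 1 ^ 12) ^ 2 + 19131876 * (PowerSeries.X * hmEta 3 ^ 12) ^ 2) ha hc
    (hml3_constantCoeff_hmE4 1) hU (by linear_combination h)
  linear_combination key

/-- the level-three identity for `j(3τ)`, in `ℤ[[q]]`, with the square root extracted. -/
theorem hml3_ps_b :
    hmE4 3 ^ 3 * hmEta 1 ^ 12 * (PowerSeries.X * hmEta 3 ^ 12)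
      = PowerSeries.X * ((hmEta 1 ^ 12 + 27 * (PowerSeries.X * hmEta 3 ^ 12)) *
          (hmEta 1 ^ 12 + 3 * (PowerSeries.X * hmEta 3 ^ 12)) ^ 3) := by
  have ha : PowerSeries.constantCoeff (hmEta 1 ^ 12) = 1 := by
    rw [map_pow, hml3_constantCoeff_hmEta, one_pow]
  have hc : PowerSeries.constantCoeff (hmEta 3 ^ 12) = 1 := by
    rw [map_pow, hml3_constantCoeff_hmEta, one_pow]
  have hU : PowerSeries.constantCoeff ((hmEta 1 ^ 12) ^ 4
      + 270 * ((hmEta 1 ^ 12) ^ 2 * (PowerSeries.X * hmEta 3 ^ 12) ^ 2)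
      + 729 * (PowerSeries.X * hmEta 3 ^ 12) ^ 4) = 1 := by
    simp only [map_add, map_mul, map_pow, ha, hc, PowerSeries.constantCoeff_X]
    norm_num
  have h := hm_sturm3b
  rw [hml3_hmDelta_one, hml3_hmDelta_three] at h
  have key := hml3_sqrt (hmEta 1 ^ 12) (hmEta 3 ^ 12) (hmE4 3) _
    (36 * (hmEta 1 ^ 12) ^ 2 + 756 * (PowerSeries.X * hmEta 3 ^ 12) ^ 2) ha hc
    (hml3_constantCoeff_hmE4 3) hU (by linear_combination h)
  linear_combination key

/-! ### Laurent series part -/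

/-- `q⁻¹ * q = 1` in `ℤ((q))`. -/
theorem hml3_single_mul_X :
    HahnSeries.single (-1 : ℤ) (1 : ℤ) * HahnSeries.ofPowerSeries ℤ ℤ PowerSeries.X = 1 := by
  rw [HahnSeries.ofPowerSeries_X, HahnSeries.single_mul_single, neg_add_cancel, mul_one]
  rfl

/-- `h₃ * b = a` with `a = ∏ (1 - q^n)^12`, `b = q ∏ (1 - q^(3n))^12`. -/
theorem hml3_hm3Z_mul :
    hm3Z * HahnSeries.ofPowerSeries ℤ ℤ (PowerSeries.X * hmEta 3 ^ 12)
      = HahnSeries.ofPowerSeries ℤ ℤ (hmEta 1 ^ 12) := by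
  have e : hmEta 1 ^ 12 * hmEtaInv 3 ^ 12 * hmEta 3 ^ 12 = hmEta 1 ^ 12 := by
    rw [mul_assoc, ← mul_pow, mul_comm (hmEtaInv 3), hml3_hmEta_mul_inv, one_pow, mul_one]
  calc hm3Z * HahnSeries.ofPowerSeries ℤ ℤ (PowerSeries.X * hmEta 3 ^ 12)
      = (HahnSeries.single (-1 : ℤ) (1 : ℤ) * HahnSeries.ofPowerSeries ℤ ℤ PowerSeries.X) *
          HahnSeries.ofPowerSeries ℤ ℤ (hmEta 1 ^ 12 * hmEtaInv 3 ^ 12 * hmEta 3 ^ 12) := by
        rw [hm3Z, hmQuot, map_mul (HahnSeries.ofPowerSeries ℤ ℤ) PowerSeries.X,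
          map_mul (HahnSeries.ofPowerSeries ℤ ℤ) (hmEta 1 ^ 12 * hmEtaInv 3 ^ 12)]
        ring
    _ = HahnSeries.ofPowerSeries ℤ ℤ (hmEta 1 ^ 12) := by
        rw [hml3_single_mul_X, one_mul, e]

/-- `j * Δ = E₄³` in `ℤ((q))`. -/
theorem hml3_jq_mul :
    jqModC ℤ * HahnSeries.ofPowerSeries ℤ ℤ (hmDelta 1)
      = HahnSeries.ofPowerSeries ℤ ℤ (hmE4 1) ^ 3 := by
  have e1 : jNum.map (Int.castRingHom ℤ) = jNum := by
    ext n
    simp
  have e2 : jNum * (PowerSeries.X * hmEta 1 ^ 24) = PowerSeries.X * hmE4 1 ^ 3 := by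
    rw [hmEta, hmE4, hml3_hmExp_one, hml3_hmExp_one, jNum]
    have h := dedekindEtaUnit_mul_inv
    rw [dedekindEtaUnit] at h
    linear_combination (PowerSeries.X * eisenstein4 ^ 3) * h
  calc jqModC ℤ * HahnSeries.ofPowerSeries ℤ ℤ (hmDelta 1)
      = HahnSeries.single (-1 : ℤ) (1 : ℤ) *
          HahnSeries.ofPowerSeries ℤ ℤ (jNum * (PowerSeries.X * hmEta 1 ^ 24)) := by
        rw [jqModC, e1, hmDelta, pow_one, map_mul (HahnSeries.ofPowerSeries ℤ ℤ) jNum, mul_assoc]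
    _ = (HahnSeries.single (-1 : ℤ) (1 : ℤ) * HahnSeries.ofPowerSeries ℤ ℤ PowerSeries.X) *
          HahnSeries.ofPowerSeries ℤ ℤ (hmE4 1) ^ 3 := by
        rw [e2, map_mul, map_pow, mul_assoc]
    _ = HahnSeries.ofPowerSeries ℤ ℤ (hmE4 1) ^ 3 := by
        rw [hml3_single_mul_X, one_mul]

/-- `q ↦ q^d` on Laurent series restricts to `hmExp d` on power series. -/
theorem hml3_qExpand_ofPowerSeries (d : ℕ) [NeZero d] (p : PowerSeries ℤ) :
    qExpand ℤ d (HahnSeries.ofPowerSeries ℤ ℤ p) = HahnSeries.ofPowerSeries ℤ ℤ (hmExp d p) := by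
  have hd : (d : ℤ) ≠ 0 := Int.natCast_ne_zero.mpr (NeZero.ne d)
  ext k
  rcases lt_or_ge k 0 with hk | hk
  · rw [ofPowerSeries_coeff_of_neg _ hk]
    by_cases hdk : (d : ℤ) ∣ k
    · obtain ⟨m, rfl⟩ := hdk
      have hm : m < 0 := by
        by_contra hm
        exact absurd hk (not_lt.mpr (mul_nonneg (Int.natCast_nonneg d) (not_lt.mp hm)))
      rw [qExpand_coeff_mul, ofPowerSeries_coeff_of_neg _ hm]
    · exact qExpand_coeff_of_not_dvd d _ hdk
  · lift k to ℕ using hk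
    rw [HahnSeries.ofPowerSeries_apply_coeff, hmExp, PowerSeries.coeff_mk]
    by_cases hdk : d ∣ k
    · obtain ⟨m, rfl⟩ := hdk
      rw [if_pos (dvd_mul_right d m), Nat.mul_div_cancel_left m (Nat.pos_of_ne_zero (NeZero.ne d)),
        Nat.cast_mul, qExpand_coeff_mul, HahnSeries.ofPowerSeries_apply_coeff]
    · rw [if_neg hdk]
      exact qExpand_coeff_of_not_dvd d _ (fun h => hdk (Int.natCast_dvd_natCast.mp h))

/-- `j(q³) * Δ(q³) = E₄(q³)³` in `ℤ((q))`. -/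
theorem hml3_jq3_mul :
    jqNModC ℤ 3 * HahnSeries.ofPowerSeries ℤ ℤ (hmDelta 3)
      = HahnSeries.ofPowerSeries ℤ ℤ (hmE4 3) ^ 3 := by
  have h := congrArg (qExpand ℤ 3) hml3_jq_mul
  have hX : qExpand ℤ 3 (HahnSeries.ofPowerSeries ℤ ℤ PowerSeries.X)
      = HahnSeries.ofPowerSeries ℤ ℤ (PowerSeries.X ^ 3) := by
    rw [HahnSeries.ofPowerSeries_X, qExpand_single, HahnSeries.ofPowerSeries_X_pow]
    rfl
  have hEta : qExpand ℤ 3 (HahnSeries.ofPowerSeries ℤ ℤ (hmEta 1))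
      = HahnSeries.ofPowerSeries ℤ ℤ (hmEta 3) := by
    rw [hml3_qExpand_ofPowerSeries, hmEta, hml3_hmExp_one, hmEta]
  have hE : qExpand ℤ 3 (HahnSeries.ofPowerSeries ℤ ℤ (hmE4 1))
      = HahnSeries.ofPowerSeries ℤ ℤ (hmE4 3) := by
    rw [hml3_qExpand_ofPowerSeries, hmE4, hml3_hmExp_one, hmE4]
  have hD : qExpand ℤ 3 (HahnSeries.ofPowerSeries ℤ ℤ (hmDelta 1))
      = HahnSeries.ofPowerSeries ℤ ℤ (hmDelta 3) := by
    rw [hmDelta, hmDelta, pow_one, map_mul (HahnSeries.ofPowerSeries ℤ ℤ), map_pow, map_mul,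
      map_pow, hX, hEta, map_mul (HahnSeries.ofPowerSeries ℤ ℤ), map_pow, map_pow]
  rw [map_mul, map_pow, hD, hE] at h
  exact h

/-- cancellation step for `j(τ)` (in any commutative domain). -/
theorem hml3_cancel_a {K : Type*} [CommRing K] [IsDomain K] (J h A B x E : K) (hx : x ≠ 0)
    (hB : B ≠ 0) (R1 : h * B = A) (R2 : J * (x * A ^ 2) = E ^ 3)
    (R3 : E ^ 3 * A * B = x * ((A + 27 * B) * (A + 243 * B) ^ 3)) :
    J * h ^ 3 = (h + 27) * (h + 243) ^ 3 := by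
  subst R1
  have key : x * B ^ 4 * (J * h ^ 3) = x * B ^ 4 * ((h + 27) * (h + 243) ^ 3) := by
    linear_combination (h * B ^ 2) * R2 + R3
  exact mul_left_cancel₀ (mul_ne_zero hx (pow_ne_zero 4 hB)) key

/-- cancellation step for `j(3τ)` (in any commutative domain). -/
theorem hml3_cancel_b {K : Type*} [CommRing K] [IsDomain K] (J h A B x E : K) (hx : x ≠ 0)
    (hB : B ≠ 0) (R1 : h * B = A) (R2 : J * (x * B ^ 2) = E ^ 3)
    (R3 : E ^ 3 * A * B = x * ((A + 27 * B) * (A + 3 * B) ^ 3)) :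
    J * h = (h + 27) * (h + 3) ^ 3 := by
  subst R1
  have key : x * B ^ 4 * (J * h) = x * B ^ 4 * ((h + 27) * (h + 3) ^ 3) := by
    linear_combination (h * B ^ 2) * R2 + R3
  exact mul_left_cancel₀ (mul_ne_zero hx (pow_ne_zero 4 hB)) key

/-- transport of the power series identity for `j(τ)` along a ring homomorphism. -/
theorem hml3_map_a {K : Type*} [CommRing K] (f : PowerSeries ℤ →+* K) (E a b x : PowerSeries ℤ)
    (h : E ^ 3 * a * b = x * ((a + 27 * b) * (a + 243 * b) ^ 3)) :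
    f E ^ 3 * f a * f b = f x * ((f a + 27 * f b) * (f a + 243 * f b) ^ 3) := by
  have h' := congrArg f h
  simpa only [map_mul, map_pow, map_add, map_ofNat] using h'

/-- transport of the power series identity for `j(3τ)` along a ring homomorphism. -/
theorem hml3_map_b {K : Type*} [CommRing K] (f : PowerSeries ℤ →+* K) (E a b x : PowerSeries ℤ)
    (h : E ^ 3 * a * b = x * ((a + 27 * b) * (a + 3 * b) ^ 3)) :
    f E ^ 3 * f a * f b = f x * ((f a + 27 * f b) * (f a + 3 * f b) ^ 3) := by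
  have h' := congrArg f h
  simpa only [map_mul, map_pow, map_add, map_ofNat] using h'

theorem hml3_ofPowerSeries_X_ne_zero :
    HahnSeries.ofPowerSeries ℤ ℤ (PowerSeries.X : PowerSeries ℤ) ≠ 0 := by
  intro h
  have h1 := hml3_single_mul_X
  rw [h, mul_zero] at h1
  exact zero_ne_one h1

theorem hml3_ofPowerSeries_b_ne_zero :
    HahnSeries.ofPowerSeries ℤ ℤ (PowerSeries.X * hmEta 3 ^ 12) ≠ 0 := by
  intro h
  have h0 : PowerSeries.X * hmEta 3 ^ 12 = 0 :=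
    HahnSeries.ofPowerSeries_injective (by rw [h, map_zero])
  have h1 : hmEta 3 ≠ 0 := by
    intro h2
    have h3 := hml3_constantCoeff_hmEta 3
    rw [h2, map_zero] at h3
    exact zero_ne_one h3
  exact mul_ne_zero PowerSeries.X_ne_zero (pow_ne_zero 12 h1) h0

theorem hm3Z_jq1 : jqModC ℤ * hm3Z ^ 3 = (hm3Z + 27) * (hm3Z + 243) ^ 3 := by
  refine hml3_cancel_a (jqModC ℤ) hm3Z (HahnSeries.ofPowerSeries ℤ ℤ (hmEta 1 ^ 12))
    (HahnSeries.ofPowerSeries ℤ ℤ (PowerSeries.X * hmEta 3 ^ 12))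
    (HahnSeries.ofPowerSeries ℤ ℤ PowerSeries.X) (HahnSeries.ofPowerSeries ℤ ℤ (hmE4 1))
    hml3_ofPowerSeries_X_ne_zero hml3_ofPowerSeries_b_ne_zero hml3_hm3Z_mul ?_ ?_
  · have h := hml3_jq_mul
    rw [hml3_hmDelta_one, map_mul, map_pow] at h
    exact h
  · exact hml3_map_a _ _ _ _ _ hml3_ps_a

theorem hm3Z_jq3 : jqNModC ℤ 3 * hm3Z = (hm3Z + 27) * (hm3Z + 3) ^ 3 := by
  refine hml3_cancel_b (jqNModC ℤ 3) hm3Z (HahnSeries.ofPowerSeries ℤ ℤ (hmEta 1 ^ 12))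
    (HahnSeries.ofPowerSeries ℤ ℤ (PowerSeries.X * hmEta 3 ^ 12))
    (HahnSeries.ofPowerSeries ℤ ℤ PowerSeries.X) (HahnSeries.ofPowerSeries ℤ ℤ (hmE4 3))
    hml3_ofPowerSeries_X_ne_zero hml3_ofPowerSeries_b_ne_zero hml3_hm3Z_mul ?_ ?_
  · have h := hml3_jq3_mul
    rw [hml3_hmDelta_three, map_mul, map_pow] at h
    exact h
  · exact hml3_map_b _ _ _ _ _ hml3_ps_b

end Fermat.Agent.S18L
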