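/-
S18 library, package HM (helper3): explicit Hauptmoduln for `Γ₀(2)` and `Γ₀(3)`.
Shape of the Laurent series `h₂ = (η(τ)/η(2τ))²⁴`, `h₃ = (η(τ)/η(3τ))¹²` and the identities
expressing `j(q)`, `j(q^p)` through them, over an arbitrary commutative ring.
-/
import Mathlib
import Fermat.Agent.S18L.HMDefs
import Fermat.Agent.S18L.HMLevel2
import Fermat.Agent.S18L.HMLevel3

set_option autoImplicit false

namespace Fermat.Agent.S18L

open ModularCurve IntermediateField

/-! ### auxiliary lemmas -/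

theorem hmid_constantCoeff_hmExp (d : ℕ) (p : PowerSeries ℤ) :
    PowerSeries.constantCoeff (hmExp d p) = PowerSeries.constantCoeff p := by
  rw [← PowerSeries.coeff_zero_eq_constantCoeff_apply, hmExp, PowerSeries.coeff_mk,
    if_pos (dvd_zero d), Nat.zero_div, PowerSeries.coeff_zero_eq_constantCoeff_apply]

theorem hmid_constantCoeff_hmEta (d : ℕ) : PowerSeries.constantCoeff (hmEta d) = 1 := by
  rw [hmEta, hmid_constantCoeff_hmExp, constantCoeff_etaProd]

theorem hmid_constantCoeff_hmEtaInv (d : ℕ) : PowerSeries.constantCoeff (hmEtaInv d) = 1 := by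
  rw [hmEtaInv, PowerSeries.constantCoeff_invOfUnit]
  simp

/-- the unit part `∏ ((1 - q ^ n) / (1 - q ^ (d n))) ^ e` has constant coefficient `1`. -/
theorem hmid_constantCoeff_unit (d e : ℕ) :
    PowerSeries.constantCoeff (hmEta 1 ^ e * hmEtaInv d ^ e) = 1 := by
  rw [map_mul, map_pow, map_pow, hmid_constantCoeff_hmEta, hmid_constantCoeff_hmEtaInv, one_pow,
    one_mul]

/-- base change of the eta quotient. -/
theorem hmid_coeffMap_hmQuot (R : Type*) [CommRing R] (d e : ℕ) :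
    coeffMap (Int.castRingHom R) (hmQuot d e) = HahnSeries.single (-1 : ℤ) (1 : R) *
      HahnSeries.ofPowerSeries ℤ R ((hmEta 1 ^ e * hmEtaInv d ^ e).map (Int.castRingHom R)) := by
  rw [hmQuot, map_mul, coeffMap_single, map_one, coeffMap_ofPowerSeries]

theorem hmid_coeff_neg_one (R : Type*) [CommRing R] (u : PowerSeries ℤ)
    (hu : PowerSeries.constantCoeff u = 1) :
    (HahnSeries.single (-1 : ℤ) (1 : R) *
      HahnSeries.ofPowerSeries ℤ R (u.map (Int.castRingHom R))).coeff (-1) = 1 := by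
  rw [HahnSeries.coeff_single_mul, one_mul, sub_self, show (0 : ℤ) = ((0 : ℕ) : ℤ) from rfl,
    HahnSeries.ofPowerSeries_apply_coeff, PowerSeries.coeff_map,
    PowerSeries.coeff_zero_eq_constantCoeff_apply, hu, map_one]

theorem hmid_coeff_of_lt (R : Type*) [CommRing R] (u : PowerSeries ℤ) {k : ℤ} (hk : k < -1) :
    (HahnSeries.single (-1 : ℤ) (1 : R) *
      HahnSeries.ofPowerSeries ℤ R (u.map (Int.castRingHom R))).coeff k = 0 := by
  rw [HahnSeries.coeff_single_mul, one_mul]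
  exact ofPowerSeries_coeff_of_neg _ (by omega)

/-- compatibility of `coeffMap` with the unique ring homomorphisms out of `ℤ`. -/
theorem hmid_coeffMap_intCast {R S : Type*} [CommRing R] [CommRing S] (f : R →+* S)
    (x : LaurentSeries ℤ) :
    coeffMap f (coeffMap (Int.castRingHom R) x) = coeffMap (Int.castRingHom S) x := by
  rw [coeffMap_coeffMap]
  exact coeffMap_congr (RingHom.ext_int _ _) x

theorem hmid_three_eq_zero (R : Type*) [CommRing R] (h3 : (3 : R) = 0) :
    (3 : LaurentSeries R) = 0 := by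
  rw [← map_ofNat (HahnSeries.C (Γ := ℤ) (R := R)) 3, h3, map_zero]

theorem hmid_two_eq_zero (R : Type*) [CommRing R] (h2 : (2 : R) = 0) :
    (2 : LaurentSeries R) = 0 := by
  rw [← map_ofNat (HahnSeries.C (Γ := ℤ) (R := R)) 2, h2, map_zero]

section shape
variable (R : Type*) [CommRing R]

theorem coeffMap_hm2 {S : Type*} [CommRing S] (f : R →+* S) : coeffMap f (hm2 R) = hm2 S := by
  exact hmid_coeffMap_intCast f hm2Z

theorem coeffMap_hm3 {S : Type*} [CommRing S] (f : R →+* S) : coeffMap f (hm3 R) = hm3 S := by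
  exact hmid_coeffMap_intCast f hm3Z

/-- `h₂ = q⁻¹ + …` -/
theorem hm2_coeff_neg_one : (hm2 R).coeff (-1) = 1 := by
  rw [hm2, hm2Z, hmid_coeffMap_hmQuot]
  exact hmid_coeff_neg_one R _ (hmid_constantCoeff_unit 2 24)

theorem hm2_coeff_of_lt {k : ℤ} (hk : k < -1) : (hm2 R).coeff k = 0 := by
  rw [hm2, hm2Z, hmid_coeffMap_hmQuot]
  exact hmid_coeff_of_lt R _ hk

/-- `h₃ = q⁻¹ + …` -/
theorem hm3_coeff_neg_one : (hm3 R).coeff (-1) = 1 := by
  rw [hm3, hm3Z, hmid_coeffMap_hmQuot]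
  exact hmid_coeff_neg_one R _ (hmid_constantCoeff_unit 3 12)

theorem hm3_coeff_of_lt {k : ℤ} (hk : k < -1) : (hm3 R).coeff k = 0 := by
  rw [hm3, hm3Z, hmid_coeffMap_hmQuot]
  exact hmid_coeff_of_lt R _ hk

/-- `q · h₂` is an integral power series with constant coefficient `1`. -/
theorem hm2_eq_single_mul :
    ∃ u : PowerSeries ℤ, PowerSeries.constantCoeff u = 1 ∧
      hm2 R = HahnSeries.single (-1 : ℤ) (1 : R) *
        HahnSeries.ofPowerSeries ℤ R (u.map (Int.castRingHom R)) := by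
  exact ⟨_, hmid_constantCoeff_unit 2 24, hmid_coeffMap_hmQuot R 2 24⟩

/-- `q · h₃` is an integral power series with constant coefficient `1`. -/
theorem hm3_eq_single_mul :
    ∃ u : PowerSeries ℤ, PowerSeries.constantCoeff u = 1 ∧
      hm3 R = HahnSeries.single (-1 : ℤ) (1 : R) *
        HahnSeries.ofPowerSeries ℤ R (u.map (Int.castRingHom R)) := by
  exact ⟨_, hmid_constantCoeff_unit 3 12, hmid_coeffMap_hmQuot R 3 12⟩

end shape

section identities
variable (R : Type*) [CommRing R]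

/-! ### Level 2: `j(q)`, `j(q²)` as rational functions of `h = h₂` -/

theorem hm2_jq1 : jqModC R * hm2 R ^ 2 = (hm2 R + 256) ^ 3 := by
  have h := congrArg (coeffMap (Int.castRingHom R)) hm2Z_jq1
  simpa only [map_mul, map_pow, map_add, map_ofNat, coeffMap_jqModC, hm2] using h

theorem hm2_jq2 : jqNModC R 2 * hm2 R = (hm2 R + 16) ^ 3 := by
  have h := congrArg (coeffMap (Int.castRingHom R)) hm2Z_jq2
  simpa only [map_mul, map_pow, map_add, map_ofNat, coeffMap_jqNModC, hm2] using h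

/-- `j - 1728` in terms of `h₂`. -/
theorem hm2_jq1_sub : (jqModC R - 1728) * hm2 R ^ 2 = (hm2 R + 64) * (hm2 R - 512) ^ 2 := by
  linear_combination hm2_jq1 R

/-- characteristic `3`: `j̄ = (h + 1)³ / h²`. -/
theorem hm2_jq1_char3 (h3 : (3 : R) = 0) : jqModC R * hm2 R ^ 2 = (hm2 R + 1) ^ 3 := by
  have h3' := hmid_three_eq_zero R h3
  linear_combination hm2_jq1 R
    + (5592405 + 65535 * hm2 R + 255 * hm2 R ^ 2) * h3'

/-- characteristic `3`: `j̄(q²) = (h + 1)³ / h`. -/
theorem hm2_jq2_char3 (h3 : (3 : R) = 0) : jqNModC R 2 * hm2 R = (hm2 R + 1) ^ 3 := by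
  have h3' := hmid_three_eq_zero R h3
  linear_combination hm2_jq2 R + (1365 + 255 * hm2 R + 15 * hm2 R ^ 2) * h3'

/-! ### Level 3: `j(q)`, `j(q³)` as rational functions of `h = h₃` -/

theorem hm3_jq1 : jqModC R * hm3 R ^ 3 = (hm3 R + 27) * (hm3 R + 243) ^ 3 := by
  have h := congrArg (coeffMap (Int.castRingHom R)) hm3Z_jq1
  simpa only [map_mul, map_pow, map_add, map_ofNat, coeffMap_jqModC, hm3] using h

theorem hm3_jq3 : jqNModC R 3 * hm3 R = (hm3 R + 27) * (hm3 R + 3) ^ 3 := by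
  have h := congrArg (coeffMap (Int.castRingHom R)) hm3Z_jq3
  simpa only [map_mul, map_pow, map_add, map_ofNat, coeffMap_jqNModC, hm3] using h

/-- `j - 1728` in terms of `h₃`. -/
theorem hm3_jq1_sub :
    (jqModC R - 1728) * hm3 R ^ 3 = (hm3 R ^ 2 - 486 * hm3 R - 19683) ^ 2 := by
  linear_combination hm3_jq1 R

/-- characteristic `2`: `j̄ = (h + 1)⁴ / h³`. -/
theorem hm3_jq1_char2 (h2 : (2 : R) = 0) : jqModC R * hm3 R ^ 3 = (hm3 R + 1) ^ 4 := by
  have h2' := hmid_two_eq_zero R h2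
  linear_combination hm3_jq1 R
    + (193710244 + 9565936 * hm3 R + 98412 * hm3 R ^ 2 + 376 * hm3 R ^ 3) * h2'

/-- characteristic `2`: `j̄(q³) = (h + 1)⁴ / h`. -/
theorem hm3_jq3_char2 (h2 : (2 : R) = 0) : jqNModC R 3 * hm3 R = (hm3 R + 1) ^ 4 := by
  have h2' := hmid_two_eq_zero R h2
  linear_combination hm3_jq3 R + (364 + 376 * hm3 R + 132 * hm3 R ^ 2 + 16 * hm3 R ^ 3) * h2'

end identities

end Fermat.Agent.S18L
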