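/-
S18 library, package HM (helper3): the function fields of level `2` and `3` are `K(h₂)`, `K(h₃)`.
-/
import Mathlib
import Fermat.Prelude.Def_ModularCurve_ArithmeticGalois
import Fermat.Agent.S18L.HMDefs
import Fermat.Agent.S18L.HMId
import Fermat.Agent.S28L.Low

set_option autoImplicit false

namespace Fermat.Agent.S18L

open ModularCurve IntermediateField

section field
variable (K : Type*) [Field K]

/-! ### auxiliary lemmas (part `hmfa_`) -/

/-- multiplication by a constant on Laurent series, coefficientwise -/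
theorem hmfa_coeff_algebraMap_mul (c : K) (x : LaurentSeries K) (m : ℤ) :
    (algebraMap K (LaurentSeries K) c * x).coeff m = c * x.coeff m := by
  rw [algebraMap_laurentSeries_eq_single]
  exact HahnSeries.coeff_single_zero_mul

/-- `j` is transcendental over any field (leading term of `P(j)`). -/
theorem hmfa_transcendental_jqModC : Transcendental K (jqModC K) := by
  rw [transcendental_iff]
  intro P hP
  by_contra hP0
  have hcoeff : (Polynomial.aeval (jqModC K) P).coeff (-(P.natDegree : ℤ)) = P.leadingCoeff := by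
    rw [Polynomial.aeval_eq_sum_range, HahnSeries.coeff_sum,
      Finset.sum_eq_single P.natDegree]
    · rw [Algebra.smul_def, hmfa_coeff_algebraMap_mul, coeff_jqModC_pow_self, mul_one]
      rfl
    · intro i hi hne
      have hlt : i < P.natDegree :=
        lt_of_le_of_ne (Nat.lt_succ_iff.1 (Finset.mem_range.1 hi)) hne
      rw [Algebra.smul_def, hmfa_coeff_algebraMap_mul,
        coeff_jqModC_pow_of_lt K (by omega), mul_zero]
    · intro h
      exact absurd (Finset.mem_range.2 (Nat.lt_succ_self _)) h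
  rw [hP, HahnSeries.coeff_zero] at hcoeff
  exact hP0 (Polynomial.leadingCoeff_eq_zero.1 hcoeff.symm)

theorem hmfa_hm2_ne_zero : hm2 K ≠ 0 := by
  intro h
  have h1 := hm2_coeff_neg_one K
  rw [h, HahnSeries.coeff_zero] at h1
  exact zero_ne_one h1

theorem hmfa_hm3_ne_zero : hm3 K ≠ 0 := by
  intro h
  have h1 := hm3_coeff_neg_one K
  rw [h, HahnSeries.coeff_zero] at h1
  exact zero_ne_one h1

/-- `j = (h₂ + 256)³ / h₂²`. -/
theorem hmfa_jq_eq2 : jqModC K = (hm2 K + 256) ^ 3 / hm2 K ^ 2 :=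
  eq_div_of_mul_eq (pow_ne_zero 2 (hmfa_hm2_ne_zero K)) (hm2_jq1 K)

/-- `j(q²) = (h₂ + 16)³ / h₂`. -/
theorem hmfa_jq2_eq2 : jqNModC K 2 = (hm2 K + 16) ^ 3 / hm2 K :=
  eq_div_of_mul_eq (hmfa_hm2_ne_zero K) (hm2_jq2 K)

/-- `j = (h₃ + 27)(h₃ + 243)³ / h₃³`. -/
theorem hmfa_jq_eq3 : jqModC K = (hm3 K + 27) * (hm3 K + 243) ^ 3 / hm3 K ^ 3 :=
  eq_div_of_mul_eq (pow_ne_zero 3 (hmfa_hm3_ne_zero K)) (hm3_jq1 K)

/-- `j(q³) = (h₃ + 27)(h₃ + 3)³ / h₃`. -/
theorem hmfa_jq3_eq3 : jqNModC K 3 = (hm3 K + 27) * (hm3 K + 3) ^ 3 / hm3 K :=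
  eq_div_of_mul_eq (hmfa_hm3_ne_zero K) (hm3_jq3 K)

theorem hmfa_jq_mem_adjoin_hm2 : jqModC K ∈ K⟮hm2 K⟯ := by
  have hh : hm2 K ∈ K⟮hm2 K⟯ := mem_adjoin_simple_self K _
  rw [hmfa_jq_eq2]
  exact div_mem (pow_mem (add_mem hh (ofNat_mem _ 256)) 3) (pow_mem hh 2)

theorem hmfa_jq2_mem_adjoin_hm2 : jqNModC K 2 ∈ K⟮hm2 K⟯ := by
  have hh : hm2 K ∈ K⟮hm2 K⟯ := mem_adjoin_simple_self K _
  rw [hmfa_jq2_eq2]
  exact div_mem (pow_mem (add_mem hh (ofNat_mem _ 16)) 3) hh

theorem hmfa_jq_mem_adjoin_hm3 : jqModC K ∈ K⟮hm3 K⟯ := by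
  have hh : hm3 K ∈ K⟮hm3 K⟯ := mem_adjoin_simple_self K _
  rw [hmfa_jq_eq3]
  exact div_mem (mul_mem (add_mem hh (ofNat_mem _ 27))
    (pow_mem (add_mem hh (ofNat_mem _ 243)) 3)) (pow_mem hh 3)

theorem hmfa_jq3_mem_adjoin_hm3 : jqNModC K 3 ∈ K⟮hm3 K⟯ := by
  have hh : hm3 K ∈ K⟮hm3 K⟯ := mem_adjoin_simple_self K _
  rw [hmfa_jq3_eq3]
  exact div_mem (mul_mem (add_mem hh (ofNat_mem _ 27))
    (pow_mem (add_mem hh (ofNat_mem _ 3)) 3)) hh

/-- the generators of the level-`p` field for a prime `p` are `j(q)` and `j(q^p)`. -/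
theorem hmfa_full_le_of_mem (p : ℕ) [NeZero p] (hp : p.Prime)
    (F : IntermediateField K (LaurentSeries K)) (h1 : jqModC K ∈ F) (hp' : jqNModC K p ∈ F) :
    modularFunctionFieldFullC K p ≤ F := by
  rw [modularFunctionFieldFullC, adjoin_le_iff]
  rintro x ⟨d, hne, hdvd, rfl⟩
  rcases (Nat.dvd_prime hp).mp hdvd with rfl | rfl
  · show qExpand K 1 (jqModC K) ∈ F
    rw [qExpand_one_apply]
    exact h1
  · exact hp'

/-- if `j ∈ K(x)` then `x` is transcendental over `K`. -/
theorem hmfa_transcendental_of_jq_mem (x : LaurentSeries K) (hx : jqModC K ∈ K⟮x⟯) :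
    Transcendental K x := by
  intro halg
  have hint : IsIntegral K x := halg.isIntegral
  have halg' : Algebra.IsAlgebraic K K⟮x⟯ := isAlgebraic_adjoin_simple hint
  have h1 : IsAlgebraic K (⟨jqModC K, hx⟩ : K⟮x⟯) := Algebra.IsAlgebraic.isAlgebraic _
  have h2 : IsAlgebraic K (jqModC K) := by
    have h3 := h1.algebraMap (A := LaurentSeries K)
    exact h3
  exact hmfa_transcendental_jqModC K h2

/-- relative rank bound from a monic polynomial relation. -/
theorem hmfa_relrank_le (x y : LaurentSeries K) (hxy : x ∈ K⟮y⟯) (n : ℕ)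
    (P : Polynomial K⟮x⟯) (hP : P.Monic) (hdeg : P.natDegree ≤ n)
    (hroot : Polynomial.aeval y P = 0) :
    IntermediateField.relrank K⟮x⟯ K⟮y⟯ ≤ (n : Cardinal) := by
  have hle : K⟮x⟯ ≤ K⟮y⟯ := adjoin_simple_le_iff.mpr hxy
  have hsup : K⟮x⟯ ⊔ K⟮y⟯ = K⟮y⟯ := sup_eq_right.mpr hle
  have hint : IsIntegral K⟮x⟯ y := ⟨P, hP, hroot⟩
  rw [← hsup, Fermat.Agent.S28L.Low_relrank_sup_adjoin _ _ hint]
  have h1 : (minpoly K⟮x⟯ y).natDegree ≤ P.natDegree :=
    Polynomial.natDegree_le_natDegree (minpoly.min _ _ hP hroot)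
  exact_mod_cast h1.trans hdeg

/-- the cubic relation of `h₂` over `K(j)`. -/
noncomputable def hmfa_P2 : Polynomial K⟮jqModC K⟯ :=
  (Polynomial.X + Polynomial.C 256) ^ 3
    - Polynomial.C (AdjoinSimple.gen K (jqModC K)) * Polynomial.X ^ 2

theorem hmfa_P2_monic : (hmfa_P2 K).Monic := by
  unfold hmfa_P2
  have h1 : ((Polynomial.X + Polynomial.C 256 : Polynomial K⟮jqModC K⟯) ^ 3).Monic :=
    (Polynomial.monic_X_add_C 256).pow 3
  refine h1.sub_of_left ?_
  have h2 : ((Polynomial.X + Polynomial.C 256 : Polynomial K⟮jqModC K⟯) ^ 3).degree = 3 := by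
    rw [Polynomial.degree_pow, Polynomial.degree_X_add_C]
    rfl
  rw [h2]
  refine lt_of_le_of_lt (Polynomial.degree_C_mul_X_pow_le 2 _) ?_
  exact_mod_cast (by norm_num : (2 : ℕ) < 3)

theorem hmfa_P2_natDegree : (hmfa_P2 K).natDegree ≤ 3 := by
  unfold hmfa_P2
  refine (Polynomial.natDegree_sub_le _ _).trans (max_le ?_ ?_)
  · rw [(Polynomial.monic_X_add_C 256).natDegree_pow, Polynomial.natDegree_X_add_C]
  · exact (Polynomial.natDegree_C_mul_X_pow_le _ 2).trans (by norm_num)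

theorem hmfa_P2_root : Polynomial.aeval (hm2 K) (hmfa_P2 K) = 0 := by
  unfold hmfa_P2
  rw [map_sub, map_pow, map_add, Polynomial.aeval_X, Polynomial.aeval_C, map_mul, map_pow,
    Polynomial.aeval_X, Polynomial.aeval_C, AdjoinSimple.algebraMap_gen, map_ofNat, sub_eq_zero]
  exact (hm2_jq1 K).symm

/-- the quartic relation of `h₃` over `K(j)`. -/
noncomputable def hmfa_P3 : Polynomial K⟮jqModC K⟯ :=
  (Polynomial.X + Polynomial.C 27) * (Polynomial.X + Polynomial.C 243) ^ 3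
    - Polynomial.C (AdjoinSimple.gen K (jqModC K)) * Polynomial.X ^ 3

theorem hmfa_P3_lead_monic :
    ((Polynomial.X + Polynomial.C 27) * (Polynomial.X + Polynomial.C 243) ^ 3 :
      Polynomial K⟮jqModC K⟯).Monic :=
  (Polynomial.monic_X_add_C 27).mul ((Polynomial.monic_X_add_C 243).pow 3)

theorem hmfa_P3_lead_natDegree :
    ((Polynomial.X + Polynomial.C 27) * (Polynomial.X + Polynomial.C 243) ^ 3 :
      Polynomial K⟮jqModC K⟯).natDegree = 4 := by
  rw [(Polynomial.monic_X_add_C 27).natDegree_mul ((Polynomial.monic_X_add_C 243).pow 3),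
    (Polynomial.monic_X_add_C 243).natDegree_pow, Polynomial.natDegree_X_add_C,
    Polynomial.natDegree_X_add_C]

theorem hmfa_P3_monic : (hmfa_P3 K).Monic := by
  unfold hmfa_P3
  refine (hmfa_P3_lead_monic K).sub_of_left ?_
  rw [Polynomial.degree_eq_natDegree (hmfa_P3_lead_monic K).ne_zero, hmfa_P3_lead_natDegree]
  refine lt_of_le_of_lt (Polynomial.degree_C_mul_X_pow_le 3 _) ?_
  exact_mod_cast (by norm_num : (3 : ℕ) < 4)

theorem hmfa_P3_natDegree : (hmfa_P3 K).natDegree ≤ 4 := by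
  unfold hmfa_P3
  refine (Polynomial.natDegree_sub_le _ _).trans (max_le ?_ ?_)
  · rw [hmfa_P3_lead_natDegree]
  · exact (Polynomial.natDegree_C_mul_X_pow_le _ 3).trans (by norm_num)

theorem hmfa_P3_root : Polynomial.aeval (hm3 K) (hmfa_P3 K) = 0 := by
  unfold hmfa_P3
  rw [map_sub, map_mul, map_pow, map_add, map_add, Polynomial.aeval_X, Polynomial.aeval_C,
    Polynomial.aeval_C, map_mul, map_pow, Polynomial.aeval_X, Polynomial.aeval_C,
    AdjoinSimple.algebraMap_gen, map_ofNat, map_ofNat, sub_eq_zero]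
  exact (hm3_jq1 K).symm

/-! ### the statements -/

/-- `h₂` is transcendental over `K` (it has a pole). -/
theorem hm2_transcendental : Transcendental K (hm2 K) := by
  exact hmfa_transcendental_of_jq_mem K _ (hmfa_jq_mem_adjoin_hm2 K)

/-- `h₃` is transcendental over `K` (it has a pole). -/
theorem hm3_transcendental : Transcendental K (hm3 K) := by
  exact hmfa_transcendental_of_jq_mem K _ (hmfa_jq_mem_adjoin_hm3 K)

/-- `j(q), j(q²) ∈ K(h₂)`. -/
theorem full2_le_adjoin : modularFunctionFieldFullC K 2 ≤ K⟮hm2 K⟯ := by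
  exact hmfa_full_le_of_mem K 2 Nat.prime_two _ (hmfa_jq_mem_adjoin_hm2 K)
    (hmfa_jq2_mem_adjoin_hm2 K)

/-- `j(q), j(q³) ∈ K(h₃)`. -/
theorem full3_le_adjoin : modularFunctionFieldFullC K 3 ≤ K⟮hm3 K⟯ := by
  exact hmfa_full_le_of_mem K 3 Nat.prime_three _ (hmfa_jq_mem_adjoin_hm3 K)
    (hmfa_jq3_mem_adjoin_hm3 K)

/-- `[K(h₂) : K(j)] ≤ 3`. -/
theorem relrank_adjoin_hm2_le :
    IntermediateField.relrank K⟮jqModC K⟯ K⟮hm2 K⟯ ≤ 3 := by
  exact_mod_cast hmfa_relrank_le K _ _ (hmfa_jq_mem_adjoin_hm2 K) 3 (hmfa_P2 K)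
    (hmfa_P2_monic K) (hmfa_P2_natDegree K) (hmfa_P2_root K)

/-- `[K(h₃) : K(j)] ≤ 4`. -/
theorem relrank_adjoin_hm3_le :
    IntermediateField.relrank K⟮jqModC K⟯ K⟮hm3 K⟯ ≤ 4 := by
  exact_mod_cast hmfa_relrank_le K _ _ (hmfa_jq_mem_adjoin_hm3 K) 4 (hmfa_P3 K)
    (hmfa_P3_monic K) (hmfa_P3_natDegree K) (hmfa_P3_root K)

/-- cardinal arithmetic: `n * c ≤ n` with `n ≠ 0` natural and `c ≠ 0` forces `c = 1`. -/
theorem hmfb_card_eq_one {n : ℕ} (hn : n ≠ 0) {c : Cardinal} (hc : c ≠ 0)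
    (h : (n : Cardinal) * c ≤ n) : c = 1 := by
  have hn' : (n : Cardinal) ≠ 0 := by exact_mod_cast hn
  have hle : c ≤ n := (Cardinal.le_mul_left hn').trans h
  have hfin : c < Cardinal.aleph0 := lt_of_le_of_lt hle Cardinal.natCast_lt_aleph0
  obtain ⟨m, rfl⟩ := Cardinal.lt_aleph0.1 hfin
  have hm0 : m ≠ 0 := by
    rintro rfl
    exact hc Nat.cast_zero
  have h' : n * m ≤ n := by exact_mod_cast h
  have hm1 : m ≤ 1 := by
    by_contra hcon
    have h2 : 2 ≤ m := by omega
    have : n * 2 ≤ n * m := Nat.mul_le_mul_left n h2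
    omega
  have : m = 1 := by omega
  subst this
  exact Nat.cast_one

/-- a relative degree is never zero. -/
theorem hmfb_relrank_ne_zero {k L : Type*} [Field k] [Field L] [Algebra k L]
    (A B : IntermediateField k L) : IntermediateField.relrank A B ≠ 0 := by
  intro h0
  have h2 : IntermediateField.relrank (A ⊓ B) B
      = Module.rank ↥(A ⊓ B) (extendScalars (inf_le_right : A ⊓ B ≤ B)) :=
    IntermediateField.relrank_eq_rank_of_le inf_le_right
  rw [IntermediateField.inf_relrank_right, h0] at h2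
  exact (rank_pos (R := ↥(A ⊓ B))
    (M := extendScalars (inf_le_right : A ⊓ B ≤ B))).ne' h2.symm

/-- sandwich: `A ≤ F ≤ B`, `n ≤ [F : A]`, `[B : A] ≤ n` give `F = B` and `[B : A] = n`. -/
theorem hmfb_sandwich {k L : Type*} [Field k] [Field L] [Algebra k L]
    {A F B : IntermediateField k L} (hAF : A ≤ F) (hFB : F ≤ B) {n : ℕ} (hn : n ≠ 0)
    (hlow : (n : Cardinal) ≤ IntermediateField.relrank A F)
    (hup : IntermediateField.relrank A B ≤ n) :
    F = B ∧ IntermediateField.relrank A B = n := by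
  have hmul := IntermediateField.relrank_mul_relrank hAF hFB
  have hc : IntermediateField.relrank F B ≠ 0 := hmfb_relrank_ne_zero F B
  have h1 : (n : Cardinal) * IntermediateField.relrank F B ≤ n :=
    (mul_le_mul_left (a := IntermediateField.relrank F B) hlow).trans (hmul.le.trans hup)
  have hone : IntermediateField.relrank F B = 1 := hmfb_card_eq_one hn hc h1
  have hBF : B ≤ F := IntermediateField.relrank_eq_one_iff.1 hone
  refine ⟨le_antisymm hFB hBF, ?_⟩
  rw [hone, mul_one] at hmul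
  exact le_antisymm hup (hmul ▸ hlow)

/-- `K(j) ≤ F_N`. -/
theorem hmfb_adjoin_jq_le (N : ℕ) : K⟮jqModC K⟯ ≤ modularFunctionFieldFullC K N := by
  rw [IntermediateField.adjoin_simple_le_iff]
  exact jqModC_mem_full K N

/-- The function field of level `2` is `K(h₂)`, given the degree lower bound `ψ(2) = 3`. -/
theorem full2_eq_adjoin
    (hdeg : (3 : Cardinal) ≤
      IntermediateField.relrank K⟮jqModC K⟯ (modularFunctionFieldFullC K 2)) :
    modularFunctionFieldFullC K 2 = K⟮hm2 K⟯ := by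
  exact (hmfb_sandwich (hmfb_adjoin_jq_le K 2) (full2_le_adjoin K) (n := 3) (by norm_num)
    (by exact_mod_cast hdeg) (by exact_mod_cast relrank_adjoin_hm2_le K)).1

/-- The function field of level `3` is `K(h₃)`, given the degree lower bound `ψ(3) = 4`. -/
theorem full3_eq_adjoin
    (hdeg : (4 : Cardinal) ≤
      IntermediateField.relrank K⟮jqModC K⟯ (modularFunctionFieldFullC K 3)) :
    modularFunctionFieldFullC K 3 = K⟮hm3 K⟯ := by
  exact (hmfb_sandwich (hmfb_adjoin_jq_le K 3) (full3_le_adjoin K) (n := 4) (by norm_num)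
    (by exact_mod_cast hdeg) (by exact_mod_cast relrank_adjoin_hm3_le K)).1

/-- `[K(h₂) : K(j)] = 3`, given the degree lower bound. -/
theorem relrank_adjoin_hm2_eq
    (hdeg : (3 : Cardinal) ≤
      IntermediateField.relrank K⟮jqModC K⟯ (modularFunctionFieldFullC K 2)) :
    IntermediateField.relrank K⟮jqModC K⟯ K⟮hm2 K⟯ = 3 := by
  exact_mod_cast (hmfb_sandwich (hmfb_adjoin_jq_le K 2) (full2_le_adjoin K) (n := 3)
    (by norm_num) (by exact_mod_cast hdeg) (by exact_mod_cast relrank_adjoin_hm2_le K)).2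

/-- `[K(h₃) : K(j)] = 4`, given the degree lower bound. -/
theorem relrank_adjoin_hm3_eq
    (hdeg : (4 : Cardinal) ≤
      IntermediateField.relrank K⟮jqModC K⟯ (modularFunctionFieldFullC K 3)) :
    IntermediateField.relrank K⟮jqModC K⟯ K⟮hm3 K⟯ = 4 := by
  exact_mod_cast (hmfb_sandwich (hmfb_adjoin_jq_le K 3) (full3_le_adjoin K) (n := 4)
    (by norm_num) (by exact_mod_cast hdeg) (by exact_mod_cast relrank_adjoin_hm3_le K)).2

end field

section algClosed
variable (K : Type) [Field K] [IsAlgClosed K]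

/-- Over an algebraically closed field with `2 ≠ 0` the function field of level `2` is
`K(h₂)` (degree lower bound from S28L `Low_main`). -/
theorem full2_eq_adjoin_of_isAlgClosed (h2 : (2 : K) ≠ 0) :
    modularFunctionFieldFullC K 2 = K⟮hm2 K⟯ := by
  refine full2_eq_adjoin K ?_
  have h := Fermat.Agent.S28L.Low_main K 2 (by exact_mod_cast h2)
  rw [Fermat.Agent.X0Count.ix_psi_prime Nat.prime_two] at h
  exact_mod_cast h

/-- Over an algebraically closed field with `3 ≠ 0` the function field of level `3` is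
`K(h₃)`. -/
theorem full3_eq_adjoin_of_isAlgClosed (h3 : (3 : K) ≠ 0) :
    modularFunctionFieldFullC K 3 = K⟮hm3 K⟯ := by
  refine full3_eq_adjoin K ?_
  have h := Fermat.Agent.S28L.Low_main K 3 (by exact_mod_cast h3)
  rw [Fermat.Agent.X0Count.ix_psi_prime Nat.prime_three] at h
  exact_mod_cast h

/-- `h₂` lies in the function field of every even level. -/
theorem hm2_mem_full (h2 : (2 : K) ≠ 0) (N : ℕ) [NeZero N] (hN : 2 ∣ N) :
    hm2 K ∈ modularFunctionFieldFullC K N := by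
  have hmem : hm2 K ∈ modularFunctionFieldFullC K 2 := by
    rw [full2_eq_adjoin_of_isAlgClosed K h2]
    exact IntermediateField.mem_adjoin_simple_self K (hm2 K)
  exact full_degeneracyC_le K hN hmem

/-- `h₃` lies in the function field of every level divisible by `3`. -/
theorem hm3_mem_full (h3 : (3 : K) ≠ 0) (N : ℕ) [NeZero N] (hN : 3 ∣ N) :
    hm3 K ∈ modularFunctionFieldFullC K N := by
  have hmem : hm3 K ∈ modularFunctionFieldFullC K 3 := by
    rw [full3_eq_adjoin_of_isAlgClosed K h3]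
    exact IntermediateField.mem_adjoin_simple_self K (hm3 K)
  exact full_degeneracyC_le K hN hmem

end algClosed

section bar

/-- `modularFunctionFieldFullC ℚ̄ N` is contained in the base change `modularFunctionFieldBar N`
(both are generated over `ℚ̄` by the `j(q^d)`, `d ∣ N`). -/
theorem fullC_le_bar (N : ℕ) [NeZero N] :
    modularFunctionFieldFullC (AlgebraicClosure ℚ) N ≤ modularFunctionFieldBar N := by
  rw [modularFunctionFieldFullC, adjoin_le_iff]
  rintro x ⟨d, hne, hdvd, rfl⟩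
  have := hne
  have h : qExpand (AlgebraicClosure ℚ) d (jqModC (AlgebraicClosure ℚ))
      = coeffEmb (AlgebraicClosure ℚ) (qExpand ℚ d jq) := by
    rw [coeffEmb, coeffMap_qExpand, ← jqModC_rat, coeffMap_jqModC]
  rw [h]
  exact coeffEmb_mem_laurentBaseChange _ (jqd_mem_full N hdvd)

/-- `h₂ ∈ ℚ̄ ⊗ F_N` for even `N`. -/
theorem hm2_mem_bar (N : ℕ) [NeZero N] (hN : 2 ∣ N) :
    hm2 (AlgebraicClosure ℚ) ∈ modularFunctionFieldBar N :=
  fullC_le_bar N (hm2_mem_full (AlgebraicClosure ℚ) two_ne_zero N hN)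

/-- `h₃ ∈ ℚ̄ ⊗ F_N` for `3 ∣ N`. -/
theorem hm3_mem_bar (N : ℕ) [NeZero N] (hN : 3 ∣ N) :
    hm3 (AlgebraicClosure ℚ) ∈ modularFunctionFieldBar N :=
  fullC_le_bar N (hm3_mem_full (AlgebraicClosure ℚ) three_ne_zero N hN)

end bar

end Fermat.Agent.S18L
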