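/-
S18 library, package HM (helper3): explicit Hauptmoduln for `Γ₀(2)` and `Γ₀(3)`.
INTERFACE: import this file.  Statements are in `HMDefs` (definitions `hm2`, `hm3`),
`HMId` (shape of the series, identities for `j(q^d)`), `HMField` (function fields).
-/
import Fermat.Agent.S18L.HMDefs
import Fermat.Agent.S18L.HMId
import Fermat.Agent.S18L.HMField
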