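import Mathlib
import Fermat.Prelude.Def_ModularCurve_X0ModL

/-!
# S18, package S28X (owner: helper5), part 4: the Gauss ring of a valuation ring

For a valuation subring `A` of a field `K` with a ring homomorphism `π : A →+* k` to a field,
`s28xGauss A π ⊆ K((q))` is the ring of quotients `ι a / ι b` of Laurent series with coefficients
in `A`, `b` of nonzero reduction, and `s28xRed A π : s28xGauss A π →+* k((q))` is the
reduction `ρ a / ρ b` (`ι`, `ρ` the coefficientwise maps).
-/

set_option autoImplicit false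

noncomputable section

namespace Fermat.Agent.S18L

open ModularCurve

section Gauss

variable {K : Type*} [Field K] (A : ValuationSubring K) {k : Type*} [Field k] (π : A →+* k)

theorem s28x_iota_injective :
    Function.Injective (coeffMap A.subtype : LaurentSeries A →+* LaurentSeries K) := by
  intro a b h
  refine HahnSeries.ext (funext fun n => Subtype.ext ?_)
  have h1 := congrArg (fun x : LaurentSeries K => x.coeff n) h
  simp only [coeffMap_coeff] at h1
  exact h1

/-- the Gauss ring of `A` inside `K((q))` -/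
def s28xGauss : Subring (LaurentSeries K) where
  carrier := {x | ∃ a b : LaurentSeries A, coeffMap π b ≠ 0 ∧
    x * coeffMap A.subtype b = coeffMap A.subtype a}
  mul_mem' := by
    rintro x y ⟨a, b, hb, h⟩ ⟨a', b', hb', h'⟩
    refine ⟨a * a', b * b', ?_, ?_⟩
    · rw [map_mul]; exact mul_ne_zero hb hb'
    · rw [map_mul, map_mul, ← h, ← h']; ring
  one_mem' := ⟨1, 1, by rw [map_one]; exact one_ne_zero, by rw [map_one, mul_one]⟩
  add_mem' := by
    rintro x y ⟨a, b, hb, h⟩ ⟨a', b', hb', h'⟩
    refine ⟨a * b' + a' * b, b * b', ?_, ?_⟩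
    · rw [map_mul]; exact mul_ne_zero hb hb'
    · rw [map_mul, map_add, map_mul, map_mul, ← h, ← h']; ring
  zero_mem' := ⟨0, 1, by rw [map_one]; exact one_ne_zero, by rw [map_zero, zero_mul]⟩
  neg_mem' := by
    rintro x ⟨a, b, hb, h⟩
    exact ⟨-a, b, hb, by rw [map_neg, ← h]; ring⟩

theorem s28x_mem_gauss_iff (x : LaurentSeries K) :
    x ∈ s28xGauss A π ↔ ∃ a b : LaurentSeries A, coeffMap π b ≠ 0 ∧
      x * coeffMap A.subtype b = coeffMap A.subtype a := Iff.rfl

/-- the reduction of an element of the Gauss ring (as a function) -/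
def s28xRedFun (x : s28xGauss A π) : LaurentSeries k :=
  coeffMap π x.2.choose / coeffMap π x.2.choose_spec.choose

theorem s28xRedFun_eq (x : s28xGauss A π) (a b : LaurentSeries A) (hb : coeffMap π b ≠ 0)
    (h : (x : LaurentSeries K) * coeffMap A.subtype b = coeffMap A.subtype a) :
    s28xRedFun A π x = coeffMap π a / coeffMap π b := by
  have h0 := x.2.choose_spec.choose_spec
  set a0 := x.2.choose with ha0
  set b0 := x.2.choose_spec.choose with hb0
  have hcross : a0 * b = a * b0 := by
    apply s28x_iota_injective A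
    rw [map_mul, map_mul, ← h0.2, ← h]; ring
  have hc := congrArg (coeffMap π) hcross
  rw [map_mul, map_mul] at hc
  show coeffMap π a0 / coeffMap π b0 = _
  rw [div_eq_div_iff h0.1 hb]
  exact hc

/-- the reduction map of the Gauss ring -/
def s28xRed : s28xGauss A π →+* LaurentSeries k where
  toFun := s28xRedFun A π
  map_one' := by
    rw [s28xRedFun_eq A π 1 1 1 (by rw [map_one]; exact one_ne_zero)
      (by rw [map_one, mul_one]; rfl), map_one, div_one]
  map_mul' := by
    intro x y
    obtain ⟨a, b, hb, h⟩ := x.2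
    obtain ⟨a', b', hb', h'⟩ := y.2
    rw [s28xRedFun_eq A π x a b hb h, s28xRedFun_eq A π y a' b' hb' h',
      s28xRedFun_eq A π (x * y) (a * a') (b * b')
        (by rw [map_mul]; exact mul_ne_zero hb hb')
        (by rw [map_mul, map_mul, ← h, ← h', Subring.coe_mul]; ring),
      map_mul, map_mul, div_mul_div_comm]
  map_zero' := by
    rw [s28xRedFun_eq A π 0 0 1 (by rw [map_one]; exact one_ne_zero)
      (by rw [map_zero]; simp), map_zero, zero_div]
  map_add' := by
    intro x y
    obtain ⟨a, b, hb, h⟩ := x.2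
    obtain ⟨a', b', hb', h'⟩ := y.2
    rw [s28xRedFun_eq A π x a b hb h, s28xRedFun_eq A π y a' b' hb' h',
      s28xRedFun_eq A π (x + y) (a * b' + a' * b) (b * b')
        (by rw [map_mul]; exact mul_ne_zero hb hb')
        (by rw [map_mul, map_add, map_mul, map_mul, ← h, ← h', Subring.coe_add]; ring),
      map_mul, map_add, map_mul, map_mul, div_add_div _ _ hb hb']
    congr 1
    ring

theorem s28xRed_eq (x : s28xGauss A π) (a b : LaurentSeries A) (hb : coeffMap π b ≠ 0)
    (h : (x : LaurentSeries K) * coeffMap A.subtype b = coeffMap A.subtype a) :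
    s28xRed A π x = coeffMap π a / coeffMap π b :=
  s28xRedFun_eq A π x a b hb h

/-- series with coefficients in `A` lie in the Gauss ring -/
theorem s28x_iota_mem (a : LaurentSeries A) : coeffMap A.subtype a ∈ s28xGauss A π :=
  ⟨a, 1, by rw [map_one]; exact one_ne_zero, by rw [map_one, mul_one]⟩

/-- ... and reduce coefficientwise -/
theorem s28xRed_iota (a : LaurentSeries A) :
    s28xRed A π ⟨coeffMap A.subtype a, s28x_iota_mem A π a⟩ = coeffMap π a := by
  rw [s28xRed_eq A π _ a 1 (by rw [map_one]; exact one_ne_zero) (by rw [map_one, mul_one]),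
    map_one, div_one]

/-- elements of nonzero reduction are invertible in the Gauss ring -/
theorem s28x_inv_mem (x : s28xGauss A π) (hx : s28xRed A π x ≠ 0) :
    (x : LaurentSeries K)⁻¹ ∈ s28xGauss A π := by
  obtain ⟨a, b, hb, h⟩ := x.2
  have hr := s28xRed_eq A π x a b hb h
  have ha : coeffMap π a ≠ 0 := by
    intro h0
    apply hx
    rw [hr, h0, zero_div]
  have hb0 : coeffMap A.subtype b ≠ 0 := by
    intro h0
    have : b = 0 := s28x_iota_injective A (by rw [h0, map_zero])
    exact hb (by rw [this, map_zero])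
  have ha0 : coeffMap A.subtype a ≠ 0 := by
    intro h0
    have : a = 0 := s28x_iota_injective A (by rw [h0, map_zero])
    exact ha (by rw [this, map_zero])
  have hx0 : (x : LaurentSeries K) ≠ 0 := by
    intro h0
    rw [h0, zero_mul] at h
    exact ha0 h.symm
  refine ⟨b, a, ha, ?_⟩
  rw [← h]
  field_simp

theorem s28xRed_inv (x : s28xGauss A π) (hx : s28xRed A π x ≠ 0) :
    s28xRed A π ⟨(x : LaurentSeries K)⁻¹, s28x_inv_mem A π x hx⟩ = (s28xRed A π x)⁻¹ := by
  refine eq_inv_of_mul_eq_one_left ?_
  rw [← map_mul]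
  have hx0 : (x : LaurentSeries K) ≠ 0 := by
    intro h0
    apply hx
    have : x = 0 := Subtype.ext h0
    rw [this, map_zero]
  have : (⟨(x : LaurentSeries K)⁻¹, s28x_inv_mem A π x hx⟩ : s28xGauss A π) * x = 1 :=
    Subtype.ext (inv_mul_cancel₀ hx0)
  rw [this, map_one]

/-- constants of `A` lie in the Gauss ring and reduce to constants -/
theorem s28x_algebraMap_mem (c : A) :
    algebraMap K (LaurentSeries K) (c : K) ∈ s28xGauss A π := by
  have h : algebraMap K (LaurentSeries K) (c : K)
      = coeffMap A.subtype (HahnSeries.single 0 c) := by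
    rw [algebraMap_laurentSeries_eq_single, coeffMap_single]; rfl
  rw [h]
  exact s28x_iota_mem A π _

theorem s28xRed_algebraMap (c : A) :
    s28xRed A π ⟨algebraMap K (LaurentSeries K) (c : K), s28x_algebraMap_mem A π c⟩
      = algebraMap k (LaurentSeries k) (π c) := by
  have h : algebraMap K (LaurentSeries K) (c : K)
      = coeffMap A.subtype (HahnSeries.single 0 c) := by
    rw [algebraMap_laurentSeries_eq_single, coeffMap_single]; rfl
  have h2 : (⟨algebraMap K (LaurentSeries K) (c : K), s28x_algebraMap_mem A π c⟩ :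
      s28xGauss A π) = ⟨coeffMap A.subtype (HahnSeries.single 0 c), s28x_iota_mem A π _⟩ :=
    Subtype.ext h
  rw [h2, s28xRed_iota, coeffMap_single, algebraMap_laurentSeries_eq_single]

/-- a constant lies in the Gauss ring only if it lies in `A` (when `π` kills the nonunits) -/
theorem s28x_mem_of_algebraMap_mem (hπ : ∀ a : A, ¬ IsUnit a → π a = 0) (c : K)
    (hc : algebraMap K (LaurentSeries K) c ∈ s28xGauss A π) : c ∈ A := by
  by_contra hcA
  have hc0 : c ≠ 0 := fun h => hcA (h ▸ A.zero_mem)
  have hinv : c⁻¹ ∈ A := (A.mem_or_inv_mem c).resolve_left hcA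
  have hnu : ¬ IsUnit (⟨c⁻¹, hinv⟩ : A) := by
    intro hu
    obtain ⟨u, hu⟩ := hu
    apply hcA
    have h1 : ((u⁻¹ : Aˣ) : A) * ⟨c⁻¹, hinv⟩ = 1 := by rw [← hu]; exact u.inv_mul
    have h2 := congrArg (Subtype.val : A → K) h1
    simp only [MulMemClass.coe_mul, OneMemClass.coe_one] at h2
    have h3 : (((u⁻¹ : Aˣ) : A) : K) = c := by
      field_simp at h2
      exact h2
    rw [← h3]
    exact ((u⁻¹ : Aˣ) : A).2
  have h0 := hπ _ hnu
  have hmul : (⟨algebraMap K (LaurentSeries K) ((⟨c⁻¹, hinv⟩ : A) : K),
      s28x_algebraMap_mem A π ⟨c⁻¹, hinv⟩⟩ : s28xGauss A π) * ⟨_, hc⟩ = 1 := by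
    apply Subtype.ext
    show algebraMap K (LaurentSeries K) c⁻¹ * algebraMap K (LaurentSeries K) c = 1
    rw [← map_mul, inv_mul_cancel₀ hc0, map_one]
  have h1 := congrArg (s28xRed A π) hmul
  rw [map_mul, s28xRed_algebraMap, h0, map_zero, zero_mul, map_one] at h1
  exact zero_ne_one h1

end Gauss

end Fermat.Agent.S18L
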