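import Mathlib
import Fermat.Prelude.Def_ModularCurve_ReductionModL
import Fermat.Agent.S28L.P4Basis
import Fermat.Agent.S18L.S28XGauss

/-!
# S18, package S28X (owner: helper5), part 7: from `ℤ_(ℓ)` to a valuation ring over `ℓ`

`A` a valuation subring of a field `K` of characteristic `0` with `ℓ` a nonunit of `A`.
Then `ℤ_(ℓ) ⊆ A`, the residue field has characteristic `ℓ`, and the coefficient embedding
`ℚ((q)) → K((q))` maps the Gauss ring of `ℤ_(ℓ)` (S28L) into the Gauss ring of `A`, compatibly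
with the reductions.
-/

set_option autoImplicit false
set_option linter.unusedSectionVars false

noncomputable section

namespace Fermat.Agent.S18L

open ModularCurve Fermat.Agent.S28L

section Bridge

variable (ℓ : ℕ) [Fact ℓ.Prime] {K : Type*} [Field K] [Algebra ℚ K] (A : ValuationSubring K)
  (hA : A.LiesOverPrime ℓ)

include hA in
theorem s28x_valuation_natCast_lt : A.valuation (ℓ : K) < 1 :=
  (ValuationSubring.mem_nonunits_iff (A := A)).1 hA

include hA in
/-- an integer prime to `ℓ` has valuation `1` -/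
theorem s28x_valuation_intCast_eq_one (n : ℤ) (hn : n.natAbs.Coprime ℓ) :
    A.valuation (n : K) = 1 := by
  have hle : A.valuation (n : K) ≤ 1 :=
    (ValuationSubring.valuation_le_one_iff A _).2 (intCast_mem A n)
  refine le_antisymm hle (not_lt.1 fun hlt => ?_)
  have hcop : IsCoprime n (ℓ : ℤ) := by
    rw [Int.isCoprime_iff_gcd_eq_one, Int.gcd, Int.natAbs_natCast]
    exact hn
  obtain ⟨a, b, hab⟩ := hcop
  have h1 : (a : K) * (n : K) + (b : K) * (ℓ : K) = 1 := by
    have := congrArg (Int.cast : ℤ → K) hab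
    push_cast at this
    exact this
  have ha : A.valuation (a : K) ≤ 1 :=
    (ValuationSubring.valuation_le_one_iff A _).2 (intCast_mem A a)
  have hb : A.valuation (b : K) ≤ 1 :=
    (ValuationSubring.valuation_le_one_iff A _).2 (intCast_mem A b)
  have hℓ := s28x_valuation_natCast_lt ℓ A hA
  have h2 : A.valuation ((a : K) * (n : K) + (b : K) * (ℓ : K)) < 1 := by
    refine lt_of_le_of_lt (Valuation.map_add _ _ _) (max_lt ?_ ?_)
    · rw [map_mul]
      exact lt_of_le_of_lt (mul_le_of_le_one_left' ha) hlt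
    · rw [map_mul]
      exact lt_of_le_of_lt (mul_le_of_le_one_left' hb) hℓ
  rw [h1, map_one] at h2
  exact lt_irrefl _ h2

include hA in
/-- `ℤ_(ℓ) ⊆ A` -/
theorem s28x_ol_mem (c : Ol ℓ) : algebraMap ℚ K (c : ℚ) ∈ A := by
  rw [← ValuationSubring.valuation_le_one_iff]
  have hden : A.valuation (((c : ℚ).den : ℤ) : K) = 1 :=
    s28x_valuation_intCast_eq_one ℓ A hA _ (by rw [Int.natAbs_natCast]; exact c.2)
  have hnum : A.valuation (((c : ℚ).num : ℤ) : K) ≤ 1 :=
    (ValuationSubring.valuation_le_one_iff A _).2 (intCast_mem A _)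
  have hc : algebraMap ℚ K (c : ℚ) * (((c : ℚ).den : ℤ) : K) = (((c : ℚ).num : ℤ) : K) := by
    have h := congrArg (algebraMap ℚ K) (Rat.mul_den_eq_num (c : ℚ))
    rw [map_mul, map_natCast, map_intCast] at h
    rw [Int.cast_natCast]
    exact h
  have h2 := congrArg A.valuation hc
  rw [map_mul, hden, mul_one] at h2
  rw [h2]
  exact hnum

/-- the inclusion `ℤ_(ℓ) → A` -/
def s28xOlHom : Ol ℓ →+* A :=
  ((algebraMap ℚ K).comp (GaloisRep.ratLocalizedAt ℓ).subtype).codRestrict A.toSubring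
    (fun c => s28x_ol_mem ℓ A hA c)

theorem s28xOlHom_coe (c : Ol ℓ) : ((s28xOlHom ℓ A hA c : A) : K) = algebraMap ℚ K (c : ℚ) := rfl

include hA in
/-- the residue field has characteristic `ℓ` -/
theorem s28x_charP : CharP (IsLocalRing.ResidueField A) ℓ := by
  have h0 : ((ℓ : ℕ) : IsLocalRing.ResidueField A) = 0 := by
    obtain ⟨h1, h2⟩ := (ValuationSubring.mem_nonunits_iff_exists_mem_maximalIdeal (A := A)).1 hA
    have h3 : IsLocalRing.residue A ⟨(ℓ : K), h1⟩ = 0 :=
      (IsLocalRing.residue_eq_zero_iff _).2 h2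
    have h4 : (⟨(ℓ : K), h1⟩ : A) = ((ℓ : ℕ) : A) := Subtype.ext (by simp)
    rw [h4, map_natCast] at h3
    exact h3
  exact (CharP.charP_iff_prime_eq_zero (Fact.out : ℓ.Prime)).2 h0

theorem s28x_residue_eq_zero_iff (a : A) : IsLocalRing.residue A a = 0 ↔ ¬ IsUnit a := by
  rw [IsLocalRing.residue_eq_zero_iff, IsLocalRing.mem_maximalIdeal, mem_nonunits_iff]

/-- the two ring homomorphisms `ℤ_(ℓ) → k` agree -/
theorem s28x_residue_comp_olHom [CharP (IsLocalRing.ResidueField A) ℓ] :
    (IsLocalRing.residue A).comp (s28xOlHom ℓ A hA)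
      = (ZMod.castHom (dvd_refl ℓ) (IsLocalRing.ResidueField A)).comp (resO ℓ) :=
  IsLocalization.ringHom_ext (olSubmonoid ℓ) (RingHom.ext_int _ _)

/-- coefficient embedding of a series over `ℤ_(ℓ)` -/
theorem s28x_coeffEmb_iotaL (y : LaurentSeries (Ol ℓ)) :
    coeffEmb K (iotaL ℓ y) = coeffMap A.subtype (coeffMap (s28xOlHom ℓ A hA) y) := by
  rw [coeffEmb, iotaL, coeffMap_coeffMap, coeffMap_coeffMap]
  rfl

/-- every element of the Gauss ring of `ℤ_(ℓ)` is a quotient of integral series -/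
theorem s28x_gaussRing_repr (x : gaussRing ℓ) :
    ∃ a s : LaurentSeries (Ol ℓ), redL ℓ s ≠ 0 ∧
      (x : LaurentSeries ℚ) * iotaL ℓ s = iotaL ℓ a ∧ gaussRed ℓ x * redL ℓ s = redL ℓ a := by
  obtain ⟨v, rfl⟩ := (gaussEquiv ℓ).surjective x
  obtain ⟨a, s, rfl⟩ := IsLocalization.exists_mk'_eq (RingHom.ker (redL ℓ)).primeCompl v
  refine ⟨a, s, fun h => s.2 (RingHom.mem_ker.2 h), ?_, ?_⟩
  · rw [coe_gaussEquiv, ← iotaV_algebraMap, ← map_mul, IsLocalization.mk'_spec, iotaV_algebraMap]
  · rw [gaussRed_gaussEquiv, ← redV_algebraMap, ← map_mul, IsLocalization.mk'_spec,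
      redV_algebraMap]

variable [CharP (IsLocalRing.ResidueField A) ℓ]

include hA in
/-- the coefficient embedding maps the Gauss ring of `ℤ_(ℓ)` into the Gauss ring of `A` -/
theorem s28x_coeffEmb_mem (x : gaussRing ℓ) :
    coeffEmb K (x : LaurentSeries ℚ) ∈ s28xGauss A (IsLocalRing.residue A) := by
  obtain ⟨a, s, hs, h1, -⟩ := s28x_gaussRing_repr ℓ x
  refine ⟨coeffMap (s28xOlHom ℓ A hA) a, coeffMap (s28xOlHom ℓ A hA) s, ?_, ?_⟩
  · rw [coeffMap_coeffMap, s28x_residue_comp_olHom ℓ A hA, ← coeffMap_coeffMap]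
    intro h0
    apply hs
    have hinj : Function.Injective
        (coeffMap (ZMod.castHom (dvd_refl ℓ) (IsLocalRing.ResidueField A))) := by
      intro u v huv
      refine HahnSeries.ext (funext fun n => ?_)
      have := congrArg (fun z : LaurentSeries (IsLocalRing.ResidueField A) => z.coeff n) huv
      simp only [coeffMap_coeff] at this
      exact (ZMod.castHom (dvd_refl ℓ) (IsLocalRing.ResidueField A)).injective this
    exact hinj (by rw [map_zero]; exact h0)
  · rw [← s28x_coeffEmb_iotaL, ← s28x_coeffEmb_iotaL, ← h1, map_mul]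

/-- ... compatibly with the reductions -/
theorem s28xRed_coeffEmb (x : gaussRing ℓ) :
    s28xRed A (IsLocalRing.residue A) ⟨coeffEmb K (x : LaurentSeries ℚ), s28x_coeffEmb_mem ℓ A hA x⟩
      = coeffMap (ZMod.castHom (dvd_refl ℓ) (IsLocalRing.ResidueField A)) (gaussRed ℓ x) := by
  obtain ⟨a, s, hs, h1, h2⟩ := s28x_gaussRing_repr ℓ x
  have hinj : Function.Injective
      (coeffMap (ZMod.castHom (dvd_refl ℓ) (IsLocalRing.ResidueField A))) := by
    intro u v huv
    refine HahnSeries.ext (funext fun n => ?_)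
    have := congrArg (fun z : LaurentSeries (IsLocalRing.ResidueField A) => z.coeff n) huv
    simp only [coeffMap_coeff] at this
    exact (ZMod.castHom (dvd_refl ℓ) (IsLocalRing.ResidueField A)).injective this
  have hs' : coeffMap (IsLocalRing.residue A) (coeffMap (s28xOlHom ℓ A hA) s) ≠ 0 := by
    rw [coeffMap_coeffMap, s28x_residue_comp_olHom ℓ A hA, ← coeffMap_coeffMap]
    intro h0
    exact hs (hinj (by rw [map_zero]; exact h0))
  rw [s28xRed_eq A _ _ (coeffMap (s28xOlHom ℓ A hA) a) (coeffMap (s28xOlHom ℓ A hA) s) hs'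
    (by rw [← s28x_coeffEmb_iotaL, ← s28x_coeffEmb_iotaL, ← h1, map_mul])]
  rw [div_eq_iff hs', coeffMap_coeffMap, coeffMap_coeffMap, s28x_residue_comp_olHom ℓ A hA,
    ← coeffMap_coeffMap, ← coeffMap_coeffMap, ← map_mul]
  exact congrArg _ h2.symm

end Bridge

end Fermat.Agent.S18L
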