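import Mathlib
import Fermat.Prelude.Def_ModularCurve_X0ModL
import Fermat.Agent.S28L.P4Basis
import Fermat.Agent.S28L.P4Descent
import Fermat.Agent.S28L.Low
import Fermat.Agent.S28L.DegBar

/-!
# S18, package S28X (owner: helper5), part 1: degrees

`[k(j(q^d) : d ∣ M) : k(j)] = ψ(M)` over every field `k` of characteristic `ℓ ∤ M`, and over `ℚ`.
-/

set_option autoImplicit false

noncomputable section

namespace Fermat.Agent.S18L

open ModularCurve Fermat.Agent.S28L

section S28XAux

/-- a linearly independent family inside an intermediate field bounds the relative rank from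
below -/
theorem s28x_le_relrank_of_linearIndependent {K L : Type*} [Field K] [Field L] [Algebra K L]
    (A B : IntermediateField K L) (hAB : A ≤ B) (m : ℕ) (z : Fin m → L) (hz : ∀ i, z i ∈ B)
    (hli : LinearIndependent A z) : (m : Cardinal) ≤ IntermediateField.relrank A B := by
  rw [IntermediateField.relrank_eq_rank_of_le hAB]
  have h1 : LinearIndependent A
      (fun i => (⟨z i, hz i⟩ : ↥(IntermediateField.extendScalars hAB))) :=
    LinearIndependent.of_comp (IntermediateField.extendScalars hAB).val.toLinearMap hli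
  have h2 := h1.cardinal_lift_le_rank
  simpa using h2

/-- lifting a family of `𝔽_ℓ(j_d : d ∣ M)` independent over `𝔽_ℓ(j)` gives a family of
`ℚ(j_d : d ∣ M)` independent over `ℚ(j)` -/
theorem s28x_le_relrank_full_of_le_relrank_zmod (ℓ : ℕ) [Fact ℓ.Prime] (M : ℕ) [NeZero M] (m : ℕ)
    (h : (m : Cardinal) ≤
      IntermediateField.relrank (IntermediateField.adjoin (ZMod ℓ) {jqModC (ZMod ℓ)})
        (modularFunctionFieldFullC (ZMod ℓ) M)) :
    (m : Cardinal) ≤
      IntermediateField.relrank (IntermediateField.adjoin ℚ {jq}) (modularFunctionFieldFull M) := by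
  have hkJ : IntermediateField.adjoin (ZMod ℓ) {jqModC (ZMod ℓ)}
      ≤ modularFunctionFieldFullC (ZMod ℓ) M := by
    rw [IntermediateField.adjoin_simple_le_iff]
    exact jqModC_mem_full (ZMod ℓ) M
  have hK₀F : IntermediateField.adjoin ℚ {jq} ≤ modularFunctionFieldFull M := by
    rw [IntermediateField.adjoin_simple_le_iff]
    exact modularFunctionField_le_full M (jq_mem M)
  obtain ⟨z, hzF, hzli⟩ := exists_linearIndependent_of_le_relrank _ _ hkJ m h
  choose yv hyvF hyvz using fun i => exists_lift_of_mem_fullC ℓ M (z i) (hzF i)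
  set gV : gaussRing ℓ := ⟨jq, jq_mem_gaussRing ℓ⟩ with hgV
  have hgt : Transcendental (ZMod ℓ) (gaussRed ℓ gV) := by
    rw [hgV, gaussRed_jq]
    exact transcendental_jqModC (ZMod ℓ)
  have hzli' : LinearIndependent ↥(IntermediateField.adjoin (ZMod ℓ) {gaussRed ℓ gV})
      (fun i => gaussRed ℓ (yv i)) := by
    have h1 : (fun i => gaussRed ℓ (yv i)) = z := funext hyvz
    rw [h1, hgV, gaussRed_jq]
    exact hzli
  have hK : ∀ x ∈ IntermediateField.adjoin ℚ {(gV : LaurentSeries ℚ)}, x ∈ gaussField ℓ := by
    intro x hx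
    exact modularFunctionFieldFull_le_gaussField ℓ M (hK₀F hx)
  have hli := linearIndependent_coe_of_gaussRed gV hgt yv hzli' hK
  exact s28x_le_relrank_of_linearIndependent _ _ hK₀F m _ hyvF hli

end S28XAux

/-- monotonicity of the degree under extension of the constant field: for a homomorphism of
fields `f : k₀ → k`, `[k(j_d) : k(j)] ≤ [k₀(j_d) : k₀(j)]` (when the latter is finite). -/
theorem s28x_relrank_fullC_le_of_hom {k₀ k : Type} [Field k₀] [Field k] (f : k₀ →+* k)
    (M : ℕ) [NeZero M]
    (hfin : IntermediateField.relrank (IntermediateField.adjoin k₀ {jqModC k₀})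
      (modularFunctionFieldFullC k₀ M) < Cardinal.aleph0) :
    IntermediateField.relrank (IntermediateField.adjoin k {jqModC k})
        (modularFunctionFieldFullC k M) ≤
      IntermediateField.relrank (IntermediateField.adjoin k₀ {jqModC k₀})
        (modularFunctionFieldFullC k₀ M) := by
  let c : LaurentSeries k₀ →+* LaurentSeries k := coeffMap f
  have hE : IntermediateField.adjoin k₀ {jqModC k₀} ≤ modularFunctionFieldFullC k₀ M := by
    rw [IntermediateField.adjoin_le_iff]
    exact Set.singleton_subset_iff.mpr (jqModC_mem_full _ M)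
  have hA : IntermediateField.adjoin k {jqModC k} ≤ modularFunctionFieldFullC k M := by
    rw [IntermediateField.adjoin_le_iff]
    exact Set.singleton_subset_iff.mpr (jqModC_mem_full _ M)
  have key := descent_subfield_relrank_le
    (P := (IntermediateField.adjoin k₀ {jqModC k₀}).toSubfield.map c)
    (Q := (modularFunctionFieldFullC k₀ M).toSubfield.map c)
    (A := (IntermediateField.adjoin k {jqModC k}).toSubfield)
    (B := (modularFunctionFieldFullC k M).toSubfield)
    ((Subfield.gc_map_comap c).monotone_l hE) ?_ hA ?_ ?_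
  · rwa [Subfield.relrank_map_map] at key
  · rw [Subfield.map_le_iff_le_comap]
    show Subfield.closure _ ≤ _
    rw [Subfield.closure_le]
    rintro x (⟨a, rfl⟩ | rfl)
    · show coeffMap f (algebraMap k₀ (LaurentSeries k₀) a) ∈
        IntermediateField.adjoin k {jqModC k}
      rw [algebraMap_laurentSeries_eq_single, coeffMap_single,
        ← algebraMap_laurentSeries_eq_single]
      exact IntermediateField.algebraMap_mem _ _
    · show coeffMap f (jqModC k₀) ∈ IntermediateField.adjoin k {jqModC k}
      rw [coeffMap_jqModC f]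
      exact IntermediateField.mem_adjoin_simple_self k _
  · show Subfield.closure _ ≤ _
    rw [Subfield.closure_le]
    rintro x (⟨a, rfl⟩ | ⟨d, hne, hd, rfl⟩)
    · exact (le_sup_left : (IntermediateField.adjoin k {jqModC k}).toSubfield ≤ _)
        (IntermediateField.algebraMap_mem _ a)
    · have := hne
      refine (le_sup_right : Subfield.map c
        (modularFunctionFieldFullC k₀ M).toSubfield ≤ _) ?_
      refine ⟨qExpand k₀ d (jqModC k₀), jqModCd_mem_full _ M hd, ?_⟩
      show coeffMap f _ = _
      rw [coeffMap_qExpand, coeffMap_jqModC]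
  · rwa [Subfield.relrank_map_map]

/-- the upper bound over the prime field, by reduction from characteristic `0`. -/
theorem s28x_relrank_fullC_zmod_le (ℓ : ℕ) [Fact ℓ.Prime] (M : ℕ) [NeZero M] :
    IntermediateField.relrank (IntermediateField.adjoin (ZMod ℓ) {jqModC (ZMod ℓ)})
      (modularFunctionFieldFullC (ZMod ℓ) M) ≤ (dedekindPsi M : Cardinal) := by
  by_contra hcon
  rw [not_le] at hcon
  have h1 : ((dedekindPsi M + 1 : ℕ) : Cardinal) ≤
      IntermediateField.relrank (IntermediateField.adjoin (ZMod ℓ) {jqModC (ZMod ℓ)})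
        (modularFunctionFieldFullC (ZMod ℓ) M) := by
    rw [Nat.cast_succ, ← Cardinal.succ_natCast]
    exact Order.succ_le_of_lt hcon
  have h2 := (s28x_le_relrank_full_of_le_relrank_zmod ℓ M _ h1).trans (relrank_full_le M)
  have h3 : dedekindPsi M + 1 ≤ dedekindPsi M := by exact_mod_cast h2
  omega

/-- **X1**: `[k(j(q^d) : d ∣ M) : k(j)] = ψ(M)` for every field `k` of characteristic `ℓ ∤ M`. -/
theorem s28x_relrank_fullC (ℓ : ℕ) [Fact ℓ.Prime] (M : ℕ) [NeZero M] (hℓM : ¬ ℓ ∣ M)
    (k : Type) [Field k] [CharP k ℓ] :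
    IntermediateField.relrank (IntermediateField.adjoin k {jqModC k})
      (modularFunctionFieldFullC k M) = (dedekindPsi M : Cardinal) := by
  have hz := s28x_relrank_fullC_zmod_le ℓ M
  have hle : IntermediateField.relrank (IntermediateField.adjoin k {jqModC k})
      (modularFunctionFieldFullC k M) ≤ (dedekindPsi M : Cardinal) :=
    (s28x_relrank_fullC_le_of_hom (ZMod.castHom (dvd_refl ℓ) k) M
      (hz.trans_lt (Cardinal.natCast_lt_aleph0 (n := dedekindPsi M)))).trans hz
  refine le_antisymm hle ?_
  have : CharP (AlgebraicClosure k) ℓ :=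
    charP_of_injective_algebraMap (algebraMap k (AlgebraicClosure k)).injective ℓ
  have hM : ((M : ℕ) : AlgebraicClosure k) ≠ 0 := by
    intro h0
    exact hℓM ((CharP.cast_eq_zero_iff (AlgebraicClosure k) ℓ M).1 h0)
  exact (Low_main (AlgebraicClosure k) M hM).trans
    (s28x_relrank_fullC_le_of_hom (algebraMap k (AlgebraicClosure k)) M
      (hle.trans_lt (Cardinal.natCast_lt_aleph0 (n := dedekindPsi M))))

/-- **X1, characteristic `0`**: `[ℚ(j(q^d) : d ∣ M) : ℚ(j)] = ψ(M)`. -/
theorem s28x_relrank_full (M : ℕ) [NeZero M] :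
    IntermediateField.relrank (IntermediateField.adjoin ℚ {jq}) (modularFunctionFieldFull M)
      = (dedekindPsi M : Cardinal) := by
  refine le_antisymm (relrank_full_le M) ?_
  obtain ⟨ℓ, hℓ, hp⟩ := Nat.exists_infinite_primes (M + 1)
  have : Fact ℓ.Prime := ⟨hp⟩
  have hℓM : ¬ ℓ ∣ M := by
    intro hd
    have := Nat.le_of_dvd (Nat.pos_of_ne_zero (NeZero.ne M)) hd
    omega
  exact s28x_le_relrank_full_of_le_relrank_zmod ℓ M _ (s28x_relrank_fullC ℓ M hℓM (ZMod ℓ)).ge

/-- **X1, `Module.rank` form inside the field `F̄_M`**. -/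
theorem s28x_rank_fullC (ℓ : ℕ) [Fact ℓ.Prime] (M : ℕ) [NeZero M] (hℓM : ¬ ℓ ∣ M)
    (k : Type) [Field k] [CharP k ℓ] :
    Module.rank
        ↥(IntermediateField.adjoin k
          {(⟨jqModC k, jqModC_mem_full k M⟩ : ↥(modularFunctionFieldFullC k M))})
        ↥(modularFunctionFieldFullC k M) = (dedekindPsi M : Cardinal) := by
  rw [← IntermediateField.relrank_top_right,
    ← IntermediateField.relrank_map_map _ _ (modularFunctionFieldFullC k M).val,
    IntermediateField.adjoin_map, Set.image_singleton, ← AlgHom.fieldRange_eq_map,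
    IntermediateField.fieldRange_val]
  exact s28x_relrank_fullC ℓ M hℓM k

/-- **X1, `finrank` form inside the field `F̄_M`** (requested by PM). -/
theorem s28x_finrank_fullC (ℓ : ℕ) [Fact ℓ.Prime] (M : ℕ) [NeZero M] (hℓM : ¬ ℓ ∣ M)
    (k : Type) [Field k] [CharP k ℓ] :
    Module.finrank
        ↥(IntermediateField.adjoin k
          {(⟨jqModC k, jqModC_mem_full k M⟩ : ↥(modularFunctionFieldFullC k M))})
        ↥(modularFunctionFieldFullC k M) = dedekindPsi M := by
  exact Module.finrank_eq_of_rank_eq (s28x_rank_fullC ℓ M hℓM k)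

/-- `F̄_M` is finite-dimensional over `k(j)`. -/
theorem s28x_finiteDimensional_fullC (ℓ : ℕ) [Fact ℓ.Prime] (M : ℕ) [NeZero M] (hℓM : ¬ ℓ ∣ M)
    (k : Type) [Field k] [CharP k ℓ] :
    FiniteDimensional
        ↥(IntermediateField.adjoin k
          {(⟨jqModC k, jqModC_mem_full k M⟩ : ↥(modularFunctionFieldFullC k M))})
        ↥(modularFunctionFieldFullC k M) := by
  have hfree : Module.Free
      ↥(IntermediateField.adjoin k
        {(⟨jqModC k, jqModC_mem_full k M⟩ : ↥(modularFunctionFieldFullC k M))})
      ↥(modularFunctionFieldFullC k M) := Module.Free.of_divisionRing _ _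
  exact Module.finite_of_rank_eq_nat (s28x_rank_fullC ℓ M hℓM k)

end Fermat.Agent.S18L
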