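import Mathlib
import Fermat.Prelude.Def_ModularCurve_X0ModL
import Fermat.Agent.S28L.Util
import Fermat.Agent.S28L.LowNotMem
import Fermat.Agent.S28L.P4Content

/-!
# S18, package S28X, part 3 (auxiliary): the derivation `θ = q d/dq` and `p`-th powers in `k(j)`
-/

set_option autoImplicit false

noncomputable section

namespace Fermat.Agent.S18L

open ModularCurve Fermat.Agent.S28L Polynomial

theorem s28x_theta_jqModC_ne_zero (k : Type) [Field k] : theta (jqModC k) ≠ 0 := by
  intro h
  have h1 : (theta (jqModC k)).coeff (-1) = 0 := by rw [h]; rfl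
  rw [theta_coeff, coeff_jqModC_neg_one] at h1
  simp at h1

theorem s28x_theta_pow_char (k : Type) [Field k] (p : ℕ) [CharP k p] (f : LaurentSeries k) :
    theta (f ^ p) = 0 := by
  rw [theta_pow]
  have h : ((p : ℕ) : LaurentSeries k) = 0 := by
    rw [← map_natCast (algebraMap k (LaurentSeries k)), CharP.cast_eq_zero, map_zero]
  rw [h, zero_mul, zero_mul]

/-- an element of `k(j)` killed by `θ` is a `p`-th power in `k(j)` (`k` perfect of
characteristic `p`). -/
theorem s28x_exists_pow_eq_of_theta_eq_zero (k : Type) [Field k] [PerfectField k] (p : ℕ)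
    [Fact p.Prime] [CharP k p]
    (a : LaurentSeries k) (ha : a ∈ IntermediateField.adjoin k {jqModC k}) (h0 : theta a = 0) :
    ∃ b ∈ IntermediateField.adjoin k {jqModC k}, b ^ p = a := by
  obtain ⟨r, s, rfl⟩ := (IntermediateField.mem_adjoin_simple_iff k a).mp ha
  by_cases hs : aeval (jqModC k) s = 0
  · exact ⟨0, zero_mem _, by rw [hs, div_zero, zero_pow (Fact.out : p.Prime).ne_zero]⟩
  have hp1 : p - 1 + 1 = p := Nat.sub_add_cancel (Fact.out : p.Prime).one_le
  have e1 : aeval (jqModC k) r / aeval (jqModC k) s =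
      aeval (jqModC k) (r * s ^ (p - 1)) / (aeval (jqModC k) s) ^ p := by
    rw [map_mul, map_pow, div_eq_div_iff hs (pow_ne_zero _ hs), mul_assoc, ← pow_succ, hp1]
  have e2 : theta (aeval (jqModC k) (r * s ^ (p - 1))) = 0 := by
    have h1 : aeval (jqModC k) (r * s ^ (p - 1)) =
        (aeval (jqModC k) r / aeval (jqModC k) s) * (aeval (jqModC k) s) ^ p := by
      rw [e1, div_mul_cancel₀ _ (pow_ne_zero _ hs)]
    rw [h1, theta_mul, h0, s28x_theta_pow_char, zero_mul, mul_zero, add_zero]
  rw [theta_aeval] at e2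
  have e3 : aeval (jqModC k) (derivative (r * s ^ (p - 1))) = 0 :=
    (mul_eq_zero.mp e2).resolve_right (s28x_theta_jqModC_ne_zero k)
  have e4 : derivative (r * s ^ (p - 1)) = 0 := by
    by_contra hne
    exact transcendental_jqModC k ⟨_, hne, e3⟩
  have e5 : expand k p (contract p (r * s ^ (p - 1))) = r * s ^ (p - 1) :=
    expand_contract p e4 (Fact.out : p.Prime).ne_zero
  have : ExpChar k p := ExpChar.prime (Fact.out : p.Prime)
  have e6 : ((contract p (r * s ^ (p - 1))).map ((frobeniusEquiv k p).symm : k →+* k)) ^ p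
      = r * s ^ (p - 1) := by
    rw [← map_frobenius_expand, ← map_expand, Polynomial.map_map]
    have h2 : (frobenius k p).comp ((frobeniusEquiv k p).symm : k →+* k) = RingHom.id k := by
      ext c
      simp
    rw [h2, Polynomial.map_id, e5]
  have hmem : ∀ f : k[X], aeval (jqModC k) f ∈ IntermediateField.adjoin k {jqModC k} := by
    intro f
    exact IntermediateField.algebra_adjoin_le_adjoin k _
      (Polynomial.aeval_mem_adjoin_singleton k (jqModC k))
  refine ⟨aeval (jqModC k) ((contract p (r * s ^ (p - 1))).map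
      ((frobeniusEquiv k p).symm : k →+* k)) / aeval (jqModC k) s,
    div_mem (hmem _) (hmem _), ?_⟩
  rw [div_pow, ← map_pow, e6, e1]

end Fermat.Agent.S18L
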