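import Mathlib
import Fermat.Prelude.Def_ModularCurve_X0ModL
import Fermat.Agent.S18L.S28XDeg
import Fermat.Agent.S18L.S28XSepAux

/-!
# S18, package S28X (owner: helper5), part 3: separability over `k(j)`
-/

set_option autoImplicit false

noncomputable section

namespace Fermat.Agent.S18L

open ModularCurve Fermat.Agent.S28L Polynomial

theorem s28x_isSeparable_aux (k : Type) [Field k] [PerfectField k] (p : ℕ) [Fact p.Prime]
    [CharP k p] (x : LaurentSeries k)
    (hx : IsAlgebraic ↥(IntermediateField.adjoin k {jqModC k}) x) :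
    IsSeparable ↥(IntermediateField.adjoin k {jqModC k}) x := by
  have hpp : p.Prime := Fact.out
  have hcK : CharP ↥(IntermediateField.adjoin k {jqModC k}) p :=
    charP_of_injective_algebraMap
      (algebraMap k ↥(IntermediateField.adjoin k {jqModC k})).injective p
  have hirr := minpoly.irreducible hx.isIntegral
  rcases separable_or p hirr with hsep | ⟨-, g, hg, hgP⟩
  · exact hsep
  exfalso
  have hgm : g.Monic := by
    have h := minpoly.monic hx.isIntegral
    rw [← hgP] at h
    exact (Polynomial.monic_expand_iff hpp.pos).mp h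
  have hgx : aeval (x ^ p) g = 0 := by
    rw [← expand_aeval, hgP, minpoly.aeval]
  have hgmin : g = minpoly ↥(IntermediateField.adjoin k {jqModC k}) (x ^ p) :=
    minpoly.eq_of_irreducible_of_monic hg hgx hgm
  have hd : ∀ a : ↥(IntermediateField.adjoin k {jqModC k}),
      ∃ c : ↥(IntermediateField.adjoin k {jqModC k}),
        (c : LaurentSeries k) * theta (jqModC k) = theta (a : LaurentSeries k) := by
    intro a
    obtain ⟨c, hc, h⟩ := Low_theta_mem k a a.2
    exact ⟨⟨c, hc⟩, h.symm⟩
  choose dK hdK using hd
  have hdK0 : ∀ a : ↥(IntermediateField.adjoin k {jqModC k}),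
      theta (a : LaurentSeries k) = 0 → dK a = 0 := by
    intro a ha
    have h := hdK a
    rw [ha] at h
    rcases mul_eq_zero.mp h with h | h
    · exact Subtype.ext h
    · exact absurd h (s28x_theta_jqModC_ne_zero k)
  have hdK00 : dK 0 = 0 := hdK0 0 (by simp)
  let G : (↥(IntermediateField.adjoin k {jqModC k}))[X] :=
    ∑ i ∈ Finset.range (g.natDegree + 1), monomial i (dK (g.coeff i))
  have hGc : ∀ i, G.coeff i = dK (g.coeff i) := by
    intro i
    simp only [G, finsetSum_coeff, coeff_monomial]
    rw [Finset.sum_ite_eq' (Finset.range (g.natDegree + 1)) i]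
    split_ifs with h
    · rfl
    · rw [Finset.mem_range, not_lt] at h
      rw [coeff_eq_zero_of_natDegree_lt (by omega), hdK00]
  have hGx : aeval (x ^ p) G * theta (jqModC k) = 0 := by
    have h1 : theta (aeval (x ^ p) g) = 0 := by rw [hgx, theta_zero]
    rw [aeval_eq_sum_range, theta_sum] at h1
    rw [← h1]
    simp only [G, map_sum, aeval_monomial, Finset.sum_mul]
    refine Finset.sum_congr rfl fun i _ => ?_
    have h2 : theta ((x ^ p) ^ i) = 0 := by
      rw [pow_right_comm, s28x_theta_pow_char]
    rw [Algebra.smul_def, theta_mul, h2, mul_zero, add_zero, IntermediateField.algebraMap_apply,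
      IntermediateField.algebraMap_apply, ← hdK]
    ring
  have hGx' : aeval (x ^ p) G = 0 :=
    (mul_eq_zero.mp hGx).resolve_right (s28x_theta_jqModC_ne_zero k)
  have hGdeg : G.degree < g.degree := by
    rw [degree_eq_natDegree hgm.ne_zero, degree_lt_iff_coeff_zero]
    intro m hm
    rw [hGc]
    rcases hm.eq_or_lt with rfl | hlt
    · rw [hgm.coeff_natDegree]
      exact hdK0 1 (by simp)
    · rw [coeff_eq_zero_of_natDegree_lt hlt, hdK00]
  have hG0 : G = 0 := by
    by_contra hne
    have h := minpoly.degree_le_of_ne_zero ↥(IntermediateField.adjoin k {jqModC k}) (x ^ p)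
      hne hGx'
    rw [← hgmin] at h
    exact absurd hGdeg (not_lt.mpr h)
  have hth : ∀ i, theta ((g.coeff i : ↥(IntermediateField.adjoin k {jqModC k})) :
      LaurentSeries k) = 0 := by
    intro i
    rw [← hdK, ← hGc, hG0, coeff_zero, ZeroMemClass.coe_zero, zero_mul]
  have hb : ∀ i, ∃ b : ↥(IntermediateField.adjoin k {jqModC k}), b ^ p = g.coeff i := by
    intro i
    obtain ⟨b, hb, hbp⟩ := s28x_exists_pow_eq_of_theta_eq_zero k p _ (g.coeff i).2 (hth i)
    exact ⟨⟨b, hb⟩, Subtype.ext hbp⟩
  choose b hb using hb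
  have hexp : ExpChar ↥(IntermediateField.adjoin k {jqModC k}) p := ExpChar.prime hpp
  have hh : ∃ h : (↥(IntermediateField.adjoin k {jqModC k}))[X],
      h.map (frobenius ↥(IntermediateField.adjoin k {jqModC k}) p) = g := by
    refine ⟨∑ i ∈ Finset.range (g.natDegree + 1), monomial i (b i), ?_⟩
    ext i
    simp only [coeff_map, finsetSum_coeff, coeff_monomial]
    rw [Finset.sum_ite_eq' (Finset.range (g.natDegree + 1)) i]
    split_ifs with h
    · rw [frobenius_def, hb]
    · rw [Finset.mem_range, not_lt] at h
      rw [coeff_eq_zero_of_natDegree_lt (by omega), map_zero]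
  obtain ⟨h, hh⟩ := hh
  have hP : minpoly ↥(IntermediateField.adjoin k {jqModC k}) x = h ^ p := by
    rw [← hgP, ← hh, ← map_expand, map_frobenius_expand]
  rw [hP] at hirr
  exact not_irreducible_pow hpp.ne_one hirr

/-- Over a perfect field `k`, every element of `k((q))` which is algebraic over `k(j)` is
separable over `k(j)` (the derivation `(dj/dq)⁻¹ d/dq` extends `d/dj`). -/
theorem s28x_isSeparable_of_isAlgebraic (k : Type) [Field k] [PerfectField k]
    (x : LaurentSeries k)
    (hx : IsAlgebraic ↥(IntermediateField.adjoin k {jqModC k}) x) :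
    IsSeparable ↥(IntermediateField.adjoin k {jqModC k}) x := by
  obtain ⟨p, hp⟩ := CharP.exists k
  rcases CharP.char_is_prime_or_zero k p with hpp | rfl
  · have : Fact p.Prime := ⟨hpp⟩
    exact s28x_isSeparable_aux k p x hx
  · have : CharZero k := CharP.charP_to_charZero k
    have : CharZero ↥(IntermediateField.adjoin k {jqModC k}) :=
      charZero_of_injective_algebraMap
        (algebraMap k ↥(IntermediateField.adjoin k {jqModC k})).injective
    exact (minpoly.irreducible hx.isIntegral).separable

theorem s28x_coeffMap_algebraMap {F k : Type} [Field F] [Field k] (φ : F →+* k) (c : F) :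
    coeffMap φ (algebraMap F (LaurentSeries F) c) = algebraMap k (LaurentSeries k) (φ c) := by
  rw [algebraMap_laurentSeries_eq_single, algebraMap_laurentSeries_eq_single, coeffMap_single]

theorem s28x_coeffMap_mem_adjoin {F k : Type} [Field F] [Field k] (φ : F →+* k)
    (y : LaurentSeries F) (hy : y ∈ IntermediateField.adjoin F {jqModC F}) :
    coeffMap φ y ∈ IntermediateField.adjoin k {jqModC k} := by
  induction hy using IntermediateField.adjoin_induction with
  | mem x hx =>
    rw [Set.mem_singleton_iff] at hx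
    subst hx
    rw [coeffMap_jqModC]
    exact IntermediateField.mem_adjoin_simple_self k _
  | algebraMap a =>
    rw [s28x_coeffMap_algebraMap]
    exact IntermediateField.algebraMap_mem _ _
  | add x y hx hy ihx ihy => rw [map_add]; exact add_mem ihx ihy
  | mul x y hx hy ihx ihy => rw [map_mul]; exact mul_mem ihx ihy
  | inv x hx ihx => rw [map_inv₀]; exact inv_mem ihx

/-- separability over `k₀(j)` is preserved by extension of the constant field. -/
theorem s28x_isSeparable_coeffMap {F k : Type} [Field F] [Field k] (φ : F →+* k)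
    (y : LaurentSeries F) (hsep : IsSeparable ↥(IntermediateField.adjoin F {jqModC F}) y) :
    IsSeparable ↥(IntermediateField.adjoin k {jqModC k}) (coeffMap φ y) := by
  let ψ : ↥(IntermediateField.adjoin F {jqModC F}) →+* ↥(IntermediateField.adjoin k {jqModC k}) :=
    (coeffMap φ).restrict _ _ (fun y hy => s28x_coeffMap_mem_adjoin φ y hy)
  have hcomp : (algebraMap ↥(IntermediateField.adjoin k {jqModC k}) (LaurentSeries k)).comp ψ =
      (coeffMap φ).comp (algebraMap ↥(IntermediateField.adjoin F {jqModC F}) (LaurentSeries F)) :=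
    rfl
  have h0 : aeval (coeffMap φ y)
      ((minpoly ↥(IntermediateField.adjoin F {jqModC F}) y).map ψ) = 0 := by
    rw [aeval_def, eval₂_map, hcomp, ← hom_eval₂, ← aeval_def, minpoly.aeval, map_zero]
  have hs : ((minpoly ↥(IntermediateField.adjoin F {jqModC F}) y).map ψ).Separable :=
    Polynomial.Separable.map hsep
  exact hs.of_dvd (minpoly.dvd _ _ h0)

/-- over the prime field, `F̄_M` is integral over `𝔽_ℓ(j)` (finite degree). -/
theorem s28x_isIntegral_of_mem_fullC_zmod (ℓ : ℕ) [Fact ℓ.Prime] (M : ℕ) [NeZero M]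
    (x : LaurentSeries (ZMod ℓ)) (hx : x ∈ modularFunctionFieldFullC (ZMod ℓ) M) :
    IsIntegral ↥(IntermediateField.adjoin (ZMod ℓ) {jqModC (ZMod ℓ)}) x := by
  have hle : IntermediateField.adjoin (ZMod ℓ) {jqModC (ZMod ℓ)} ≤
      modularFunctionFieldFullC (ZMod ℓ) M := by
    rw [IntermediateField.adjoin_le_iff]
    intro y hy
    rw [Set.mem_singleton_iff] at hy
    subst hy
    exact jqModC_mem_full (ZMod ℓ) M
  have h1 := s28x_relrank_fullC_zmod_le ℓ M
  rw [IntermediateField.relrank_eq_rank_of_le hle] at h1
  have hfin : Module.Finite ↥(IntermediateField.adjoin (ZMod ℓ) {jqModC (ZMod ℓ)})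
      ↥(IntermediateField.extendScalars hle) := by
    have hfree : Module.Free ↥(IntermediateField.adjoin (ZMod ℓ) {jqModC (ZMod ℓ)})
        ↥(IntermediateField.extendScalars hle) := Module.Free.of_divisionRing _ _
    rw [← Module.rank_lt_aleph0_iff]
    exact lt_of_le_of_lt h1 (Cardinal.natCast_lt_aleph0)
  have h2 : IsIntegral ↥(IntermediateField.adjoin (ZMod ℓ) {jqModC (ZMod ℓ)})
      (⟨x, hx⟩ : ↥(IntermediateField.extendScalars hle)) := IsIntegral.of_finite _ _
  exact h2.map (IntermediateField.val (IntermediateField.extendScalars hle))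

set_option linter.unusedVariables false in
/-- **X3**: for `ℓ ∤ M` and any field `k` of characteristic `ℓ`, `F̄_M` is separable over
`k(j)`. -/
theorem s28x_isSeparable (ℓ : ℕ) [Fact ℓ.Prime] (M : ℕ) [NeZero M] (hℓM : ¬ ℓ ∣ M)
    (k : Type) [Field k] [CharP k ℓ] (x : LaurentSeries k)
    (hx : x ∈ modularFunctionFieldFullC k M) :
    IsSeparable ↥(IntermediateField.adjoin k {jqModC k}) x := by
  have hgen : ∀ y ∈ divisorExpansionsC k M,
      IsSeparable ↥(IntermediateField.adjoin k {jqModC k}) y := by
    rintro y ⟨d, hd, hdvd, rfl⟩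
    have hF : qExpand (ZMod ℓ) d (jqModC (ZMod ℓ)) ∈ modularFunctionFieldFullC (ZMod ℓ) M :=
      jqModCd_mem_full _ M hdvd
    have hint := s28x_isIntegral_of_mem_fullC_zmod ℓ M _ hF
    have hsep := s28x_isSeparable_of_isAlgebraic (ZMod ℓ) _ hint.isAlgebraic
    have h := s28x_isSeparable_coeffMap (ZMod.castHom (dvd_refl ℓ) k) _ hsep
    rwa [coeffMap_qExpand, coeffMap_jqModC] at h
  have hle : modularFunctionFieldFullC k M ≤
      (separableClosure ↥(IntermediateField.adjoin k {jqModC k})
        (LaurentSeries k)).restrictScalars k := by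
    rw [modularFunctionFieldFullC, IntermediateField.adjoin_le_iff]
    intro y hy
    exact mem_separableClosure_iff.mpr (hgen y hy)
  exact mem_separableClosure_iff.mp (hle hx)

end Fermat.Agent.S18L
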