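import Mathlib
import Fermat.Agent.S18L.S28XDeg
import Fermat.Agent.S18L.S28XSep

/-!
# S18, package S28X (owner: helper5), part 3b: separability of `F̄_M / k(j̄)` as an instance-shaped
statement inside the field `F̄_M` (requested by the CRV package)
-/

set_option autoImplicit false

noncomputable section

namespace Fermat.Agent.S18L

open ModularCurve

/-- transfer of separability of an element from an ambient field to an intermediate field -/
theorem s28x_isSeparable_restrict {k L : Type*} [Field k] [Field L] [Algebra k L]
    (F : IntermediateField k L) (t : L) (ht : t ∈ F) (x : F)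
    (hx : IsSeparable ↥(IntermediateField.adjoin k {t}) (x : L)) :
    IsSeparable ↥(IntermediateField.adjoin k {(⟨t, ht⟩ : ↥F)}) x := by
  have hmap : (IntermediateField.adjoin k {(⟨t, ht⟩ : ↥F)}).map F.val
      = IntermediateField.adjoin k {t} := by
    rw [IntermediateField.adjoin_map, Set.image_singleton]
    rfl
  have hmem : ∀ e : ↥(IntermediateField.adjoin k {t}),
      ∃ e' : ↥F, e' ∈ IntermediateField.adjoin k {(⟨t, ht⟩ : ↥F)} ∧ (e' : L) = (e : L) := by
    intro e
    have he : (e : L) ∈ (IntermediateField.adjoin k {(⟨t, ht⟩ : ↥F)}).map F.val := by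
      rw [hmap]; exact e.2
    obtain ⟨e', he', hee⟩ := (IntermediateField.mem_map _).1 he
    exact ⟨e', he', hee⟩
  choose σf hσmem hσval using hmem
  let σ : ↥(IntermediateField.adjoin k {t}) →+* ↥(IntermediateField.adjoin k {(⟨t, ht⟩ : ↥F)}) :=
    { toFun := fun e => ⟨σf e, hσmem e⟩
      map_one' := by
        apply Subtype.ext; apply Subtype.ext
        simp [hσval]
      map_mul' := fun a b => by
        apply Subtype.ext; apply Subtype.ext
        simp [hσval]
      map_zero' := by
        apply Subtype.ext; apply Subtype.ext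
        simp [hσval]
      map_add' := fun a b => by
        apply Subtype.ext; apply Subtype.ext
        simp [hσval] }
  have hσ : ∀ e, (((σ e : ↥(IntermediateField.adjoin k {(⟨t, ht⟩ : ↥F)})) : ↥F) : L) = (e : L) :=
    fun e => hσval e
  have hsep : ((minpoly ↥(IntermediateField.adjoin k {t}) (x : L)).map σ).Separable :=
    Polynomial.Separable.map hx
  have hroot : Polynomial.aeval x ((minpoly ↥(IntermediateField.adjoin k {t}) (x : L)).map σ)
      = 0 := by
    apply Subtype.ext
    have h0 := minpoly.aeval ↥(IntermediateField.adjoin k {t}) (x : L)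
    rw [Polynomial.aeval_def, Polynomial.eval₂_map]
    rw [Polynomial.aeval_def] at h0
    have h1 : F.val.toRingHom
        (Polynomial.eval₂ ((algebraMap ↥(IntermediateField.adjoin k {(⟨t, ht⟩ : ↥F)}) ↥F).comp σ)
          x (minpoly ↥(IntermediateField.adjoin k {t}) (x : L)))
        = Polynomial.eval₂ (algebraMap ↥(IntermediateField.adjoin k {t}) L) (x : L)
          (minpoly ↥(IntermediateField.adjoin k {t}) (x : L)) := by
      rw [Polynomial.hom_eval₂]
      congr 1
      ext e
      exact hσ e
    rw [h0] at h1
    exact h1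
  exact Polynomial.Separable.of_dvd hsep (minpoly.dvd _ _ hroot)

/-- **X3, instance-shaped form inside the field `F̄_M`**: `F̄_M / k(j̄)` is separable. -/
theorem s28x_algebra_isSeparable_fullC (ℓ : ℕ) [Fact ℓ.Prime] (M : ℕ) [NeZero M] (hℓM : ¬ ℓ ∣ M)
    (k : Type) [Field k] [CharP k ℓ] :
    Algebra.IsSeparable
        ↥(IntermediateField.adjoin k
          {(⟨jqModC k, jqModC_mem_full k M⟩ : ↥(modularFunctionFieldFullC k M))})
        ↥(modularFunctionFieldFullC k M) :=
  ⟨fun x => s28x_isSeparable_restrict _ _ _ x (s28x_isSeparable ℓ M hℓM k (x : LaurentSeries k) x.2)⟩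

end Fermat.Agent.S18L
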