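import Mathlib

/-!
# S18, package S28X (owner: helper5), part 11: simple extensions inside an intermediate field

`F` an intermediate field of `L / K`, `t ∈ F`.  The simple extension `K(t)` can be formed inside
`F` (`K⟮(⟨t, ht⟩ : F)⟯`) or inside `L` (`K⟮t⟯`); linear independence and spans over the two agree.
-/

set_option autoImplicit false

noncomputable section

namespace Fermat.Agent.S18L

section Restrict

variable {K L : Type*} [Field K] [Field L] [Algebra K L] (F : IntermediateField K L) (t : L)
  (ht : t ∈ F)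

theorem s28x_map_adjoin_val :
    (IntermediateField.adjoin K {(⟨t, ht⟩ : ↥F)}).map F.val = IntermediateField.adjoin K {t} := by
  rw [IntermediateField.adjoin_map, Set.image_singleton]
  rfl

theorem s28x_coe_mem_adjoin (e : ↥(IntermediateField.adjoin K {(⟨t, ht⟩ : ↥F)})) :
    ((e : ↥F) : L) ∈ IntermediateField.adjoin K {t} := by
  rw [← s28x_map_adjoin_val F t ht]
  exact (IntermediateField.mem_map _).2 ⟨(e : ↥F), e.2, rfl⟩

theorem s28x_exists_adjoin_lift (e : L) (he : e ∈ IntermediateField.adjoin K {t}) :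
    ∃ e' : ↥(IntermediateField.adjoin K {(⟨t, ht⟩ : ↥F)}), ((e' : ↥F) : L) = e := by
  rw [← s28x_map_adjoin_val F t ht] at he
  obtain ⟨e', he', hee⟩ := (IntermediateField.mem_map _).1 he
  exact ⟨⟨e', he'⟩, hee⟩

/-- linear independence over `K(t)`: from `L` to `F` -/
theorem s28x_linearIndependent_restrict {n : ℕ} (v : Fin n → ↥F)
    (h : LinearIndependent ↥(IntermediateField.adjoin K {t}) (fun i => ((v i : ↥F) : L))) :
    LinearIndependent ↥(IntermediateField.adjoin K {(⟨t, ht⟩ : ↥F)}) v := by
  rw [Fintype.linearIndependent_iff] at h ⊢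
  intro g hg i
  have h1 := h (fun i => ⟨((g i : ↥F) : L), s28x_coe_mem_adjoin F t ht (g i)⟩) (by
    have h2 := congrArg (fun x : ↥F => (x : L)) hg
    simp only [IntermediateField.coe_sum, ZeroMemClass.coe_zero] at h2
    rw [← h2]
    refine Finset.sum_congr rfl fun i _ => ?_
    rfl) i
  have h3 : ((g i : ↥F) : L) = 0 := congrArg Subtype.val h1
  exact Subtype.ext (Subtype.ext h3)

/-- linear independence over `K(t)`: from `F` to `L` -/
theorem s28x_linearIndependent_coe {n : ℕ} (v : Fin n → ↥F)
    (h : LinearIndependent ↥(IntermediateField.adjoin K {(⟨t, ht⟩ : ↥F)}) v) :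
    LinearIndependent ↥(IntermediateField.adjoin K {t}) (fun i => ((v i : ↥F) : L)) := by
  rw [Fintype.linearIndependent_iff] at h ⊢
  intro g hg i
  choose g' hg' using fun i => s28x_exists_adjoin_lift F t ht (g i : L) (g i).2
  have h1 := h g' (by
    apply Subtype.ext
    simp only [IntermediateField.coe_sum, ZeroMemClass.coe_zero]
    rw [← hg]
    refine Finset.sum_congr rfl fun i _ => ?_
    change ((g' i : ↥F) : L) * ((v i : ↥F) : L) = (g i : L) * ((v i : ↥F) : L)
    rw [hg' i]) i
  apply Subtype.ext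
  rw [← hg' i, h1]
  rfl

/-- spans over `K(t)`: from `F` to `L` -/
theorem s28x_coe_mem_span {n : ℕ} (v : Fin n → ↥F) (x : ↥F)
    (hx : x ∈ Submodule.span ↥(IntermediateField.adjoin K {(⟨t, ht⟩ : ↥F)}) (Set.range v)) :
    (x : L) ∈ Submodule.span ↥(IntermediateField.adjoin K {t})
      (Set.range fun i => ((v i : ↥F) : L)) := by
  obtain ⟨g, hg⟩ := (Submodule.mem_span_range_iff_exists_fun _).1 hx
  rw [← hg]
  simp only [IntermediateField.coe_sum]
  refine Submodule.sum_mem _ fun i _ => ?_
  have e : (((g i • v i : ↥F)) : L)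
      = (⟨((g i : ↥F) : L), s28x_coe_mem_adjoin F t ht (g i)⟩ :
          ↥(IntermediateField.adjoin K {t})) • ((v i : ↥F) : L) := rfl
  rw [e]
  exact Submodule.smul_mem _ _ (Submodule.subset_span ⟨i, rfl⟩)

/-- spans over `K(t)`: from `L` to `F` -/
theorem s28x_mem_span_restrict {n : ℕ} (v : Fin n → ↥F) (x : ↥F)
    (hx : (x : L) ∈ Submodule.span ↥(IntermediateField.adjoin K {t})
      (Set.range fun i => ((v i : ↥F) : L))) :
    x ∈ Submodule.span ↥(IntermediateField.adjoin K {(⟨t, ht⟩ : ↥F)}) (Set.range v) := by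
  obtain ⟨g, hg⟩ := (Submodule.mem_span_range_iff_exists_fun _).1 hx
  choose g' hg' using fun i => s28x_exists_adjoin_lift F t ht (g i : L) (g i).2
  have e : x = ∑ i, g' i • v i := by
    apply Subtype.ext
    simp only [IntermediateField.coe_sum]
    rw [← hg]
    refine Finset.sum_congr rfl fun i _ => ?_
    change (g i : L) * ((v i : ↥F) : L) = ((g' i : ↥F) : L) * ((v i : ↥F) : L)
    rw [hg' i]
  rw [e]
  exact Submodule.sum_mem _ fun i _ => Submodule.smul_mem _ _ (Submodule.subset_span ⟨i, rfl⟩)

end Restrict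

end Fermat.Agent.S18L
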