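import Mathlib
import Fermat.Agent.S18L.S28XRestrict

/-!
# S18, package S28X (owner: helper5), part 12: changing the base `K(u) ⊆ K(t)` of a finite
extension `F / K(u)` inside an ambient field: finiteness, degree, separability
-/

set_option autoImplicit false

noncomputable section

namespace Fermat.Agent.S18L

section Tower

variable {K L : Type*} [Field K] [Field L] [Algebra K L]

/-- separability over a larger intermediate base field -/
theorem s28x_isSeparable_of_le {E₁ E₂ : IntermediateField K L} (h : E₁ ≤ E₂)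
    (hsep : Algebra.IsSeparable ↥E₁ L) : Algebra.IsSeparable ↥E₂ L := by
  let _ : Algebra ↥E₁ ↥E₂ := (IntermediateField.inclusion h).toRingHom.toAlgebra
  have _ : IsScalarTower ↥E₁ ↥E₂ L := IsScalarTower.of_algebraMap_eq (fun x => rfl)
  exact Algebra.isSeparable_tower_top_of_isSeparable ↥E₁ ↥E₂ L

/-- `K(u) ≤ K(t)` inside `F` when `u ∈ K(t)` inside `L` -/
theorem s28x_adjoin_le_adjoin (F : IntermediateField K L) (u t : L) (hu : u ∈ F) (ht : t ∈ F)
    (hut : u ∈ IntermediateField.adjoin K {t}) :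
    IntermediateField.adjoin K {(⟨u, hu⟩ : ↥F)} ≤ IntermediateField.adjoin K {(⟨t, ht⟩ : ↥F)} := by
  rw [IntermediateField.adjoin_simple_le_iff]
  obtain ⟨e', he'⟩ := s28x_exists_adjoin_lift F t ht u hut
  have : ((e' : ↥(IntermediateField.adjoin K {(⟨t, ht⟩ : ↥F)})) : ↥F) = ⟨u, hu⟩ := Subtype.ext he'
  rw [← this]
  exact e'.2

/-- **tower law**: if `u ∈ K(t)`, `[K(t) : K(u)] = d` and `[F : K(u)] = ψ` is finite, then
`F / K(t)` is finite and `d * [F : K(t)] = ψ`. -/
theorem s28x_tower (F : IntermediateField K L) (u t : L) (hu : u ∈ F) (ht : t ∈ F)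
    (hut : u ∈ IntermediateField.adjoin K {t}) (d ψ : ℕ) (hd0 : d ≠ 0)
    (hd : IntermediateField.relrank (IntermediateField.adjoin K {u})
      (IntermediateField.adjoin K {t}) = d)
    (hfin : Module.Finite ↥(IntermediateField.adjoin K {(⟨u, hu⟩ : ↥F)}) ↥F)
    (hψ : Module.finrank ↥(IntermediateField.adjoin K {(⟨u, hu⟩ : ↥F)}) ↥F = ψ) :
    Module.Finite ↥(IntermediateField.adjoin K {(⟨t, ht⟩ : ↥F)}) ↥F ∧
      d * Module.finrank ↥(IntermediateField.adjoin K {(⟨t, ht⟩ : ↥F)}) ↥F = ψ := by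
  have hle := s28x_adjoin_le_adjoin F u t hu ht hut
  have h1 := IntermediateField.relrank_mul_relrank hle
    (le_top : IntermediateField.adjoin K {(⟨t, ht⟩ : ↥F)} ≤ ⊤)
  have hr : Module.rank ↥(IntermediateField.adjoin K {(⟨u, hu⟩ : ↥F)}) ↥F = (ψ : Cardinal) := by
    haveI := hfin
    rw [← Module.finrank_eq_rank, hψ]
  rw [IntermediateField.relrank_top_right, IntermediateField.relrank_top_right,
    ← IntermediateField.relrank_map_map _ _ F.val, s28x_map_adjoin_val, s28x_map_adjoin_val,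
    hd, hr] at h1
  have hd0' : (d : Cardinal) ≠ 0 := by exact_mod_cast hd0
  have hlt : Module.rank ↥(IntermediateField.adjoin K {(⟨t, ht⟩ : ↥F)}) ↥F < Cardinal.aleph0 :=
    lt_of_le_of_lt ((Cardinal.le_mul_left hd0').trans h1.le) (Cardinal.natCast_lt_aleph0)
  obtain ⟨m, hm⟩ := Cardinal.lt_aleph0.1 hlt
  refine ⟨Module.finite_of_rank_eq_nat hm, ?_⟩
  rw [Module.finrank_eq_of_rank_eq hm]
  rw [hm] at h1
  exact_mod_cast h1

end Tower

end Fermat.Agent.S18L
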