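import Mathlib
import Fermat.Agent.S18L.AsmGauss
import Fermat.Agent.S18L.HM
import Fermat.Agent.S18L.S28XDeg
import Fermat.Agent.S18L.S28XSepW
import Fermat.Agent.S18L.S28XBridge
import Fermat.Agent.S18L.S28XTower

/-!
# S18, package S28X (owner: helper5), part 13: the three charts `t = j, h₂, h₃` as elements of
the ring of integral functions of `redDatum A M hA hℓM`, with

* the reduction of `t` (`j̄`, `h̄₂`, `h̄₃`) and its transcendence over the residue field,
* finiteness and degree of `F′ / ℚ̄(t)` and of `F̄′ / k(t̄)` (the same number `n`),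
* separability of `F̄′ / k(t̄)`.
-/

set_option autoImplicit false
set_option synthInstance.maxHeartbeats 400000

noncomputable section

open ModularCurve
open scoped IntermediateField

namespace Fermat.Agent.S18L

open Fermat.Agent.X0S24

variable (A : ValuationSubring (AlgebraicClosure ℚ)) (M : ℕ) [NeZero M] {ℓ : ℕ} [Fact ℓ.Prime]
  (hA : A.LiesOverPrime ℓ) (hℓM : ¬ ℓ ∣ M)

/-! ### the chart `t = j` -/

/-- `j` as an integral function -/
def s28xTJ : (redDatum A M hA hℓM).O := ⟨Embed.jbar M, jbar_mem_asmO A M⟩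

theorem s28xTJ_coe : ((s28xTJ A M hA hℓM : (redDatum A M hA hℓM).O) :
    ↥(modularFunctionFieldBar M)) = Embed.jbar M := rfl

theorem s28xTJ_red : (redDatum A M hA hℓM).red (s28xTJ A M hA hℓM)
    = ⟨jqModC (IsLocalRing.ResidueField A), jqModC_mem_full (IsLocalRing.ResidueField A) M⟩ :=
  asmRed_jbar A M

theorem s28xTJ_transcendental :
    Transcendental (IsLocalRing.ResidueField A)
      ((redDatum A M hA hℓM).red (s28xTJ A M hA hℓM)) :=
  transcendental_asmRed_jbar A M

theorem s28xTJ_finite :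
    Module.Finite ↥(AlgebraicClosure ℚ)⟮((s28xTJ A M hA hℓM : (redDatum A M hA hℓM).O) :
      ↥(modularFunctionFieldBar M))⟯ ↥(modularFunctionFieldBar M) :=
  Fermat.Agent.S28L.DegBar.finite_bar M

theorem s28xTJ_finrank :
    Module.finrank ↥(AlgebraicClosure ℚ)⟮((s28xTJ A M hA hℓM : (redDatum A M hA hℓM).O) :
      ↥(modularFunctionFieldBar M))⟯ ↥(modularFunctionFieldBar M) = dedekindPsi M :=
  Fermat.Agent.S28L.DegBar.finrank_bar M

theorem s28xTJ_finite_red :
    Module.Finite ↥(IsLocalRing.ResidueField A)⟮(redDatum A M hA hℓM).red (s28xTJ A M hA hℓM)⟯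
      ↥(modularFunctionFieldFullC (IsLocalRing.ResidueField A) M) := by
  have _ := s28x_charP ℓ A hA
  rw [s28xTJ_red]
  exact s28x_finiteDimensional_fullC ℓ M hℓM (IsLocalRing.ResidueField A)

theorem s28xTJ_finrank_red :
    Module.finrank
      ↥(IsLocalRing.ResidueField A)⟮(redDatum A M hA hℓM).red (s28xTJ A M hA hℓM)⟯
      ↥(modularFunctionFieldFullC (IsLocalRing.ResidueField A) M) = dedekindPsi M := by
  have _ := s28x_charP ℓ A hA
  rw [s28xTJ_red]
  exact s28x_finrank_fullC ℓ M hℓM (IsLocalRing.ResidueField A)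

theorem s28xTJ_isSeparable_red :
    Algebra.IsSeparable
      ↥(IsLocalRing.ResidueField A)⟮(redDatum A M hA hℓM).red (s28xTJ A M hA hℓM)⟯
      ↥(modularFunctionFieldFullC (IsLocalRing.ResidueField A) M) := by
  have _ := s28x_charP ℓ A hA
  rw [s28xTJ_red]
  exact s28x_algebra_isSeparable_fullC ℓ M hℓM (IsLocalRing.ResidueField A)

/-! ### a general chart given by a good integral series -/

section Chart

variable (y : LaurentSeries A) (hy : AsmGood A M y)

/-- a good integral series as an integral function -/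
def s28xChart : (redDatum A M hA hℓM).O :=
  ⟨⟨asmIota A y, hy.1⟩, coe_mem_asmO A M y hy⟩

theorem s28xChart_coe : (((s28xChart A M hA hℓM y hy : (redDatum A M hA hℓM).O) :
    ↥(modularFunctionFieldBar M)) : LaurentSeries (AlgebraicClosure ℚ)) = asmIota A y := rfl

theorem s28xChart_red : (redDatum A M hA hℓM).red (s28xChart A M hA hℓM y hy)
    = ⟨asmRho A y, hy.2⟩ :=
  asmRed_coe A M y hy

theorem s28xChart_red_coe :
    (((redDatum A M hA hℓM).red (s28xChart A M hA hℓM y hy) :
      ↥(modularFunctionFieldFullC (IsLocalRing.ResidueField A) M)) :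
      LaurentSeries (IsLocalRing.ResidueField A)) = asmRho A y := by
  rw [s28xChart_red]

theorem s28xChart_transcendental
    (htr : Transcendental (IsLocalRing.ResidueField A) (asmRho A y)) :
    Transcendental (IsLocalRing.ResidueField A)
      ((redDatum A M hA hℓM).red (s28xChart A M hA hℓM y hy)) := by
  rw [s28xChart_red]
  exact agm_transcendental_mk _ _ hy.2 htr

/-- characteristic `0`: finiteness and degree over `ℚ̄(t)` -/
theorem s28xChart_finite_finrank (d : ℕ) (hd0 : d ≠ 0)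
    (hjK : coeffEmb (AlgebraicClosure ℚ) jq ∈ (AlgebraicClosure ℚ)⟮asmIota A y⟯)
    (hdK : IntermediateField.relrank (AlgebraicClosure ℚ)⟮coeffEmb (AlgebraicClosure ℚ) jq⟯
      (AlgebraicClosure ℚ)⟮asmIota A y⟯ = d) :
    Module.Finite ↥(AlgebraicClosure ℚ)⟮((s28xChart A M hA hℓM y hy : (redDatum A M hA hℓM).O) :
        ↥(modularFunctionFieldBar M))⟯ ↥(modularFunctionFieldBar M) ∧
      d * Module.finrank
        ↥(AlgebraicClosure ℚ)⟮((s28xChart A M hA hℓM y hy : (redDatum A M hA hℓM).O) :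
          ↥(modularFunctionFieldBar M))⟯ ↥(modularFunctionFieldBar M) = dedekindPsi M :=
  s28x_tower (modularFunctionFieldBar M) (coeffEmb (AlgebraicClosure ℚ) jq) (asmIota A y)
    (Embed.jbar M).2 hy.1 hjK d (dedekindPsi M) hd0 hdK
    (Fermat.Agent.S28L.DegBar.finite_bar M) (Fermat.Agent.S28L.DegBar.finrank_bar M)

/-- characteristic `ℓ`: finiteness and degree over `k(t̄)` -/
theorem s28xChart_finite_finrank_red (d : ℕ) (hd0 : d ≠ 0)
    (hjk : jqModC (IsLocalRing.ResidueField A) ∈ (IsLocalRing.ResidueField A)⟮asmRho A y⟯)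
    (hdk : IntermediateField.relrank
      (IsLocalRing.ResidueField A)⟮jqModC (IsLocalRing.ResidueField A)⟯
      (IsLocalRing.ResidueField A)⟮asmRho A y⟯ = d) :
    Module.Finite
        ↥(IsLocalRing.ResidueField A)⟮(redDatum A M hA hℓM).red (s28xChart A M hA hℓM y hy)⟯
        ↥(modularFunctionFieldFullC (IsLocalRing.ResidueField A) M) ∧
      d * Module.finrank
        ↥(IsLocalRing.ResidueField A)⟮(redDatum A M hA hℓM).red (s28xChart A M hA hℓM y hy)⟯
        ↥(modularFunctionFieldFullC (IsLocalRing.ResidueField A) M) = dedekindPsi M := by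
  have _ := s28x_charP ℓ A hA
  rw [s28xChart_red]
  exact s28x_tower (modularFunctionFieldFullC (IsLocalRing.ResidueField A) M)
    (jqModC (IsLocalRing.ResidueField A)) (asmRho A y)
    (jqModC_mem_full (IsLocalRing.ResidueField A) M) hy.2 hjk d (dedekindPsi M) hd0 hdk
    (s28x_finiteDimensional_fullC ℓ M hℓM (IsLocalRing.ResidueField A))
    (s28x_finrank_fullC ℓ M hℓM (IsLocalRing.ResidueField A))

/-- characteristic `ℓ`: separability over `k(t̄)` -/
theorem s28xChart_isSeparable_red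
    (hjk : jqModC (IsLocalRing.ResidueField A) ∈ (IsLocalRing.ResidueField A)⟮asmRho A y⟯) :
    Algebra.IsSeparable
      ↥(IsLocalRing.ResidueField A)⟮(redDatum A M hA hℓM).red (s28xChart A M hA hℓM y hy)⟯
      ↥(modularFunctionFieldFullC (IsLocalRing.ResidueField A) M) := by
  have _ := s28x_charP ℓ A hA
  rw [s28xChart_red]
  exact s28x_isSeparable_of_le
    (s28x_adjoin_le_adjoin (modularFunctionFieldFullC (IsLocalRing.ResidueField A) M)
      (jqModC (IsLocalRing.ResidueField A)) (asmRho A y)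
      (jqModC_mem_full (IsLocalRing.ResidueField A) M) hy.2 hjk)
    (s28x_algebra_isSeparable_fullC ℓ M hℓM (IsLocalRing.ResidueField A))

end Chart

theorem s28x_coeffEmb_jq :
    coeffEmb (AlgebraicClosure ℚ) jq = jqModC (AlgebraicClosure ℚ) := by
  rw [← jqModC_rat]
  show coeffMap (algebraMap ℚ (AlgebraicClosure ℚ)) (jqModC ℚ) = _
  rw [coeffMap_jqModC]

/-! ### the chart `t = h_2` (`2 ∣ M`, `ℓ ≠ 2`) -/

section Chart2

include hA in
theorem s28x_two_ne_zero (hℓ2 : ℓ ≠ 2) : (2 : IsLocalRing.ResidueField A) ≠ 0 := by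
  have h := natCast_residueField_ne_zero A hA 2
    (fun hd => hℓ2 ((Nat.prime_dvd_prime_iff_eq Fact.out Nat.prime_two).1 hd))
  exact_mod_cast h

theorem s28x_iota_hm2 : asmIota A (hm2 A) = hm2 (AlgebraicClosure ℚ) :=
  coeffMap_hm2 A A.subtype

theorem s28x_rho_hm2 : asmRho A (hm2 A) = hm2 (IsLocalRing.ResidueField A) :=
  coeffMap_hm2 A (IsLocalRing.residue A)

include hA in
theorem s28x_good_hm2 (h2M : 2 ∣ M) (hℓ2 : ℓ ≠ 2) : AsmGood A M (hm2 A) := by
  have _ := isAlgClosed_residueField A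
  refine ⟨?_, ?_⟩
  · rw [s28x_iota_hm2]
    exact hm2_mem_bar M h2M
  · rw [s28x_rho_hm2]
    exact hm2_mem_full _ (s28x_two_ne_zero A hA hℓ2) M h2M

/-- `h_2` as an integral function -/
def s28xT2 (h2M : 2 ∣ M) (hℓ2 : ℓ ≠ 2) : (redDatum A M hA hℓM).O :=
  s28xChart A M hA hℓM (hm2 A) (s28x_good_hm2 A M hA h2M hℓ2)

variable (h2M : 2 ∣ M) (hℓ2 : ℓ ≠ 2)

theorem s28xT2_coe :
    (((s28xT2 A M hA hℓM h2M hℓ2 : (redDatum A M hA hℓM).O) :
      ↥(modularFunctionFieldBar M)) : LaurentSeries (AlgebraicClosure ℚ))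
      = hm2 (AlgebraicClosure ℚ) :=
  s28x_iota_hm2 A

theorem s28xT2_red_coe :
    (((redDatum A M hA hℓM).red (s28xT2 A M hA hℓM h2M hℓ2) :
      ↥(modularFunctionFieldFullC (IsLocalRing.ResidueField A) M)) :
      LaurentSeries (IsLocalRing.ResidueField A)) = hm2 (IsLocalRing.ResidueField A) := by
  rw [s28xT2, s28xChart_red_coe, s28x_rho_hm2]

/-- the modular relation between `j` and `h_2` inside `F′` -/
theorem s28xT2_rel :
    Embed.jbar M * ((s28xT2 A M hA hℓM h2M hℓ2 : (redDatum A M hA hℓM).O) : ↥(modularFunctionFieldBar M)) ^ 2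
      = (((s28xT2 A M hA hℓM h2M hℓ2 : (redDatum A M hA hℓM).O) : ↥(modularFunctionFieldBar M)) + 256) ^ 3 := by
  apply Subtype.ext
  have hj : ((Embed.jbar M : ↥(modularFunctionFieldBar M)) : LaurentSeries (AlgebraicClosure ℚ))
      = jqModC (AlgebraicClosure ℚ) := s28x_coeffEmb_jq
  have ht := s28xT2_coe A M hA hℓM h2M hℓ2
  have h := hm2_jq1 (AlgebraicClosure ℚ)
  push_cast
  rw [hj, ht]
  exact h

theorem s28xT2_transcendental :
    Transcendental (IsLocalRing.ResidueField A)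
      ((redDatum A M hA hℓM).red (s28xT2 A M hA hℓM h2M hℓ2)) := by
  refine s28xChart_transcendental A M hA hℓM _ _ ?_
  rw [s28x_rho_hm2]
  exact hm2_transcendental _

theorem s28xT2_finite_finrank :
    Module.Finite
        ↥(AlgebraicClosure ℚ)⟮((s28xT2 A M hA hℓM h2M hℓ2 : (redDatum A M hA hℓM).O) :
          ↥(modularFunctionFieldBar M))⟯ ↥(modularFunctionFieldBar M) ∧
      3 * Module.finrank
        ↥(AlgebraicClosure ℚ)⟮((s28xT2 A M hA hℓM h2M hℓ2 : (redDatum A M hA hℓM).O) :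
          ↥(modularFunctionFieldBar M))⟯ ↥(modularFunctionFieldBar M) = dedekindPsi M := by
  refine s28xChart_finite_finrank A M hA hℓM _ _ 3 (by norm_num) ?_ ?_
  · rw [s28x_iota_hm2, s28x_coeffEmb_jq]
    exact hmfa_jq_mem_adjoin_hm2 _
  · rw [s28x_iota_hm2, s28x_coeffEmb_jq]
    refine relrank_adjoin_hm2_eq _ ?_
    have h := Fermat.Agent.S28L.Low_main (AlgebraicClosure ℚ) 2 (by norm_num)
    rw [Fermat.Agent.X0Count.ix_psi_prime Nat.prime_two] at h
    exact_mod_cast h

theorem s28xT2_finite_finrank_red :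
    Module.Finite
        ↥(IsLocalRing.ResidueField A)⟮(redDatum A M hA hℓM).red
          (s28xT2 A M hA hℓM h2M hℓ2)⟯
        ↥(modularFunctionFieldFullC (IsLocalRing.ResidueField A) M) ∧
      3 * Module.finrank
        ↥(IsLocalRing.ResidueField A)⟮(redDatum A M hA hℓM).red
          (s28xT2 A M hA hℓM h2M hℓ2)⟯
        ↥(modularFunctionFieldFullC (IsLocalRing.ResidueField A) M) = dedekindPsi M := by
  have _ := isAlgClosed_residueField A
  refine s28xChart_finite_finrank_red A M hA hℓM _ _ 3 (by norm_num) ?_ ?_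
  · rw [s28x_rho_hm2]
    exact hmfa_jq_mem_adjoin_hm2 _
  · rw [s28x_rho_hm2]
    refine relrank_adjoin_hm2_eq _ ?_
    have h := Fermat.Agent.S28L.Low_main (IsLocalRing.ResidueField A) 2
      (by exact_mod_cast s28x_two_ne_zero A hA hℓ2)
    rw [Fermat.Agent.X0Count.ix_psi_prime Nat.prime_two] at h
    exact_mod_cast h

theorem s28xT2_isSeparable_red :
    Algebra.IsSeparable
      ↥(IsLocalRing.ResidueField A)⟮(redDatum A M hA hℓM).red
        (s28xT2 A M hA hℓM h2M hℓ2)⟯
      ↥(modularFunctionFieldFullC (IsLocalRing.ResidueField A) M) := by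
  refine s28xChart_isSeparable_red A M hA hℓM _ _ ?_
  rw [s28x_rho_hm2]
  exact hmfa_jq_mem_adjoin_hm2 _

end Chart2

/-! ### the chart `t = h_3` (`3 ∣ M`, `ℓ ≠ 3`) -/

section Chart3

include hA in
theorem s28x_three_ne_zero (hℓ3 : ℓ ≠ 3) : (3 : IsLocalRing.ResidueField A) ≠ 0 := by
  have h := natCast_residueField_ne_zero A hA 3
    (fun hd => hℓ3 ((Nat.prime_dvd_prime_iff_eq Fact.out Nat.prime_three).1 hd))
  exact_mod_cast h

theorem s28x_iota_hm3 : asmIota A (hm3 A) = hm3 (AlgebraicClosure ℚ) :=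
  coeffMap_hm3 A A.subtype

theorem s28x_rho_hm3 : asmRho A (hm3 A) = hm3 (IsLocalRing.ResidueField A) :=
  coeffMap_hm3 A (IsLocalRing.residue A)

include hA in
theorem s28x_good_hm3 (h3M : 3 ∣ M) (hℓ3 : ℓ ≠ 3) : AsmGood A M (hm3 A) := by
  have _ := isAlgClosed_residueField A
  refine ⟨?_, ?_⟩
  · rw [s28x_iota_hm3]
    exact hm3_mem_bar M h3M
  · rw [s28x_rho_hm3]
    exact hm3_mem_full _ (s28x_three_ne_zero A hA hℓ3) M h3M

/-- `h_3` as an integral function -/
def s28xT3 (h3M : 3 ∣ M) (hℓ3 : ℓ ≠ 3) : (redDatum A M hA hℓM).O :=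
  s28xChart A M hA hℓM (hm3 A) (s28x_good_hm3 A M hA h3M hℓ3)

variable (h3M : 3 ∣ M) (hℓ3 : ℓ ≠ 3)

theorem s28xT3_coe :
    (((s28xT3 A M hA hℓM h3M hℓ3 : (redDatum A M hA hℓM).O) :
      ↥(modularFunctionFieldBar M)) : LaurentSeries (AlgebraicClosure ℚ))
      = hm3 (AlgebraicClosure ℚ) :=
  s28x_iota_hm3 A

theorem s28xT3_red_coe :
    (((redDatum A M hA hℓM).red (s28xT3 A M hA hℓM h3M hℓ3) :
      ↥(modularFunctionFieldFullC (IsLocalRing.ResidueField A) M)) :
      LaurentSeries (IsLocalRing.ResidueField A)) = hm3 (IsLocalRing.ResidueField A) := by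
  rw [s28xT3, s28xChart_red_coe, s28x_rho_hm3]

/-- the modular relation between `j` and `h_3` inside `F′` -/
theorem s28xT3_rel :
    Embed.jbar M * ((s28xT3 A M hA hℓM h3M hℓ3 : (redDatum A M hA hℓM).O) : ↥(modularFunctionFieldBar M)) ^ 3
      = (((s28xT3 A M hA hℓM h3M hℓ3 : (redDatum A M hA hℓM).O) : ↥(modularFunctionFieldBar M)) + 27) * (((s28xT3 A M hA hℓM h3M hℓ3 : (redDatum A M hA hℓM).O) : ↥(modularFunctionFieldBar M)) + 243) ^ 3 := by
  apply Subtype.ext
  have hj : ((Embed.jbar M : ↥(modularFunctionFieldBar M)) : LaurentSeries (AlgebraicClosure ℚ))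
      = jqModC (AlgebraicClosure ℚ) := s28x_coeffEmb_jq
  have ht := s28xT3_coe A M hA hℓM h3M hℓ3
  have h := hm3_jq1 (AlgebraicClosure ℚ)
  push_cast
  rw [hj, ht]
  exact h

theorem s28xT3_transcendental :
    Transcendental (IsLocalRing.ResidueField A)
      ((redDatum A M hA hℓM).red (s28xT3 A M hA hℓM h3M hℓ3)) := by
  refine s28xChart_transcendental A M hA hℓM _ _ ?_
  rw [s28x_rho_hm3]
  exact hm3_transcendental _

theorem s28xT3_finite_finrank :
    Module.Finite
        ↥(AlgebraicClosure ℚ)⟮((s28xT3 A M hA hℓM h3M hℓ3 : (redDatum A M hA hℓM).O) :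
          ↥(modularFunctionFieldBar M))⟯ ↥(modularFunctionFieldBar M) ∧
      4 * Module.finrank
        ↥(AlgebraicClosure ℚ)⟮((s28xT3 A M hA hℓM h3M hℓ3 : (redDatum A M hA hℓM).O) :
          ↥(modularFunctionFieldBar M))⟯ ↥(modularFunctionFieldBar M) = dedekindPsi M := by
  refine s28xChart_finite_finrank A M hA hℓM _ _ 4 (by norm_num) ?_ ?_
  · rw [s28x_iota_hm3, s28x_coeffEmb_jq]
    exact hmfa_jq_mem_adjoin_hm3 _
  · rw [s28x_iota_hm3, s28x_coeffEmb_jq]
    refine relrank_adjoin_hm3_eq _ ?_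
    have h := Fermat.Agent.S28L.Low_main (AlgebraicClosure ℚ) 3 (by norm_num)
    rw [Fermat.Agent.X0Count.ix_psi_prime Nat.prime_three] at h
    exact_mod_cast h

theorem s28xT3_finite_finrank_red :
    Module.Finite
        ↥(IsLocalRing.ResidueField A)⟮(redDatum A M hA hℓM).red
          (s28xT3 A M hA hℓM h3M hℓ3)⟯
        ↥(modularFunctionFieldFullC (IsLocalRing.ResidueField A) M) ∧
      4 * Module.finrank
        ↥(IsLocalRing.ResidueField A)⟮(redDatum A M hA hℓM).red
          (s28xT3 A M hA hℓM h3M hℓ3)⟯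
        ↥(modularFunctionFieldFullC (IsLocalRing.ResidueField A) M) = dedekindPsi M := by
  have _ := isAlgClosed_residueField A
  refine s28xChart_finite_finrank_red A M hA hℓM _ _ 4 (by norm_num) ?_ ?_
  · rw [s28x_rho_hm3]
    exact hmfa_jq_mem_adjoin_hm3 _
  · rw [s28x_rho_hm3]
    refine relrank_adjoin_hm3_eq _ ?_
    have h := Fermat.Agent.S28L.Low_main (IsLocalRing.ResidueField A) 3
      (by exact_mod_cast s28x_three_ne_zero A hA hℓ3)
    rw [Fermat.Agent.X0Count.ix_psi_prime Nat.prime_three] at h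
    exact_mod_cast h

theorem s28xT3_isSeparable_red :
    Algebra.IsSeparable
      ↥(IsLocalRing.ResidueField A)⟮(redDatum A M hA hℓM).red
        (s28xT3 A M hA hℓM h3M hℓ3)⟯
      ↥(modularFunctionFieldFullC (IsLocalRing.ResidueField A) M) := by
  refine s28xChart_isSeparable_red A M hA hℓM _ _ ?_
  rw [s28x_rho_hm3]
  exact hmfa_jq_mem_adjoin_hm3 _

end Chart3

end Fermat.Agent.S18L
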