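import Mathlib
import Fermat.Agent.S18L.NmDefs
import Fermat.Agent.S18L.S28XInst

/-!
# S18, package S28X (owner: helper5), part 14: the standing hypotheses `NmHyp` of the B-core for
the three charts `t = j, h₂, h₃` of `redDatum A M hA hℓM`, given only the branch hypothesis `br`.
-/

set_option autoImplicit false
set_option synthInstance.maxHeartbeats 400000

noncomputable section

open ModularCurve
open scoped IntermediateField

namespace Fermat.Agent.S18L

open Fermat.Agent.X0S24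

variable (A : ValuationSubring (AlgebraicClosure ℚ)) (M : ℕ) [NeZero M] {ℓ : ℕ} [Fact ℓ.Prime]
  (hA : A.LiesOverPrime ℓ) (hℓM : ¬ ℓ ∣ M)

set_option maxHeartbeats 1000000 in
/-- `NmHyp` for the chart `t = j`, `n = ψ(M)`. -/
theorem s28x_nmHyp_j
    (hbr : ∀ a b : (redDatum A M hA hℓM).A, a ≠ b →
      (redDatum A M hA hℓM).π a = (redDatum A M hA hℓM).π b →
      NmUnr (AlgebraicClosure ℚ)
          ((s28xTJ A M hA hℓM : (redDatum A M hA hℓM).O) : ↥(modularFunctionFieldBar M))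
          (a : AlgebraicClosure ℚ) ∨
        NmUnr (AlgebraicClosure ℚ)
          ((s28xTJ A M hA hℓM : (redDatum A M hA hℓM).O) : ↥(modularFunctionFieldBar M))
          (b : AlgebraicClosure ℚ)) :
    NmHyp (redDatum A M hA hℓM) (s28xTJ A M hA hℓM) (dedekindPsi M) := by
  refine ⟨?_, ?_, ?_, ?_, ?_, ?_, ?_⟩
  · exact s28xTJ_transcendental A M hA hℓM
  · exact s28xTJ_finite A M hA hℓM
  · exact s28xTJ_finrank A M hA hℓM
  · exact s28xTJ_finite_red A M hA hℓM
  · exact s28xTJ_finrank_red A M hA hℓM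
  · exact s28xTJ_isSeparable_red A M hA hℓM
  · exact hbr

set_option maxHeartbeats 1000000 in
/-- `NmHyp` for the chart `t = h₂` (`2 ∣ M`, `ℓ ≠ 2`), `n = ψ(M) / 3`. -/
theorem s28x_nmHyp_hm2 (h2M : 2 ∣ M) (hℓ2 : ℓ ≠ 2)
    (hbr : ∀ a b : (redDatum A M hA hℓM).A, a ≠ b →
      (redDatum A M hA hℓM).π a = (redDatum A M hA hℓM).π b →
      NmUnr (AlgebraicClosure ℚ)
          ((s28xT2 A M hA hℓM h2M hℓ2 : (redDatum A M hA hℓM).O) : ↥(modularFunctionFieldBar M))
          (a : AlgebraicClosure ℚ) ∨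
        NmUnr (AlgebraicClosure ℚ)
          ((s28xT2 A M hA hℓM h2M hℓ2 : (redDatum A M hA hℓM).O) : ↥(modularFunctionFieldBar M))
          (b : AlgebraicClosure ℚ)) :
    NmHyp (redDatum A M hA hℓM) (s28xT2 A M hA hℓM h2M hℓ2) (dedekindPsi M / 3) := by
  refine ⟨?_, ?_, ?_, ?_, ?_, ?_, ?_⟩
  · exact s28xT2_transcendental A M hA hℓM h2M hℓ2
  · exact (s28xT2_finite_finrank A M hA hℓM h2M hℓ2).1
  · have h := (s28xT2_finite_finrank A M hA hℓM h2M hℓ2).2
    omega
  · exact (s28xT2_finite_finrank_red A M hA hℓM h2M hℓ2).1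
  · have h := (s28xT2_finite_finrank_red A M hA hℓM h2M hℓ2).2
    omega
  · exact s28xT2_isSeparable_red A M hA hℓM h2M hℓ2
  · exact hbr

set_option maxHeartbeats 1000000 in
/-- `NmHyp` for the chart `t = h₃` (`3 ∣ M`, `ℓ ≠ 3`), `n = ψ(M) / 4`. -/
theorem s28x_nmHyp_hm3 (h3M : 3 ∣ M) (hℓ3 : ℓ ≠ 3)
    (hbr : ∀ a b : (redDatum A M hA hℓM).A, a ≠ b →
      (redDatum A M hA hℓM).π a = (redDatum A M hA hℓM).π b →
      NmUnr (AlgebraicClosure ℚ)
          ((s28xT3 A M hA hℓM h3M hℓ3 : (redDatum A M hA hℓM).O) : ↥(modularFunctionFieldBar M))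
          (a : AlgebraicClosure ℚ) ∨
        NmUnr (AlgebraicClosure ℚ)
          ((s28xT3 A M hA hℓM h3M hℓ3 : (redDatum A M hA hℓM).O) : ↥(modularFunctionFieldBar M))
          (b : AlgebraicClosure ℚ)) :
    NmHyp (redDatum A M hA hℓM) (s28xT3 A M hA hℓM h3M hℓ3) (dedekindPsi M / 4) := by
  refine ⟨?_, ?_, ?_, ?_, ?_, ?_, ?_⟩
  · exact s28xT3_transcendental A M hA hℓM h3M hℓ3
  · exact (s28xT3_finite_finrank A M hA hℓM h3M hℓ3).1
  · have h := (s28xT3_finite_finrank A M hA hℓM h3M hℓ3).2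
    omega
  · exact (s28xT3_finite_finrank_red A M hA hℓM h3M hℓ3).1
  · have h := (s28xT3_finite_finrank_red A M hA hℓM h3M hℓ3).2
    omega
  · exact s28xT3_isSeparable_red A M hA hℓM h3M hℓ3
  · exact hbr

end Fermat.Agent.S18L
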