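import Mathlib
import Fermat.Agent.S18L.AsmGauss
import Fermat.Agent.S18L.AsmCurves
import Fermat.Agent.S18L.AsmRes
import Fermat.Agent.S18L.InstAux
import Fermat.Agent.S18L.S28XNm
import Fermat.Agent.S18L.C0Br

/-!
# S18, package INST: the base parameter at a level `M` prime to `ℓ`
(`ℓ ≥ 5`, or `ℓ = 3` and `2 ∣ M`, or `ℓ = 2` and `3 ∣ M`) with the properties NE and GE
-/

set_option autoImplicit false
set_option synthInstance.maxHeartbeats 400000

open ModularCurve HahnSeries AlgebraicCurve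
open scoped IntermediateField

namespace Fermat.Agent.S18L

open Fermat.Agent.RRL

/-- a prime `ℓ ≥ 5` does not divide `1728` -/
theorem inst_not_dvd_1728 {ℓ : ℕ} (hℓ : ℓ.Prime) (h5 : 5 ≤ ℓ) : ¬ ℓ ∣ 1728 := by
  intro hdvd
  have h1 : ℓ ∣ 2 ^ 6 * 3 ^ 3 := by norm_num; exact hdvd
  rcases (Nat.Prime.dvd_mul hℓ).1 h1 with h2 | h3
  · have := Nat.le_of_dvd (by norm_num) (hℓ.dvd_of_dvd_pow h2)
    omega
  · have := Nat.le_of_dvd (by norm_num) (hℓ.dvd_of_dvd_pow h3)
    omega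

set_option maxHeartbeats 1600000 in
theorem inst_exists_param (M : ℕ) [NeZero M] {ℓ : ℕ} [Fact ℓ.Prime] (hℓM : ¬ ℓ ∣ M)
    (A : ValuationSubring (AlgebraicClosure ℚ)) (hA : A.LiesOverPrime ℓ)
    (hcases : 5 ≤ ℓ ∨ (ℓ = 3 ∧ 2 ∣ M) ∨ (ℓ = 2 ∧ 3 ∣ M))
    (C : Curve (AlgebraicClosure ℚ) ↥(modularFunctionFieldBar M)
      (Place (AlgebraicClosure ℚ) ↥(modularFunctionFieldBar M)))
    (hC : ∀ (P : Place (AlgebraicClosure ℚ) ↥(modularFunctionFieldBar M))
      (x : ↥(modularFunctionFieldBar M)), C.toPreCurve.ord P x = P.ord x)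
    (Cb : Curve (IsLocalRing.ResidueField A)
      ↥(modularFunctionFieldFullC (IsLocalRing.ResidueField A) M)
      (Place (IsLocalRing.ResidueField A)
        ↥(modularFunctionFieldFullC (IsLocalRing.ResidueField A) M)))
    (hCb : ∀ (Q : Place (IsLocalRing.ResidueField A)
        ↥(modularFunctionFieldFullC (IsLocalRing.ResidueField A) M))
      (x : ↥(modularFunctionFieldFullC (IsLocalRing.ResidueField A) M)),
      Cb.toPreCurve.ord Q x = Q.ord x) :
    ∃ t : (redDatum A M hA hℓM).O,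
      (∀ c : IsLocalRing.ResidueField A, (redDatum A M hA hℓM).red t ≠
        algebraMap (IsLocalRing.ResidueField A)
          ↥(modularFunctionFieldFullC (IsLocalRing.ResidueField A) M) c) ∧
      (∀ (s : ℕ) (x : (redDatum A M hA hℓM).O),
        (x : ↥(modularFunctionFieldBar M)) ∈ C.toPreCurve.L
            (s • C.toPreCurve.poleDiv (t : ↥(modularFunctionFieldBar M))) →
          (redDatum A M hA hℓM).red x ∈ Cb.toPreCurve.L
            (s • Cb.toPreCurve.poleDiv ((redDatum A M hA hℓM).red t))) ∧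
      (∃ s₀ : ℕ, ∀ s : ℕ, s₀ ≤ s →
        Module.finrank (IsLocalRing.ResidueField A)
            (Cb.toPreCurve.L (s • Cb.toPreCurve.poleDiv ((redDatum A M hA hℓM).red t)))
          ≤ Module.finrank (AlgebraicClosure ℚ)
            (C.toPreCurve.L (s • C.toPreCurve.poleDiv (t : ↥(modularFunctionFieldBar M))))) := by
  classical
  haveI : IsAlgClosed (IsLocalRing.ResidueField A) := isAlgClosed_residueField A
  have hπ : ∀ a : A, (redDatum A M hA hℓM).π a = IsLocalRing.residue A a := fun _ => rfl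
  rcases hcases with h5 | ⟨rfl, h2M⟩ | ⟨rfl, h3M⟩
  · -- `ℓ ≥ 5`, `t = j`
    have hc : (redDatum A M hA hℓM).π ((1728 : ℕ) : A) ≠ 0 := by
      rw [hπ, map_natCast]
      exact natCast_residueField_ne_zero A hA 1728 (inst_not_dvd_1728 Fact.out h5)
    have hbrs := c0_br_j M (redDatum A M hA hℓM) ((1728 : ℕ) : A) (by push_cast; rfl) hc
    have h := s28x_nmHyp_j A M hA hℓM hbrs.1
    exact ⟨s28xTJ A M hA hℓM,
      inst_of_chart (redDatum A M hA hℓM) C hC Cb hCb (s28xTJ A M hA hℓM) _ h hbrs.2⟩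
  · -- `ℓ = 3`, `t = h₂`
    have hℓ2 : (3 : ℕ) ≠ 2 := by norm_num
    have hc : (redDatum A M hA hℓM).π (-((64 : ℕ) : A)) ≠ 0 := by
      rw [hπ, map_neg, map_natCast, neg_ne_zero]
      exact natCast_residueField_ne_zero A hA 64 (by norm_num)
    have hbrs := c0_br_l2 M (redDatum A M hA hℓM)
      ((s28xT2 A M hA hℓM h2M hℓ2 : (redDatum A M hA hℓM).O) : ↥(modularFunctionFieldBar M))
      (s28xT2_rel A M hA hℓM h2M hℓ2) (-((64 : ℕ) : A)) (by push_cast; rfl) hc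
    have h := s28x_nmHyp_hm2 A M hA hℓM h2M hℓ2 hbrs.1
    exact ⟨s28xT2 A M hA hℓM h2M hℓ2,
      inst_of_chart (redDatum A M hA hℓM) C hC Cb hCb (s28xT2 A M hA hℓM h2M hℓ2) _ h hbrs.2⟩
  · -- `ℓ = 2`, `t = h₃`
    have hℓ3 : (2 : ℕ) ≠ 3 := by norm_num
    have hc : (redDatum A M hA hℓM).π (-((27 : ℕ) : A)) ≠ 0 := by
      rw [hπ, map_neg, map_natCast, neg_ne_zero]
      exact natCast_residueField_ne_zero A hA 27 (by norm_num)
    have hbrs := c0_br_l3 M (redDatum A M hA hℓM)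
      ((s28xT3 A M hA hℓM h3M hℓ3 : (redDatum A M hA hℓM).O) : ↥(modularFunctionFieldBar M))
      (s28xT3_rel A M hA hℓM h3M hℓ3) (-((27 : ℕ) : A)) (by push_cast; rfl) hc
    have h := s28x_nmHyp_hm3 A M hA hℓM h3M hℓ3 hbrs.1
    exact ⟨s28xT3 A M hA hℓM h3M hℓ3,
      inst_of_chart (redDatum A M hA hℓM) C hC Cb hCb (s28xT3 A M hA hℓM h3M hℓ3) _ h hbrs.2⟩

end Fermat.Agent.S18L
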