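import Mathlib
import Fermat.Agent.S18L.AsmCurves
import Fermat.Agent.X0S24.Final

/-!
# S18, assembly: the curve of places of `F = modularFunctionFieldBar N` over `ℚ̄`
-/

set_option autoImplicit false

open scoped IntermediateField
open ModularCurve

namespace Fermat.Agent.S18L

open Fermat.Agent.RRL AlgebraicCurve Fermat.Agent.X0S24

variable (N : ℕ) [NeZero N]

/-- `F̄` is algebraic over `ℚ̄(u)` for non-constant `u` -/
theorem halg_bar : ∀ u : ↥(modularFunctionFieldBar N),
    (∀ c : AlgebraicClosure ℚ, u ≠ algebraMap (AlgebraicClosure ℚ) ↥(modularFunctionFieldBar N) c) →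
      Algebra.IsAlgebraic (AlgebraicClosure ℚ)⟮u⟯ ↥(modularFunctionFieldBar N) := by
  intro u hu
  obtain ⟨C₀, -⟩ := Final.exists_curve N
  haveI := C₀.finite_adjoin_of_nonconst hu
  exact Algebra.IsAlgebraic.of_finite _ _

/-- the points of the char-0 curve are the places -/
theorem exists_placeEquiv_bar :
    ∃ (C₀ : Curve (AlgebraicClosure ℚ) ↥(modularFunctionFieldBar N) (Final.setup N).Pt)
      (e : (Final.setup N).Pt ≃ Place (AlgebraicClosure ℚ) ↥(modularFunctionFieldBar N)),
      ∀ (p : (Final.setup N).Pt) (x : ↥(modularFunctionFieldBar N)), x ≠ 0 →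
        (e p).ord x = C₀.ord p x := by
  obtain ⟨C₀, -⟩ := Final.exists_curve N
  refine ⟨C₀, PlacePoint.placeEquiv C₀ (fun x hx => C₀.finsum_ord_eq_zero hx)
    (fun C' x hx => C'.finsum_ord_eq_zero hx) (halg_bar N), fun p x hx => ?_⟩
  exact PlacePoint.place_ord C₀ p hx

theorem finite_support_bar : ∀ x : ↥(modularFunctionFieldBar N), x ≠ 0 →
    {Q : Place (AlgebraicClosure ℚ) ↥(modularFunctionFieldBar N) | Q.ord x ≠ 0}.Finite := by
  intro x hx
  obtain ⟨C₀, e, he⟩ := exists_placeEquiv_bar N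
  refine (((C₀.finite_support hx).image e)).subset ?_
  intro Q hQ
  refine ⟨e.symm Q, ?_, e.apply_symm_apply Q⟩
  show C₀.ord (e.symm Q) x ≠ 0
  rw [← he _ x hx, e.apply_symm_apply]
  exact hQ

theorem const_of_nonneg_bar : ∀ x : ↥(modularFunctionFieldBar N), x ≠ 0 →
    (∀ Q : Place (AlgebraicClosure ℚ) ↥(modularFunctionFieldBar N), 0 ≤ Q.ord x) →
      ∃ c : AlgebraicClosure ℚ,
        x = algebraMap (AlgebraicClosure ℚ) ↥(modularFunctionFieldBar N) c := by
  intro x hx h
  obtain ⟨C₀, e, he⟩ := exists_placeEquiv_bar N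
  refine C₀.const_of_nonneg hx fun p => ?_
  rw [← he p x hx]
  exact h (e p)

/-- the curve of places of `F̄` over `ℚ̄` -/
noncomputable def curveBar :
    Curve (AlgebraicClosure ℚ) ↥(modularFunctionFieldBar N)
      (Place (AlgebraicClosure ℚ) ↥(modularFunctionFieldBar N)) :=
  curveOfPlaces (halg_bar N) (finite_support_bar N) (const_of_nonneg_bar N)

end Fermat.Agent.S18L
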