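import Mathlib

/-!
# S18, assembly: descent of `m`-th powers along a finite extension of degree prime to `m`
(norm and Bézout)
-/

set_option autoImplicit false

namespace Fermat.Agent.S18L

/-- Pure Bézout step in a field: from `u ^ d = C ^ d * n ^ m` with `d`, `m` coprime, `u` is a
power of `C` times an `m`-th power. -/
theorem ades_bezout {F : Type*} [Field F] (u C n : F) (hu : u ≠ 0) (d m : ℕ)
    (hdm : Nat.Coprime d m) (h : u ^ d = C ^ d * n ^ m) :
    ∃ (a : ℤ) (v : F), u = C ^ ((d : ℤ) * a) * v ^ m := by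
  have hab : (d : ℤ) * Int.gcdA d m + (m : ℤ) * Int.gcdB d m = 1 := by
    have := Int.gcd_eq_gcd_ab (d : ℤ) (m : ℤ)
    rw [← this]
    exact_mod_cast hdm
  refine ⟨Int.gcdA d m, n ^ Int.gcdA d m * u ^ Int.gcdB d m, ?_⟩
  calc u = u ^ ((d : ℤ) * Int.gcdA d m + (m : ℤ) * Int.gcdB d m) := by rw [hab, zpow_one]
    _ = (u ^ d) ^ Int.gcdA d m * (u ^ Int.gcdB d m) ^ m := by
        rw [zpow_add₀ hu, zpow_mul, zpow_natCast, mul_comm (m : ℤ), zpow_mul, zpow_natCast]
    _ = C ^ ((d : ℤ) * Int.gcdA d m) * (n ^ Int.gcdA d m * u ^ Int.gcdB d m) ^ m := by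
        rw [h, mul_zpow, zpow_mul, zpow_natCast, mul_pow, ← zpow_natCast (n ^ Int.gcdA d m),
          ← zpow_mul, mul_comm (Int.gcdA d m) (m : ℤ), zpow_mul, zpow_natCast, mul_assoc]

/-- If `u ∈ E` becomes a constant times an `m`-th power in a finite extension `E'` of degree
prime to `m`, it is already a constant times an `m`-th power in `E`. -/
theorem exists_pow_of_le {K L : Type*} [Field K] [Field L] [Algebra K L]
    {E E' : IntermediateField K L} (hE : E ≤ E')
    (hd : 0 < IntermediateField.relfinrank E E') (m : ℕ)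
    (hdm : Nat.Coprime (IntermediateField.relfinrank E E') m)
    (u : ↥E) (hu : u ≠ 0) (c : K) (w : ↥E')
    (huw : IntermediateField.inclusion hE u = c • w ^ m) :
    ∃ (c' : K) (v : ↥E), u = c' • v ^ m := by
  rw [IntermediateField.relfinrank_eq_finrank_of_le hE] at hd hdm
  set F' : IntermediateField ↥E L := IntermediateField.extendScalars hE with hF'
  have : Module.Finite ↥E ↥F' := Module.finite_of_finrank_pos hd
  have hwmem : (w : L) ∈ F' := (IntermediateField.mem_extendScalars hE).2 w.2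
  let w' : ↥F' := ⟨(w : L), hwmem⟩
  have hL : (u : L) = algebraMap K L c * (w : L) ^ m := by
    have := congrArg (fun x : ↥E' => (x : L)) huw
    simpa [Algebra.smul_def] using this
  have hF : algebraMap ↥E ↥F' u = algebraMap ↥E ↥F' (algebraMap K ↥E c) * w' ^ m := by
    apply Subtype.ext
    simpa using hL
  have hN := congrArg (Algebra.norm ↥E) hF
  rw [map_mul, map_pow, Algebra.norm_algebraMap, Algebra.norm_algebraMap] at hN
  obtain ⟨a, v, hv⟩ := ades_bezout u (algebraMap K ↥E c) (Algebra.norm ↥E w') hu _ m hdm hN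
  refine ⟨c ^ ((Module.finrank ↥E ↥F' : ℤ) * a), v, ?_⟩
  rw [Algebra.smul_def, map_zpow₀]
  exact hv

end Fermat.Agent.S18L
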