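import Mathlib
import Fermat.Agent.S18L.InjBasic

/-!
# S18, package INJ (place-map-free variant): the "constant modulo `μ`" lemma

`H₁, H₂` effective divisors on the curve `C` (characteristic `0` side), `Hb₁, Hb₂` divisors with
disjoint supports on the curve `Cb` (characteristic `ℓ` side), and the transfer hypothesis
`hT`: the reduction maps `L(a H₁ + b H₂) ∩ O` into `L̄(a Hb₁ + b Hb₂)`.
-/

set_option autoImplicit false

namespace Fermat.Agent.S18L

open Fermat.Agent.RRL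

variable {K F X k Fb Y : Type*} [Field K] [Field F] [Algebra K F] [Field k] [Field Fb]
  [Algebra k Fb]

/-- reduction of a relation `1 = a₁ w₁ + a₂ w₂`. -/
theorem iftb_red_one (G : RedDatum K F k Fb) (w₁ w₂ : G.O) (a₁ a₂ : G.A)
    (h1 : (1 : F) = (a₁ : K) • (w₁ : F) + (a₂ : K) • (w₂ : F)) :
    (1 : Fb) = algebraMap k Fb (G.π a₁) * G.red w₁ + algebraMap k Fb (G.π a₂) * G.red w₂ := by
  have h : (1 : G.O) = ⟨(a₁ : K) • (w₁ : F), G.smul_mem a₁ w₁⟩
      + ⟨(a₂ : K) • (w₂ : F), G.smul_mem a₂ w₂⟩ := by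
    apply Subtype.ext
    simpa using h1
  have h' := congrArg G.red h
  rw [map_one, map_add, G.red_smul, G.red_smul] at h'
  exact h'

/-- the second half of the argument: comparing `μ₁` and `μ`. -/
theorem iftb_final (G : RedDatum K F k Fb) (C : Curve K F X) (Cb : Curve k Fb Y)
    (H₁ H₂ : X →₀ ℤ) (hH₁ : 0 ≤ H₁) (hH₂ : 0 ≤ H₂)
    (Hb₁ Hb₂ : Y →₀ ℤ) (hdisj : ∀ Q, Hb₁ Q = 0 ∨ Hb₂ Q = 0)
    (hT : ∀ (a b : ℕ) (x : G.O), (x : F) ∈ C.toPreCurve.L (a • H₁ + b • H₂) →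
      G.red x ∈ Cb.toPreCurve.L (a • Hb₁ + b • Hb₂))
    (a b : ℕ) (y y' e : G.O) (μ : G.A) (hμ : (μ : K) ≠ 0)
    (hy : (y : F) ∈ C.toPreCurve.L (a • H₁))
    (hy' : (y' : F) ∈ C.toPreCurve.L (b • H₂))
    (hyy : (y : F) - (y' : F) = (μ : K) • (e : F))
    (lam μ₁ : G.A) (hμ₁ : (μ₁ : K) ≠ 0) (φ : G.O)
    (hφ : ∀ c : k, G.red φ ≠ algebraMap k Fb c)
    (hyφ : (y : F) = algebraMap K F (lam : K) + (μ₁ : K) • (φ : F)) :
    ∃ (lam : G.A) (y₁ : G.O), (y : F) = algebraMap K F (lam : K) + (μ : K) • (y₁ : F) := by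
  by_cases h1 : (μ₁ : K) / (μ : K) ∈ G.A
  · refine ⟨lam, ⟨_, G.smul_mem ⟨_, h1⟩ φ⟩, ?_⟩
    simp only
    rw [hyφ, smul_smul, mul_div_cancel₀ _ hμ]
  · exfalso
    have h2 : ((μ₁ : K) / (μ : K))⁻¹ ∈ G.A := (G.A.mem_or_inv_mem _).resolve_left h1
    set ν : G.A := ⟨((μ₁ : K) / (μ : K))⁻¹, h2⟩ with hνdef
    have hνK : (ν : K) = (μ : K) / (μ₁ : K) := by
      rw [hνdef]; simp
    have hν : ¬ IsUnit ν := by
      rintro ⟨u, hu⟩
      apply h1
      have h3 : ((u⁻¹ : (G.A)ˣ) : G.A) * ν = 1 := by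
        rw [← hu]; exact u.inv_mul
      have h4 : (((u⁻¹ : (G.A)ˣ) : G.A) : K) * (ν : K) = 1 := by
        have := congrArg (Subtype.val) h3
        simpa using this
      have h5 : (((u⁻¹ : (G.A)ˣ) : G.A) : K) = (μ₁ : K) / (μ : K) := by
        rw [hνK] at h4
        field_simp at h4 ⊢
        linear_combination h4
      rw [← h5]
      exact ((u⁻¹ : (G.A)ˣ) : G.A).2
    have hπν : G.π ν = 0 := (G.π_eq_zero ν).2 hν
    set φ' : G.O := φ - ⟨(ν : K) • (e : F), G.smul_mem ν e⟩ with hφ'def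
    have hredφ' : G.red φ' = G.red φ := by
      rw [hφ'def, map_sub, G.red_smul, hπν, map_zero, zero_mul, sub_zero]
    have hy'F : (y' : F) - algebraMap K F (lam : K) = (μ₁ : K) • (φ : F) - (μ : K) • (e : F) := by
      rw [← hyy, hyφ]; abel
    have hφF : (φ : F) = (μ₁ : K)⁻¹ • ((y : F) - algebraMap K F (lam : K)) := by
      rw [hyφ, add_sub_cancel_left, smul_smul, inv_mul_cancel₀ hμ₁, one_smul]
    have hφ'F : (φ' : F) = (μ₁ : K)⁻¹ • ((y' : F) - algebraMap K F (lam : K)) := by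
      have hφ'c : (φ' : F) = (φ : F) - (ν : K) • (e : F) := rfl
      rw [hy'F, smul_sub, smul_smul, smul_smul, inv_mul_cancel₀ hμ₁, one_smul, hφ'c,
        hνK, div_eq_inv_mul]
    have hφL : (φ : F) ∈ C.toPreCurve.L (a • H₁ + 0 • H₂) := by
      rw [hφF, zero_smul, add_zero]
      refine Submodule.smul_mem _ _ (Submodule.sub_mem _ hy ?_)
      exact algebraMap_mem_L _ (nsmul_nonneg hH₁ a) _
    have hφ'L : (φ' : F) ∈ C.toPreCurve.L (0 • H₁ + b • H₂) := by
      rw [hφ'F, zero_smul, zero_add]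
      refine Submodule.smul_mem _ _ (Submodule.sub_mem _ hy' ?_)
      exact algebraMap_mem_L _ (nsmul_nonneg hH₂ b) _
    have hb1 := hT a 0 φ hφL
    have hb2 := hT 0 b φ' hφ'L
    rw [zero_smul, add_zero] at hb1
    rw [zero_smul, zero_add, hredφ'] at hb2
    have hb3 : G.red φ ∈ Cb.toPreCurve.L 0 := by
      rw [PreCurve.mem_L] at hb1 hb2 ⊢
      rcases hb1 with hb1 | hb1
      · exact Or.inl hb1
      rcases hb2 with hb2 | hb2
      · exact Or.inl hb2
      refine Or.inr fun Q => ?_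
      rcases hdisj Q with h | h
      · have := hb1 Q
        rw [Finsupp.smul_apply, h, smul_zero] at this
        simpa using this
      · have := hb2 Q
        rw [Finsupp.smul_apply, h, smul_zero] at this
        simpa using this
    obtain ⟨c, hc⟩ := exists_const_of_mem_L_zero Cb.toPreCurve hb3
    exact hφ c hc

/-- the first half: the case where the first coefficient of `1` is a unit. -/
theorem iftb_pair (G : RedDatum K F k Fb) (y : G.O)
    (hnc : ∀ c : K, (y : F) ≠ algebraMap K F c)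
    (w₁ w₂ : G.O) (hind : LinearIndependent k ![G.red w₁, G.red w₂])
    (a₁ a₂ b₁ b₂ : G.A)
    (h1 : (1 : F) = (a₁ : K) • (w₁ : F) + (a₂ : K) • (w₂ : F))
    (hy : (y : F) = (b₁ : K) • (w₁ : F) + (b₂ : K) • (w₂ : F))
    (ha₁ : IsUnit a₁) :
    ∃ (lam μ₁ : G.A) (φ : G.O), (μ₁ : K) ≠ 0 ∧ (∀ c : k, G.red φ ≠ algebraMap k Fb c) ∧
      (y : F) = algebraMap K F (lam : K) + (μ₁ : K) • (φ : F) := by
  obtain ⟨u, hu⟩ := ha₁
  set i : G.A := ((u⁻¹ : (G.A)ˣ) : G.A) with hidef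
  have hi : i * a₁ = 1 := by rw [← hu]; exact u.inv_mul
  have hiK : algebraMap K F (i : K) * algebraMap K F (a₁ : K) = 1 := by
    rw [← map_mul]
    have := congrArg (Subtype.val) hi
    have h' : (i : K) * (a₁ : K) = 1 := by simpa using this
    rw [h', map_one]
  have hyφ : (y : F) = algebraMap K F ((b₁ * i : G.A) : K)
      + ((b₂ - b₁ * i * a₂ : G.A) : K) • (w₂ : F) := by
    rw [Algebra.smul_def] at h1 hy ⊢
    rw [Algebra.smul_def] at h1 hy
    push_cast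
    linear_combination hy - (algebraMap K F (b₁ : K) * algebraMap K F (i : K)) * h1
      - (algebraMap K F (b₁ : K) * (w₁ : F)) * hiK
  refine ⟨b₁ * i, b₂ - b₁ * i * a₂, w₂, ?_, ?_, hyφ⟩
  · intro h0
    rw [h0, zero_smul, add_zero] at hyφ
    exact hnc _ hyφ
  · intro c hc
    have hr1 := iftb_red_one G w₁ w₂ a₁ a₂ h1
    have hπ : G.π a₁ ≠ 0 := by
      rw [Ne, G.π_eq_zero]
      exact not_not.2 ⟨u, hu⟩
    rw [LinearIndependent.pair_iff] at hind
    have hrel : (c * G.π a₁) • G.red w₁ + (c * G.π a₂ - 1) • G.red w₂ = 0 := by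
      rw [Algebra.smul_def, Algebra.smul_def]
      simp only [map_mul, map_sub, map_one]
      rw [← hc]
      linear_combination (-(G.red w₂)) * hr1
    obtain ⟨h3, h4⟩ := hind _ _ hrel
    have hc0 : c = 0 := by
      rcases mul_eq_zero.1 h3 with h | h
      · exact h
      · exact absurd h hπ
    rw [hc0, zero_mul, zero_sub] at h4
    simp at h4

theorem tb_free (G : RedDatum K F k Fb) (C : Curve K F X) (Cb : Curve k Fb Y)
    (hOrth : G.HasOrth)
    (H₁ H₂ : X →₀ ℤ) (hH₁ : 0 ≤ H₁) (hH₂ : 0 ≤ H₂)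
    (Hb₁ Hb₂ : Y →₀ ℤ) (hdisj : ∀ Q, Hb₁ Q = 0 ∨ Hb₂ Q = 0)
    (hT : ∀ (a b : ℕ) (x : G.O), (x : F) ∈ C.toPreCurve.L (a • H₁ + b • H₂) →
      G.red x ∈ Cb.toPreCurve.L (a • Hb₁ + b • Hb₂))
    (a b : ℕ) (y y' e : G.O) (μ : G.A) (hμ : (μ : K) ≠ 0)
    (hy : (y : F) ∈ C.toPreCurve.L (a • H₁))
    (hy' : (y' : F) ∈ C.toPreCurve.L (b • H₂))
    (hyy : (y : F) - (y' : F) = (μ : K) • (e : F)) :
    ∃ (lam : G.A) (y₁ : G.O), (y : F) = algebraMap K F (lam : K) + (μ : K) • (y₁ : F) := by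
  by_cases hconst : ∃ c : K, (y : F) = algebraMap K F c
  · obtain ⟨c, hc⟩ := hconst
    have hcA : c ∈ G.A := (G.algebraMap_mem c).1 (hc ▸ y.2)
    refine ⟨⟨c, hcA⟩, 0, ?_⟩
    simp [hc]
  have hnc : ∀ c : K, (y : F) ≠ algebraMap K F c := fun c hc => hconst ⟨c, hc⟩
  -- the two-dimensional space spanned by `1` and `y`
  have hli : LinearIndependent K ![(1 : F), (y : F)] := by
    rw [LinearIndependent.pair_iff]
    intro s t hst
    have ht : t = 0 := by
      by_contra ht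
      apply hnc (-s / t)
      have h2 : algebraMap K F t * (y : F) = - algebraMap K F s := by
        rw [Algebra.smul_def, Algebra.smul_def, mul_one] at hst
        linear_combination hst
      have ht' : algebraMap K F t ≠ 0 := by simpa using ht
      rw [map_div₀, map_neg, eq_div_iff ht', mul_comm]
      exact h2
    refine ⟨?_, ht⟩
    rw [ht, zero_smul, add_zero, Algebra.smul_def, mul_one] at hst
    simpa using hst
  set W : Submodule K F := Submodule.span K (Set.range ![(1 : F), (y : F)]) with hW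
  have hfr : Module.finrank K W = 2 := by
    rw [hW, finrank_span_eq_card hli]; simp
  have h1W : (1 : F) ∈ W := Submodule.subset_span ⟨0, rfl⟩
  have hyW : (y : F) ∈ W := Submodule.subset_span ⟨1, rfl⟩
  have hWfin : Module.Finite K W := by
    rw [hW]; exact FiniteDimensional.span_of_finite K (Set.finite_range _)
  have key : ∀ n : ℕ, Module.finrank K W = n → n = 2 → ∀ w : Fin n → G.O,
      (∀ i, ((w i : G.O) : F) ∈ W) → LinearIndependent k (fun i => G.red (w i)) →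
      ∃ (lam : G.A) (y₁ : G.O), (y : F) = algebraMap K F (lam : K) + (μ : K) • (y₁ : F) := by
    intro n hn hn2 w hwW hwind
    subst hn2
    have hwK := G.linearIndependent_of_indep w hwind
    have hspan : Submodule.span K (Set.range fun i => ((w i : G.O) : F)) = W := by
      apply Submodule.eq_of_le_of_finrank_eq
      · rw [Submodule.span_le]
        rintro _ ⟨i, rfl⟩
        exact hwW i
      · rw [finrank_span_eq_card hwK, hn]; simp
    rw [← hspan] at h1W hyW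
    obtain ⟨ca, hca⟩ := (Submodule.mem_span_range_iff_exists_fun K).1 h1W
    obtain ⟨cb, hcb⟩ := (Submodule.mem_span_range_iff_exists_fun K).1 hyW
    have hcaA := G.mem_A_of_indep w hwind ca (by rw [hca]; exact G.O.one_mem)
    have hcbA := G.mem_A_of_indep w hwind cb (by rw [hcb]; exact y.2)
    rw [Fin.sum_univ_two] at hca hcb
    have hind01 : LinearIndependent k ![G.red (w 0), G.red (w 1)] := by
      have : (fun i => G.red (w i)) = ![G.red (w 0), G.red (w 1)] := by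
        funext i; fin_cases i <;> rfl
      rw [← this]; exact hwind
    have hind10 : LinearIndependent k ![G.red (w 1), G.red (w 0)] := by
      rw [LinearIndependent.pair_iff] at hind01 ⊢
      intro s t hst
      have := hind01 t s (by rw [add_comm]; exact hst)
      exact ⟨this.2, this.1⟩
    have hfin : ∀ (lam μ₁ : G.A) (φ : G.O), (μ₁ : K) ≠ 0 →
        (∀ c : k, G.red φ ≠ algebraMap k Fb c) →
        (y : F) = algebraMap K F (lam : K) + (μ₁ : K) • (φ : F) →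
        ∃ (lam : G.A) (y₁ : G.O), (y : F) = algebraMap K F (lam : K) + (μ : K) • (y₁ : F) :=
      fun lam μ₁ φ hμ₁ hφ hyφ =>
        iftb_final G C Cb H₁ H₂ hH₁ hH₂ Hb₁ Hb₂ hdisj hT a b y y' e μ hμ hy hy' hyy lam μ₁ hμ₁ φ hφ hyφ
    by_cases hu0 : IsUnit (⟨ca 0, hcaA 0⟩ : G.A)
    · obtain ⟨lam, μ₁, φ, hμ₁, hφ, hyφ⟩ := iftb_pair G y hnc (w 0) (w 1) hind01
        ⟨ca 0, hcaA 0⟩ ⟨ca 1, hcaA 1⟩ ⟨cb 0, hcbA 0⟩ ⟨cb 1, hcbA 1⟩ hca.symm hcb.symm hu0
      exact hfin lam μ₁ φ hμ₁ hφ hyφ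
    · have hu1 : IsUnit (⟨ca 1, hcaA 1⟩ : G.A) := by
        by_contra hu1
        have hr1 := iftb_red_one G (w 0) (w 1) ⟨ca 0, hcaA 0⟩ ⟨ca 1, hcaA 1⟩ hca.symm
        rw [(G.π_eq_zero _).2 hu0, (G.π_eq_zero _).2 hu1] at hr1
        simp at hr1
      obtain ⟨lam, μ₁, φ, hμ₁, hφ, hyφ⟩ := iftb_pair G y hnc (w 1) (w 0) hind10
        ⟨ca 1, hcaA 1⟩ ⟨ca 0, hcaA 0⟩ ⟨cb 1, hcbA 1⟩ ⟨cb 0, hcbA 0⟩
        (by rw [add_comm]; exact hca.symm) (by rw [add_comm]; exact hcb.symm) hu1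
      exact hfin lam μ₁ φ hμ₁ hφ hyφ
  obtain ⟨w, hwW, hwind⟩ := hOrth W hWfin
  exact key _ rfl hfr w hwW hwind

end Fermat.Agent.S18L
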