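import Mathlib
import Fermat.Agent.S18L.InjFreeTB

/-!
# S18, package INJ (place-map-free variant): the key claim

`m D = div u` with `u ∈ O`, `red u = 1`, `m` invertible in `k`.  If `t₁ ∈ L(D + s H₁)`,
`t₂ ∈ L(D + s H₂)` and `w = t₁ - t₂ ∈ O`, then `red w ∈ L̄(s Hb₁) + L̄(s Hb₂)`.
-/

set_option autoImplicit false

namespace Fermat.Agent.S18L

open Fermat.Agent.RRL

variable {K F X k Fb Y : Type*} [Field K] [Field F] [Algebra K F] [Field k] [Field Fb]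
  [Algebra k Fb]

theorem ifcl_nsmul_nonneg {H : X →₀ ℤ} (hH : 0 ≤ H) (a : ℕ) : (0 : X →₀ ℤ) ≤ a • H := by
  intro q
  have := hH q
  simp only [Finsupp.coe_zero, Pi.zero_apply, Finsupp.smul_apply, nsmul_eq_mul] at this ⊢
  positivity

theorem ifcl_nsmul_le {H : X →₀ ℤ} (hH : 0 ≤ H) {a b : ℕ} (hab : a ≤ b) :
    a • H ≤ b • H := by
  intro q
  have := hH q
  simp only [Finsupp.coe_zero, Pi.zero_apply, Finsupp.smul_apply, nsmul_eq_mul] at this ⊢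
  exact mul_le_mul_of_nonneg_right (by exact_mod_cast hab) this

theorem ifcl_pow_mul_mem (C : PreCurve K F X) (m : ℕ) (hm : m ≠ 0) (D E : X →₀ ℤ)
    {u : F} (hu : u ≠ 0) (hmD : m • D = C.div u) {x : F}
    (hx : x ∈ C.L (D + E)) :
    x ^ m * u ∈ C.L (m • E) := by
  by_cases hx0 : x = 0
  · subst hx0
    rw [zero_pow hm, zero_mul]
    exact Submodule.zero_mem _
  rw [PreCurve.mem_L] at hx ⊢
  right
  intro p
  have h1 := hx.resolve_left hx0 p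
  have h2 : (m : ℤ) * D p = C.ord p u := by
    have := congrArg (fun E => E p) hmD
    simp only [Finsupp.smul_apply, C.div_apply hu] at this
    simpa using this
  have h3 : (m : ℤ) * (-(D + E) p) ≤ (m : ℤ) * C.ord p x :=
    mul_le_mul_of_nonneg_left (by simpa using h1) (by positivity)
  rw [C.ord_mul p (pow_ne_zero m hx0) hu, C.ord_pow p hx0, ← h2]
  simp only [Finsupp.add_apply, Finsupp.smul_apply, nsmul_eq_mul] at h3 ⊢
  linarith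

theorem ifcl_of_pow_mem (C : PreCurve K F X) (m : ℕ) (hm : m ≠ 0) (E : X →₀ ℤ) {x : F}
    (hx : x ^ m ∈ C.L (m • E)) : x ∈ C.L E := by
  by_cases hx0 : x = 0
  · subst hx0
    exact Submodule.zero_mem _
  rw [PreCurve.mem_L] at hx ⊢
  right
  intro p
  have h1 := hx.resolve_left (pow_ne_zero m hx0) p
  rw [C.ord_pow p hx0] at h1
  simp only [Finsupp.smul_apply, nsmul_eq_mul] at h1
  have hmpos : (0 : ℤ) < (m : ℤ) := by exact_mod_cast Nat.pos_of_ne_zero hm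
  have h2 : (m : ℤ) * (-E p) ≤ (m : ℤ) * C.ord p x := by linarith
  exact le_of_mul_le_mul_left h2 hmpos

theorem ifcl_sep (C : PreCurve K F X) (H₁ H₂ : X →₀ ℤ)
    (hdisj : ∀ Q, H₁ Q = 0 ∨ H₂ Q = 0) (a b c : ℕ) {z : F}
    (h1 : z ∈ C.L (a • H₁ + b • H₂))
    (h2 : z ∈ C.L (c • H₁)) : z ∈ C.L (a • H₁) := by
  by_cases hz : z = 0
  · subst hz
    exact Submodule.zero_mem _
  rw [PreCurve.mem_L] at h1 h2 ⊢
  right
  intro p
  have h1' := h1.resolve_left hz p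
  have h2' := h2.resolve_left hz p
  simp only [Finsupp.add_apply, Finsupp.smul_apply, nsmul_eq_mul] at h1' h2' ⊢
  rcases hdisj p with h | h
  · rw [h] at h2' ⊢
    simpa using h2'
  · rw [h] at h1'
    simpa using h1'

/-- the power trick: the reduction maps `L(D + a H₁ + b H₂) ∩ O` into `L̄(a Hb₁ + b Hb₂)` -/
theorem ifcl_power (G : RedDatum K F k Fb) (C : Curve K F X) (Cb : Curve k Fb Y)
    (H₁ H₂ : X →₀ ℤ) (Hb₁ Hb₂ : Y →₀ ℤ)
    (hT : ∀ (a b : ℕ) (x : G.O), (x : F) ∈ C.toPreCurve.L (a • H₁ + b • H₂) →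
      G.red x ∈ Cb.toPreCurve.L (a • Hb₁ + b • Hb₂))
    (m : ℕ) (hm : (m : k) ≠ 0) (D : X →₀ ℤ)
    (u : G.O) (hu : G.red u = 1) (hmD : m • D = C.toPreCurve.div (u : F))
    (a b : ℕ) (x : G.O) (hx : (x : F) ∈ C.toPreCurve.L (D + a • H₁ + b • H₂)) :
    G.red x ∈ Cb.toPreCurve.L (a • Hb₁ + b • Hb₂) := by
  have hu0 : (u : F) ≠ 0 := by
    intro h
    have : u = 0 := Subtype.ext h
    rw [this, map_zero] at hu
    exact zero_ne_one hu
  have hm0 : m ≠ 0 := by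
    rintro rfl
    simp at hm
  rw [add_assoc] at hx
  have h1 := ifcl_pow_mul_mem C.toPreCurve m hm0 D _ hu0 hmD hx
  rw [smul_add, ← mul_smul, ← mul_smul] at h1
  have h2 := hT (m * a) (m * b) (x ^ m * u) (by simpa using h1)
  rw [map_mul, map_pow, hu, mul_one, mul_smul, mul_smul, ← smul_add] at h2
  exact ifcl_of_pow_mem Cb.toPreCurve m hm0 _ h2

theorem ifcl_core (G : RedDatum K F k Fb) (C : Curve K F X) (Cb : Curve k Fb Y)
    (hOrth : G.HasOrth)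
    (H₁ H₂ : X →₀ ℤ) (hH₁ : 0 ≤ H₁) (hH₂ : 0 ≤ H₂)
    (Hb₁ Hb₂ : Y →₀ ℤ) (hHb₁ : 0 ≤ Hb₁) (hHb₂ : 0 ≤ Hb₂) (hdisj : ∀ Q, Hb₁ Q = 0 ∨ Hb₂ Q = 0)
    (hT : ∀ (a b : ℕ) (x : G.O), (x : F) ∈ C.toPreCurve.L (a • H₁ + b • H₂) →
      G.red x ∈ Cb.toPreCurve.L (a • Hb₁ + b • Hb₂))
    (m : ℕ) (hm : (m : k) ≠ 0) (D : X →₀ ℤ)
    (u : G.O) (hu : G.red u = 1) (hmD : m • D = C.toPreCurve.div (u : F))
    (s : ℕ) (t₁ t₁' w₁ : G.O) (μ : G.A) (hμ0 : (μ : K) ≠ 0)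
    (h1 : G.red t₁ = 1) (h1' : G.red t₁' = 1)
    (ht₁ : (t₁ : F) ∈ C.toPreCurve.L (D + s • H₁))
    (ht₁' : (t₁' : F) ∈ C.toPreCurve.L (D + s • H₂))
    (hd : (t₁ : F) - (t₁' : F) = (μ : K) • (w₁ : F)) :
    G.red w₁ ∈ Cb.toPreCurve.L (s • Hb₁) ⊔ Cb.toPreCurve.L (s • Hb₂) := by
  classical
  have hu0 : (u : F) ≠ 0 := by
    intro h
    have : u = 0 := Subtype.ext h
    rw [this, map_zero] at hu
    exact zero_ne_one hu
  have hm0 : m ≠ 0 := by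
    rintro rfl
    simp at hm
  have hdisj' : ∀ Q, Hb₂ Q = 0 ∨ Hb₁ Q = 0 := fun Q => (hdisj Q).symm
  obtain ⟨y, hy⟩ : ∃ y : G.O, y = t₁ ^ m * u := ⟨_, rfl⟩
  obtain ⟨y', hy'⟩ : ∃ y' : G.O, y' = t₁' ^ m * u := ⟨_, rfl⟩
  obtain ⟨e, he⟩ : ∃ e : G.O, e = u * w₁ * ∑ i ∈ Finset.range m, t₁ ^ i * t₁' ^ (m - 1 - i) :=
    ⟨_, rfl⟩
  have hyL : (y : F) ∈ C.toPreCurve.L ((m * s) • H₁) := by
    have := ifcl_pow_mul_mem C.toPreCurve m hm0 D _ hu0 hmD ht₁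
    rw [← mul_smul] at this
    rw [hy]
    simpa using this
  have hy'L : (y' : F) ∈ C.toPreCurve.L ((m * s) • H₂) := by
    have := ifcl_pow_mul_mem C.toPreCurve m hm0 D _ hu0 hmD ht₁'
    rw [← mul_smul] at this
    rw [hy']
    simpa using this
  have hyy : (y : F) - (y' : F) = (μ : K) • (e : F) := by
    have hg := (Commute.all (t₁ : F) (t₁' : F)).geom_sum₂_mul m
    rw [hy, hy', he]
    push_cast
    rw [← sub_mul, ← hg, hd, Algebra.smul_def, Algebra.smul_def]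
    ring
  have hre : G.red e = (m : Fb) * G.red w₁ := by
    rw [he]
    simp only [map_mul, map_sum, map_pow, h1, h1', hu, one_pow, mul_one, one_mul,
      Finset.sum_const, Finset.card_range, nsmul_eq_mul]
    ring
  obtain ⟨lam, y₁, hy₁⟩ := tb_free G C Cb hOrth H₁ H₂ hH₁ hH₂ Hb₁ Hb₂ hdisj hT
    (m * s) (m * s) y y' e μ hμ0 hyL hy'L hyy
  have hy₁L : (y₁ : F) ∈ C.toPreCurve.L ((m * s) • H₁) := by
    have h : (y₁ : F) = (μ : K)⁻¹ • ((y : F) - algebraMap K F (lam : K)) := by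
      rw [hy₁, add_sub_cancel_left, smul_smul, inv_mul_cancel₀ hμ0, one_smul]
    rw [h]
    exact Submodule.smul_mem _ _ (Submodule.sub_mem _ hyL
      (algebraMap_mem_L _ (ifcl_nsmul_nonneg hH₁ _) _))
  obtain ⟨y₂, hy₂d⟩ : ∃ y₂ : G.O, y₂ = y₁ - e := ⟨_, rfl⟩
  have hy₂ : (y' : F) = algebraMap K F (lam : K) + (μ : K) • (y₂ : F) := by
    have : (y' : F) = y - (μ : K) • (e : F) := by rw [← hyy]; ring
    rw [this, hy₁, hy₂d]
    push_cast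
    rw [smul_sub]
    ring
  have hy₂L : (y₂ : F) ∈ C.toPreCurve.L ((m * s) • H₂) := by
    have h : (y₂ : F) = (μ : K)⁻¹ • ((y' : F) - algebraMap K F (lam : K)) := by
      rw [hy₂, add_sub_cancel_left, smul_smul, inv_mul_cancel₀ hμ0, one_smul]
    rw [h]
    exact Submodule.smul_mem _ _ (Submodule.sub_mem _ hy'L
      (algebraMap_mem_L _ (ifcl_nsmul_nonneg hH₂ _) _))
  have hr1 : G.red y₁ ∈ Cb.toPreCurve.L ((m * s) • Hb₁) := by
    have := hT (m * s) 0 y₁ (by rw [zero_smul, add_zero]; exact hy₁L)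
    rwa [zero_smul, add_zero] at this
  have hr2 : G.red y₂ ∈ Cb.toPreCurve.L ((m * s) • Hb₂) := by
    have := hT 0 (m * s) y₂ (by rw [zero_smul, zero_add]; exact hy₂L)
    rwa [zero_smul, zero_add] at this
  have hw₁L : (w₁ : F) ∈ C.toPreCurve.L (D + s • H₁ + s • H₂) := by
    have h : (w₁ : F) = (μ : K)⁻¹ • ((t₁ : F) - (t₁' : F)) := by
      rw [hd, smul_smul, inv_mul_cancel₀ hμ0, one_smul]
    rw [h]
    refine Submodule.smul_mem _ _ (Submodule.sub_mem _ (C.toPreCurve.L_mono ?_ ht₁)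
      (C.toPreCurve.L_mono ?_ ht₁'))
    · exact le_add_of_nonneg_right (ifcl_nsmul_nonneg hH₂ _)
    · rw [add_assoc, add_comm (s • H₁), ← add_assoc]
      exact le_add_of_nonneg_right (ifcl_nsmul_nonneg hH₁ _)
  have hrw : G.red w₁ ∈ Cb.toPreCurve.L (s • Hb₁ + s • Hb₂) :=
    ifcl_power G C Cb H₁ H₂ Hb₁ Hb₂ hT m hm D u hu hmD s s w₁ hw₁L
  have hnm : s ≤ m * s := Nat.le_mul_of_pos_left s (Nat.pos_of_ne_zero hm0)
  have hmw : (m : Fb) * G.red w₁ = (m : k) • G.red w₁ := by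
    rw [Algebra.smul_def, map_natCast]
  have hry₂ : G.red y₂ = G.red y₁ - (m : k) • G.red w₁ := by
    rw [hy₂d, map_sub, hre, hmw]
  have hz1 : G.red y₁ ∈ Cb.toPreCurve.L (s • Hb₁) := by
    apply ifcl_sep Cb.toPreCurve Hb₁ Hb₂ hdisj s (m * s) (m * s) _ hr1
    have : G.red y₁ = G.red y₂ + (m : k) • G.red w₁ := by rw [hry₂]; ring
    rw [this]
    refine Submodule.add_mem _ (Cb.toPreCurve.L_mono ?_ hr2)
      (Submodule.smul_mem _ _ (Cb.toPreCurve.L_mono ?_ hrw))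
    · exact le_add_of_nonneg_left (ifcl_nsmul_nonneg hHb₁ _)
    · exact add_le_add_right (ifcl_nsmul_le hHb₂ hnm) _
  have hz2 : G.red y₂ ∈ Cb.toPreCurve.L (s • Hb₂) := by
    apply ifcl_sep Cb.toPreCurve Hb₂ Hb₁ hdisj' s (m * s) (m * s) _ hr2
    rw [hry₂]
    refine Submodule.sub_mem _ (Cb.toPreCurve.L_mono ?_ hr1)
      (Submodule.smul_mem _ _ (Cb.toPreCurve.L_mono ?_ hrw))
    · exact le_add_of_nonneg_left (ifcl_nsmul_nonneg hHb₂ _)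
    · rw [add_comm]
      exact add_le_add_right (ifcl_nsmul_le hHb₁ hnm) _
  have : G.red w₁ = (m : k)⁻¹ • (G.red y₁ - G.red y₂) := by
    rw [hry₂, sub_sub_cancel, smul_smul, inv_mul_cancel₀ hm, one_smul]
  rw [this]
  exact Submodule.smul_mem _ _ (Submodule.sub_mem _ (Submodule.mem_sup_left hz1)
    (Submodule.mem_sup_right hz2))

theorem claim_free (G : RedDatum K F k Fb) (C : Curve K F X) (Cb : Curve k Fb Y)
    (hOrth : G.HasOrth)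
    (H₁ H₂ : X →₀ ℤ) (hH₁ : 0 ≤ H₁) (hH₂ : 0 ≤ H₂)
    (Hb₁ Hb₂ : Y →₀ ℤ) (hHb₁ : 0 ≤ Hb₁) (hHb₂ : 0 ≤ Hb₂) (hdisj : ∀ Q, Hb₁ Q = 0 ∨ Hb₂ Q = 0)
    (hT : ∀ (a b : ℕ) (x : G.O), (x : F) ∈ C.toPreCurve.L (a • H₁ + b • H₂) →
      G.red x ∈ Cb.toPreCurve.L (a • Hb₁ + b • Hb₂))
    (m : ℕ) (hm : (m : k) ≠ 0) (D : X →₀ ℤ)
    (u : G.O) (hu : G.red u = 1) (hmD : m • D = C.toPreCurve.div (u : F))
    (s : ℕ) (t₁ t₂ : F) (ht₁ : t₁ ∈ C.toPreCurve.L (D + s • H₁))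
    (ht₂ : t₂ ∈ C.toPreCurve.L (D + s • H₂))
    (w : G.O) (hw : (w : F) = t₁ - t₂) :
    G.red w ∈ Cb.toPreCurve.L (s • Hb₁) ⊔ Cb.toPreCurve.L (s • Hb₂) := by
  classical
  -- the two instances of the power trick
  have hP1 : ∀ x : G.O, (x : F) ∈ C.toPreCurve.L (D + s • H₁) →
      G.red x ∈ Cb.toPreCurve.L (s • Hb₁) := by
    intro x hx
    have := ifcl_power G C Cb H₁ H₂ Hb₁ Hb₂ hT m hm D u hu hmD s 0 x
      (by rw [zero_smul, add_zero]; exact hx)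
    rwa [zero_smul, add_zero] at this
  have hP2 : ∀ x : G.O, (x : F) ∈ C.toPreCurve.L (D + s • H₂) →
      G.red x ∈ Cb.toPreCurve.L (s • Hb₂) := by
    intro x hx
    have := ifcl_power G C Cb H₁ H₂ Hb₁ Hb₂ hT m hm D u hu hmD 0 s x
      (by rw [zero_smul, add_zero]; exact hx)
    rwa [zero_smul, zero_add] at this
  by_cases htO : t₁ ∈ G.O
  · have ht'O : t₂ ∈ G.O := by
      have : t₂ = t₁ - (w : F) := by rw [hw]; ring
      rw [this]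
      exact G.O.sub_mem htO w.2
    have hwe : w = ⟨t₁, htO⟩ - ⟨t₂, ht'O⟩ := Subtype.ext hw
    rw [hwe, map_sub]
    exact Submodule.sub_mem _ (Submodule.mem_sup_left (hP1 ⟨t₁, htO⟩ ht₁))
      (Submodule.mem_sup_right (hP2 ⟨t₂, ht'O⟩ ht₂))
  · obtain ⟨μ, hμnu, hμ0, ht0, hs⟩ := G.exists_of_not_mem htO
    have hπμ : G.π μ = 0 := (G.π_eq_zero μ).2 hμnu
    have hμw : (μ : K) • (w : F) ∈ G.O := G.smul_mem μ w
    have ht0' : (μ : K) • t₂ ∈ G.O := by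
      have : (μ : K) • t₂ = (μ : K) • t₁ - (μ : K) • (w : F) := by
        rw [hw, smul_sub]; ring
      rw [this]
      exact G.O.sub_mem ht0 hμw
    have hs' : G.red ⟨(μ : K) • t₂, ht0'⟩ = G.red ⟨(μ : K) • t₁, ht0⟩ := by
      have : (⟨(μ : K) • t₂, ht0'⟩ : G.O) = ⟨(μ : K) • t₁, ht0⟩ - ⟨(μ : K) • (w : F), hμw⟩ :=
        Subtype.ext (by simp [hw, smul_sub])
      rw [this, map_sub, G.red_smul μ w hμw, hπμ, map_zero, zero_mul, sub_zero]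
    have hsL : G.red ⟨(μ : K) • t₁, ht0⟩ ∈ Cb.toPreCurve.L (s • Hb₁) :=
      hP1 ⟨(μ : K) • t₁, ht0⟩ (Submodule.smul_mem _ _ ht₁)
    have hsL' : G.red ⟨(μ : K) • t₁, ht0⟩ ∈ Cb.toPreCurve.L (s • Hb₂) := by
      rw [← hs']
      exact hP2 ⟨(μ : K) • t₂, ht0'⟩ (Submodule.smul_mem _ _ ht₂)
    have hsL0 : G.red ⟨(μ : K) • t₁, ht0⟩ ∈ Cb.toPreCurve.L 0 := by
      have := ifcl_sep Cb.toPreCurve Hb₁ Hb₂ hdisj 0 s s
        (by rw [zero_smul, zero_add]; exact hsL') hsL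
      rwa [zero_smul] at this
    obtain ⟨c, hc⟩ := exists_const_of_mem_L_zero Cb.toPreCurve hsL0
    have hc0 : c ≠ 0 := by
      rintro rfl
      rw [map_zero] at hc
      exact hs hc
    obtain ⟨a, ha, hπa⟩ := G.exists_unit_lift hc0
    obtain ⟨b, hab⟩ := ha.exists_right_inv
    have hπab : G.π a * G.π b = 1 := by rw [← map_mul, hab, map_one]
    have hred1 : G.red ⟨(b : K) • ((μ : K) • t₁), G.smul_mem b ⟨_, ht0⟩⟩ = 1 := by
      rw [G.red_smul b ⟨_, ht0⟩, hc, ← map_mul, mul_comm, ← hπa, hπab, map_one]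
    have hred1' : G.red ⟨(b : K) • ((μ : K) • t₂), G.smul_mem b ⟨_, ht0'⟩⟩ = 1 := by
      rw [G.red_smul b ⟨_, ht0'⟩, hs', hc, ← map_mul, mul_comm, ← hπa, hπab, map_one]
    have key := ifcl_core G C Cb hOrth H₁ H₂ hH₁ hH₂ Hb₁ Hb₂ hHb₁ hHb₂ hdisj hT m hm D u hu hmD s
      ⟨_, G.smul_mem b ⟨_, ht0⟩⟩ ⟨_, G.smul_mem b ⟨_, ht0'⟩⟩ ⟨_, G.smul_mem b w⟩ μ hμ0
      hred1 hred1' (Submodule.smul_mem _ _ (Submodule.smul_mem _ _ ht₁))
      (Submodule.smul_mem _ _ (Submodule.smul_mem _ _ ht₂))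
      (by
        show (b : K) • ((μ : K) • t₁) - (b : K) • ((μ : K) • t₂) = (μ : K) • ((b : K) • (w : F))
        rw [hw, smul_comm (μ : K) (b : K), smul_sub, smul_sub])
    have hrw : G.red w = c • G.red ⟨_, G.smul_mem b w⟩ := by
      rw [G.red_smul b w, Algebra.smul_def, ← mul_assoc, ← map_mul, ← hπa, hπab, map_one,
        one_mul]
    rw [hrw]
    exact Submodule.smul_mem _ _ key

end Fermat.Agent.S18L
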