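import Mathlib
import Fermat.Agent.S18L.InjFreeClaim

/-!
# S18, package INJ (place-map-free variant): the dimension count
-/

set_option autoImplicit false

namespace Fermat.Agent.S18L

open Fermat.Agent.RRL

variable {K F X k Fb Y : Type*} [Field K] [Field F] [Algebra K F] [Field k] [Field Fb]
  [Algebra k Fb]

theorem ifco_deg_nsmul (m : ℕ) (D : X →₀ ℤ) : PreCurve.deg (m • D) = m * PreCurve.deg D := by
  induction m with
  | zero => simp [PreCurve.deg_zero]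
  | succ m ih =>
    rw [succ_nsmul, PreCurve.deg_add, ih]
    push_cast
    ring

theorem ifco_L_inf_eq_bot (C : PreCurve K F X) (D A B : X →₀ ℤ)
    (hAB : ∀ P, A P = 0 ∨ B P = 0)
    (hL : ∀ x : F, x ≠ 0 → x ∉ C.L D) :
    C.L (D + A) ⊓ C.L (D + B) = ⊥ := by
  rw [eq_bot_iff]
  rintro x ⟨hx1, hx2⟩
  by_contra hx0
  have hx0' : x ≠ 0 := by simpa using hx0
  apply hL x hx0'
  rw [PreCurve.mem_L]
  right
  intro p
  have a1 := ((PreCurve.mem_L _ _ _).1 hx1).resolve_left hx0' p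
  have a2 := ((PreCurve.mem_L _ _ _).1 hx2).resolve_left hx0' p
  rcases hAB p with hp | hp
  · rw [Finsupp.add_apply, hp, add_zero] at a1
    exact a1
  · rw [Finsupp.add_apply, hp, add_zero] at a2
    exact a2

theorem ifco_finrank_sup_le (Cb : PreCurve k Fb Y) (A B : Y →₀ ℤ) (hA : 0 ≤ A) (hB : 0 ≤ B) :
    Module.finrank k ↥(Cb.L A ⊔ Cb.L B) + 1
      ≤ Module.finrank k (Cb.L A) + Module.finrank k (Cb.L B) := by
  have : Module.Finite k (Cb.L A) := PreCurve.finite_L _ _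
  have : Module.Finite k (Cb.L B) := PreCurve.finite_L _ _
  have h := Submodule.finrank_sup_add_finrank_inf_eq (Cb.L A) (Cb.L B)
  have h1 : 0 < Module.finrank k ↥(Cb.L A ⊓ Cb.L B) := by
    rw [Module.finrank_pos_iff_exists_ne_zero]
    have hmem : ∀ E : Y →₀ ℤ, 0 ≤ E → (1 : Fb) ∈ Cb.L E := by
      intro E hE
      have := algebraMap_mem_L Cb hE 1
      rwa [map_one] at this
    refine ⟨⟨1, hmem A hA, hmem B hB⟩, ?_⟩
    intro h0
    have := congrArg Subtype.val h0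
    exact one_ne_zero this
  omega

theorem inj_free_core (G : RedDatum K F k Fb) (C : Curve K F X) (Cb : Curve k Fb Y)
    (hOrth : G.HasOrth)
    (H₁ H₂ : X →₀ ℤ) (hH₁ : 0 ≤ H₁) (hH₂ : 0 ≤ H₂) (hdisjX : ∀ P, H₁ P = 0 ∨ H₂ P = 0)
    (Hb₁ Hb₂ : Y →₀ ℤ) (hHb₁ : 0 ≤ Hb₁) (hHb₂ : 0 ≤ Hb₂) (hdisj : ∀ Q, Hb₁ Q = 0 ∨ Hb₂ Q = 0)
    (hT : ∀ (a b : ℕ) (x : G.O), (x : F) ∈ C.toPreCurve.L (a • H₁ + b • H₂) →
      G.red x ∈ Cb.toPreCurve.L (a • Hb₁ + b • Hb₂))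
    (m : ℕ) (hm : (m : k) ≠ 0) (D : X →₀ ℤ)
    (u : G.O) (hu : G.red u = 1) (hmD : m • D = C.toPreCurve.div (u : F))
    (s : ℕ)
    (hd₁ : Module.finrank k (Cb.toPreCurve.L (s • Hb₁))
      ≤ Module.finrank K (C.toPreCurve.L (D + s • H₁)))
    (hd₂ : Module.finrank k (Cb.toPreCurve.L (s • Hb₂))
      ≤ Module.finrank K (C.toPreCurve.L (D + s • H₂))) :
    ∃ x : F, x ≠ 0 ∧ D = C.toPreCurve.div x := by
  have hu0 : (u : F) ≠ 0 := by
    intro h
    have h0 : u = 0 := Subtype.ext h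
    rw [h0, map_zero] at hu
    exact zero_ne_one hu
  have hm0 : m ≠ 0 := by
    rintro rfl
    exact hm Nat.cast_zero
  have hD : PreCurve.deg D = 0 := by
    have h1 := C.deg_div hu0
    rw [← hmD, ifco_deg_nsmul] at h1
    rcases mul_eq_zero.1 h1 with h | h
    · exact absurd (by exact_mod_cast h) hm0
    · exact h
  by_cases hL : ∃ x, x ≠ 0 ∧ x ∈ C.toPreCurve.L D
  · obtain ⟨x, hx0, hx⟩ := hL
    exact ⟨x⁻¹, inv_ne_zero hx0, eq_div_of_mem_L C hD hx0 hx⟩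
  push Not at hL
  exfalso
  have : Module.Finite K (C.toPreCurve.L (D + s • H₁)) := PreCurve.finite_L _ _
  have : Module.Finite K (C.toPreCurve.L (D + s • H₂)) := PreCurve.finite_L _ _
  have : Module.Finite k (Cb.toPreCurve.L (s • Hb₁)) := PreCurve.finite_L _ _
  have : Module.Finite k (Cb.toPreCurve.L (s • Hb₂)) := PreCurve.finite_L _ _
  have h1 : Module.finrank K ↥(C.toPreCurve.L (D + s • H₁) ⊔ C.toPreCurve.L (D + s • H₂))
      ≤ Module.finrank k ↥(Cb.toPreCurve.L (s • Hb₁) ⊔ Cb.toPreCurve.L (s • Hb₂)) := by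
    apply G.finrank_le_of_hasOrth hOrth
    intro w hw
    obtain ⟨t, ht, t'', ht'', hsum⟩ := Submodule.mem_sup.1 hw
    exact claim_free G C Cb hOrth H₁ H₂ hH₁ hH₂ Hb₁ Hb₂ hHb₁ hHb₂ hdisj hT m hm D u hu hmD s
      t (-t'') ht (Submodule.neg_mem _ ht'') w (by rw [← hsum]; ring)
  have h2 := ifco_L_inf_eq_bot C.toPreCurve D (s • H₁) (s • H₂) (fun P => by
    rcases hdisjX P with h | h
    · left; rw [Finsupp.smul_apply, h, smul_zero]
    · right; rw [Finsupp.smul_apply, h, smul_zero]) hL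
  have h3 := Submodule.finrank_sup_add_finrank_inf_eq
    (C.toPreCurve.L (D + s • H₁)) (C.toPreCurve.L (D + s • H₂))
  rw [h2, finrank_bot, add_zero] at h3
  have h4 := ifco_finrank_sup_le Cb.toPreCurve (s • Hb₁) (s • Hb₂)
    (nsmul_nonneg hHb₁ s) (nsmul_nonneg hHb₂ s)
  omega

end Fermat.Agent.S18L
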