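import Mathlib
import Fermat.Agent.S18L.InjBasic

/-!
# S18, package INJ: Riemann's theorem in the large-degree form, and the comparison of dimensions

* `exists_genus`: for an abstract curve there are `g` and `n₀` with `ℓ(E) = deg E + 1 - g`
  for all divisors `E` of degree `≥ n₀`  (Stichtenoth 1.4.17, from `Curve.exists_riemann_bound`).
* `dim_le_of_genus`: if `ℓ̄(n Q) ≤ ℓ(n P)` for one pair of points and all large `n`, then
  `ℓ̄(r_* E) ≤ ℓ(E)` for all divisors `E` of large degree.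
-/

set_option autoImplicit false

namespace Fermat.Agent.S18L

open Fermat.Agent.RRL

section

variable {K F X : Type*} [Field K] [Field F] [Algebra K F]

/-- **Riemann's theorem** (large degree): `ℓ(E) = deg E + 1 - g` for `deg E ≥ n₀`. -/
theorem exists_genus [Nonempty X] (C : Curve K F X) :
    ∃ (g n₀ : ℤ), ∀ E : X →₀ ℤ, n₀ ≤ PreCurve.deg E →
      (Module.finrank K (C.toPreCurve.L E) : ℤ) = PreCurve.deg E + 1 - g := by
  classical
  obtain ⟨γ, hγ⟩ := C.exists_riemann_bound
  obtain ⟨M, ⟨D₀, hD₀⟩, hM⟩ := Int.exists_greatest_of_bdd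
    (P := fun z => ∃ D : X →₀ ℤ,
      PreCurve.deg D - (Module.finrank K (C.toPreCurve.L D) : ℤ) = z)
    ⟨γ, fun z hz => by obtain ⟨D, hD⟩ := hz; rw [← hD]; exact hγ D⟩ ⟨_, 0, rfl⟩
  refine ⟨M + 1, PreCurve.deg D₀ + M + 1, fun E hE => ?_⟩
  have h1 := hM _ ⟨E - D₀, rfl⟩
  rw [PreCurve.deg_sub] at h1
  have hpos : 0 < Module.finrank K (C.toPreCurve.L (E - D₀)) := by
    have : (0 : ℤ) < (Module.finrank K (C.toPreCurve.L (E - D₀)) : ℤ) := by omega
    exact_mod_cast this
  have hfinL := C.toPreCurve.finite_L (E - D₀)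
  obtain ⟨z, hz⟩ := (Module.finrank_pos_iff_exists_ne_zero).mp hpos
  have hz0 : (z : F) ≠ 0 := fun h => hz (Subtype.ext h)
  have hzL := z.2.resolve_left hz0
  have hD' : D₀ + C.toPreCurve.div (z : F)⁻¹ ≤ E := by
    intro q
    have := hzL q
    rw [C.toPreCurve.div_inv hz0, Finsupp.add_apply, Finsupp.neg_apply,
      C.toPreCurve.div_apply hz0]
    rw [Finsupp.sub_apply] at this
    omega
  have h6 := C.deg_sub_finrank_mono hD'
  rw [C.finrank_L_add_div D₀ (inv_ne_zero hz0), PreCurve.deg_add,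
    C.deg_div (inv_ne_zero hz0), add_zero] at h6
  have h7 := hM _ ⟨E, rfl⟩
  omega

end

section

variable {K F X k Fb Y : Type*} [Field K] [Field F] [Algebra K F] [Field k] [Field Fb]
  [Algebra k Fb]

/-- comparison of the dimensions of Riemann–Roch spaces from a comparison at one pair of points -/
theorem dim_le_of_genus (C : Curve K F X) (Cb : Curve k Fb Y) (r : X → Y)
    (hG : ∃ (P : X) (Q : Y) (n₁ : ℕ), ∀ n : ℕ, n₁ ≤ n →
      Module.finrank k (Cb.toPreCurve.L (Finsupp.single Q (n : ℤ)))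
        ≤ Module.finrank K (C.toPreCurve.L (Finsupp.single P (n : ℤ)))) :
    ∃ n₂ : ℤ, ∀ E : X →₀ ℤ, n₂ ≤ PreCurve.deg E →
      Module.finrank k (Cb.toPreCurve.L (Finsupp.mapDomain r E))
        ≤ Module.finrank K (C.toPreCurve.L E) := by
  classical
  obtain ⟨P, Q, n₁, h⟩ := hG
  have : Nonempty X := ⟨P⟩
  have : Nonempty Y := ⟨Q⟩
  obtain ⟨g, n₀, hg⟩ := exists_genus C
  obtain ⟨g', n₀', hg'⟩ := exists_genus Cb
  have hgg : g ≤ g' := by
    set n : ℕ := max n₁ (max n₀ n₀').toNat with hn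
    have hn1 : n₁ ≤ n := le_max_left _ _
    have hn2 : max n₀ n₀' ≤ (n : ℤ) := by
      have : (max n₀ n₀').toNat ≤ n := le_max_right _ _
      omega
    have hn3 : n₀ ≤ (n : ℤ) := le_trans (le_max_left _ _) hn2
    have hn4 : n₀' ≤ (n : ℤ) := le_trans (le_max_right _ _) hn2
    have e1 := hg (Finsupp.single P (n : ℤ)) (by rw [PreCurve.deg_single]; exact hn3)
    have e2 := hg' (Finsupp.single Q (n : ℤ)) (by rw [PreCurve.deg_single]; exact hn4)
    rw [PreCurve.deg_single] at e1 e2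
    have e3 : (Module.finrank k (Cb.toPreCurve.L (Finsupp.single Q (n : ℤ))) : ℤ)
        ≤ (Module.finrank K (C.toPreCurve.L (Finsupp.single P (n : ℤ))) : ℤ) := by
      exact_mod_cast h n hn1
    omega
  refine ⟨max n₀ n₀', fun E hE => ?_⟩
  have e1 := hg E (le_trans (le_max_left _ _) hE)
  have e2 := hg' (Finsupp.mapDomain r E)
    (by rw [deg_mapDomain]; exact le_trans (le_max_right _ _) hE)
  rw [deg_mapDomain] at e2
  have : (Module.finrank k (Cb.toPreCurve.L (Finsupp.mapDomain r E)) : ℤ)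
      ≤ (Module.finrank K (C.toPreCurve.L E) : ℤ) := by omega
  exact_mod_cast this

end

end Fermat.Agent.S18L

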