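import Mathlib
import Fermat.Agent.S18L.InjFreeCore
import Fermat.Agent.S18L.InjRiemann

/-!
# S18, package INJ (place-map-free variant): the final abstract theorem

`t ∈ O` with non-constant reduction `t̄`; `H := (t)_∞`, `H̄ := (t̄)_∞`.
* `hNE`: the reduction maps `L(s H) ∩ O` into `L̄(s H̄)`;
* `hGE`: `dim L̄(s H̄) ≤ dim L(s H)` for `s` large.
Then a divisor `D` with `m D = div u`, `u ∈ O`, `red u = 1`, `m` invertible in `k`, is principal.
-/

set_option autoImplicit false

namespace Fermat.Agent.S18L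

open Fermat.Agent.RRL

variable {K F X k Fb Y : Type*} [Field K] [Field F] [Algebra K F] [Field k] [Field Fb]
  [Algebra k Fb]

theorem ifr_deg_nsmul (l : ℕ) (B : X →₀ ℤ) : PreCurve.deg (l • B) = l * PreCurve.deg B := by
  induction l with
  | zero => simp [PreCurve.deg_zero]
  | succ k ih => rw [succ_nsmul, PreCurve.deg_add, ih]; push_cast; ring

theorem ifr_ord_eq (C : PreCurve K F X) {t : F} (ht : t ≠ 0) (p : X) :
    C.ord p t = C.zeroDiv t p - C.poleDiv t p := by
  rw [← C.div_apply ht, C.div_eq_zeroDiv_sub_poleDiv, Finsupp.sub_apply]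

theorem ifr_disj (C : PreCurve K F X) {t : F} (ht : t ≠ 0) (p : X) :
    C.poleDiv t p = 0 ∨ C.zeroDiv t p = 0 := by
  rw [C.poleDiv_apply ht, C.zeroDiv_apply ht]
  rcases le_total (C.ord p t) 0 with h | h
  · right; exact max_eq_right h
  · left; exact max_eq_right (by omega)

theorem inj_free (G : RedDatum K F k Fb) (C : Curve K F X) (Cb : Curve k Fb Y)
    (hOrth : G.HasOrth)
    (t : G.O) (ht : ∀ c : k, G.red t ≠ algebraMap k Fb c)
    (hNE : ∀ (s : ℕ) (x : G.O),
      (x : F) ∈ C.toPreCurve.L (s • C.toPreCurve.poleDiv (t : F)) →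
        G.red x ∈ Cb.toPreCurve.L (s • Cb.toPreCurve.poleDiv (G.red t)))
    (hGE : ∃ s₀ : ℕ, ∀ s : ℕ, s₀ ≤ s →
      Module.finrank k (Cb.toPreCurve.L (s • Cb.toPreCurve.poleDiv (G.red t)))
        ≤ Module.finrank K (C.toPreCurve.L (s • C.toPreCurve.poleDiv (t : F))))
    (m : ℕ) (hm : (m : k) ≠ 0) (D : X →₀ ℤ)
    (u : G.O) (hu : G.red u = 1) (hmD : m • D = C.toPreCurve.div (u : F)) :
    ∃ x : F, x ≠ 0 ∧ D = C.toPreCurve.div x := by
  classical
  have htb0 : G.red t ≠ 0 := by
    intro h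
    exact ht 0 (by rw [h, map_zero])
  have ht0 : (t : F) ≠ 0 := by
    intro h
    apply htb0
    have : t = 0 := Subtype.ext h
    rw [this, map_zero]
  have htc : ∀ c : K, (t : F) ≠ algebraMap K F c := by
    intro c h
    have hmem : algebraMap K F c ∈ G.O := h ▸ t.2
    have hcA : c ∈ G.A := (G.algebraMap_mem c).1 hmem
    have h1 := G.red_algebraMap ⟨c, hcA⟩ hmem
    have h2 : t = ⟨algebraMap K F c, hmem⟩ := Subtype.ext h
    exact ht _ (by rw [h2]; exact h1)
  have hordX : ∀ p, C.ord p (t : F) = C.toPreCurve.zeroDiv (t : F) p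
      - C.toPreCurve.poleDiv (t : F) p := fun p => ifr_ord_eq C.toPreCurve ht0 p
  have hordY : ∀ q, Cb.ord q (G.red t) = Cb.toPreCurve.zeroDiv (G.red t) q
      - Cb.toPreCurve.poleDiv (G.red t) q := fun q => ifr_ord_eq Cb.toPreCurve htb0 q
  -- the transfer hypothesis
  have hT : ∀ (a b : ℕ) (x : G.O),
      (x : F) ∈ C.toPreCurve.L (a • C.toPreCurve.poleDiv (t : F)
        + b • C.toPreCurve.zeroDiv (t : F)) →
      G.red x ∈ Cb.toPreCurve.L (a • Cb.toPreCurve.poleDiv (G.red t)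
        + b • Cb.toPreCurve.zeroDiv (G.red t)) := by
    intro a b x hx
    by_cases hrx : G.red x = 0
    · exact Or.inl hrx
    have hx0 : (x : F) ≠ 0 := by
      intro h
      apply hrx
      have : x = 0 := Subtype.ext h
      rw [this, map_zero]
    have hxp := hx.resolve_left hx0
    have hx' : ((x * t ^ b : G.O) : F) ∈
        C.toPreCurve.L ((a + b) • C.toPreCurve.poleDiv (t : F)) := by
      refine Or.inr fun p => ?_
      have h1 := hxp p
      have h2 := hordX p
      simp only [Finsupp.add_apply, Finsupp.smul_apply, nsmul_eq_mul] at h1 ⊢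
      push_cast
      rw [C.ord_mul p hx0 (pow_ne_zero b ht0), C.toPreCurve.ord_pow p ht0, h2]
      linarith
    have h3 := hNE (a + b) (x * t ^ b) hx'
    rw [map_mul, map_pow] at h3
    have hne : G.red x * G.red t ^ b ≠ 0 := mul_ne_zero hrx (pow_ne_zero b htb0)
    have h4 := h3.resolve_left hne
    refine Or.inr fun q => ?_
    have h5 := h4 q
    have h6 := hordY q
    rw [Cb.ord_mul q hrx (pow_ne_zero b htb0), Cb.toPreCurve.ord_pow q htb0, h6] at h5
    simp only [Finsupp.add_apply, Finsupp.smul_apply, nsmul_eq_mul] at h5 ⊢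
    push_cast at h5 ⊢
    linarith
  -- degrees
  have hnpos : 0 < PreCurve.deg (C.toPreCurve.poleDiv (t : F)) :=
    C.toPreCurve.deg_poleDiv_pos htc
  have hX : Nonempty X := by
    have hne : C.toPreCurve.poleDiv (t : F) ≠ 0 := by
      intro h
      rw [h, PreCurve.deg_zero] at hnpos
      exact lt_irrefl _ hnpos
    obtain ⟨p, -⟩ := Finsupp.ne_iff.mp hne
    exact ⟨p⟩
  have hdeg2 : PreCurve.deg (C.toPreCurve.zeroDiv (t : F))
      = PreCurve.deg (C.toPreCurve.poleDiv (t : F)) := by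
    have := C.deg_div ht0
    rw [C.toPreCurve.div_eq_zeroDiv_sub_poleDiv, PreCurve.deg_sub] at this
    omega
  have hm0 : m ≠ 0 := by
    intro h
    apply hm
    rw [h, Nat.cast_zero]
  have hu0 : (u : F) ≠ 0 := by
    intro h
    have : u = 0 := Subtype.ext h
    rw [this, map_zero] at hu
    exact zero_ne_one hu
  have hdegD : PreCurve.deg D = 0 := by
    have h1 := C.deg_div hu0
    rw [← hmD, ifr_deg_nsmul] at h1
    rcases mul_eq_zero.mp h1 with h | h
    · exact absurd (by exact_mod_cast h) hm0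
    · exact h
  obtain ⟨g, n₀, hg⟩ := exists_genus C
  obtain ⟨s₀, hs⟩ := hGE
  set s : ℕ := max s₀ n₀.toNat with hsdef
  have hs1 : s₀ ≤ s := le_max_left _ _
  have hs2 : n₀ ≤ (s : ℤ) := by
    have : n₀.toNat ≤ s := le_max_right _ _
    omega
  have hs3 : n₀ ≤ (s : ℤ) * PreCurve.deg (C.toPreCurve.poleDiv (t : F)) := by
    have h0 : (0 : ℤ) ≤ (s : ℤ) := Int.natCast_nonneg s
    nlinarith
  have e0 := hg (s • C.toPreCurve.poleDiv (t : F)) (by rw [ifr_deg_nsmul]; exact hs3)
  have e1 := hg (D + s • C.toPreCurve.poleDiv (t : F))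
    (by rw [PreCurve.deg_add, ifr_deg_nsmul, hdegD, zero_add]; exact hs3)
  have e2 := hg (D + s • C.toPreCurve.zeroDiv (t : F))
    (by rw [PreCurve.deg_add, ifr_deg_nsmul, hdegD, zero_add, hdeg2]; exact hs3)
  rw [ifr_deg_nsmul] at e0
  rw [PreCurve.deg_add, ifr_deg_nsmul, hdegD, zero_add] at e1
  rw [PreCurve.deg_add, ifr_deg_nsmul, hdegD, zero_add, hdeg2] at e2
  have e3 := hs s hs1
  have hd₁ : Module.finrank k (Cb.toPreCurve.L (s • Cb.toPreCurve.poleDiv (G.red t)))
      ≤ Module.finrank K (C.toPreCurve.L (D + s • C.toPreCurve.poleDiv (t : F))) := by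
    omega
  have hb : s • Cb.toPreCurve.zeroDiv (G.red t)
      = s • Cb.toPreCurve.poleDiv (G.red t) + Cb.toPreCurve.div (G.red t ^ s) := by
    ext q
    have h6 := hordY q
    rw [Finsupp.add_apply, Cb.toPreCurve.div_apply (pow_ne_zero s htb0),
      Cb.toPreCurve.ord_pow q htb0, h6]
    simp only [Finsupp.smul_apply, nsmul_eq_mul]
    ring
  have hd₂ : Module.finrank k (Cb.toPreCurve.L (s • Cb.toPreCurve.zeroDiv (G.red t)))
      ≤ Module.finrank K (C.toPreCurve.L (D + s • C.toPreCurve.zeroDiv (t : F))) := by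
    rw [hb, Cb.finrank_L_add_div _ (pow_ne_zero s htb0)]
    omega
  exact inj_free_core G C Cb hOrth _ _ (C.toPreCurve.poleDiv_nonneg _)
    (C.toPreCurve.zeroDiv_nonneg _) (fun p => ifr_disj C.toPreCurve ht0 p) _ _
    (Cb.toPreCurve.poleDiv_nonneg _) (Cb.toPreCurve.zeroDiv_nonneg _)
    (fun q => ifr_disj Cb.toPreCurve htb0 q) hT m hm D u hu hmD s hd₁ hd₂

end Fermat.Agent.S18L
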