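import Mathlib
import Fermat.Agent.S18L.InjFree
import Fermat.Agent.S18L.AsmCurves

/-!
# S18, assembly: the place-map-free injectivity theorem in multiplicative form

On curves of places: an integral function `u` with reduction `1` all of whose orders are
divisible by `m` (`m` invertible in `k`) is a constant times an `m`-th power.
-/

set_option autoImplicit false

open scoped IntermediateField

namespace Fermat.Agent.S18L

open Fermat.Agent.RRL AlgebraicCurve

theorem exists_eq_smul_pow {K F k Fb : Type*} [Field K] [Field F] [Algebra K F] [Field k]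
    [Field Fb] [Algebra k Fb] [IsAlgClosed K] [IsAlgClosed k]
    (halg : ∀ u : F, (∀ c : K, u ≠ algebraMap K F c) → Algebra.IsAlgebraic K⟮u⟯ F)
    (hfin : ∀ x : F, x ≠ 0 → {Q : Place K F | Q.ord x ≠ 0}.Finite)
    (hconst : ∀ x : F, x ≠ 0 → (∀ Q : Place K F, 0 ≤ Q.ord x) → ∃ c : K, x = algebraMap K F c)
    (halgb : ∀ u : Fb, (∀ c : k, u ≠ algebraMap k Fb c) → Algebra.IsAlgebraic k⟮u⟯ Fb)
    (hfinb : ∀ x : Fb, x ≠ 0 → {Q : Place k Fb | Q.ord x ≠ 0}.Finite)
    (hconstb : ∀ x : Fb, x ≠ 0 → (∀ Q : Place k Fb, 0 ≤ Q.ord x) →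
      ∃ c : k, x = algebraMap k Fb c)
    (G : RedDatum K F k Fb) (hOrth : G.HasOrth)
    (t : G.O) (ht : ∀ c : k, G.red t ≠ algebraMap k Fb c)
    (hNE : ∀ (s : ℕ) (x : G.O),
      (x : F) ∈ (curveOfPlaces halg hfin hconst).toPreCurve.L
          (s • (curveOfPlaces halg hfin hconst).toPreCurve.poleDiv (t : F)) →
        G.red x ∈ (curveOfPlaces halgb hfinb hconstb).toPreCurve.L
          (s • (curveOfPlaces halgb hfinb hconstb).toPreCurve.poleDiv (G.red t)))
    (hGE : ∃ s₀ : ℕ, ∀ s : ℕ, s₀ ≤ s →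
      Module.finrank k ((curveOfPlaces halgb hfinb hconstb).toPreCurve.L
          (s • (curveOfPlaces halgb hfinb hconstb).toPreCurve.poleDiv (G.red t)))
        ≤ Module.finrank K ((curveOfPlaces halg hfin hconst).toPreCurve.L
          (s • (curveOfPlaces halg hfin hconst).toPreCurve.poleDiv (t : F))))
    (m : ℕ) (hm : (m : k) ≠ 0) (u : G.O) (hu : G.red u = 1)
    (hdiv : ∀ P : Place K F, (m : ℤ) ∣ P.ord (u : F)) :
    ∃ (c : K) (w : F), (u : F) = c • w ^ m := by
  classical
  have hm0 : m ≠ 0 := by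
    rintro rfl
    exact hm (by simp)
  have hmZ : (m : ℤ) ≠ 0 := by exact_mod_cast hm0
  have hu0 : (u : F) ≠ 0 := by
    intro h
    have hu' : u = 0 := Subtype.ext h
    rw [hu', map_zero] at hu
    exact zero_ne_one hu
  set D : Place K F →₀ ℤ :=
    ((curveOfPlaces halg hfin hconst).toPreCurve.div (u : F)).mapRange
      (fun n => n / (m : ℤ)) (by simp) with hD
  have hmD : m • D = (curveOfPlaces halg hfin hconst).toPreCurve.div (u : F) := by
    ext P
    rw [Finsupp.smul_apply, hD, Finsupp.mapRange_apply,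
      curveOfPlaces_div_apply halg hfin hconst hu0, nsmul_eq_mul]
    exact Int.mul_ediv_cancel' (hdiv P)
  obtain ⟨x, hx0, hDx⟩ := inj_free G (curveOfPlaces halg hfin hconst)
    (curveOfPlaces halgb hfinb hconstb) hOrth t ht hNE hGE m hm D u hu hmD
  have hxm0 : x ^ m ≠ 0 := pow_ne_zero _ hx0
  have hy0 : (u : F) * (x ^ m)⁻¹ ≠ 0 := mul_ne_zero hu0 (inv_ne_zero hxm0)
  have hord : ∀ Q : Place K F, 0 ≤ Q.ord ((u : F) * (x ^ m)⁻¹) := by
    intro Q
    have h1 : Q.ord x = D Q := by
      rw [hDx, curveOfPlaces_div_apply halg hfin hconst hx0]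
    have h2 : Q.ord (u : F) = (m : ℤ) * D Q := by
      have := congrArg (fun E : Place K F →₀ ℤ => E Q) hmD
      simp only [Finsupp.smul_apply, nsmul_eq_mul] at this
      rw [this, curveOfPlaces_div_apply halg hfin hconst hu0]
    rw [Place.ord_mul Q hu0 (inv_ne_zero hxm0), Place.ord_inv, ← zpow_natCast, Place.ord_zpow,
      h1, h2]
    simp
  obtain ⟨c, hc⟩ := hconst _ hy0 hord
  refine ⟨c, x, ?_⟩
  rw [Algebra.smul_def, ← hc, mul_assoc, inv_mul_cancel₀ hxm0, mul_one]

end Fermat.Agent.S18L
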