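import Mathlib
import Fermat.Agent.S18L.AsmGaussDefs
import Fermat.Agent.S18L.AsmBar

/-!
# S18, assembly: compatibility of the place-reduction map of the Prelude hypothesis with the
reduction of integral functions (pointwise form)
-/

set_option autoImplicit false
set_option synthInstance.maxHeartbeats 400000

open ModularCurve HahnSeries AlgebraicCurve

namespace Fermat.Agent.S18L

open Fermat.Agent.RRL

variable {A : ValuationSubring (AlgebraicClosure ℚ)} {N : ℕ} [NeZero N]

/-- for an integral function `u` of nonzero reduction, the push-forward of `div u` under the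
place-reduction map is the divisor of the reduction of `u` (pointwise). -/
theorem hr_pointwise (h : ReductionInputsModL A N) (u : asmO A N) (hu : asmRed A N u ≠ 0)
    (Q : Place (IsLocalRing.ResidueField A)
      ↥(modularFunctionFieldFullC (IsLocalRing.ResidueField A) N)) :
    Finsupp.mapDomain (placeReductionModL h)
        ((curveBar N).toPreCurve.div (u : ↥(modularFunctionFieldBar N))) Q
      = Q.ord (asmRed A N u) := by
  classical
  obtain ⟨a, b, ha, hb, hb0, hK, hk⟩ := exists_good_of_mem_asmO A N u
  have hr := (isPlaceReductionModL_placeReductionModL h).2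
  have hu0 : ((asmRed A N u : ↥(modularFunctionFieldFullC (IsLocalRing.ResidueField A) N)) :
      LaurentSeries (IsLocalRing.ResidueField A)) ≠ 0 := fun h0 => hu (Subtype.ext h0)
  have ha0 : asmRho A a ≠ 0 := by
    rw [← hk]
    exact mul_ne_zero hu0 hb0
  have hιa : asmIota A a ≠ 0 := by
    intro h0
    apply ha0
    have : a = 0 := asmIota_injective A (by rw [h0, map_zero])
    rw [this, map_zero]
  have hιb : asmIota A b ≠ 0 := by
    intro h0
    apply hb0
    have : b = 0 := asmIota_injective A (by rw [h0, map_zero])
    rw [this, map_zero]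
  set ya : ↥(modularFunctionFieldBar N) := ⟨asmIota A a, ha.1⟩ with hya
  set yb : ↥(modularFunctionFieldBar N) := ⟨asmIota A b, hb.1⟩ with hyb
  have hya0 : ya ≠ 0 := fun h0 => hιa (congrArg Subtype.val h0)
  have hyb0 : yb ≠ 0 := fun h0 => hιb (congrArg Subtype.val h0)
  have hmul : (u : ↥(modularFunctionFieldBar N)) * yb = ya := Subtype.ext hK
  have huK0 : (u : ↥(modularFunctionFieldBar N)) ≠ 0 := by
    intro h0
    rw [h0, zero_mul] at hmul
    exact hya0 hmul.symm
  have hdiv : (curveBar N).toPreCurve.div ya
      = (curveBar N).toPreCurve.div (u : ↥(modularFunctionFieldBar N))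
        + (curveBar N).toPreCurve.div yb := by
    rw [← hmul]
    exact PreCurve.div_mul _ huK0 hyb0
  have hA := hr a ha.1 ha.2 ha0 ((curveBar N).toPreCurve.div ya)
    (fun P => curveOfPlaces_div_apply (halg_bar N) (finite_support_bar N)
      (const_of_nonneg_bar N) hya0 P) Q
  have hB := hr b hb.1 hb.2 hb0 ((curveBar N).toPreCurve.div yb)
    (fun P => curveOfPlaces_div_apply (halg_bar N) (finite_support_bar N)
      (const_of_nonneg_bar N) hyb0 P) Q
  have hkmul : asmRed A N u * (⟨asmRho A b, hb.2⟩ :
      ↥(modularFunctionFieldFullC (IsLocalRing.ResidueField A) N))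
        = ⟨asmRho A a, ha.2⟩ := Subtype.ext hk
  have hbk0 : (⟨asmRho A b, hb.2⟩ :
      ↥(modularFunctionFieldFullC (IsLocalRing.ResidueField A) N)) ≠ 0 :=
    fun h0 => hb0 (congrArg Subtype.val h0)
  have hord := Q.ord_mul hu hbk0
  rw [hkmul] at hord
  rw [hdiv, Finsupp.mapDomain_add, Finsupp.add_apply] at hA
  have hA' : Finsupp.mapDomain (placeReductionModL h)
        ((curveBar N).toPreCurve.div (u : ↥(modularFunctionFieldBar N))) Q
      + Finsupp.mapDomain (placeReductionModL h) ((curveBar N).toPreCurve.div yb) Q
      = Q.ord (⟨asmRho A a, ha.2⟩ :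
        ↥(modularFunctionFieldFullC (IsLocalRing.ResidueField A) N)) := hA
  have hB' : Finsupp.mapDomain (placeReductionModL h) ((curveBar N).toPreCurve.div yb) Q
      = Q.ord (⟨asmRho A b, hb.2⟩ :
        ↥(modularFunctionFieldFullC (IsLocalRing.ResidueField A) N)) := hB
  rw [hB', hord] at hA'
  exact add_right_cancel hA'

end Fermat.Agent.S18L
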