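import Mathlib
import Fermat.Agent.S18L.AsmGauss
import Fermat.Agent.S18L.AsmHr

/-!
# S18, assembly: the level-`N` step (the only use of the Prelude hypothesis `h`)

From a divisor `D` of `F = modularFunctionFieldBar N` with `m D` principal and principal
push-forward, produce an integral function `u` with reduction `1` and `div u = m (D - div φ)`.
-/

set_option autoImplicit false
set_option synthInstance.maxHeartbeats 400000

open ModularCurve HahnSeries AlgebraicCurve

namespace Fermat.Agent.S18L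

open Fermat.Agent.RRL

variable {A : ValuationSubring (AlgebraicClosure ℚ)} {N : ℕ} [NeZero N]

theorem exists_unit_rep {ℓ : ℕ} [Fact ℓ.Prime] (hA : A.LiesOverPrime ℓ) (hℓN : ¬ ℓ ∣ N)
    (h : ReductionInputsModL A N)
    (hconst : ∀ x : ↥(modularFunctionFieldFullC (IsLocalRing.ResidueField A) N), x ≠ 0 →
      (∀ Q : Place (IsLocalRing.ResidueField A)
        ↥(modularFunctionFieldFullC (IsLocalRing.ResidueField A) N), Q.ord x = 0) →
      ∃ c : IsLocalRing.ResidueField A, x = algebraMap (IsLocalRing.ResidueField A)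
        ↥(modularFunctionFieldFullC (IsLocalRing.ResidueField A) N) c)
    (m : ℕ) (D : Divisor (AlgebraicClosure ℚ) ↥(modularFunctionFieldBar N))
    (f : ↥(modularFunctionFieldBar N)) (hf : f ≠ 0)
    (hmD : ∀ P : Place (AlgebraicClosure ℚ) ↥(modularFunctionFieldBar N), (m • D) P = P.ord f)
    (g₀ : ↥(modularFunctionFieldFullC (IsLocalRing.ResidueField A) N)) (hg₀ : g₀ ≠ 0)
    (hrD : ∀ Q : Place (IsLocalRing.ResidueField A)
        ↥(modularFunctionFieldFullC (IsLocalRing.ResidueField A) N),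
      Finsupp.mapDomain (placeReductionModL h) D Q = Q.ord g₀) :
    ∃ (u : asmO A N) (φ : ↥(modularFunctionFieldBar N)), φ ≠ 0 ∧ asmRed A N u = 1 ∧
      ∀ P : Place (AlgebraicClosure ℚ) ↥(modularFunctionFieldBar N),
        P.ord (u : ↥(modularFunctionFieldBar N)) = (m : ℤ) * (D P - P.ord φ) := by
  classical
  -- (1) lift `g₀`
  obtain ⟨φt, hφt⟩ := asmRed_surjective A N g₀
  have hφt0 : asmRed A N φt ≠ 0 := by rw [hφt]; exact hg₀
  set φ : ↥(modularFunctionFieldBar N) := (φt : ↥(modularFunctionFieldBar N)) with hφdef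
  have hφ : φ ≠ 0 := by
    intro h0
    have : φt = 0 := Subtype.ext h0
    rw [this, map_zero] at hφt0
    exact hφt0 rfl
  -- (2) the scaled function
  have hu₀ : f * (φ⁻¹) ^ m ≠ 0 := mul_ne_zero hf (pow_ne_zero m (inv_ne_zero hφ))
  obtain ⟨c, hc, hmem, hred⟩ := exists_smul_asm A N hA hℓN _ hu₀
  have hcu0 : c • (f * (φ⁻¹) ^ m) ≠ 0 := smul_ne_zero hc hu₀
  have hord1 : ∀ P : Place (AlgebraicClosure ℚ) ↥(modularFunctionFieldBar N),
      P.ord (c • (f * (φ⁻¹) ^ m)) = (m : ℤ) * (D P - P.ord φ) := by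
    intro P
    have hc' : algebraMap (AlgebraicClosure ℚ) ↥(modularFunctionFieldBar N) c ≠ 0 := by
      simpa using hc
    rw [Algebra.smul_def, P.ord_mul hc' hu₀,
      Fermat.Agent.X0S24.PlaceRes.ord_algebraMap P hc, zero_add,
      P.ord_mul hf (pow_ne_zero m (inv_ne_zero hφ)), ← zpow_natCast, P.ord_zpow, P.ord_inv,
      ← hmD P, Finsupp.smul_apply, nsmul_eq_mul]
    ring
  -- (3) the reduction has trivial divisor
  have hdivφ : ∀ P : Place (AlgebraicClosure ℚ) ↥(modularFunctionFieldBar N),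
      (curveBar N).toPreCurve.div φ P = P.ord φ := fun P =>
    curveOfPlaces_div_apply (halg_bar N) (finite_support_bar N) (const_of_nonneg_bar N) hφ P
  have hdivu : ∀ P : Place (AlgebraicClosure ℚ) ↥(modularFunctionFieldBar N),
      (curveBar N).toPreCurve.div (c • (f * (φ⁻¹) ^ m)) P = P.ord (c • (f * (φ⁻¹) ^ m)) :=
    fun P =>
    curveOfPlaces_div_apply (halg_bar N) (finite_support_bar N) (const_of_nonneg_bar N) hcu0 P
  have hdiveq : (curveBar N).toPreCurve.div (c • (f * (φ⁻¹) ^ m))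
      + m • (curveBar N).toPreCurve.div φ = m • D := by
    ext P
    rw [Finsupp.add_apply, Finsupp.smul_apply, Finsupp.smul_apply, hdivu, hdivφ, hord1,
      nsmul_eq_mul, nsmul_eq_mul]
    ring
  have hzero : ∀ Q : Place (IsLocalRing.ResidueField A)
      ↥(modularFunctionFieldFullC (IsLocalRing.ResidueField A) N),
      Q.ord (asmRed A N ⟨c • (f * (φ⁻¹) ^ m), hmem⟩) = 0 := by
    intro Q
    have h1 := hr_pointwise h ⟨c • (f * (φ⁻¹) ^ m), hmem⟩ hred Q
    have h2 := hr_pointwise h φt hφt0 Q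
    have h3 := congrArg (fun E => Finsupp.mapDomain (placeReductionModL h) E Q) hdiveq
    simp only [Finsupp.mapDomain_add, Finsupp.mapDomain_smul, Finsupp.add_apply,
      Finsupp.smul_apply, nsmul_eq_mul] at h3
    rw [hrD Q] at h3
    rw [hφt] at h2
    rw [← h1]
    change Finsupp.mapDomain (placeReductionModL h)
      ((curveBar N).toPreCurve.div (c • (f * (φ⁻¹) ^ m))) Q = 0
    change Finsupp.mapDomain (placeReductionModL h) ((curveBar N).toPreCurve.div φ) Q
      = Q.ord g₀ at h2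
    rw [h2] at h3
    linarith
  -- (4) the reduction is a nonzero constant
  obtain ⟨cb, hcb⟩ := hconst _ hred hzero
  obtain ⟨a, rfl⟩ := IsLocalRing.residue_surjective cb
  have ha : IsUnit a := by
    by_contra hna
    rw [(residue_eq_zero_iff A a).2 hna, map_zero] at hcb
    exact hred hcb
  obtain ⟨au, rfl⟩ := ha
  have hainv : algebraMap (AlgebraicClosure ℚ) ↥(modularFunctionFieldBar N)
      (((au⁻¹ : Aˣ) : A) : AlgebraicClosure ℚ) ∈ asmO A N :=
    (algebraMap_mem_asmO A N _).2 ((au⁻¹ : Aˣ) : A).2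
  have hainv0 : (((au⁻¹ : Aˣ) : A) : AlgebraicClosure ℚ) ≠ 0 := by
    intro h0
    have : ((au⁻¹ : Aˣ) : A) = 0 := Subtype.ext h0
    exact (au⁻¹).ne_zero this
  refine ⟨⟨_, hainv⟩ * ⟨c • (f * (φ⁻¹) ^ m), hmem⟩, φ, hφ, ?_, fun P => ?_⟩
  · rw [map_mul, asmRed_algebraMap, hcb, ← map_mul, ← map_mul, Units.inv_mul, map_one, map_one]
  · have hc' : algebraMap (AlgebraicClosure ℚ) ↥(modularFunctionFieldBar N)
        (((au⁻¹ : Aˣ) : A) : AlgebraicClosure ℚ) ≠ 0 := by
      simp
    change P.ord (algebraMap (AlgebraicClosure ℚ) ↥(modularFunctionFieldBar N)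
        (((au⁻¹ : Aˣ) : A) : AlgebraicClosure ℚ) * (c • (f * (φ⁻¹) ^ m))) = _
    rw [P.ord_mul hc' hcu0, Fermat.Agent.X0S24.PlaceRes.ord_algebraMap P hainv0, zero_add,
      hord1 P]

end Fermat.Agent.S18L
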