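import Mathlib
import Fermat.Prelude.Def_AlgebraicCurve_DivisorClassGroup
import Fermat.Agent.X0S24.PlaceRes

/-!
# S18, assembly: a nontrivial `ℤ`-valued valuation of a function field is a multiple of the
order function of a (Prelude) place; restriction of places to a subfield
-/

set_option autoImplicit false

namespace Fermat.Agent.S18L

open AlgebraicCurve

section rpl

variable {F : Type*} [Field F] (v : F → ℤ)
  (hmul : ∀ x y : F, x ≠ 0 → y ≠ 0 → v (x * y) = v x + v y)
  (hadd : ∀ x y : F, x ≠ 0 → y ≠ 0 → x + y ≠ 0 → min (v x) (v y) ≤ v (x + y))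

include hmul in
theorem rpl_one : v 1 = 0 := by
  have h := hmul 1 1 one_ne_zero one_ne_zero
  rw [mul_one] at h
  omega

include hmul in
theorem rpl_neg_one : v (-1) = 0 := by
  have h := hmul (-1) (-1) (neg_ne_zero.mpr one_ne_zero) (neg_ne_zero.mpr one_ne_zero)
  rw [neg_mul_neg, mul_one, rpl_one v hmul] at h
  omega

include hmul in
theorem rpl_neg {x : F} (hx : x ≠ 0) : v (-x) = v x := by
  have h := hmul (-1) x (neg_ne_zero.mpr one_ne_zero) hx
  rw [neg_one_mul, rpl_neg_one v hmul] at h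
  omega

include hmul in
theorem rpl_inv {x : F} (hx : x ≠ 0) : v x⁻¹ = -v x := by
  have h := hmul x x⁻¹ hx (inv_ne_zero hx)
  rw [mul_inv_cancel₀ hx, rpl_one v hmul] at h
  omega

include hmul in
theorem rpl_pow {x : F} (hx : x ≠ 0) (n : ℕ) : v (x ^ n) = n * v x := by
  induction n with
  | zero => simp [rpl_one v hmul]
  | succ n ih =>
    rw [pow_succ, hmul _ _ (pow_ne_zero n hx) hx, ih]
    push_cast; ring

include hmul in
theorem rpl_zpow {x : F} (hx : x ≠ 0) (n : ℤ) : v (x ^ n) = n * v x := by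
  obtain ⟨m, rfl | rfl⟩ := Int.eq_nat_or_neg n
  · rw [zpow_natCast, rpl_pow v hmul hx]
  · rw [zpow_neg, zpow_natCast, rpl_inv v hmul (pow_ne_zero m hx), rpl_pow v hmul hx]
    ring

/-- the valuation ring of `v` -/
def rpl_vring : ValuationSubring F where
  carrier := {x | x = 0 ∨ 0 ≤ v x}
  mul_mem' := by
    rintro a b (ha | ha) (hb | hb)
    · left; rw [ha, zero_mul]
    · left; rw [ha, zero_mul]
    · left; rw [hb, mul_zero]
    · by_cases ha0 : a = 0
      · left; rw [ha0, zero_mul]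
      by_cases hb0 : b = 0
      · left; rw [hb0, mul_zero]
      right
      rw [hmul a b ha0 hb0]; omega
  one_mem' := Or.inr (by rw [rpl_one v hmul])
  add_mem' := by
    intro a b ha hb
    by_cases ha0 : a = 0
    · rw [ha0, zero_add]; exact hb
    by_cases hb0 : b = 0
    · rw [hb0, add_zero]; exact ha
    by_cases hab : a + b = 0
    · left; exact hab
    right
    have h := hadd a b ha0 hb0 hab
    have h1 := ha.resolve_left ha0
    have h2 := hb.resolve_left hb0
    exact le_trans (le_min h1 h2) h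
  zero_mem' := Or.inl rfl
  neg_mem' := by
    intro a ha
    by_cases ha0 : a = 0
    · left; rw [ha0, neg_zero]
    right
    rw [rpl_neg v hmul ha0]; exact ha.resolve_left ha0
  mem_or_inv_mem' := by
    intro a
    by_cases ha0 : a = 0
    · left; left; exact ha0
    by_cases h : 0 ≤ v a
    · left; right; exact h
    · right; right
      rw [rpl_inv v hmul ha0]; omega

theorem rpl_mem_vring_of_ne {x : F} (hx : x ≠ 0) :
    x ∈ rpl_vring v hmul hadd ↔ 0 ≤ v x :=
  ⟨fun h => h.resolve_left hx, Or.inr⟩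

theorem rpl_isPrincipalIdealRing_vring :
    IsPrincipalIdealRing (rpl_vring v hmul hadd) := by
  refine ⟨fun I => ?_⟩
  by_cases hI : I = ⊥
  · rw [hI]; exact bot_isPrincipal
  classical
  have hex : ∃ n : ℕ, ∃ x : rpl_vring v hmul hadd, x ∈ I ∧ x ≠ 0 ∧ v (x : F) = n := by
    obtain ⟨x, hxI, hx0⟩ := Submodule.exists_mem_ne_zero_of_ne_bot hI
    have hxF : (x : F) ≠ 0 := by
      intro h; exact hx0 (Subtype.ext h)
    have h0 : 0 ≤ v (x : F) := (rpl_mem_vring_of_ne v hmul hadd hxF).mp x.2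
    exact ⟨(v (x : F)).toNat, x, hxI, hx0, (Int.toNat_of_nonneg h0).symm⟩
  obtain ⟨x0, hx0I, hx00, hx0n⟩ := Nat.find_spec hex
  have hx0F : (x0 : F) ≠ 0 := by
    intro h; exact hx00 (Subtype.ext h)
  refine ⟨⟨x0, le_antisymm ?_ ?_⟩⟩
  · intro y hyI
    change y ∈ Ideal.span {x0}
    rw [Ideal.mem_span_singleton']
    by_cases hy0 : y = 0
    · exact ⟨0, by rw [hy0, zero_mul]⟩
    have hyF : (y : F) ≠ 0 := by
      intro h; exact hy0 (Subtype.ext h)
    have h0 : 0 ≤ v (y : F) := (rpl_mem_vring_of_ne v hmul hadd hyF).mp y.2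
    have hmin : Nat.find hex ≤ (v (y : F)).toNat :=
      Nat.find_min' hex ⟨y, hyI, hy0, (Int.toNat_of_nonneg h0).symm⟩
    have hle : v (x0 : F) ≤ v (y : F) := by
      rw [hx0n]
      have := Int.toNat_of_nonneg h0
      omega
    have hq : (y : F) / (x0 : F) ∈ rpl_vring v hmul hadd := by
      rw [rpl_mem_vring_of_ne v hmul hadd (div_ne_zero hyF hx0F), div_eq_mul_inv,
        hmul _ _ hyF (inv_ne_zero hx0F), rpl_inv v hmul hx0F]
      omega
    refine ⟨⟨(y : F) / (x0 : F), hq⟩, ?_⟩
    apply Subtype.ext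
    change (y : F) / (x0 : F) * (x0 : F) = (y : F)
    field_simp
  · change Ideal.span {x0} ≤ I
    rw [Ideal.span_singleton_le_iff_mem]
    exact hx0I

/-- units of the valuation ring have value zero -/
theorem rpl_unit (u : (rpl_vring v hmul hadd)ˣ) :
    v ((u : rpl_vring v hmul hadd) : F) = 0 := by
  have h1 : ((u : rpl_vring v hmul hadd) : F) * ((u⁻¹ : (rpl_vring v hmul hadd)ˣ) :
      rpl_vring v hmul hadd) = 1 := congrArg Subtype.val (Units.mul_inv u)
  have ha0 : ((u : rpl_vring v hmul hadd) : F) ≠ 0 := by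
    intro h; rw [h, zero_mul] at h1; exact zero_ne_one h1
  have hb0 : (((u⁻¹ : (rpl_vring v hmul hadd)ˣ) : rpl_vring v hmul hadd) : F) ≠ 0 := by
    intro h; rw [h, mul_zero] at h1; exact zero_ne_one h1
  have h2 := hmul _ _ ha0 hb0
  rw [h1, rpl_one v hmul] at h2
  have h3 := (rpl_mem_vring_of_ne v hmul hadd ha0).mp (u : rpl_vring v hmul hadd).2
  have h4 := (rpl_mem_vring_of_ne v hmul hadd hb0).mp
    ((u⁻¹ : (rpl_vring v hmul hadd)ˣ) : rpl_vring v hmul hadd).2
  omega

end rpl

/-- the place of `v` -/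
noncomputable def rpl_place {K F : Type*} [Field K] [Field F] [Algebra K F]
    (v : F → ℤ)
    (hmul : ∀ x y : F, x ≠ 0 → y ≠ 0 → v (x * y) = v x + v y)
    (hadd : ∀ x y : F, x ≠ 0 → y ≠ 0 → x + y ≠ 0 → min (v x) (v y) ≤ v (x + y))
    (hconst : ∀ c : K, c ≠ 0 → v (algebraMap K F c) = 0)
    (hnontriv : ∃ x : F, x ≠ 0 ∧ v x ≠ 0) : Place K F :=
  { toValuationSubring := rpl_vring v hmul hadd
    algebraMap_mem' := by
      intro a
      by_cases ha : a = 0
      · left; simp [ha]
      · right; rw [hconst a ha]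
    ne_top' := by
      intro htop
      obtain ⟨x, hx0, hx⟩ := hnontriv
      have h1 : x ∈ rpl_vring v hmul hadd := by rw [htop]; exact ValuationSubring.mem_top _
      have h2 : x⁻¹ ∈ rpl_vring v hmul hadd := by rw [htop]; exact ValuationSubring.mem_top _
      rw [rpl_mem_vring_of_ne v hmul hadd hx0] at h1
      rw [rpl_mem_vring_of_ne v hmul hadd (inv_ne_zero hx0), rpl_inv v hmul hx0] at h2
      omega
    isPrincipalIdealRing' := rpl_isPrincipalIdealRing_vring v hmul hadd }

/-- a nontrivial `ℤ`-valued valuation, trivial on the constants, is `e * P.ord` for a place `P`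
and some `e > 0`. -/
theorem exists_place_of_ord {K F : Type*} [Field K] [Field F] [Algebra K F]
    (v : F → ℤ)
    (hmul : ∀ x y : F, x ≠ 0 → y ≠ 0 → v (x * y) = v x + v y)
    (hadd : ∀ x y : F, x ≠ 0 → y ≠ 0 → x + y ≠ 0 → min (v x) (v y) ≤ v (x + y))
    (hconst : ∀ c : K, c ≠ 0 → v (algebraMap K F c) = 0)
    (hnontriv : ∃ x : F, x ≠ 0 ∧ v x ≠ 0) :
    ∃ (P : Place K F) (e : ℕ), 0 < e ∧ ∀ x : F, x ≠ 0 → v x = e * P.ord x := by
  obtain ⟨P, hP⟩ : ∃ P : Place K F, P = rpl_place v hmul hadd hconst hnontriv := ⟨_, rfl⟩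
  subst hP
  set P := rpl_place v hmul hadd hconst hnontriv
  obtain ⟨π, hπ⟩ := IsDiscreteValuationRing.exists_irreducible P.toValuationSubring
  have hπF : (π : F) ≠ 0 := by
    intro h; exact hπ.ne_zero (Subtype.ext h)
  have hπ0 : 0 ≤ v (π : F) := (rpl_mem_vring_of_ne v hmul hadd hπF).mp π.2
  have hπpos : 0 < v (π : F) := by
    rcases lt_or_eq_of_le hπ0 with h | h
    · exact h
    · exfalso
      apply hπ.not_isUnit
      have hinv : (π : F)⁻¹ ∈ rpl_vring v hmul hadd := by
        rw [rpl_mem_vring_of_ne v hmul hadd (inv_ne_zero hπF), rpl_inv v hmul hπF]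
        omega
      refine IsUnit.of_mul_eq_one (⟨(π : F)⁻¹, hinv⟩ : P.toValuationSubring) ?_
      apply Subtype.ext
      change (π : F) * (π : F)⁻¹ = 1
      exact mul_inv_cancel₀ hπF
  refine ⟨P, (v (π : F)).toNat, by omega, ?_⟩
  intro x hx
  obtain ⟨u, hu⟩ := P.exists_unit_mul_zpow hx hπ
  have huv : v ((u : P.toValuationSubring) : F) = 0 := rpl_unit v hmul hadd u
  have hu0 : ((u : P.toValuationSubring) : F) ≠ 0 := by
    intro h; rw [h, zero_mul] at hu; exact hx hu
  have hcast : (((v (π : F)).toNat : ℕ) : ℤ) = v (π : F) := Int.toNat_of_nonneg hπ0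
  rw [hcast]
  conv_lhs => rw [hu]
  rw [hmul _ _ hu0 (zpow_ne_zero _ hπF), huv, rpl_zpow v hmul hπF, zero_add, mul_comm]

/-- divisibility of all orders passes to an extension field -/
theorem dvd_ord_of_le {K L : Type*} [Field K] [Field L] [Algebra K L]
    {E E' : IntermediateField K L} (hE : E ≤ E') (m : ℤ) (u : ↥E) (hu : u ≠ 0)
    (hdiv : ∀ P : Place K ↥E, m ∣ P.ord u) (P' : Place K ↥E') :
    m ∣ P'.ord (IntermediateField.inclusion hE u) := by
  have hinj : ∀ x : ↥E, x ≠ 0 → IntermediateField.inclusion hE x ≠ 0 := by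
    intro x hx
    exact (map_ne_zero (IntermediateField.inclusion hE)).mpr hx
  by_cases hnt : ∃ x : ↥E, x ≠ 0 ∧ P'.ord (IntermediateField.inclusion hE x) ≠ 0
  · obtain ⟨P, e, -, he⟩ := exists_place_of_ord (K := K) (F := ↥E)
      (fun x => P'.ord (IntermediateField.inclusion hE x))
      (by
        intro x y hx hy
        rw [map_mul]
        exact P'.ord_mul (hinj x hx) (hinj y hy))
      (by
        intro x y hx hy hxy
        rw [map_add]
        refine Fermat.Agent.X0S24.PlaceRes.ord_add P' (hinj x hx) (hinj y hy) ?_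
        rw [← map_add]; exact hinj _ hxy)
      (by
        intro c hc
        rw [AlgHom.commutes]
        exact Fermat.Agent.X0S24.PlaceRes.ord_algebraMap P' hc)
      hnt
    have := he u hu
    rw [this]
    exact (hdiv P).mul_left _
  · have : P'.ord (IntermediateField.inclusion hE u) = 0 := by
      by_contra h
      exact hnt ⟨u, hu, h⟩
    rw [this]; exact dvd_zero m

end Fermat.Agent.S18L
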