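import Mathlib
import Fermat.Prelude.Def_ModularCurve_ReductionModL
import Fermat.Agent.S18L.AsmLevelN
import Fermat.Agent.S18L.AsmInjPrime
import Fermat.Agent.S18L.AsmDegree
import Fermat.Agent.S18L.AsmDescent
import Fermat.Agent.S18L.RestrictPlace
import Fermat.Agent.S18L.AsmBar
import Fermat.Agent.S18L.AsmRes

/-!
# S18: final assembly (plan B), with the inputs at the auxiliary level as hypotheses
-/

set_option autoImplicit false
set_option synthInstance.maxHeartbeats 400000

open ModularCurve HahnSeries AlgebraicCurve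
open scoped IntermediateField

namespace Fermat.Agent.S18L

open Fermat.Agent.RRL

set_option maxHeartbeats 1600000 in
theorem s18_main (N : ℕ) [NeZero N] {ℓ : ℕ} [Fact ℓ.Prime] (hℓN : ¬ ℓ ∣ N)
    (A : ValuationSubring (AlgebraicClosure ℚ)) (hA : A.LiesOverPrime ℓ)
    (h : ReductionInputsModL A N)
    [IsAlgClosed (IsLocalRing.ResidueField A)]
    -- level `N`, characteristic `ℓ`: functions without zeros and poles are constant
    (hconstN : ∀ x : ↥(modularFunctionFieldFullC (IsLocalRing.ResidueField A) N), x ≠ 0 →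
      (∀ Q : Place (IsLocalRing.ResidueField A)
        ↥(modularFunctionFieldFullC (IsLocalRing.ResidueField A) N), Q.ord x = 0) →
      ∃ c : IsLocalRing.ResidueField A, x = algebraMap (IsLocalRing.ResidueField A)
        ↥(modularFunctionFieldFullC (IsLocalRing.ResidueField A) N) c)
    -- level `N' = auxLevel N ℓ`, characteristic `ℓ`: the curve of places
    (halgb : ∀ u : ↥(modularFunctionFieldFullC (IsLocalRing.ResidueField A) (auxLevel N ℓ)),
      (∀ c : IsLocalRing.ResidueField A, u ≠ algebraMap (IsLocalRing.ResidueField A)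
        ↥(modularFunctionFieldFullC (IsLocalRing.ResidueField A) (auxLevel N ℓ)) c) →
      Algebra.IsAlgebraic (IsLocalRing.ResidueField A)⟮u⟯
        ↥(modularFunctionFieldFullC (IsLocalRing.ResidueField A) (auxLevel N ℓ)))
    (hfinb : ∀ x : ↥(modularFunctionFieldFullC (IsLocalRing.ResidueField A) (auxLevel N ℓ)),
      x ≠ 0 → {Q : Place (IsLocalRing.ResidueField A)
        ↥(modularFunctionFieldFullC (IsLocalRing.ResidueField A) (auxLevel N ℓ)) |
          Q.ord x ≠ 0}.Finite)
    (hconstb : ∀ x : ↥(modularFunctionFieldFullC (IsLocalRing.ResidueField A) (auxLevel N ℓ)),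
      x ≠ 0 → (∀ Q : Place (IsLocalRing.ResidueField A)
        ↥(modularFunctionFieldFullC (IsLocalRing.ResidueField A) (auxLevel N ℓ)), 0 ≤ Q.ord x) →
      ∃ c : IsLocalRing.ResidueField A, x = algebraMap (IsLocalRing.ResidueField A)
        ↥(modularFunctionFieldFullC (IsLocalRing.ResidueField A) (auxLevel N ℓ)) c)
    -- level `N'`: the reduction datum with orthonormal bases
    (G' : RedDatum (AlgebraicClosure ℚ) ↥(modularFunctionFieldBar (auxLevel N ℓ))
      (IsLocalRing.ResidueField A)
      ↥(modularFunctionFieldFullC (IsLocalRing.ResidueField A) (auxLevel N ℓ)))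
    (hOrth : G'.HasOrth)
    (hbridge : ∀ u : asmO A N, asmRed A N u = 1 →
      ∃ hmem : IntermediateField.inclusion (bar_le_bar (dvd_auxLevel N ℓ))
          (u : ↥(modularFunctionFieldBar N)) ∈ G'.O,
        G'.red ⟨_, hmem⟩ = 1)
    -- level `N'`: the base parameter with NORMAL / GE
    (t : G'.O)
    (ht : ∀ c : IsLocalRing.ResidueField A, G'.red t ≠ algebraMap (IsLocalRing.ResidueField A)
      ↥(modularFunctionFieldFullC (IsLocalRing.ResidueField A) (auxLevel N ℓ)) c)
    (hNE : ∀ (s : ℕ) (x : G'.O),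
      (x : ↥(modularFunctionFieldBar (auxLevel N ℓ))) ∈ (curveBar (auxLevel N ℓ)).toPreCurve.L
          (s • (curveBar (auxLevel N ℓ)).toPreCurve.poleDiv
            (t : ↥(modularFunctionFieldBar (auxLevel N ℓ)))) →
        G'.red x ∈ (curveOfPlaces halgb hfinb hconstb).toPreCurve.L
          (s • (curveOfPlaces halgb hfinb hconstb).toPreCurve.poleDiv (G'.red t)))
    (hGE : ∃ s₀ : ℕ, ∀ s : ℕ, s₀ ≤ s →
      Module.finrank (IsLocalRing.ResidueField A)
          ((curveOfPlaces halgb hfinb hconstb).toPreCurve.L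
            (s • (curveOfPlaces halgb hfinb hconstb).toPreCurve.poleDiv (G'.red t)))
        ≤ Module.finrank (AlgebraicClosure ℚ) ((curveBar (auxLevel N ℓ)).toPreCurve.L
          (s • (curveBar (auxLevel N ℓ)).toPreCurve.poleDiv
            (t : ↥(modularFunctionFieldBar (auxLevel N ℓ))))))
    (m : ℕ) (hm : ¬ ℓ ∣ m) (z : JZero N) (hmz : m • z = 0)
    (hz : reductionModL A N z = 0) : z = 0 := by
  classical
  have hm0 : m ≠ 0 := by
    rintro rfl
    exact hm (dvd_zero _)
  obtain ⟨D, rfl⟩ := Pic0.mk_surjective z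
  -- `m • D` is principal
  have h1 : Divisor.IsPrincipal (m • (D : Divisor (AlgebraicClosure ℚ)
      ↥(modularFunctionFieldBar N))) := by
    have e1 : m • Pic0.mk D = Pic0.mk (m • D) := rfl
    rw [e1] at hmz
    have := (QuotientAddGroup.eq_zero_iff _).mp hmz
    rw [AddSubgroup.mem_addSubgroupOf] at this
    exact Divisor.mem_principal.mp (by simpa using this)
  -- the push-forward of `D` is principal
  have h2 : Divisor.IsPrincipal (Finsupp.mapDomain (placeReductionModL h)
      (D : Divisor (AlgebraicClosure ℚ) ↥(modularFunctionFieldBar N))) := by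
    rw [reductionModL_mk h D] at hz
    have := (QuotientAddGroup.eq_zero_iff _).mp hz
    rw [AddSubgroup.mem_addSubgroupOf] at this
    exact Divisor.mem_principal.mp (by simpa using this)
  obtain ⟨f, hf, hmD⟩ := h1
  obtain ⟨g₀, hg₀, hrD⟩ := h2
  obtain ⟨u, φ, hφ, hu1, hord⟩ := exists_unit_rep hA hℓN h hconstN m D f hf hmD g₀ hg₀ hrD
  have hu0 : (u : ↥(modularFunctionFieldBar N)) ≠ 0 := by
    intro h0
    have : u = 0 := Subtype.ext h0
    rw [this, map_zero] at hu1
    exact zero_ne_one hu1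
  -- pass to the auxiliary level
  obtain ⟨hmem, hred⟩ := hbridge u hu1
  have hdiv : ∀ P' : Place (AlgebraicClosure ℚ) ↥(modularFunctionFieldBar (auxLevel N ℓ)),
      (m : ℤ) ∣ P'.ord (IntermediateField.inclusion (bar_le_bar (dvd_auxLevel N ℓ))
        (u : ↥(modularFunctionFieldBar N))) :=
    dvd_ord_of_le (bar_le_bar (dvd_auxLevel N ℓ)) (m : ℤ) (u : ↥(modularFunctionFieldBar N)) hu0
      (fun P => ⟨_, hord P⟩)
  obtain ⟨c, w, hcw⟩ := exists_eq_smul_pow (halg_bar (auxLevel N ℓ))
    (finite_support_bar (auxLevel N ℓ)) (const_of_nonneg_bar (auxLevel N ℓ)) halgb hfinb hconstb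
    G' hOrth t ht hNE hGE m (natCast_residueField_ne_zero A hA m hm) ⟨_, hmem⟩ hred hdiv
  obtain ⟨hd0, hcop⟩ := relfinrank_auxLevel N ℓ m hm
  obtain ⟨c', v, huv⟩ := exists_pow_of_le (bar_le_bar (dvd_auxLevel N ℓ)) hd0 m hcop
    (u : ↥(modularFunctionFieldBar N)) hu0 c w hcw
  -- `D` is principal
  have hc'0 : c' ≠ 0 := by
    rintro rfl
    rw [zero_smul] at huv
    exact hu0 huv
  have hv0 : v ≠ 0 := by
    rintro rfl
    rw [zero_pow hm0, smul_zero] at huv
    exact hu0 huv
  have hprin : Divisor.IsPrincipal (D : Divisor (AlgebraicClosure ℚ)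
      ↥(modularFunctionFieldBar N)) := by
    refine ⟨φ * v, mul_ne_zero hφ hv0, fun P => ?_⟩
    have e1 := hord P
    rw [huv, Algebra.smul_def, P.ord_mul (by simpa using hc'0) (pow_ne_zero m hv0),
      Fermat.Agent.X0S24.PlaceRes.ord_algebraMap P hc'0, zero_add, ← zpow_natCast,
      P.ord_zpow] at e1
    rw [P.ord_mul hφ hv0]
    have hm' : (m : ℤ) ≠ 0 := by exact_mod_cast hm0
    have := mul_left_cancel₀ hm' e1
    omega
  refine (QuotientAddGroup.eq_zero_iff _).mpr ?_
  rw [AddSubgroup.mem_addSubgroupOf]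
  exact Divisor.mem_principal.mpr hprin

end Fermat.Agent.S18L
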