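import Mathlib
import Fermat.Agent.S18L.S18Main
import Fermat.Agent.S18L.AsmGauss
import Fermat.Agent.S18L.AsmBridge
import Fermat.Agent.S18L.CrvFull
import Fermat.Agent.S18L.S28XDeg
import Fermat.Agent.S18L.S28XSepW
import Fermat.Agent.S18L.S28XBridge
import Fermat.Agent.S18L.Inst

/-!
# S18: final assembly with all inputs instantiated
-/

set_option autoImplicit false
set_option synthInstance.maxHeartbeats 400000

open ModularCurve HahnSeries AlgebraicCurve
open scoped IntermediateField

namespace Fermat.Agent.S18L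

open Fermat.Agent.RRL

set_option maxHeartbeats 1600000 in
theorem s18_final (N : ℕ) [NeZero N] {ℓ : ℕ} [Fact ℓ.Prime] (hℓN : ¬ ℓ ∣ N)
    (A : ValuationSubring (AlgebraicClosure ℚ)) (hA : A.LiesOverPrime ℓ)
    (h : ReductionInputsModL A N) (m : ℕ) (hm : ¬ ℓ ∣ m) (z : JZero N)
    (hmz : m • z = 0) (hz : reductionModL A N z = 0) : z = 0 := by
  classical
  haveI : IsAlgClosed (IsLocalRing.ResidueField A) := isAlgClosed_residueField A
  haveI : CharP (IsLocalRing.ResidueField A) ℓ := s28x_charP ℓ A hA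
  have hℓN' : ¬ ℓ ∣ auxLevel N ℓ := not_dvd_auxLevel hℓN
  -- level `N`
  haveI : FiniteDimensional (crvK (IsLocalRing.ResidueField A) (crvJ (IsLocalRing.ResidueField A) N))
      ↥(modularFunctionFieldFullC (IsLocalRing.ResidueField A) N) :=
    s28x_finiteDimensional_fullC ℓ N hℓN (IsLocalRing.ResidueField A)
  haveI : Algebra.IsSeparable
      (crvK (IsLocalRing.ResidueField A) (crvJ (IsLocalRing.ResidueField A) N))
      ↥(modularFunctionFieldFullC (IsLocalRing.ResidueField A) N) :=
    s28x_algebra_isSeparable_fullC ℓ N hℓN (IsLocalRing.ResidueField A)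
  -- level `N'`
  haveI : FiniteDimensional
      (crvK (IsLocalRing.ResidueField A) (crvJ (IsLocalRing.ResidueField A) (auxLevel N ℓ)))
      ↥(modularFunctionFieldFullC (IsLocalRing.ResidueField A) (auxLevel N ℓ)) :=
    s28x_finiteDimensional_fullC ℓ (auxLevel N ℓ) hℓN' (IsLocalRing.ResidueField A)
  haveI : Algebra.IsSeparable
      (crvK (IsLocalRing.ResidueField A) (crvJ (IsLocalRing.ResidueField A) (auxLevel N ℓ)))
      ↥(modularFunctionFieldFullC (IsLocalRing.ResidueField A) (auxLevel N ℓ)) :=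
    s28x_algebra_isSeparable_fullC ℓ (auxLevel N ℓ) hℓN' (IsLocalRing.ResidueField A)
  have hconstN : ∀ x : ↥(modularFunctionFieldFullC (IsLocalRing.ResidueField A) N), x ≠ 0 →
      (∀ Q : Place (IsLocalRing.ResidueField A)
        ↥(modularFunctionFieldFullC (IsLocalRing.ResidueField A) N), Q.ord x = 0) →
      ∃ c : IsLocalRing.ResidueField A, x = algebraMap (IsLocalRing.ResidueField A)
        ↥(modularFunctionFieldFullC (IsLocalRing.ResidueField A) N) c :=
    fun x _ hx => crv_full_G2 (IsLocalRing.ResidueField A) N x (fun Q => (hx Q).ge)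
  have halgb : ∀ u : ↥(modularFunctionFieldFullC (IsLocalRing.ResidueField A) (auxLevel N ℓ)),
      (∀ c : IsLocalRing.ResidueField A, u ≠ algebraMap (IsLocalRing.ResidueField A)
        ↥(modularFunctionFieldFullC (IsLocalRing.ResidueField A) (auxLevel N ℓ)) c) →
      Algebra.IsAlgebraic (IsLocalRing.ResidueField A)⟮u⟯
        ↥(modularFunctionFieldFullC (IsLocalRing.ResidueField A) (auxLevel N ℓ)) :=
    fun u hu => crv_full_G0 (IsLocalRing.ResidueField A) (auxLevel N ℓ) u hu
  have hfinb : ∀ x : ↥(modularFunctionFieldFullC (IsLocalRing.ResidueField A) (auxLevel N ℓ)),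
      x ≠ 0 → {Q : Place (IsLocalRing.ResidueField A)
        ↥(modularFunctionFieldFullC (IsLocalRing.ResidueField A) (auxLevel N ℓ)) |
          Q.ord x ≠ 0}.Finite :=
    fun x hx => crv_full_G1 (IsLocalRing.ResidueField A) (auxLevel N ℓ) x hx
  have hconstb : ∀ x : ↥(modularFunctionFieldFullC (IsLocalRing.ResidueField A) (auxLevel N ℓ)),
      x ≠ 0 → (∀ Q : Place (IsLocalRing.ResidueField A)
        ↥(modularFunctionFieldFullC (IsLocalRing.ResidueField A) (auxLevel N ℓ)), 0 ≤ Q.ord x) →
      ∃ c : IsLocalRing.ResidueField A, x = algebraMap (IsLocalRing.ResidueField A)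
        ↥(modularFunctionFieldFullC (IsLocalRing.ResidueField A) (auxLevel N ℓ)) c :=
    fun x _ hx => crv_full_G2 (IsLocalRing.ResidueField A) (auxLevel N ℓ) x hx
  obtain ⟨t, ht, hNE, hGE⟩ := inst_exists_param (auxLevel N ℓ) hℓN' A hA (auxLevel_cases N ℓ)
    (curveBar (auxLevel N ℓ)) (fun _ _ => rfl)
    (curveOfPlaces halgb hfinb hconstb) (fun _ _ => rfl)
  exact s18_main N hℓN A hA h hconstN halgb hfinb hconstb
    (redDatum A (auxLevel N ℓ) hA hℓN') (hasOrth_redDatum A (auxLevel N ℓ) hA hℓN')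
    (fun u hu => asm_bridge A (dvd_auxLevel N ℓ) u hu) t ht hNE hGE m hm z hmz hz

end Fermat.Agent.S18L
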