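import Mathlib

/-!
# S18, package DIFF: exponents of the different (definitions and basic API)

Abstract Dedekind setting `A ⊆ B` (finite, torsion-free, separable fraction fields).
For a prime `P` of `B` we write

* `dExp A B P` for the exponent of `P` in `differentIdeal A B`;
* `eExp A B P` for the exponent of `P` in `(P ∩ A) B`.

Both are characterised by divisibility of ideals, so they can be bridged to any other
description (valuations, orders of functions at places, ...).
-/

set_option autoImplicit false

namespace Fermat.Agent.S18L.Diff

attribute [local instance] FractionRing.liftAlgebra FractionRing.isScalarTower_liftAlgebra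

variable (A B : Type*) [CommRing A] [CommRing B] [Algebra A B]
  [IsDedekindDomain A] [IsDedekindDomain B] [Module.IsTorsionFree A B]

/-- Exponent of `P` in the different of `B / A`. -/
noncomputable def dExp (P : Ideal B) : ℕ := multiplicity P (differentIdeal A B)

/-- Exponent of `P` in the extension to `B` of the prime of `A` below `P`
(the ramification index when `P` is a nonzero prime). -/
noncomputable def eExp (P : Ideal B) : ℕ :=
  multiplicity P ((P.under A).map (algebraMap A B))

variable {B}

/-- Multiplicities of a nonzero prime in a nonzero ideal are characterised by divisibility. -/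
theorem pow_dvd_iff_le_multiplicity {P I : Ideal B} (hP : P.IsPrime) (hI : I ≠ ⊥)
    (n : ℕ) : P ^ n ∣ I ↔ n ≤ multiplicity P I := by
  have hfin : FiniteMultiplicity P I := by
    apply FiniteMultiplicity.of_not_isUnit
    · rw [Ideal.isUnit_iff]; exact hP.ne_top
    · exact hI
  exact hfin.pow_dvd_iff_le_multiplicity

theorem pow_dvd_differentIdeal_iff [Module.Finite A B]
    [Algebra.IsSeparable (FractionRing A) (FractionRing B)]
    {P : Ideal B} (hP : P.IsPrime) (n : ℕ) :
    P ^ n ∣ differentIdeal A B ↔ n ≤ dExp A B P :=
  pow_dvd_iff_le_multiplicity hP differentIdeal_ne_bot n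

theorem pow_dvd_map_under_iff [Module.Finite A B] {P : Ideal B} (hP : P.IsPrime) (hP0 : P ≠ ⊥)
    (n : ℕ) :
    P ^ n ∣ (P.under A).map (algebraMap A B) ↔ n ≤ eExp A B P := by
  have hinj : Function.Injective (algebraMap A B) := FaithfulSMul.algebraMap_injective A B
  have hp : P.under A ≠ ⊥ := mt Ideal.eq_bot_of_comap_eq_bot hP0
  exact pow_dvd_iff_le_multiplicity hP
    ((Ideal.map_eq_bot_iff_of_injective hinj).not.mpr hp) n

/-- `eExp ≥ 1` for a nonzero prime. -/
theorem one_le_eExp [Module.Finite A B] {P : Ideal B} (hP : P.IsPrime) (hP0 : P ≠ ⊥) :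
    1 ≤ eExp A B P := by
  rw [← pow_dvd_map_under_iff A hP hP0, pow_one, Ideal.dvd_iff_le]
  exact Ideal.map_comap_le

end Fermat.Agent.S18L.Diff
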