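import Fermat.Agent.S18L.DiffDefs

/-!
# S18, package DIFF: trace formula on the `P`-part and the wild bound `d ≥ e`
-/

set_option autoImplicit false

namespace Fermat.Agent.S18L.Diff

attribute [local instance] FractionRing.liftAlgebra FractionRing.isScalarTower_liftAlgebra

variable (A : Type*) {B : Type*} [CommRing A] [CommRing B] [Algebra A B]
  [IsDedekindDomain A] [IsDedekindDomain B] [Module.IsTorsionFree A B] [Module.Finite A B]
  [Algebra.IsSeparable (FractionRing A) (FractionRing B)]

section WildAux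

set_option linter.deprecated false
set_option linter.unusedSectionVars false

attribute [local instance] Ideal.Quotient.field

/-- residue degree one, in terms of `finrank` (for the algebra structure used by Mathlib). -/
private theorem wild116_finrank_quot (p : Ideal A) [p.IsMaximal] (P : Ideal B) [hP : P.IsPrime]
    (he : Ideal.ramificationIdx' p P ≠ 0)
    (hres : ∀ b : B, ∃ a : A, b - algebraMap A B a ∈ P) :
    @Module.finrank (A ⧸ p) (B ⧸ P) _ _
      (@Algebra.toModule _ _ _ _ <|
        @Ideal.Quotient.algebraQuotientOfRamificationIdxNeZero _ _ _ _ _ _ _ ⟨he⟩) = 1 := by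
  let _ : NeZero (Ideal.ramificationIdx' p P) := ⟨he⟩
  let _ : Algebra (A ⧸ p) (B ⧸ P) := Ideal.Quotient.algebraQuotientOfRamificationIdxNeZero p P
  have hnt : Nontrivial (B ⧸ P) := Ideal.Quotient.nontrivial_iff.mpr hP.ne_top
  rw [finrank_eq_one_iff_of_nonzero' (1 : B ⧸ P) one_ne_zero]
  intro w
  obtain ⟨b, rfl⟩ := Ideal.Quotient.mk_surjective w
  obtain ⟨a, ha⟩ := hres b
  refine ⟨Ideal.Quotient.mk p a, ?_⟩
  rw [Algebra.smul_def, mul_one]
  show Ideal.Quotient.mk P (algebraMap A B a) = Ideal.Quotient.mk P b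
  rw [eq_comm, Ideal.Quotient.eq]
  exact ha

private theorem wild116_trace_aux (p : Ideal A) [hpm : p.IsMaximal] (P : Ideal B) [hP : P.IsPrime]
    (hP0 : P ≠ ⊥) (he : Ideal.ramificationIdx' p P ≠ 0)
    (hres : ∀ b : B, ∃ a : A, b - algebraMap A B a ∈ P)
    (I : Ideal B) (hI : p.map (algebraMap A B) = P ^ Ideal.ramificationIdx' p P * I)
    (hcop : IsCoprime (P ^ Ideal.ramificationIdx' p P) I)
    (x : B) (hx : x ∈ I) (a : A) (ha : x - algebraMap A B a ∈ P) :
    Algebra.intTrace A B x - (Ideal.ramificationIdx' p P : A) * a ∈ p := by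
  have hle : p ≤ I.comap (algebraMap A B) := by
    rw [← Ideal.map_le_iff_le_comap, hI]
    exact Ideal.mul_le_right
  let _ : Algebra (A ⧸ p) (B ⧸ I) := Ideal.Quotient.algebraQuotientOfLEComap hle
  have : IsScalarTower A (A ⧸ p) (B ⧸ I) := .of_algebraMap_eq' rfl
  have : IsScalarTower A (A ⧸ p) (B ⧸ P ^ Ideal.ramificationIdx' p P) := .of_algebraMap_eq' rfl
  have : Module.Finite (A ⧸ p) (B ⧸ I) :=
    Module.Finite.of_restrictScalars_finite A (A ⧸ p) (B ⧸ I)
  have : Module.Finite (A ⧸ p) (B ⧸ P ^ Ideal.ramificationIdx' p P) :=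
    Module.Finite.of_restrictScalars_finite A (A ⧸ p) _
  let E : (B ⧸ p.map (algebraMap A B)) ≃ₐ[A ⧸ p]
      ((B ⧸ P ^ Ideal.ramificationIdx' p P) × B ⧸ I) :=
    { __ := (Ideal.quotEquivOfEq hI).trans
        (Ideal.quotientMulEquivQuotientProd (P ^ Ideal.ramificationIdx' p P) I hcop),
      commutes' := Quotient.ind fun _ ↦ rfl }
  have h2 : (E (Ideal.Quotient.mk _ x)).2 = 0 := by
    simpa [E, Ideal.Quotient.eq_zero_iff_mem]
  have h1 : (E (Ideal.Quotient.mk _ x)).1
      = algebraMap (A ⧸ p) (B ⧸ P ^ Ideal.ramificationIdx' p P) (Ideal.Quotient.mk p a)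
        + Ideal.Quotient.mk (P ^ Ideal.ramificationIdx' p P) (x - algebraMap A B a) := by
    have h1' : (E (Ideal.Quotient.mk _ x)).1
        = Ideal.Quotient.mk (P ^ Ideal.ramificationIdx' p P) x := rfl
    rw [h1', Ideal.Quotient.algebraMap_quotient_pow_ramificationIdx, ← map_add]
    congr 1
    ring
  have hnil : Algebra.trace (A ⧸ p) (B ⧸ P ^ Ideal.ramificationIdx' p P)
      (Ideal.Quotient.mk (P ^ Ideal.ramificationIdx' p P) (x - algebraMap A B a)) = 0 := by
    rw [← isNilpotent_iff_eq_zero]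
    refine Algebra.isNilpotent_trace_of_isNilpotent ⟨Ideal.ramificationIdx' p P, ?_⟩
    rw [← map_pow, Ideal.Quotient.eq_zero_iff_mem]
    exact Ideal.pow_mem_pow ha _
  have hfin : Module.finrank (A ⧸ p) (B ⧸ P ^ Ideal.ramificationIdx' p P)
      = Ideal.ramificationIdx' p P := by
    rw [Ideal.finrank_prime_pow_ramificationIdx p P hP0 he, wild116_finrank_quot A p P he hres,
      mul_one]
  rw [← Ideal.Quotient.eq_zero_iff_mem, map_sub, map_mul, map_natCast,
    ← Algebra.trace_quotient_eq_of_isDedekindDomain, ← Algebra.trace_eq_of_algEquiv E,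
    Algebra.trace_prod_apply, h2, map_zero, add_zero, h1, map_add, hnil, add_zero,
    Algebra.trace_algebraMap, hfin, nsmul_eq_mul, sub_self]

end WildAux

/-- **Trace formula on the `P`-part.**  Write `𝔭 B = P ^ e * I` with `e = eExp A B P`.  If the
residue degree of `P` is one, then for `x ∈ I` and `a : A` with `x ≡ a mod P` we have
`Tr(x) ≡ e * a mod 𝔭`. -/
theorem intTrace_sub_mem {P : Ideal B} (hP : P.IsPrime) (hP0 : P ≠ ⊥)
    (hres : ∀ b : B, ∃ a : A, b - algebraMap A B a ∈ P)
    {I : Ideal B} (hI : (P.under A).map (algebraMap A B) = P ^ eExp A B P * I)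
    {x : B} (hx : x ∈ I) {a : A} (ha : x - algebraMap A B a ∈ P) :
    Algebra.intTrace A B x - (eExp A B P : A) * a ∈ P.under A := by
  have hinj : Function.Injective (algebraMap A B) := FaithfulSMul.algebraMap_injective A B
  have hp0 : P.under A ≠ ⊥ := mt Ideal.eq_bot_of_comap_eq_bot hP0
  have hpB : (P.under A).map (algebraMap A B) ≠ ⊥ :=
    (Ideal.map_eq_bot_iff_of_injective hinj).not.mpr hp0
  have hpprime : (P.under A).IsPrime := Ideal.comap_isPrime _ _
  have hpmax : (P.under A).IsMaximal := hpprime.isMaximal hp0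
  have hee : eExp A B P = Ideal.ramificationIdx' (P.under A) P :=
    (Ideal.IsDedekindDomain.ramificationIdx'_eq_multiplicity hpB hP).symm
  have he1 : 1 ≤ eExp A B P := one_le_eExp A hP hP0
  have hPI : ¬ P ∣ I := by
    intro hdvd
    have h : P ^ (eExp A B P + 1) ∣ (P.under A).map (algebraMap A B) := by
      rw [hI, pow_succ]
      exact mul_dvd_mul_left _ hdvd
    have := (pow_dvd_map_under_iff A hP hP0 _).mp h
    omega
  have hprime := (Ideal.prime_iff_isPrime hP0).mpr hP
  rw [← hprime.irreducible.gcd_eq_one_iff, ← Ideal.isCoprime_iff_gcd] at hPI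
  have hcop : IsCoprime (P ^ eExp A B P) I := hPI.pow_left
  rw [hee] at hI hcop ⊢
  exact wild116_trace_aux A (P.under A) P hP0 (by omega) hres I hI hcop x hx a ha

/-- If `𝔭 B = P ^ e * a` and the trace maps `a` into `𝔭`, then `P ^ e` divides the different
(the reduction used in Mathlib for `P ^ (e - 1)`). -/
private theorem wild116_pow_dvd_of_trace {p : Ideal A} [p.IsMaximal] (P : Ideal B) (e : ℕ)
    (hp : p ≠ ⊥) (hPbot : P ≠ ⊥) (a : Ideal B) (ha : p.map (algebraMap A B) = P ^ e * a)
    (H : ∀ x ∈ a, Algebra.intTrace A B x ∈ p) : P ^ e ∣ differentIdeal A B := by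
  let K := FractionRing A
  let L := FractionRing B
  have : IsLocalization (Algebra.algebraMapSubmonoid B (nonZeroDivisors A)) L :=
    IsIntegralClosure.isLocalization _ K _ _
  have : FiniteDimensional K L := .of_isLocalization A B (nonZeroDivisors A)
  have hp' := (Ideal.map_eq_bot_iff_of_injective
    (FaithfulSMul.algebraMap_injective A B)).not.mpr hp
  have habot : a ≠ ⊥ := fun ha' ↦ hp' (by simpa [ha'] using ha)
  have hP : ((P ^ e :)⁻¹ : FractionalIdeal (nonZeroDivisors B) L)
      = a / p.map (algebraMap A B) := by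
    apply inv_involutive.injective
    simp only [ha, FractionalIdeal.coeIdeal_mul, inv_div, mul_div_assoc]
    rw [div_self (by simpa), mul_one, inv_inv]
  rw [Ideal.dvd_iff_le, differentialIdeal_le_iff (K := K) (L := L) (pow_ne_zero _ hPbot), hP,
    Submodule.map_le_iff_le_comap]
  intro x hx
  rw [Submodule.restrictScalars_mem, FractionalIdeal.mem_coe,
    FractionalIdeal.mem_div_iff_of_ne_zero (by simpa using hp')] at hx
  rw [Submodule.mem_comap, LinearMap.coe_restrictScalars, ← FractionalIdeal.coe_one,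
    ← div_self (G₀ := FractionalIdeal (nonZeroDivisors A) K) (a := p) (by simpa using hp),
    FractionalIdeal.mem_coe, FractionalIdeal.mem_div_iff_of_ne_zero (by simpa using hp)]
  simp only [FractionalIdeal.mem_coeIdeal, forall_exists_index, and_imp,
    forall_apply_eq_imp_iff₂] at hx
  intro y hy'
  obtain ⟨y, hy, rfl : algebraMap A K _ = _⟩ := (FractionalIdeal.mem_coeIdeal _).mp hy'
  obtain ⟨z, hz, hz'⟩ := hx _ (Ideal.mem_map_of_mem _ hy)
  have : Algebra.trace K L (algebraMap B L z) ∈ (p : FractionalIdeal (nonZeroDivisors A) K) := by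
    rw [← Algebra.algebraMap_intTrace (A := A)]
    exact ⟨Algebra.intTrace A B z, H z hz, rfl⟩
  rwa [mul_comm, ← smul_eq_mul, ← map_smul, Algebra.smul_def, mul_comm,
    ← IsScalarTower.algebraMap_apply, IsScalarTower.algebraMap_apply A B L, ← hz']

/-- **Wild bound** `d ≥ e` when the residue degree is one and the residue characteristic
divides `e`. -/
theorem eExp_le_dExp_of_wild {P : Ideal B} (hP : P.IsPrime) (hP0 : P ≠ ⊥)
    (hres : ∀ b : B, ∃ a : A, b - algebraMap A B a ∈ P)
    (hchar : ((eExp A B P : ℕ) : A) ∈ P.under A) :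
    eExp A B P ≤ dExp A B P := by
  have hp : P.under A ≠ ⊥ := mt Ideal.eq_bot_of_comap_eq_bot hP0
  have hpprime : (P.under A).IsPrime := Ideal.comap_isPrime _ _
  have hpmax : (P.under A).IsMaximal := hpprime.isMaximal hp
  obtain ⟨I, hI⟩ := (pow_dvd_map_under_iff A hP hP0 (eExp A B P)).mpr le_rfl
  rw [← pow_dvd_differentIdeal_iff A hP]
  refine wild116_pow_dvd_of_trace A P (eExp A B P) hp hP0 I hI ?_
  intro x hx
  obtain ⟨a, ha⟩ := hres x
  have h := intTrace_sub_mem A hP hP0 hres hI hx ha
  have h2 : ((eExp A B P : ℕ) : A) * a ∈ P.under A := Ideal.mul_mem_right _ _ hchar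
  have h3 := Ideal.add_mem _ h h2
  rwa [sub_add_cancel] at h3

end Fermat.Agent.S18L.Diff
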