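import Fermat.Agent.S18L.DiffTame
import Fermat.Agent.S18L.DiffWild

/-!
# S18, package DIFF: the tame different exponent is exactly `e - 1`

If the residue degree of `P` is one and `e = eExp A B P` is invertible in the residue field
of `P ∩ A`, then `dExp A B P = e - 1`.
-/

set_option autoImplicit false

namespace Fermat.Agent.S18L.Diff

attribute [local instance] FractionRing.liftAlgebra FractionRing.isScalarTower_liftAlgebra

variable (A : Type*) {B : Type*} [CommRing A] [CommRing B] [Algebra A B]
  [IsDedekindDomain A] [IsDedekindDomain B] [Module.IsTorsionFree A B] [Module.Finite A B]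
  [Algebra.IsSeparable (FractionRing A) (FractionRing B)]

/-- In the tame case `P ^ e` does not divide the different. -/
theorem not_pow_eExp_dvd_differentIdeal_of_tame {P : Ideal B} (hP : P.IsPrime) (hP0 : P ≠ ⊥)
    (hres : ∀ b : B, ∃ a : A, b - algebraMap A B a ∈ P)
    (htame : ((eExp A B P : ℕ) : A) ∉ P.under A) :
    ¬ P ^ eExp A B P ∣ differentIdeal A B := by
  have hPmax : P.IsMaximal := Ring.DimensionLEOne.maximalOfPrime hP0 hP
  have hpmax := under_isMaximal A hP hP0
  obtain ⟨I, hI⟩ := (pow_dvd_map_under_iff A hP hP0 _).mpr (le_refl (eExp A B P))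
  -- `P ∤ I`
  have hPI : ¬ P ∣ I := by
    intro h
    have h2 : P ^ (eExp A B P + 1) ∣ (P.under A).map (algebraMap A B) := by
      rw [hI, pow_succ]; exact mul_dvd_mul_left _ h
    have := (pow_dvd_map_under_iff A hP hP0 _).mp h2
    omega
  -- pick `x ∈ I` with `x ≡ 1 mod P`
  have hsup : P ⊔ I = ⊤ := by
    by_contra hne
    exact hPI (Ideal.dvd_iff_le.mpr ((hPmax.eq_of_le hne le_sup_left) ▸ le_sup_right))
  obtain ⟨y, hy, x, hx, hyx⟩ := Submodule.mem_sup.mp (hsup ▸ Submodule.mem_top : (1 : B) ∈ P ⊔ I)
  have hx1 : x - algebraMap A B 1 ∈ P := by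
    have : x - algebraMap A B 1 = -y := by rw [map_one, ← hyx]; ring
    rw [this]; exact P.neg_mem hy
  have htr := intTrace_sub_mem A hP hP0 hres hI hx hx1
  refine not_dvd_differentIdeal_of_intTrace_not_mem A (P ^ eExp A B P) I hI.symm x hx ?_
  intro hmem
  apply htame
  have := (P.under A).sub_mem hmem htr
  simpa using this

/-- **Tame different exponent**: `d = e - 1` when the residue degree is one and `e` is invertible
in the residue field. -/
theorem dExp_eq_eExp_sub_one_of_tame {P : Ideal B} (hP : P.IsPrime) (hP0 : P ≠ ⊥)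
    (hres : ∀ b : B, ∃ a : A, b - algebraMap A B a ∈ P)
    (htame : ((eExp A B P : ℕ) : A) ∉ P.under A) :
    dExp A B P = eExp A B P - 1 := by
  have h1 := eExp_sub_one_le_dExp A hP hP0
  have h2 := not_pow_eExp_dvd_differentIdeal_of_tame A hP hP0 hres htame
  rw [pow_dvd_differentIdeal_iff A hP] at h2
  omega

end Fermat.Agent.S18L.Diff
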