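import Fermat.Agent.S18L.DiffDefs

/-!
# S18, package DIFF: transitivity of ramification and different exponents in towers
-/

set_option autoImplicit false

namespace Fermat.Agent.S18L.Diff

attribute [local instance] FractionRing.liftAlgebra FractionRing.isScalarTower_liftAlgebra

/-- Multiplicity of a nonzero prime `Q` of `C` in the extension of a nonzero ideal `I` of `B`:
it is the ramification exponent times the multiplicity of `Q ∩ B` in `I`. -/
private theorem diffTower_multiplicity_map {B C : Type*} [CommRing B] [CommRing C] [Algebra B C]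
    [IsDedekindDomain B] [IsDedekindDomain C] [Module.IsTorsionFree B C] [Module.Finite B C]
    {Q : Ideal C} (hQ : Q.IsPrime) (hQ0 : Q ≠ ⊥) {I : Ideal B} (hI : I ≠ ⊥) :
    multiplicity Q (I.map (algebraMap B C)) = eExp B C Q * multiplicity (Q.under B) I := by
  have hinj : Function.Injective (algebraMap B C) := FaithfulSMul.algebraMap_injective B C
  have hP : (Q.under B).IsPrime := hQ.under B
  have hP0 : Q.under B ≠ ⊥ := mt Ideal.eq_bot_of_comap_eq_bot hQ0
  have hQp : Prime Q := Ideal.prime_of_isPrime hQ0 hQ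
  have hQu : ¬ IsUnit Q := by rw [Ideal.isUnit_iff]; exact hQ.ne_top
  have hfinI : FiniteMultiplicity (Q.under B) I := by
    apply FiniteMultiplicity.of_not_isUnit
    · rw [Ideal.isUnit_iff]; exact hP.ne_top
    · exact hI
  obtain ⟨J, hJ, hJn⟩ := hfinI.exists_eq_pow_mul_and_not_dvd
  have hmap : I.map (algebraMap B C)
      = ((Q.under B).map (algebraMap B C)) ^ multiplicity (Q.under B) I
        * J.map (algebraMap B C) := by
    conv_lhs => rw [hJ]
    rw [Ideal.map_mul, Ideal.map_pow]
  have hImap : I.map (algebraMap B C) ≠ ⊥ := (Ideal.map_eq_bot_iff_of_injective hinj).not.mpr hI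
  have hPmap : (Q.under B).map (algebraMap B C) ≠ ⊥ :=
    (Ideal.map_eq_bot_iff_of_injective hinj).not.mpr hP0
  have hfin1 : FiniteMultiplicity Q (I.map (algebraMap B C)) :=
    FiniteMultiplicity.of_not_isUnit hQu hImap
  have hfin2 : FiniteMultiplicity Q ((Q.under B).map (algebraMap B C)) :=
    FiniteMultiplicity.of_not_isUnit hQu hPmap
  have hJ0 : multiplicity Q (J.map (algebraMap B C)) = 0 := by
    rw [multiplicity_eq_zero, Ideal.dvd_iff_le, Ideal.map_le_iff_le_comap]
    intro hle
    exact hJn (Ideal.dvd_iff_le.mpr hle)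
  rw [hmap] at hfin1 ⊢
  rw [multiplicity_mul hQp hfin1, hfin2.multiplicity_pow hQp, hJ0, add_zero, mul_comm]
  rfl

variable (A B : Type*) {C : Type*} [CommRing A] [CommRing B] [CommRing C]
  [Algebra A B] [Algebra B C] [Algebra A C] [IsScalarTower A B C]
  [IsDedekindDomain A] [IsDedekindDomain B] [IsDedekindDomain C]
  [Module.IsTorsionFree A B] [Module.IsTorsionFree B C] [Module.IsTorsionFree A C]
  [Module.Finite A B] [Module.Finite B C] [Module.Finite A C]
  [Algebra.IsSeparable (FractionRing A) (FractionRing C)]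

/-- **Transitivity of ramification exponents.** -/
theorem eExp_tower {Q : Ideal C} (hQ : Q.IsPrime) (hQ0 : Q ≠ ⊥) :
    eExp A C Q = eExp B C Q * eExp A B (Q.under B) := by
  have hinjAB : Function.Injective (algebraMap A B) := FaithfulSMul.algebraMap_injective A B
  have hP0 : Q.under B ≠ ⊥ := mt Ideal.eq_bot_of_comap_eq_bot hQ0
  have hp0 : (Q.under B).under A ≠ ⊥ := mt Ideal.eq_bot_of_comap_eq_bot hP0
  have hI : ((Q.under B).under A).map (algebraMap A B) ≠ ⊥ :=
    (Ideal.map_eq_bot_iff_of_injective hinjAB).not.mpr hp0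
  have h := diffTower_multiplicity_map hQ hQ0 hI
  rw [Ideal.map_map, ← IsScalarTower.algebraMap_eq, Ideal.under_under] at h
  have e : eExp A B (Q.under B)
      = multiplicity (Q.under B) ((Q.under A).map (algebraMap A B)) := by
    unfold eExp
    rw [Ideal.under_under]
  rw [e]
  exact h

/-- **Transitivity of different exponents**: `d(Q/A) = d(Q/B) + e(Q/B) * d(Q ∩ B / A)`. -/
theorem dExp_tower {Q : Ideal C} (hQ : Q.IsPrime) (hQ0 : Q ≠ ⊥) :
    dExp A C Q = dExp B C Q + eExp B C Q * dExp A B (Q.under B) := by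
  have : Algebra.IsSeparable (FractionRing A) (FractionRing B) :=
    Algebra.isSeparable_tower_bot_of_isSeparable _ _ (FractionRing C)
  have hQp : Prime Q := Ideal.prime_of_isPrime hQ0 hQ
  have hQu : ¬ IsUnit Q := by rw [Ideal.isUnit_iff]; exact hQ.ne_top
  have hAC : differentIdeal A C ≠ ⊥ := differentIdeal_ne_bot
  have hAB : differentIdeal A B ≠ ⊥ := differentIdeal_ne_bot
  have hfin : FiniteMultiplicity Q (differentIdeal A C) :=
    FiniteMultiplicity.of_not_isUnit hQu hAC
  have htr := differentIdeal_eq_differentIdeal_mul_differentIdeal A B C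
  unfold dExp
  rw [htr] at hfin ⊢
  rw [multiplicity_mul hQp hfin, diffTower_multiplicity_map hQ hQ0 hAB]

end Fermat.Agent.S18L.Diff
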