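import Fermat.Agent.S18L.DiffTame
import Fermat.Agent.S18L.DiffWild
import Fermat.Agent.S18L.DiffTower
import Fermat.Agent.S18L.DiffTameEq

/-!
# S18, package DIFF: bounds for the exponent of the different (import hub)

Abstract Dedekind setting `A ⊆ B` (finite, torsion-free, separable fraction fields), `P` a
nonzero prime of `B`, `e = eExp A B P`, `d = dExp A B P`:

* `eExp_sub_one_le_dExp` : `e - 1 ≤ d` (`DiffTame`);
* `eExp_le_dExp_of_wild` : `e ≤ d` when the residue degree is one and `e = 0` in the residue
  field (`DiffWild`);
* `dExp_eq_zero_of_eExp_eq_one`, `eExp_eq_one_of_dExp_eq_zero` (`DiffTame`);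
* `dExp_tower`, `eExp_tower` : transitivity in towers `A ⊆ B ⊆ C` (`DiffTower`);
* `dExp_eq_eExp_sub_one_of_tame` : `d = e - 1` when the residue degree is one and `e` is a unit
  in the residue field (`DiffTameEq`);
* `intTrace_sub_mem` : the trace formula `Tr(y) ≡ e * y(P)` for `y` in the coprime part
  (`DiffWild`).
-/
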