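import Fermat.Agent.S18L.DiffDefs

/-!
# S18, package DIFF: the tame bound `d ≥ e - 1` and unramified primes
-/

set_option autoImplicit false

namespace Fermat.Agent.S18L.Diff

attribute [local instance] FractionRing.liftAlgebra FractionRing.isScalarTower_liftAlgebra
  Ideal.Quotient.field

variable (A : Type*) {B : Type*} [CommRing A] [CommRing B] [Algebra A B]
  [IsDedekindDomain A] [IsDedekindDomain B] [Module.IsTorsionFree A B] [Module.Finite A B]
  [Algebra.IsSeparable (FractionRing A) (FractionRing B)]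

omit [Module.IsTorsionFree A B] [Algebra.IsSeparable (FractionRing A) (FractionRing B)] in
/-- The prime of `A` below a nonzero prime of `B` is nonzero. -/
theorem under_ne_bot {P : Ideal B} (hP0 : P ≠ ⊥) : P.under A ≠ ⊥ :=
  mt Ideal.eq_bot_of_comap_eq_bot hP0

omit [Module.IsTorsionFree A B] [Algebra.IsSeparable (FractionRing A) (FractionRing B)] in
/-- The prime of `A` below a nonzero prime of `B` is maximal. -/
theorem under_isMaximal {P : Ideal B} (hP : P.IsPrime) (hP0 : P ≠ ⊥) : (P.under A).IsMaximal :=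
  haveI := hP
  Ring.DimensionLEOne.maximalOfPrime (under_ne_bot A hP0) inferInstance

/-- **Tame bound** `d ≥ e - 1`. -/
theorem eExp_sub_one_le_dExp {P : Ideal B} (hP : P.IsPrime) (hP0 : P ≠ ⊥) :
    eExp A B P - 1 ≤ dExp A B P := by
  have := under_isMaximal A hP hP0
  rw [← pow_dvd_differentIdeal_iff A hP]
  exact pow_sub_one_dvd_differentIdeal A P (eExp A B P) (under_ne_bot A hP0)
    ((pow_dvd_map_under_iff A hP hP0 _).mpr le_rfl)

/-- **Unramified primes do not divide the different** (residue degree one). -/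
theorem dExp_eq_zero_of_eExp_eq_one {P : Ideal B} (hP : P.IsPrime) (hP0 : P ≠ ⊥)
    (hres : ∀ b : B, ∃ a : A, b - algebraMap A B a ∈ P)
    (he : eExp A B P = 1) : dExp A B P = 0 := by
  have := hP
  have hpmax := under_isMaximal A hP hP0
  have hPmax : P.IsMaximal := Ring.DimensionLEOne.maximalOfPrime hP0 hP
  have : P.LiesOver (P.under A) := ⟨rfl⟩
  -- `𝔭 B = P * Q` with `P ∤ Q`
  obtain ⟨Q, hQ⟩ : P ∣ (P.under A).map (algebraMap A B) := by
    have := (pow_dvd_map_under_iff A hP hP0 1).mpr he.ge
    rwa [pow_one] at this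
  have hPQ : ¬ P ∣ Q := by
    intro h
    have h2 : P ^ 2 ∣ (P.under A).map (algebraMap A B) := by
      rw [hQ, pow_two]; exact mul_dvd_mul_left _ h
    have := (pow_dvd_map_under_iff A hP hP0 2).mp h2
    omega
  have hcop : IsCoprime P Q := by
    rw [Ideal.isCoprime_iff_sup_eq]
    by_contra hne
    exact hPQ (Ideal.dvd_iff_le.mpr ((hPmax.eq_of_le hne le_sup_left) ▸ le_sup_right))
  -- the residue field extension is trivial, hence separable
  have : Algebra.IsSeparable (A ⧸ P.under A) (B ⧸ P) := by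
    have hsurj : Function.Surjective (algebraMap (A ⧸ P.under A) (B ⧸ P)) := by
      intro y
      obtain ⟨b, rfl⟩ := Ideal.Quotient.mk_surjective y
      obtain ⟨a, ha⟩ := hres b
      refine ⟨Ideal.Quotient.mk _ a, ?_⟩
      rw [Ideal.Quotient.algebraMap_mk_of_liesOver]
      exact ((Ideal.Quotient.mk_eq_mk_iff_sub_mem _ _).mpr ha).symm
    exact ⟨fun y => by obtain ⟨x, rfl⟩ := hsurj y; exact isSeparable_algebraMap x⟩
  have hnd : ¬ P ∣ differentIdeal A B :=
    not_dvd_differentIdeal_of_isCoprime_of_isSeparable A P Q hcop hQ.symm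
  by_contra hd
  apply hnd
  have := (pow_dvd_differentIdeal_iff A hP 1).mpr (Nat.one_le_iff_ne_zero.mpr hd)
  rwa [pow_one] at this

/-- Conversely, `d = 0` forces `e = 1`. -/
theorem eExp_eq_one_of_dExp_eq_zero {P : Ideal B} (hP : P.IsPrime) (hP0 : P ≠ ⊥)
    (hd : dExp A B P = 0) : eExp A B P = 1 := by
  have h1 := eExp_sub_one_le_dExp A hP hP0
  have h2 := one_le_eExp A hP hP0
  omega

end Fermat.Agent.S18L.Diff
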